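/-
S16 (index of the Eisenstein ideal): shared definitions and the interface between the pieces
(see NOTES/S16-plan.md).  Only definitions here; import this file, do not redefine.
-/
import Fermat.Statements.S16
import Mathlib.NumberTheory.ModularForms.EisensteinSeries.E2.Transform
import Mathlib.NumberTheory.ModularForms.Derivative
import Mathlib.NumberTheory.ModularForms.Discriminant
import Mathlib.NumberTheory.ModularForms.EisensteinSeries.QExpansion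

set_option autoImplicit false

open CongruenceSubgroup UpperHalfPlane ModularForm ModularFormClass
open scoped MatrixGroups ModularForm

namespace Fermat.Agent.S16

noncomputable section

/-! ### Arithmetic side -/

/-- `σ'(k)`: the sum of the divisors of `k` that are prime to `p` (the `q`-coefficients of `δ`). -/
def sigmaP (p k : ℕ) : ℤ := ∑ d ∈ k.divisors.filter (fun d => ¬ p ∣ d), (d : ℤ)

/-- `f` has integral `q`-expansion and `f ≡ δ mod M` (coefficientwise, in degrees `≥ 1`). -/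
def IsCongDelta (p M : ℕ) (f : CuspForm (Gamma0 p) 2) : Prop :=
  ∀ k : ℕ, ∃ a : ℤ, qCoeff f k = (a : ℂ) ∧ (1 ≤ k → (M : ℤ) ∣ a - sigmaP p k)

/-- (A) existence: a cusp form congruent to `δ` modulo `n = num((p-1)/12)`. -/
def StmtA (p : ℕ) : Prop :=
  ∃ f : CuspForm (Gamma0 p) 2, IsCongDelta p (ModularCurve.eisensteinNumerator p) f

/-- (B) upper bound: a cusp form congruent to `δ` modulo `M` forces `M ∣ n`. -/
def StmtB (p : ℕ) : Prop :=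
  ∀ M : ℕ, (∃ f : CuspForm (Gamma0 p) 2, IsCongDelta p M f) → M ∣ ModularCurve.eisensteinNumerator p

/-- (A2) the theta input: one form of weight 2 on `Γ0(p)` with `q`-expansion in `1 + 2qℤ[[q]]`. -/
def StmtTheta (p : ℕ) : Prop :=
  ∃ G : ModularForm (Gamma0 p) 2, (qExpansion 1 G).coeff 0 = 1 ∧
    ∀ n : ℕ, 1 ≤ n → ∃ m : ℤ, (qExpansion 1 G).coeff n = 2 * (m : ℂ)

/-! ### Operators on power series -/

/-- `U_m`: `a_n ↦ a_{mn}`. -/
def Up (m : ℕ) (a : PowerSeries ℂ) : PowerSeries ℂ := PowerSeries.mk fun n => a.coeff (m * n)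

/-- `V_m`: `q ↦ q^m`. -/
def Vp (m : ℕ) (a : PowerSeries ℂ) : PowerSeries ℂ :=
  PowerSeries.mk fun n => if m ∣ n then a.coeff (n / m) else 0

/-- `θ = q d/dq`. -/
def theta (a : PowerSeries ℂ) : PowerSeries ℂ := PowerSeries.mk fun n => (n : ℂ) * a.coeff n

/-- The `q`-expansion `1 - 24 ∑ σ(n) qⁿ` of `E₂`. -/
def e2 : PowerSeries ℂ :=
  PowerSeries.mk fun n => if n = 0 then 1 else -24 * (ArithmeticFunction.sigma 1 n : ℂ)

/-- The `q`-expansion `1 + 240 ∑ σ₃(n) qⁿ` of `E₄`. -/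
def e4 : PowerSeries ℂ :=
  PowerSeries.mk fun n => if n = 0 then 1 else 240 * (ArithmeticFunction.sigma 3 n : ℂ)

/-- The `q`-expansion `1 - 504 ∑ σ₅(n) qⁿ` of `E₆`. -/
def e6 : PowerSeries ℂ :=
  PowerSeries.mk fun n => if n = 0 then 1 else -504 * (ArithmeticFunction.sigma 5 n : ℂ)

/-- The `q`-expansion of `Δ = (E₄³ - E₆²)/1728`. -/
def dl : PowerSeries ℂ := PowerSeries.C ((1728 : ℂ)⁻¹) * (e4 ^ 3 - e6 ^ 2)

/-- The `q`-expansion `(p-1)/24 + ∑ σ'(n) qⁿ` of the Eisenstein series `E` of weight 2 on `Γ0(p)`. -/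
def eisP (p : ℕ) : PowerSeries ℂ :=
  PowerSeries.mk fun n => if n = 0 then ((p : ℂ) - 1) / 24 else (sigmaP p n : ℂ)

/-! ### Analytic side: expansions at the two cusps -/

/-- `q`-expansions of modular forms of level one and weight `k`. -/
def LevelOne (k : ℤ) : Set (PowerSeries ℂ) :=
  {a | ∃ F : ModularForm 𝒮ℒ k, a = qExpansion 1 F}

/-- Pairs (expansion at `∞` in `q`, expansion of `F ∣ S` in `q_p = e(z/p)`) of the modular forms
of weight `k` on `Γ0(p)`. -/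
def TwoCusp (p : ℕ) (k : ℤ) : Set (PowerSeries ℂ × PowerSeries ℂ) :=
  {ab | ∃ F : ModularForm (Gamma0 p) k,
    ab.1 = qExpansion 1 F ∧ ab.2 = qExpansion (p : ℝ) (⇑F ∣[k] ModularGroup.S)}

/-- The package of analytic facts used by the arithmetic arguments. To be proved once
(`Fermat/Agent/S16/Package.lean`); the case analysis takes it as a hypothesis. -/
structure TCPackage (p : ℕ) : Prop where
  add : ∀ {k : ℤ} {x y : PowerSeries ℂ × PowerSeries ℂ}, x ∈ TwoCusp p k → y ∈ TwoCusp p k →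
    x + y ∈ TwoCusp p k
  smul : ∀ {k : ℤ} (c : ℂ) {x : PowerSeries ℂ × PowerSeries ℂ}, x ∈ TwoCusp p k →
    (PowerSeries.C c * x.1, PowerSeries.C c * x.2) ∈ TwoCusp p k
  mul : ∀ {k l : ℤ} {x y : PowerSeries ℂ × PowerSeries ℂ}, x ∈ TwoCusp p k → y ∈ TwoCusp p l →
    (x.1 * y.1, x.2 * y.2) ∈ TwoCusp p (k + l)
  /-- a form of level one, seen on `Γ0(p)` -/
  ofLevelOne : ∀ {k : ℤ} {a : PowerSeries ℂ}, a ∈ LevelOne k → (a, Vp p a) ∈ TwoCusp p k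
  /-- `B(pz)` for `B` of level one -/
  ofLevelOneV : ∀ {k : ℤ} {a : PowerSeries ℂ}, a ∈ LevelOne k →
    (Vp p a, PowerSeries.C ((p : ℂ) ^ (-k)) * a) ∈ TwoCusp p k
  /-- the trace to level one -/
  trace : ∀ {k : ℤ} {x : PowerSeries ℂ × PowerSeries ℂ}, x ∈ TwoCusp p k →
    x.1 + PowerSeries.C (p : ℂ) * Up p x.2 ∈ LevelOne k
  /-- the Fricke involution `F ↦ (F ∣ S)(pz)` -/
  fricke : ∀ {k : ℤ} {x : PowerSeries ℂ × PowerSeries ℂ}, x ∈ TwoCusp p k →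
    (x.2, PowerSeries.C ((-(p : ℂ)) ^ (-k)) * x.1) ∈ TwoCusp p k
  /-- the Serre derivative `θ - (k/12) E₂` -/
  serre : ∀ {k : ℤ} {x : PowerSeries ℂ × PowerSeries ℂ}, x ∈ TwoCusp p k →
    (theta x.1 - PowerSeries.C ((k : ℂ) / 12) * (e2 * x.1),
      PowerSeries.C ((p : ℂ)⁻¹) * theta x.2 - PowerSeries.C ((k : ℂ) / 12) * (Vp p e2 * x.2))
        ∈ TwoCusp p (k + 2)
  /-- the Eisenstein series of weight 2 -/
  eis : ∃ b : PowerSeries ℂ, (eisP p, b) ∈ TwoCusp p 2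
  /-- cusp forms are modular forms -/
  ofCusp : ∀ f : CuspForm (Gamma0 p) 2, ∃ b : PowerSeries ℂ, (qExpansion 1 f, b) ∈ TwoCusp p 2
  /-- a form of weight 2 vanishing at `∞` is a cusp form -/
  toCusp : ∀ {x : PowerSeries ℂ × PowerSeries ℂ}, x ∈ TwoCusp p 2 → x.1.coeff 0 = 0 →
    ∃ f : CuspForm (Gamma0 p) 2, qExpansion 1 f = x.1

/-- The package of level-one facts. -/
structure L1Package : Prop where
  add : ∀ {k : ℤ} {a b : PowerSeries ℂ}, a ∈ LevelOne k → b ∈ LevelOne k → a + b ∈ LevelOne k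
  smul : ∀ {k : ℤ} (c : ℂ) {a : PowerSeries ℂ}, a ∈ LevelOne k → PowerSeries.C c * a ∈ LevelOne k
  mul : ∀ {k l : ℤ} {a b : PowerSeries ℂ}, a ∈ LevelOne k → b ∈ LevelOne l →
    a * b ∈ LevelOne (k + l)
  one_mem : (1 : PowerSeries ℂ) ∈ LevelOne 0
  e4_mem : e4 ∈ LevelOne 4
  e6_mem : e6 ∈ LevelOne 6
  dl_mem : dl ∈ LevelOne 12
  /-- `Δ = q ∏ (1 - qⁿ)²⁴` -/
  dl_coeff_zero : dl.coeff 0 = 0
  dl_coeff_one : dl.coeff 1 = 1
  dl_int : ∀ n : ℕ, ∃ m : ℤ, dl.coeff n = (m : ℂ)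
  /-- `θΔ = E₂ Δ` -/
  theta_dl : theta dl = e2 * dl
  /-- valence bound: a form of weight `k` whose coefficients `a_n` vanish for `12 n ≤ k` is zero -/
  sturm : ∀ {k : ℤ} {a : PowerSeries ℂ}, a ∈ LevelOne k →
    (∀ n : ℕ, 12 * (n : ℤ) ≤ k → a.coeff n = 0) → a = 0
  /-- forms of level one have a basis `E₄^i E₆^j Δ^c`: division by `Δ` -/
  div_dl : ∀ {k : ℤ} {a : PowerSeries ℂ}, a ∈ LevelOne k → a.coeff 0 = 0 →
    ∃ b ∈ LevelOne (k - 12), a = dl * b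
  /-- weight `≤ 0` or weight 2 -/
  const_of_nonpos : ∀ {k : ℤ} {a : PowerSeries ℂ}, a ∈ LevelOne k → k ≤ 0 →
    a = PowerSeries.C (a.coeff 0) ∧ (k < 0 → a = 0)
  weight_two : ∀ {a : PowerSeries ℂ}, a ∈ LevelOne 2 → a = 0
  /-- odd weight -/
  odd : ∀ {k : ℤ} {a : PowerSeries ℂ}, a ∈ LevelOne k → ¬ 2 ∣ k → a = 0

/-! ### The reduction of (B) to prime powers -/

/-- `x` is an `ℓ`-integral rational number (as a complex number). -/
def IsLInt (ℓ : ℕ) (x : ℂ) : Prop := ∃ r : ℚ, (r : ℂ) = x ∧ ¬ ℓ ∣ r.den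

/-- `a ≡ b mod ℓ^e` coefficientwise, in `ℤ_(ℓ)[[q]]`. -/
def PSCong (ℓ e : ℕ) (a b : PowerSeries ℂ) : Prop :=
  ∀ n : ℕ, ∃ x : ℂ, IsLInt ℓ x ∧ a.coeff n - b.coeff n = (ℓ : ℂ) ^ e * x

/-- There is no form of weight 2 on `Γ0(p)` whose `q`-expansion at `∞` is `≡ 1 mod ℓ^e`
(`ℓ`-integral coefficients, constant term exactly `1`). -/
def NoG (p ℓ e : ℕ) : Prop :=
  ¬ ∃ x ∈ TwoCusp p 2, x.1.coeff 0 = 1 ∧ PSCong ℓ e x.1 1

/-- `x ∈ ℓ·ℤ_(ℓ)`. -/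
def LDvd (ℓ : ℕ) (x : ℂ) : Prop := ∃ y : ℂ, IsLInt ℓ y ∧ x = (ℓ : ℂ) * y

/-- `x` is a unit of `ℤ_(ℓ)`. -/
def IsLUnit (ℓ : ℕ) (x : ℂ) : Prop := ∃ r : ℚ, (r : ℂ) = x ∧ ¬ ℓ ∣ r.den ∧ ¬ (ℓ : ℤ) ∣ r.num

/-- LEMMA F (filtration): a form of weight `w < 12 s` on `Γ0(p)` cannot be congruent mod `ℓ`, at both
cusps, to a series `κ = unit·q^s + …` "of level one" (`κ(q)` at `∞`, `κ(q_p^p)` at `0`).
Proved in `Filtration.lean` from `TCPackage p` and `L1Package` (for primes `ℓ ≠ p`). -/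
def StmtF (p ℓ : ℕ) : Prop :=
  ∀ (w : ℤ) (x : PowerSeries ℂ × PowerSeries ℂ), x ∈ TwoCusp p w →
    ∀ (κ : PowerSeries ℂ) (s : ℕ), 1 ≤ s → w < 12 * (s : ℤ) →
      (∀ n, IsLInt ℓ (κ.coeff n)) → (∀ n, n < s → LDvd ℓ (κ.coeff n)) → IsLUnit ℓ (κ.coeff s) →
      PSCong ℓ 1 x.1 κ → PSCong ℓ 1 x.2 (Vp p κ) → False

/-- The exponent needed at `ℓ`: `1 + v_ℓ(24 / gcd(p-1,12))`. -/
def expo (p ℓ : ℕ) : ℕ := 1 + padicValNat ℓ (24 / Nat.gcd (p - 1) 12)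

end

end Fermat.Agent.S16
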