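/-
S16 piece P-se (helper15): the Serre derivative on `Γ0(p)` with both cusp expansions
(`TCPackage.serre`).

* `Serre.qExpansion_E2` : `qExpansion 1 E2 = e2`.
* `Serre.isHPB_comp_scaleN_of_periodic`, `Serre.qExpansion_eq_comp_scaleN` : for a holomorphic,
  `N`-periodic function `f` bounded at `i∞`: `qExpansion N f = qExpansion 1 (f (N ·))`.
* `Serre.D_comp_scaleN` : `D (f (N ·)) = N · (D f) (N ·)`.
* `Serre.qExpansion_D_of_periodic` : `qExpansion N (D f) = N⁻¹ · θ (qExpansion N f)`.
* `Serre.qExpansion_E2_width` : `qExpansion N E2 = Vp N e2`.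
* `Serre.serreMF` : the Serre derivative of a modular form on `Γ0(N)` as a modular form.
* `tc_serre` : the field `serre` of `TCPackage p`.
-/
import Fermat.Agent.S16.Defs
import Fermat.Agent.S20.DerivBound
import Fermat.Agent.S20.LevelOneInfty
import Fermat.Agent.S28.DerivBridge
import Fermat.Agent.S28.Bridge

set_option autoImplicit false

noncomputable section

namespace Fermat.Agent.S16

open CongruenceSubgroup UpperHalfPlane ModularForm ModularFormClass Derivative EisensteinSeries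
open Filter Function
open Fermat.Agent.S23 Fermat.Agent.S24 Fermat.Agent.S28
open scoped MatrixGroups ModularForm Manifold Topology

local notation "𝕢" => Function.Periodic.qParam

namespace Serre

/-! ### Uniqueness of `q`-expansions, for plain functions -/

theorem qExpansion_eq_mk {f : ℍ → ℂ} {h : ℝ} (hh : 0 < h) (hf : MDiff f)
    (han : AnalyticAt ℂ (cuspFunction h f) 0) {c : ℕ → ℂ}
    (hsum : ∀ τ : ℍ, HasSum (fun m => c m • 𝕢 h τ ^ m) (f τ)) :
    qExpansion h f = PowerSeries.mk c := by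
  ext n
  rw [PowerSeries.coeff_mk]
  exact (UpperHalfPlane.qExpansion_coeff_unique (c := c) (ContinuousMap.mk f hf.continuous) hh han
    (fun τ => hsum τ) n).symm

/-! ### `E2` -/

theorem isHPB_E2 : IsHPB E2 :=
  ⟨E2_mdifferentiable, Fermat.Agent.S20.periodic_E2, isBoundedAtImInfty_E2⟩

theorem qExpansion_E2 : qExpansion 1 E2 = e2 := by
  rw [e2]
  refine qExpansion_eq_mk one_pos E2_mdifferentiable isHPB_E2.analyticAt (fun τ => ?_)
  simpa only [Function.Periodic.qParam, Complex.ofReal_one, div_one] using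
    hasSum_qExpansion_E2 (z := τ)

/-! ### Rescaling: width `N` to width `1` -/

section scale

variable (N : ℕ) [NeZero N]

theorem natCast_pos_real : (0 : ℝ) < (N : ℝ) :=
  Nat.cast_pos.mpr (Nat.pos_of_ne_zero (NeZero.ne N))

theorem qParam_width_scaleN (τ : ℍ) : 𝕢 (N : ℝ) (scaleN N τ : ℂ) = 𝕢 1 (τ : ℂ) := by
  have hN : (N : ℂ) ≠ 0 := Nat.cast_ne_zero.mpr (NeZero.ne N)
  simp only [Function.Periodic.qParam, coe_scaleN]
  congr 1
  push_cast
  field_simp

theorem isHPB_comp_scaleN_of_periodic {f : ℍ → ℂ} (hf : MDiff f)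
    (hper : Function.Periodic (f ∘ ofComplex) (N : ℝ)) (hb : IsBoundedAtImInfty f) :
    IsHPB (fun τ => f (scaleN N τ)) := by
  have hN : (0 : ℝ) < (N : ℝ) := natCast_pos_real N
  have hmaps : ∀ w : ℂ, 0 < w.im → 0 < ((N : ℂ) * w).im := by
    intro w hw
    simp only [Complex.mul_im, Complex.natCast_re, Complex.natCast_im, zero_mul, add_zero]
    exact mul_pos hN hw
  refine ⟨mdiff_comp_scaleN N hf, ?_, hb.comp_tendsto (P7_tendsto_scaleN_atImInfty N)⟩
  intro w
  simp only [Function.comp_apply]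
  by_cases hw : 0 < w.im
  · have hw1 : 0 < (w + 1).im := by simpa using hw
    rw [ofComplex_apply_of_im_pos hw, ofComplex_apply_of_im_pos hw1]
    have h := hper ((N : ℂ) * w)
    simp only [Function.comp_apply] at h
    have hw' : 0 < ((N : ℂ) * w).im := hmaps w hw
    have hw1' : 0 < ((N : ℂ) * w + ((N : ℝ) : ℂ)).im := by
      have : ((N : ℂ) * w + ((N : ℝ) : ℂ)) = (N : ℂ) * (w + 1) := by push_cast; ring
      rw [this]
      exact hmaps _ hw1
    rw [ofComplex_apply_of_im_pos hw1', ofComplex_apply_of_im_pos hw'] at h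
    have e1 : scaleN N ⟨w + 1, hw1⟩ = ⟨(N : ℂ) * w + ((N : ℝ) : ℂ), hw1'⟩ := by
      apply UpperHalfPlane.ext
      simp only [coe_scaleN]
      push_cast
      ring
    have e2 : scaleN N ⟨w, hw⟩ = ⟨(N : ℂ) * w, hw'⟩ := by
      apply UpperHalfPlane.ext
      simp only [coe_scaleN]
    rw [e1, e2]
    exact h
  · have hw1 : ¬ 0 < (w + 1).im := by simpa using hw
    rw [ofComplex_apply_of_im_nonpos (not_lt.mp hw), ofComplex_apply_of_im_nonpos (not_lt.mp hw1)]

/-- The expansion in `q_N = e(z/N)` of an `N`-periodic function is the `q`-expansion of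
`z ↦ f (N z)`. -/
theorem qExpansion_eq_comp_scaleN {f : ℍ → ℂ} (hf : MDiff f)
    (hper : Function.Periodic (f ∘ ofComplex) (N : ℝ)) (hb : IsBoundedAtImInfty f) :
    qExpansion (N : ℝ) f = qExpansion 1 (fun τ => f (scaleN N τ)) := by
  have hN : (0 : ℝ) < (N : ℝ) := natCast_pos_real N
  have hg := isHPB_comp_scaleN_of_periodic N hf hper hb
  have h1 : qExpansion 1 (fun τ => f (scaleN N τ)) =
      PowerSeries.mk (fun n => (qExpansion (N : ℝ) f).coeff n) := by
    refine qExpansion_eq_mk one_pos hg.1 hg.analyticAt (fun τ => ?_)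
    have := hasSum_qExpansion (h := (N : ℝ)) hN hper hf hb (scaleN N τ)
    rwa [qParam_width_scaleN] at this
  rw [h1]
  ext n
  simp

/-- Chain rule: `D (f (N ·)) = N · (D f) (N ·)`. -/
theorem D_comp_scaleN (f : ℍ → ℂ) :
    D (fun τ => f (scaleN N τ)) = fun τ => (N : ℂ) * D f (scaleN N τ) := by
  have hN : (0 : ℝ) < (N : ℝ) := natCast_pos_real N
  funext τ
  simp only [normalizedDerivOfComplex]
  have hev : ((fun τ => f (scaleN N τ)) ∘ ofComplex) =ᶠ[𝓝 (τ : ℂ)]
      (fun w => (f ∘ ofComplex) ((N : ℂ) * w)) := by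
    filter_upwards [isOpen_upperHalfPlaneSet.mem_nhds τ.im_pos] with w hw
    have hw0 : 0 < w.im := hw
    have hw' : 0 < ((N : ℂ) * w).im := by
      simp only [Complex.mul_im, Complex.natCast_re, Complex.natCast_im, zero_mul, add_zero]
      exact mul_pos hN hw0
    simp only [Function.comp_apply]
    rw [ofComplex_apply_of_im_pos hw0, ofComplex_apply_of_im_pos hw']
    rfl
  rw [hev.deriv_eq, deriv_comp_mul_left]
  simp only [smul_eq_mul, coe_scaleN]
  ring

/-- The expansion in `q_N` of `D f`, for `f` of period `N`. -/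
theorem qExpansion_D_comp_scaleN {f : ℍ → ℂ} (hf : MDiff f)
    (hper : Function.Periodic (f ∘ ofComplex) (N : ℝ)) (hb : IsBoundedAtImInfty f) :
    IsHPB (fun τ => D f (scaleN N τ)) ∧
      qExpansion 1 (fun τ => D f (scaleN N τ)) =
        PowerSeries.C ((N : ℂ)⁻¹) * theta (qExpansion (N : ℝ) f) := by
  have hN : (N : ℂ) ≠ 0 := Nat.cast_ne_zero.mpr (NeZero.ne N)
  have hg := isHPB_comp_scaleN_of_periodic N hf hper hb
  have hDg := isHPB_D hg
  have e : (fun τ => D f (scaleN N τ)) = ((N : ℂ)⁻¹) • D (fun τ => f (scaleN N τ)) := by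
    rw [D_comp_scaleN]
    funext τ
    simp only [Pi.smul_apply, smul_eq_mul]
    field_simp
  have hsm : IsHPB (((N : ℂ)⁻¹) • D (fun τ => f (scaleN N τ))) := by
    have := (qring_isHPB_const ((N : ℂ)⁻¹)).mul hDg
    exact this
  refine ⟨e ▸ hsm, ?_⟩
  rw [e, qExpansion_smul hDg.analyticAt, PowerSeries.smul_eq_C_mul]
  congr 1
  ext n
  rw [qExpansion_D_coeff hg, ← qExpansion_eq_comp_scaleN N hf hper hb]
  simp [theta]

/-- The expansion of `E2` in `q_N`. -/
theorem qExpansion_E2_comp_scaleN :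
    IsHPB (fun τ => E2 (scaleN N τ)) ∧ qExpansion 1 (fun τ => E2 (scaleN N τ)) = Vp N e2 := by
  refine ⟨bridge_isHPB_comp_scaleN N isHPB_E2, ?_⟩
  rw [bridge_qExpansion_comp_scaleN N isHPB_E2, qExpansion_E2]
  rfl

end scale

/-! ### The Serre derivative on `Γ0(N)` -/

section level

theorem isBoundedAtImInfty_serreDerivative_of {k : ℤ} {f : ℍ → ℂ} (hf : MDiff f)
    (hb : IsBoundedAtImInfty f) : IsBoundedAtImInfty (serreDerivative k f) := by
  have hD := Fermat.Agent.S20.isBoundedAtImInfty_normalizedDeriv hf hb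
  have hE := isBoundedAtImInfty_E2
  have hc : IsBoundedAtImInfty (fun _ : ℍ => (k : ℂ) * 12⁻¹) := Filter.const_boundedAtFilter _ _
  have h2 : IsBoundedAtImInfty (fun z => (k : ℂ) * 12⁻¹ * E2 z * f z) := (hc.mul hE).mul hb
  exact hD.sub h2

variable {N : ℕ} [NeZero N] {k : ℤ}

/-- The Serre derivative of a modular form on `Γ0(N)`, as a modular form of weight `k + 2`. -/
def serreMF (F : ModularForm (Gamma0 N) k) : ModularForm (Gamma0 N) (k + 2) where
  toFun := serreDerivative k F
  slash_action_eq' := by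
    rintro γ ⟨γ', hγ', rfl⟩
    exact serreDerivative_slash_invariant (ModularFormClass.holo F)
      (SlashInvariantForm.slash_action_eqn F _ ⟨γ', hγ', rfl⟩)
  holo' := serreDerivative_mdifferentiable k (ModularFormClass.holo F)
  bdd_at_cusps' {c} hc := by
    rw [Subgroup.IsArithmetic.isCusp_iff_isCusp_SL2Z] at hc
    rw [OnePoint.isBoundedAt_iff_forall_SL2Z hc]
    intro γ _
    rw [serreDerivative_slash_equivariant (ModularFormClass.holo F)]
    exact isBoundedAtImInfty_serreDerivative_of ((ModularFormClass.holo F).slash k _)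
      (ModularFormClass.bdd_at_infty_slash F γ)

theorem coe_serreMF (F : ModularForm (Gamma0 N) k) :
    (⇑(serreMF F) : ℍ → ℂ) = serreDerivative k F := rfl

end level

/-! ### The cusp `0`: `F ∣ S` -/

section cuspZero

theorem conj_S_coe (N : ℕ) :
    ((ModularGroup.S * ModularGroup.T ^ (N : ℤ) * ModularGroup.S⁻¹ : SL(2, ℤ)) :
      Matrix (Fin 2) (Fin 2) ℤ) = !![1, 0; -(N : ℤ), 1] := by
  rw [Matrix.SpecialLinearGroup.coe_mul, Matrix.SpecialLinearGroup.coe_mul,
    ModularGroup.coe_T_zpow, Matrix.SpecialLinearGroup.coe_inv, ModularGroup.coe_S,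
    Matrix.adjugate_fin_two]
  simp

theorem conj_S_mem_Gamma0 (N : ℕ) :
    ModularGroup.S * ModularGroup.T ^ (N : ℤ) * ModularGroup.S⁻¹ ∈ Gamma0 N := by
  rw [Gamma0_mem, conj_S_coe]
  simp

open ConjAct Pointwise in
/-- `N` is a strict period of `S⁻¹ Γ0(N) S`. -/
theorem natCast_mem_strictPeriods_conj_S (N : ℕ) :
    (N : ℝ) ∈ (toConjAct (Matrix.SpecialLinearGroup.mapGL ℝ ModularGroup.S)⁻¹ •
      ((Gamma0 N).map (Matrix.SpecialLinearGroup.mapGL ℝ))).strictPeriods := by
  rw [Subgroup.mem_strictPeriods_iff, map_inv, Subgroup.mem_inv_pointwise_smul_iff, toConjAct_smul]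
  have hU : Matrix.GeneralLinearGroup.upperRightHom (N : ℝ) =
      Matrix.SpecialLinearGroup.mapGL ℝ (ModularGroup.T ^ (N : ℤ)) := by
    apply Units.ext
    have h1 : ((Matrix.SpecialLinearGroup.mapGL ℝ (ModularGroup.T ^ (N : ℤ)) : GL (Fin 2) ℝ) :
        Matrix (Fin 2) (Fin 2) ℝ) =
        (!![1, (N : ℤ); 0, 1] : Matrix (Fin 2) (Fin 2) ℤ).map (Int.castRingHom ℝ) := by
      rw [← ModularGroup.coe_T_zpow]
      rfl
    rw [h1]
    ext i j
    fin_cases i <;> fin_cases j <;> simp [Matrix.GeneralLinearGroup.upperRightHom]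
  rw [hU, ← map_inv, ← map_mul, ← map_mul]
  exact ⟨_, conj_S_mem_Gamma0 N, rfl⟩

variable {N : ℕ} [NeZero N] {k : ℤ}

/-- `F ∣ S` is holomorphic, `N`-periodic and bounded at `i∞`, for `F` on `Γ0(N)`. -/
theorem slash_S_props (F : ModularForm (Gamma0 N) k) :
    MDiff (⇑F ∣[k] ModularGroup.S) ∧
      Function.Periodic ((⇑F ∣[k] ModularGroup.S) ∘ ofComplex) (N : ℝ) ∧
      IsBoundedAtImInfty (⇑F ∣[k] ModularGroup.S) := by
  refine ⟨(ModularFormClass.holo F).slash k _, ?_, ModularFormClass.bdd_at_infty_slash F _⟩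
  exact SlashInvariantFormClass.periodic_comp_ofComplex
    (ModularForm.translate F (Matrix.SpecialLinearGroup.mapGL ℝ ModularGroup.S))
    (natCast_mem_strictPeriods_conj_S N)

/-- A modular form on `Γ0(N)` is holomorphic, `1`-periodic and bounded at `i∞`. -/
theorem isHPB_of_modularForm (F : ModularForm (Gamma0 N) k) : IsHPB (⇑F) := by
  have h1 : (1 : ℝ) ∈ ((Gamma0 N).map (Matrix.SpecialLinearGroup.mapGL ℝ)).strictPeriods :=
    CongruenceSubgroup.one_mem_strictPeriods_Gamma0 N
  exact ⟨ModularFormClass.holo F, SlashInvariantFormClass.periodic_comp_ofComplex F h1,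
    ModularFormClass.bdd_at_infty F⟩

end cuspZero

/-! ### The two expansions of the Serre derivative -/

section expansions

theorem isHPB_smul {f : ℍ → ℂ} (c : ℂ) (hf : IsHPB f) : IsHPB (c • f) :=
  (qring_isHPB_const c).mul hf

/-- The `q`-expansion of `D f`. -/
theorem qExpansion_D {f : ℍ → ℂ} (hf : IsHPB f) :
    qExpansion 1 (D f) = theta (qExpansion 1 f) := by
  ext n
  rw [qExpansion_D_coeff hf]
  simp [theta]

/-- The `q`-expansion of the Serre derivative. -/
theorem qExpansion_serreDerivative {k : ℤ} {f : ℍ → ℂ} (hf : IsHPB f) :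
    qExpansion 1 (serreDerivative k f) =
      theta (qExpansion 1 f) - PowerSeries.C ((k : ℂ) / 12) * (e2 * qExpansion 1 f) := by
  have e : serreDerivative k f = D f - ((k : ℂ) / 12) • (E2 * f) := by
    funext z
    simp only [serreDerivative_apply, Pi.sub_apply, Pi.smul_apply, Pi.mul_apply, smul_eq_mul]
    ring
  have hEf : IsHPB (E2 * f) := isHPB_E2.mul hf
  rw [e, qExpansion_sub (isHPB_D hf).analyticAt (isHPB_smul _ hEf).analyticAt,
    qExpansion_smul hEf.analyticAt, qExpansion_mul isHPB_E2.analyticAt hf.analyticAt,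
    qExpansion_D hf, qExpansion_E2, PowerSeries.smul_eq_C_mul]

variable (N : ℕ) [NeZero N]

/-- The expansion in `q_N` of the Serre derivative of an `N`-periodic function. -/
theorem qExpansion_serreDerivative_width {k : ℤ} {f : ℍ → ℂ} (hf : MDiff f)
    (hper : Function.Periodic (f ∘ ofComplex) (N : ℝ)) (hb : IsBoundedAtImInfty f)
    (hper' : Function.Periodic ((serreDerivative k f) ∘ ofComplex) (N : ℝ)) :
    qExpansion (N : ℝ) (serreDerivative k f) =
      PowerSeries.C ((N : ℂ)⁻¹) * theta (qExpansion (N : ℝ) f) -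
        PowerSeries.C ((k : ℂ) / 12) * (Vp N e2 * qExpansion (N : ℝ) f) := by
  have hg := isHPB_comp_scaleN_of_periodic N hf hper hb
  obtain ⟨hD, hDq⟩ := qExpansion_D_comp_scaleN N hf hper hb
  obtain ⟨hE, hEq⟩ := qExpansion_E2_comp_scaleN N
  rw [qExpansion_eq_comp_scaleN N (serreDerivative_mdifferentiable k hf) hper'
    (isBoundedAtImInfty_serreDerivative_of hf hb)]
  have e : (fun τ => serreDerivative k f (scaleN N τ)) =
      (fun τ => D f (scaleN N τ)) -
        ((k : ℂ) / 12) • ((fun τ => E2 (scaleN N τ)) * (fun τ => f (scaleN N τ))) := by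
    funext z
    simp only [serreDerivative_apply, Pi.sub_apply, Pi.smul_apply, Pi.mul_apply, smul_eq_mul]
    ring
  have hEf : IsHPB ((fun τ => E2 (scaleN N τ)) * (fun τ => f (scaleN N τ))) := hE.mul hg
  rw [e, qExpansion_sub hD.analyticAt (isHPB_smul _ hEf).analyticAt,
    qExpansion_smul hEf.analyticAt, qExpansion_mul hE.analyticAt hg.analyticAt,
    hDq, hEq, PowerSeries.smul_eq_C_mul, ← qExpansion_eq_comp_scaleN N hf hper hb]

end expansions

end Serre

/-- **P-se**: the field `serre` of `TCPackage p`. -/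
theorem tc_serre (p : ℕ) [NeZero p] {k : ℤ} {x : PowerSeries ℂ × PowerSeries ℂ}
    (hx : x ∈ TwoCusp p k) :
    (theta x.1 - PowerSeries.C ((k : ℂ) / 12) * (e2 * x.1),
      PowerSeries.C ((p : ℂ)⁻¹) * theta x.2 - PowerSeries.C ((k : ℂ) / 12) * (Vp p e2 * x.2))
        ∈ TwoCusp p (k + 2) := by
  obtain ⟨F, h1, h2⟩ := hx
  refine ⟨Serre.serreMF F, ?_, ?_⟩
  · show theta x.1 - PowerSeries.C ((k : ℂ) / 12) * (e2 * x.1) = _
    rw [h1, Serre.coe_serreMF, Serre.qExpansion_serreDerivative (Serre.isHPB_of_modularForm F)]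
  · show PowerSeries.C ((p : ℂ)⁻¹) * theta x.2 -
      PowerSeries.C ((k : ℂ) / 12) * (Vp p e2 * x.2) = _
    obtain ⟨hf, hper, hb⟩ := Serre.slash_S_props F
    obtain ⟨-, hper', -⟩ := Serre.slash_S_props (Serre.serreMF F)
    have e : (⇑(Serre.serreMF F) ∣[k + 2] ModularGroup.S) =
        serreDerivative k (⇑F ∣[k] ModularGroup.S) := by
      rw [Serre.coe_serreMF]
      exact serreDerivative_slash_equivariant (ModularFormClass.holo F)
    rw [e] at hper' ⊢
    rw [h2, Serre.qExpansion_serreDerivative_width p hf hper hb hper']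

end Fermat.Agent.S16
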