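import Fermat.Agent.S16.DualHecke

/-!
# S16, piece (C), part 3: formal Eisenstein eigen-sequences, the lower bound and the
Hecke polynomials `τ_k` with `a_1(τ_k f) = a_k(f)`.
-/

set_option autoImplicit false
set_option linter.unusedSectionVars false

noncomputable section

namespace Fermat.Agent.S16.Dual

open ModularCurve CuspForm ModularFormClass CongruenceSubgroup

variable (N : ℕ) [NeZero N]

/-- `δ` is a formal Eisenstein eigen-sequence of level `N` (normalised). -/
def IsEisSeq (δ : ℕ → ℤ) : Prop :=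
  δ 1 = 1 ∧ ∀ (ℓ : Nat.Primes) (n : ℕ), 1 ≤ n → fT N ℓ δ n = eisensteinSystem N ℓ * δ n

/-- notation: the action of a Hecke polynomial on the lattice -/
abbrev act (t : HeckeAlg) (f : ↥(intLattice N 2)) : ↥(intLattice N 2) :=
  ((phi N t : ↥(heckeLatticeAlgebra N ∅)) : Module.End ℤ ↥(intLattice N 2)) f

theorem fT_sub_mul (ℓ : ℕ) (a b : ℕ → ℤ) (c : ℤ) (n : ℕ) :
    fT N ℓ a n - c * fT N ℓ b n =
      (a (n * ℓ) - c * b (n * ℓ)) +
        if ℓ ∣ N then 0 else if ℓ ∣ n then (ℓ : ℤ) * (a (n / ℓ) - c * b (n / ℓ)) else 0 := by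
  unfold fT
  split_ifs <;> ring

theorem cong_act (M : ℤ) (δ : ℕ → ℤ) (hδ : IsEisSeq N δ) (t : HeckeAlg) :
    ∀ (g : ↥(intLattice N 2)) (c : ℤ), (∀ n, 1 ≤ n → M ∣ qInt N g n - c * δ n) →
      ∀ n, 1 ≤ n → M ∣ qInt N (act N t g) n - ev N t * c * δ n := by
  induction t using MvPolynomial.induction_on with
  | C a =>
    intro g c hg n hn
    rw [act, phi_C_apply, qInt_zsmul, ev_C]
    have e : a * qInt N g n - a * c * δ n = a * (qInt N g n - c * δ n) := by ring
    rw [e]
    exact Dvd.dvd.mul_left (hg n hn) a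
  | add s t hs ht =>
    intro g c hg n hn
    rw [act, phi_add_apply, qInt_add, map_add]
    have e : qInt N (act N s g) n + qInt N (act N t g) n - (ev N s + ev N t) * c * δ n =
        (qInt N (act N s g) n - ev N s * c * δ n) + (qInt N (act N t g) n - ev N t * c * δ n) := by
      ring
    rw [e]
    exact dvd_add (hs g c hg n hn) (ht g c hg n hn)
  | mul_X t ℓ ht =>
    intro g c hg n hn
    rw [act, phi_mul_apply]
    have hg' : ∀ n, 1 ≤ n → M ∣ qInt N (act N (MvPolynomial.X ℓ) g) n -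
        (eisensteinSystem N ℓ * c) * δ n := by
      intro n hn
      rw [act, phi_X_apply]
      have h1 : (eisensteinSystem N ℓ * c) * δ n = c * fT N ℓ δ n := by
        rw [hδ.2 ℓ n hn]; ring
      rw [h1, fT_sub_mul]
      have hℓ : 1 ≤ (ℓ : ℕ) := ℓ.2.one_lt.le
      refine dvd_add (hg _ (Nat.one_le_iff_ne_zero.mpr (Nat.mul_ne_zero (by omega) (by omega)))) ?_
      split_ifs with h1 h2
      · exact dvd_zero _
      · refine Dvd.dvd.mul_left (hg _ ?_) _
        exact Nat.div_pos (Nat.le_of_dvd (by omega) h2) (by omega)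
      · exact dvd_zero _
    have := ht (act N (MvPolynomial.X ℓ) g) (eisensteinSystem N ℓ * c) hg' n hn
    rw [map_mul, ev_X]
    have e : ev N t * eisensteinSystem N ℓ * c * δ n =
        ev N t * (eisensteinSystem N ℓ * c) * δ n := by ring
    rw [e]
    exact this

/-- lower bound: a lattice element congruent to `δ` mod `M` forces `M ∣ ev t` on `ker phi`. -/
theorem dvd_ev_of_cong (M : ℤ) (δ : ℕ → ℤ) (hδ : IsEisSeq N δ) (f : ↥(intLattice N 2))
    (hf : ∀ n, 1 ≤ n → M ∣ qInt N f n - δ n) (t : HeckeAlg) (ht : phi N t = 0) :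
    M ∣ ev N t := by
  have h := cong_act N M δ hδ t f 1 (fun n hn => by simpa using hf n hn) 1 le_rfl
  rw [act, ht] at h
  have h0 : qInt N (((0 : ↥(heckeLatticeAlgebra N ∅)) : Module.End ℤ ↥(intLattice N 2)) f) 1
      = 0 := by
    have : (((0 : ↥(heckeLatticeAlgebra N ∅)) : Module.End ℤ ↥(intLattice N 2)) f) = 0 := rfl
    rw [this, qInt_zero]
  rw [h0, hδ.1] at h
  simpa using h

/-- the Hecke polynomial `τ_k` -/
theorem exists_tau (δ : ℕ → ℤ) (hδ : IsEisSeq N δ) (k : ℕ) (hk : 1 ≤ k) :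
    ∃ τ : HeckeAlg, (∀ g : ↥(intLattice N 2), qInt N (act N τ g) 1 = qInt N g k) ∧
      ev N τ = δ k := by
  induction k using Nat.strong_induction_on with
  | _ k ih =>
    rcases Nat.eq_or_lt_of_le hk with h1 | h1
    · subst h1
      exact ⟨1, fun g => by rw [act, phi_one_apply], by rw [map_one, hδ.1]⟩
    · have hℓ : (k.minFac).Prime := Nat.minFac_prime (by omega)
      set ℓ : Nat.Primes := ⟨k.minFac, hℓ⟩ with hℓdef
      have hdvd : (ℓ : ℕ) ∣ k := Nat.minFac_dvd k
      set k' := k / (ℓ : ℕ) with hk'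
      have hkk' : k' * (ℓ : ℕ) = k := Nat.div_mul_cancel hdvd
      have hk'pos : 1 ≤ k' := Nat.div_pos (Nat.le_of_dvd (by omega) hdvd) hℓ.pos
      have hk'lt : k' < k := Nat.div_lt_self (by omega) hℓ.one_lt
      obtain ⟨τ', hτ', hev'⟩ := ih k' hk'lt hk'pos
      have hstep : ∀ g : ↥(intLattice N 2),
          qInt N (act N (τ' * MvPolynomial.X ℓ) g) 1 = fT N ℓ (qInt N g) k' := by
        intro g
        rw [act, phi_mul_apply]
        have := hτ' (act N (MvPolynomial.X ℓ) g)
        rw [act] at this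
        rw [this, act, phi_X_apply]
      have hevstep : ev N (τ' * MvPolynomial.X ℓ) = fT N ℓ δ k' := by
        rw [map_mul, ev_X, hev', hδ.2 ℓ k' hk'pos]; ring
      by_cases hN : (ℓ : ℕ) ∣ N
      · refine ⟨τ' * MvPolynomial.X ℓ, fun g => ?_, ?_⟩
        · rw [hstep g]; unfold fT; rw [if_pos hN, add_zero, hkk']
        · rw [hevstep]; unfold fT; rw [if_pos hN, add_zero, hkk']
      · by_cases h2 : (ℓ : ℕ) ∣ k'
        · have hk''pos : 1 ≤ k' / (ℓ : ℕ) :=
            Nat.div_pos (Nat.le_of_dvd (by omega) h2) hℓ.pos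
          have hk''lt : k' / (ℓ : ℕ) < k := lt_of_le_of_lt (Nat.div_le_self _ _) hk'lt
          obtain ⟨τ'', hτ'', hev''⟩ := ih (k' / (ℓ : ℕ)) hk''lt hk''pos
          refine ⟨τ' * MvPolynomial.X ℓ - MvPolynomial.C ((ℓ : ℕ) : ℤ) * τ'', fun g => ?_, ?_⟩
          · have e1 : act N (τ' * MvPolynomial.X ℓ - MvPolynomial.C ((ℓ : ℕ) : ℤ) * τ'') g =
                act N (τ' * MvPolynomial.X ℓ) g - ((ℓ : ℕ) : ℤ) • act N τ'' g := by
              rw [act, phi_sub_apply, phi_mul_apply N (MvPolynomial.C ((ℓ : ℕ) : ℤ)) τ'' g,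
                phi_C_apply]
            rw [e1]
            have e2 : ∀ a b : ↥(intLattice N 2), qInt N (a - b) 1 = qInt N a 1 - qInt N b 1 := by
              intro a b
              have := qInt_add N (a - b) b 1
              rw [sub_add_cancel] at this
              omega
            rw [e2, qInt_zsmul, hstep g, hτ'' g]
            unfold fT
            rw [if_neg hN, if_pos h2, hkk']
            ring
          · rw [map_sub, hevstep, map_mul, ev_C, hev'']
            unfold fT
            rw [if_neg hN, if_pos h2, hkk']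
            ring
        · refine ⟨τ' * MvPolynomial.X ℓ, fun g => ?_, ?_⟩
          · rw [hstep g]; unfold fT; rw [if_neg hN, if_neg h2, add_zero, hkk']
          · rw [hevstep]; unfold fT; rw [if_neg hN, if_neg h2, add_zero, hkk']

end Fermat.Agent.S16.Dual

end
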