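import Fermat.Agent.S16.Defs
import Fermat.Agent.S16.DualLower

/-!
# S16, piece (C), part 4: `σ'` is a formal Eisenstein eigen-sequence of level `p`.
-/

set_option autoImplicit false
set_option linter.unusedSectionVars false

noncomputable section

namespace Fermat.Agent.S16.Dual

open ModularCurve CuspForm ModularFormClass CongruenceSubgroup

theorem sigmaP_one (p : ℕ) (hp : p.Prime) : sigmaP p 1 = 1 := by
  unfold sigmaP
  have h : (Nat.divisors 1).filter (fun d => ¬ p ∣ d) = {1} := by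
    rw [Nat.divisors_one]
    rw [Finset.filter_singleton, if_pos]
    exact fun h => hp.one_lt.ne' (Nat.dvd_one.mp h)
  rw [h]
  simp

/-- divisors of `n * ℓ` prime to `ℓ` are divisors of `n` -/
theorem filter_divisors_mul_prime (ℓ n : ℕ) (hℓ : ℓ.Prime) (hn : n ≠ 0) (P : ℕ → Prop)
    [DecidablePred P] :
    (n * ℓ).divisors.filter (fun d => ¬ ℓ ∣ d ∧ P d) =
      n.divisors.filter (fun d => ¬ ℓ ∣ d ∧ P d) := by
  ext d
  simp only [Finset.mem_filter, Nat.mem_divisors]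
  constructor
  · rintro ⟨⟨h1, _⟩, h2, h3⟩
    refine ⟨⟨?_, hn⟩, h2, h3⟩
    have hc : Nat.Coprime d ℓ := ((Nat.Prime.coprime_iff_not_dvd hℓ).mpr h2).symm
    exact hc.dvd_of_dvd_mul_right h1
  · rintro ⟨⟨h1, _⟩, h2, h3⟩
    exact ⟨⟨Dvd.dvd.mul_right h1 ℓ, Nat.mul_ne_zero hn hℓ.ne_zero⟩, h2, h3⟩

/-- the divisors of `m` divisible by `ℓ` are `ℓ` times the divisors of `m / ℓ` -/
theorem sum_filter_divisors_dvd (ℓ m : ℕ) (hℓ : ℓ.Prime) (hm : m ≠ 0) (h : ℓ ∣ m) (P : ℕ → Prop)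
    [DecidablePred P] (hP : ∀ e, P (ℓ * e) ↔ P e) :
    ∑ d ∈ m.divisors.filter (fun d => ℓ ∣ d ∧ P d), (d : ℤ) =
      ℓ * ∑ e ∈ (m / ℓ).divisors.filter (fun e => P e), (e : ℤ) := by
  rw [Finset.mul_sum]
  symm
  refine Finset.sum_bij (fun e _ => ℓ * e) ?_ ?_ ?_ ?_
  · intro e he
    simp only [Finset.mem_filter, Nat.mem_divisors] at he ⊢
    obtain ⟨⟨h1, h2⟩, h3⟩ := he
    refine ⟨⟨?_, hm⟩, Dvd.intro _ rfl, (hP e).mpr h3⟩
    obtain ⟨c, hc⟩ := h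
    rw [hc] at h1 ⊢
    rw [Nat.mul_div_cancel_left _ hℓ.pos] at h1
    exact Nat.mul_dvd_mul_left ℓ h1
  · intro a _ b _ hab
    exact Nat.eq_of_mul_eq_mul_left hℓ.pos hab
  · intro d hd
    simp only [Finset.mem_filter, Nat.mem_divisors] at hd
    obtain ⟨⟨h1, _⟩, ⟨e, rfl⟩, h3⟩ := hd
    refine ⟨e, ?_, rfl⟩
    simp only [Finset.mem_filter, Nat.mem_divisors]
    refine ⟨⟨?_, ?_⟩, (hP e).mp h3⟩
    · obtain ⟨c, hc⟩ := h
      rw [hc, Nat.mul_div_cancel_left _ hℓ.pos]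
      rw [hc] at h1
      exact (Nat.mul_dvd_mul_iff_left hℓ.pos).mp h1
    · intro h0
      obtain ⟨c, hc⟩ := h
      rw [hc, Nat.mul_div_cancel_left _ hℓ.pos] at h0
      rw [hc, h0, mul_zero] at hm
      exact hm rfl
  · intro e _
    push_cast
    ring

theorem sum_filter_split (s : Finset ℕ) (ℓ : ℕ) (P : ℕ → Prop) [DecidablePred P] :
    ∑ d ∈ s.filter (fun d => P d), (d : ℤ) =
      ∑ d ∈ s.filter (fun d => ¬ ℓ ∣ d ∧ P d), (d : ℤ) +
        ∑ d ∈ s.filter (fun d => ℓ ∣ d ∧ P d), (d : ℤ) := by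
  rw [← Finset.sum_filter_add_sum_filter_not (s.filter (fun d => P d)) (fun d => ¬ ℓ ∣ d)]
  congr 1
  · apply Finset.sum_congr _ (fun _ _ => rfl)
    ext d
    simp only [Finset.mem_filter]
    tauto
  · apply Finset.sum_congr _ (fun _ _ => rfl)
    ext d
    simp only [Finset.mem_filter, not_not]
    tauto

theorem sigmaP_mul_self (p n : ℕ) (hp : p.Prime) (hn : n ≠ 0) :
    sigmaP p (n * p) = sigmaP p n := by
  unfold sigmaP
  have h := filter_divisors_mul_prime p n hp hn (fun _ => True)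
  simp only [and_true] at h
  rw [h]

theorem sigmaP_hecke (p ℓ n : ℕ) (hp : p.Prime) (hℓ : ℓ.Prime) (hne : ℓ ≠ p) (hn : n ≠ 0) :
    sigmaP p (n * ℓ) + (if ℓ ∣ n then (ℓ : ℤ) * sigmaP p (n / ℓ) else 0) =
      (1 + (ℓ : ℤ)) * sigmaP p n := by
  have hP : ∀ e, (¬ p ∣ ℓ * e) ↔ ¬ p ∣ e := by
    intro e
    rw [not_iff_not]
    constructor
    · intro h
      rcases (Nat.Prime.dvd_mul hp).mp h with h1 | h1
      · exact absurd ((Nat.prime_dvd_prime_iff_eq hp hℓ).mp h1).symm hne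
      · exact h1
    · intro h
      exact Dvd.dvd.mul_left h ℓ
  have e1 : sigmaP p (n * ℓ) =
      ∑ d ∈ n.divisors.filter (fun d => ¬ ℓ ∣ d ∧ ¬ p ∣ d), (d : ℤ) + ℓ * sigmaP p n := by
    unfold sigmaP
    rw [sum_filter_split (n * ℓ).divisors ℓ (fun d => ¬ p ∣ d),
      filter_divisors_mul_prime ℓ n hℓ hn (fun d => ¬ p ∣ d),
      sum_filter_divisors_dvd ℓ (n * ℓ) hℓ (Nat.mul_ne_zero hn hℓ.ne_zero) (Dvd.intro_left n rfl)
        (fun d => ¬ p ∣ d) hP, Nat.mul_div_cancel _ hℓ.pos]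
  have e2 : sigmaP p n =
      ∑ d ∈ n.divisors.filter (fun d => ¬ ℓ ∣ d ∧ ¬ p ∣ d), (d : ℤ) +
        (if ℓ ∣ n then (ℓ : ℤ) * sigmaP p (n / ℓ) else 0) := by
    conv_lhs => unfold sigmaP
    rw [sum_filter_split n.divisors ℓ (fun d => ¬ p ∣ d)]
    congr 1
    split_ifs with h
    · rw [sum_filter_divisors_dvd ℓ n hℓ hn h (fun d => ¬ p ∣ d) hP]
      rfl
    · apply Finset.sum_eq_zero
      intro d hd
      simp only [Finset.mem_filter, Nat.mem_divisors] at hd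
      exact absurd (hd.2.1.trans hd.1.1) h
  rw [e1]
  have e3 := e2
  linarith

theorem isEisSeq_sigmaP (p : ℕ) [NeZero p] (hp : p.Prime) : IsEisSeq p (sigmaP p) := by
  refine ⟨sigmaP_one p hp, fun ℓ n hn => ?_⟩
  have hn0 : n ≠ 0 := by omega
  unfold fT eisensteinSystem
  by_cases h : (ℓ : ℕ) ∣ p
  · have hℓp : (ℓ : ℕ) = p := (Nat.prime_dvd_prime_iff_eq ℓ.2 hp).mp h
    rw [if_pos h, if_pos h, add_zero, one_mul, hℓp]
    exact sigmaP_mul_self p n hp hn0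
  · have hne : (ℓ : ℕ) ≠ p := fun e => h (e ▸ dvd_rfl)
    rw [if_neg h, if_neg h]
    exact sigmaP_hecke p ℓ n hp ℓ.2 hne hn0

end Fermat.Agent.S16.Dual

end
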