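import Fermat.Agent.S16.DualPair
import Fermat.Agent.S16.DualSigma

/-!
# S16, piece (C): the index of the Eisenstein ideal from (A) and (B)

`card_of_A_B`: if there is a cusp form `≡ δ mod n` (A) and every congruence `f ≡ δ mod M`
forces `M ∣ n` (B), then `T' / (image of the Eisenstein ideal)` has exactly `n` elements.
-/

set_option autoImplicit false
set_option linter.unusedSectionVars false

noncomputable section

namespace Fermat.Agent.S16.Dual

open ModularCurve CuspForm ModularFormClass CongruenceSubgroup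

section general

variable (N : ℕ) [NeZero N]

/-- the image under `ev` of the kernel of `phi`: the congruence ideal -/
def congIdeal : Ideal ℤ := Ideal.map (ev N) (RingHom.ker (phi N))

theorem mem_congIdeal_iff (a : ℤ) : a ∈ congIdeal N ↔ ∃ τ, phi N τ = 0 ∧ ev N τ = a := by
  unfold congIdeal
  rw [Ideal.mem_map_iff_of_surjective (ev N) (ev_surjective N)]
  simp only [RingHom.mem_ker]

theorem congIdeal_le (δ : ℕ → ℤ) (hδ : IsEisSeq N δ) (M : ℤ) (f : ↥(intLattice N 2))
    (hf : ∀ n, 1 ≤ n → M ∣ qInt N f n - δ n) : congIdeal N ≤ Ideal.span {M} := by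
  intro a ha
  obtain ⟨τ, h1, h2⟩ := (mem_congIdeal_iff N a).1 ha
  rw [Ideal.mem_span_singleton, ← h2]
  exact dvd_ev_of_cong N M δ hδ f hf τ h1

/-- existence of a lattice element congruent to `δ` modulo a generator of the congruence ideal -/
theorem exists_cong (δ : ℕ → ℤ) (hδ : IsEisSeq N δ) (m : ℤ)
    (hm : congIdeal N = Ideal.span {m}) :
    ∃ f : ↥(intLattice N 2), ∀ k, 1 ≤ k → m ∣ qInt N f k - δ k := by
  -- a `ℤ`-linear section of `phi`
  obtain ⟨s, hs⟩ := Module.projective_lifting_property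
    ((phi N).toIntAlgHom.toLinearMap) (LinearMap.id (R := ℤ) (M := ↥(heckeLatticeAlgebra N ∅)))
    (phi_surjective N)
  have hs' : ∀ t, phi N (s t) = t := fun t => LinearMap.congr_fun hs t
  set lam : ↥(heckeLatticeAlgebra N ∅) →ₗ[ℤ] ℤ := ((ev N).toIntAlgHom.toLinearMap).comp s
    with hlam
  obtain ⟨f, hf⟩ := pairing_surjective N δ hδ lam
  refine ⟨f, fun k hk => ?_⟩
  obtain ⟨τ, h1, h2⟩ := qInt_eq_pairing N δ hδ k hk
  rw [h1 f, hf, ← h2]
  have h3 : lam (phi N τ) - ev N τ = ev N (s (phi N τ) - τ) := by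
    rw [map_sub]
    rfl
  rw [h3, ← Ideal.mem_span_singleton, ← hm, mem_congIdeal_iff]
  exact ⟨_, by rw [map_sub, hs', sub_self], rfl⟩

/-- the two quotients are isomorphic -/
theorem card_quot_eq_card_congIdeal :
    Nat.card (↥(heckeLatticeAlgebra N ∅) ⧸ Ideal.map (phi N) (eisensteinIdeal N)) =
      Nat.card (ℤ ⧸ congIdeal N) := by
  set g₁ : HeckeAlg →+* ↥(heckeLatticeAlgebra N ∅) ⧸ Ideal.map (phi N) (eisensteinIdeal N) :=
    (Ideal.Quotient.mk _).comp (phi N) with hg₁
  set g₂ : HeckeAlg →+* ℤ ⧸ congIdeal N := (Ideal.Quotient.mk _).comp (ev N) with hg₂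
  have hs₁ : Function.Surjective g₁ :=
    Ideal.Quotient.mk_surjective.comp (phi_surjective N)
  have hs₂ : Function.Surjective g₂ :=
    Ideal.Quotient.mk_surjective.comp (ev_surjective N)
  have hk₁ : RingHom.ker g₁ = eisensteinIdeal N ⊔ RingHom.ker (phi N) := by
    rw [hg₁, ← RingHom.comap_ker, Ideal.mk_ker,
      Ideal.comap_map_of_surjective (phi N) (phi_surjective N), RingHom.ker_eq_comap_bot]
  have hk₂ : RingHom.ker g₂ = RingHom.ker (phi N) ⊔ eisensteinIdeal N := by
    rw [hg₂, ← RingHom.comap_ker, Ideal.mk_ker, congIdeal,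
      Ideal.comap_map_of_surjective (ev N) (ev_surjective N), ← RingHom.ker_eq_comap_bot, ker_ev]
  have hk : RingHom.ker g₁ = RingHom.ker g₂ := by rw [hk₁, hk₂, sup_comm]
  exact Nat.card_congr
    (((RingHom.quotientKerEquivOfSurjective hs₁).symm.trans
      (Ideal.quotEquivOfEq hk)).trans (RingHom.quotientKerEquivOfSurjective hs₂)).toEquiv

theorem card_quot_of_congIdeal_eq (n : ℕ) (h : congIdeal N = Ideal.span {(n : ℤ)}) :
    Nat.card (↥(heckeLatticeAlgebra N ∅) ⧸ Ideal.map (phi N) (eisensteinIdeal N)) = n := by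
  rw [card_quot_eq_card_congIdeal, h, Nat.card_congr (Int.quotientSpanNatEquivZMod n).toEquiv,
    Nat.card_zmod]

end general

/-- a cusp form congruent to `δ` is a lattice element congruent to `δ` -/
theorem exists_lattice_of_isCongDelta (p : ℕ) [NeZero p] (M : ℕ) (f : CuspForm (Gamma0 p) 2)
    (hf : IsCongDelta p M f) :
    ∃ g : ↥(intLattice p 2), ∀ k, 1 ≤ k → (M : ℤ) ∣ qInt p g k - sigmaP p k := by
  have hmem : f ∈ intLattice p 2 := by
    rw [Fermat.Agent.S49.mem_intLattice_iff]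
    intro n
    obtain ⟨a, ha, _⟩ := hf n
    exact ⟨a, ha⟩
  refine ⟨⟨f, hmem⟩, fun k hk => ?_⟩
  obtain ⟨a, ha, h2⟩ := hf k
  have : qInt p ⟨f, hmem⟩ k = a := (qInt_eq_iff p ⟨f, hmem⟩ k a).2 ha
  rw [this]
  exact h2 hk

theorem isCongDelta_of_lattice (p : ℕ) [NeZero p] (M : ℕ) (g : ↥(intLattice p 2))
    (hg : ∀ k, 1 ≤ k → (M : ℤ) ∣ qInt p g k - sigmaP p k) :
    IsCongDelta p M (g : CuspForm (Gamma0 p) 2) := by
  intro k
  exact ⟨qInt p g k, (qInt_spec p g k).symm, hg k⟩

theorem congIdeal_eq_of_A_B (p : ℕ) [NeZero p] (hp : p.Prime) (hA : StmtA p) (hB : StmtB p) :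
    congIdeal p = Ideal.span {((eisensteinNumerator p : ℕ) : ℤ)} := by
  have hδ := isEisSeq_sigmaP p hp
  apply le_antisymm
  · obtain ⟨f, hf⟩ := hA
    obtain ⟨g, hg⟩ := exists_lattice_of_isCongDelta p _ f hf
    exact congIdeal_le p (sigmaP p) hδ _ g hg
  · obtain ⟨m, hm⟩ : ∃ m : ℤ, congIdeal p = Ideal.span {m} := by
      obtain ⟨m, hm⟩ := (IsPrincipalIdealRing.principal (congIdeal p)).principal
      exact ⟨m, hm⟩
    obtain ⟨g, hg⟩ := exists_cong p (sigmaP p) hδ m hm
    have hg' : ∀ k, 1 ≤ k → ((m.natAbs : ℕ) : ℤ) ∣ qInt p g k - sigmaP p k := fun k hk =>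
      Int.natAbs_dvd.mpr (hg k hk)
    have hdvd : m.natAbs ∣ eisensteinNumerator p :=
      hB m.natAbs ⟨_, isCongDelta_of_lattice p _ g hg'⟩
    rw [hm, Ideal.span_singleton_le_span_singleton]
    exact Int.natAbs_dvd_natAbs.mp (by simpa using hdvd)

end Fermat.Agent.S16.Dual

namespace Fermat.Agent.S16

open ModularCurve CuspForm

/-- **Piece (C)**: the index of the Eisenstein ideal, given (A) and (B). -/
theorem card_of_A_B (p : ℕ) [Fact p.Prime] (hA : StmtA p) (hB : StmtB p) :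
    Nat.card (↥(heckeLatticeAlgebra p ∅) ⧸
        Ideal.map ((latticeRestrictHom p ∅).toRingHom.comp (heckeEvalForms p 2))
          (eisensteinIdeal p)) =
      eisensteinNumerator p :=
  Dual.card_quot_of_congIdeal_eq p (eisensteinNumerator p)
    (Dual.congIdeal_eq_of_A_B p (Fact.out) hA hB)

end Fermat.Agent.S16

end
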