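/-
S16 piece P-l1 (helper88), part A: closure properties of `LevelOne k` and the identification of
`e4`, `e6`, `dl` with the `q`-expansions of `E₄`, `E₆`, `Δ`.
-/
import Fermat.Agent.S16.Defs
import Fermat.Agent.S23.LevelOneInt
import Fermat.Agent.S28.DerivBridge
import Fermat.Agent.S20.LevelOneC
import Fermat.Agent.S20.LevelOneInfty
import Fermat.Prelude.Thm_ModularForm_levelOne_eq_zero_of_lt_order_qExpansion

set_option autoImplicit false

open CongruenceSubgroup UpperHalfPlane ModularForm ModularFormClass EisensteinSeries Derivative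
open scoped MatrixGroups ModularForm Manifold

namespace Fermat.Agent.S16

theorem l1_add {k : ℤ} {a b : PowerSeries ℂ} (ha : a ∈ LevelOne k) (hb : b ∈ LevelOne k) :
    a + b ∈ LevelOne k := by
  obtain ⟨F, rfl⟩ := ha
  obtain ⟨G, rfl⟩ := hb
  exact ⟨F + G, (ModularForm.qExpansion_add one_pos one_mem_strictPeriods_SL F G).symm⟩

theorem l1_smul {k : ℤ} (c : ℂ) {a : PowerSeries ℂ} (ha : a ∈ LevelOne k) :
    PowerSeries.C c * a ∈ LevelOne k := by
  obtain ⟨F, rfl⟩ := ha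
  refine ⟨c • F, ?_⟩
  have := ModularForm.qExpansion_smul one_pos one_mem_strictPeriods_SL c F
  rw [← PowerSeries.smul_eq_C_mul]
  exact this.symm

theorem l1_mul {k l : ℤ} {a b : PowerSeries ℂ} (ha : a ∈ LevelOne k) (hb : b ∈ LevelOne l) :
    a * b ∈ LevelOne (k + l) := by
  obtain ⟨F, rfl⟩ := ha
  obtain ⟨G, rfl⟩ := hb
  exact ⟨F.mul G, (ModularForm.qExpansion_mul one_pos one_mem_strictPeriods_SL F G).symm⟩

theorem l1_one_mem : (1 : PowerSeries ℂ) ∈ LevelOne 0 :=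
  ⟨1, (ModularForm.qExpansion_one).symm⟩

theorem l1_e4_eq : e4 = qExpansion 1 E₄ := by
  ext n
  rw [Fermat.Agent.S23.levelOneInt_E4_coeff, e4, PowerSeries.coeff_mk]

theorem l1_e6_eq : e6 = qExpansion 1 E₆ := by
  ext n
  rw [Fermat.Agent.S23.levelOneInt_E6_coeff, e6, PowerSeries.coeff_mk]

theorem l1_e4_mem : e4 ∈ LevelOne 4 := ⟨E₄, l1_e4_eq⟩

theorem l1_e6_mem : e6 ∈ LevelOne 6 := ⟨E₆, l1_e6_eq⟩

theorem l1_dl_eq : dl = qExpansion 1 ModularForm.discriminant := by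
  have h := Fermat.Agent.S23.levelOneInt_discriminant_qExpansion_mul
  rw [← l1_e4_eq, ← l1_e6_eq] at h
  rw [dl, ← h, ← mul_assoc, ← map_mul]
  simp

theorem l1_dl_mem : dl ∈ LevelOne 12 :=
  ⟨(CuspForm.discriminant : CuspForm 𝒮ℒ 12), l1_dl_eq⟩


theorem l1_dl_coeff_zero : dl.coeff 0 = 0 := by
  rw [l1_dl_eq]
  exact Fermat.Agent.S23.levelOneInt_discriminant_coeff_zero

theorem l1_dl_coeff_one : dl.coeff 1 = 1 := by
  rw [l1_dl_eq]
  exact ModularForm.discriminant_qExpansion_coeff_one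

theorem l1_dl_int (n : ℕ) : ∃ m : ℤ, dl.coeff n = (m : ℂ) := by
  rw [l1_dl_eq]
  exact Fermat.Agent.S23.discriminant_qExpansion_int n

/-! ### `θ Δ = E₂ Δ` -/

theorem l1_isHPB_discriminant : Fermat.Agent.S23.IsHPB (ModularForm.discriminant : ℍ → ℂ) := by
  have : Fact (IsCusp OnePoint.infty 𝒮ℒ) :=
    ⟨Subgroup.isCusp_of_mem_strictPeriods one_pos one_mem_strictPeriods_SL⟩
  exact ⟨ModularFormClass.holo CuspForm.discriminant,
    SlashInvariantFormClass.periodic_comp_ofComplex CuspForm.discriminant one_mem_strictPeriods_SL,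
    ModularFormClass.bdd_at_infty CuspForm.discriminant⟩

theorem l1_isHPB_E2 : Fermat.Agent.S23.IsHPB E2 :=
  ⟨E2_mdifferentiable, Fermat.Agent.S20.periodic_E2, isBoundedAtImInfty_E2⟩

end Fermat.Agent.S16
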