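/-
S16 piece P-l1 (helper88), part B: `θ Δ = E₂ Δ`, the valence (Sturm) bound, division by `Δ`,
small weights, and the final `l1Package : L1Package`.
-/
import Fermat.Agent.S16.LevelOneBasic

set_option autoImplicit false

open CongruenceSubgroup UpperHalfPlane ModularForm ModularFormClass EisensteinSeries Derivative
open scoped MatrixGroups ModularForm Manifold

namespace Fermat.Agent.S16

theorem l1_e2_eq : e2 = qExpansion 1 E2 := by
  ext n
  have hsum : ∀ τ : ℍ, HasSum (fun m : ℕ ↦
      (if m = 0 then 1 else -24 * (ArithmeticFunction.sigma 1 m : ℂ) : ℂ) •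
      Function.Periodic.qParam 1 τ ^ m) (E2 τ) := fun τ => by
    simpa only [Function.Periodic.qParam, Complex.ofReal_one, div_one] using
      hasSum_qExpansion_E2 (z := τ)
  rw [e2, PowerSeries.coeff_mk]
  exact UpperHalfPlane.qExpansion_coeff_unique
    (c := fun m : ℕ => (if m = 0 then 1 else -24 * (ArithmeticFunction.sigma 1 m : ℂ) : ℂ))
    (ContinuousMap.mk E2 E2_mdifferentiable.continuous) one_pos l1_isHPB_E2.analyticAt
    (fun τ => hsum τ) n

theorem l1_D_discriminant (z : ℍ) :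
    D (ModularForm.discriminant : ℍ → ℂ) z = E2 z * ModularForm.discriminant z := by
  have hz : (z : ℂ) ∈ upperHalfPlaneSet := z.2
  have hdiff : DifferentiableAt ℂ eta (z : ℂ) := differentiableAt_eta_of_mem_upperHalfPlaneSet hz
  have heq : (ModularForm.discriminant ∘ ofComplex) =ᶠ[nhds (z : ℂ)] fun w => eta w ^ 24 := by
    filter_upwards [isOpen_upperHalfPlaneSet.mem_nhds hz] with w hw
    simp [ModularForm.discriminant, ofComplex_apply_of_im_pos hw]
  have hlog := logDeriv_eta_eq_E2 z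
  have hne : eta (z : ℂ) ≠ 0 := eta_ne_zero z.2
  rw [logDeriv_apply, div_eq_iff hne] at hlog
  have hder : deriv (fun w => eta w ^ 24) (z : ℂ) = 24 * eta z ^ 23 * deriv eta z := by
    have := (hdiff.hasDerivAt.pow 24).deriv
    rw [show (fun w => eta w ^ 24) = eta ^ 24 from rfl]
    simpa using this
  rw [normalizedDerivOfComplex, heq.deriv_eq, hder, hlog]
  have h2pi : (2 * (Real.pi : ℂ) * Complex.I) ≠ 0 := by
    simp [Real.pi_ne_zero]
  simp only [ModularForm.discriminant]
  field_simp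
  ring

theorem l1_theta_dl : theta dl = e2 * dl := by
  have h1 : theta dl = qExpansion 1 (D (ModularForm.discriminant : ℍ → ℂ)) := by
    ext n
    rw [Fermat.Agent.S28.qExpansion_D_coeff l1_isHPB_discriminant, theta, PowerSeries.coeff_mk,
      l1_dl_eq]
  have h2 : D (ModularForm.discriminant : ℍ → ℂ) = E2 * (ModularForm.discriminant : ℍ → ℂ) := by
    funext z
    exact l1_D_discriminant z
  rw [h1, h2, qExpansion_mul l1_isHPB_E2.analyticAt l1_isHPB_discriminant.analyticAt, ← l1_e2_eq,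
    ← l1_dl_eq]

/-! ### Valence bound, division by `Δ`, small weights -/

theorem l1_neg_weight {k : ℤ} {a : PowerSeries ℂ} (ha : a ∈ LevelOne k) (hk : k < 0) : a = 0 := by
  obtain ⟨F, rfl⟩ := ha
  have hF : F = 0 := rank_zero_iff_forall_zero.mp (ModularForm.levelOne_neg_weight_rank_zero hk) F
  rw [hF]
  exact qExpansion_zero 1

theorem l1_sturm {k : ℤ} {a : PowerSeries ℂ} (ha : a ∈ LevelOne k)
    (h : ∀ n : ℕ, 12 * (n : ℤ) ≤ k → a.coeff n = 0) : a = 0 := by
  rcases lt_or_ge k 0 with hk | hk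
  · exact l1_neg_weight ha hk
  obtain ⟨F, rfl⟩ := ha
  have hF : F = 0 := by
    apply ModularForm.levelOne_eq_zero_of_lt_order_qExpansion 1 one_pos F
    rw [Nat.cast_one, one_mul]
    have hle : ((k.toNat / 12 + 1 : ℕ) : ℕ∞) ≤ (qExpansion 1 F).order := by
      apply PowerSeries.nat_le_order
      intro i hi
      apply h
      have h1 : i ≤ k.toNat / 12 := by omega
      have h2 : 12 * i ≤ k.toNat := by
        have := Nat.mul_le_mul_left 12 h1
        have h3 := Nat.mul_div_le k.toNat 12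
        omega
      have h3 : (k.toNat : ℤ) = k := Int.toNat_of_nonneg hk
      omega
    refine lt_of_lt_of_le ?_ hle
    exact_mod_cast Nat.lt_succ_self _
  rw [hF]
  exact qExpansion_zero 1

theorem l1_div_dl {k : ℤ} {a : PowerSeries ℂ} (ha : a ∈ LevelOne k) (h0 : a.coeff 0 = 0) :
    ∃ b ∈ LevelOne (k - 12), a = dl * b := by
  obtain ⟨F, rfl⟩ := ha
  obtain ⟨h, hh⟩ := Fermat.Agent.S20.levelOne_eq_delta_mul_of_coeff_zero F h0
  refine ⟨qExpansion 1 h, ⟨h, rfl⟩, ?_⟩
  have hfun : (F : ℍ → ℂ) = (⇑CuspForm.discriminant * ⇑h : ℍ → ℂ) := by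
    funext z
    rw [hh z]
    rfl
  rw [hfun, ModularForm.qExpansion_mul_coe one_pos one_mem_strictPeriods_SL
    CuspForm.discriminant h, l1_dl_eq]
  rfl

theorem l1_const_of_nonpos {k : ℤ} {a : PowerSeries ℂ} (ha : a ∈ LevelOne k) (hk : k ≤ 0) :
    a = PowerSeries.C (a.coeff 0) ∧ (k < 0 → a = 0) := by
  refine ⟨?_, fun hk' => l1_neg_weight ha hk'⟩
  rcases lt_or_eq_of_le hk with hk' | rfl
  · rw [l1_neg_weight ha hk']
    simp
  · obtain ⟨F, rfl⟩ := ha
    obtain ⟨c, hc⟩ := ModularFormClass.levelOne_weight_zero_const F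
    have hF : (F : ℍ → ℂ) = c • (1 : ℍ → ℂ) := by
      rw [hc]
      funext z
      simp
    have hq : qExpansion 1 (F : ℍ → ℂ) = PowerSeries.C c := by
      have han : AnalyticAt ℂ (cuspFunction 1 (1 : ℍ → ℂ)) 0 :=
        (Fermat.Agent.S23.qring_isHPB_const 1).analyticAt
      rw [hF, UpperHalfPlane.qExpansion_smul han, UpperHalfPlane.qExpansion_one,
        PowerSeries.smul_eq_C_mul, mul_one]
    rw [hq]
    simp

theorem l1_weight_two {a : PowerSeries ℂ} (ha : a ∈ LevelOne 2) : a = 0 := by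
  obtain ⟨F, rfl⟩ := ha
  have hF : F = 0 := rank_zero_iff_forall_zero.mp ModularForm.levelOne_weight_two_rank_zero F
  rw [hF]
  exact qExpansion_zero 1

theorem l1_odd {k : ℤ} {a : PowerSeries ℂ} (ha : a ∈ LevelOne k) (hk : ¬ 2 ∣ k) : a = 0 := by
  obtain ⟨F, rfl⟩ := ha
  have hodd : Odd k := by
    rcases Int.even_or_odd k with he | ho
    · exact absurd (even_iff_two_dvd.mp he) hk
    · exact ho
  rw [ModularForm.levelOne_odd_weight_eq_zero hodd F]
  exact qExpansion_zero 1

/-- **S16, piece P-l1.** The package of level-one facts. -/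
theorem l1Package : L1Package where
  add := l1_add
  smul := l1_smul
  mul := l1_mul
  one_mem := l1_one_mem
  e4_mem := l1_e4_mem
  e6_mem := l1_e6_mem
  dl_mem := l1_dl_mem
  dl_coeff_zero := l1_dl_coeff_zero
  dl_coeff_one := l1_dl_coeff_one
  dl_int := l1_dl_int
  theta_dl := l1_theta_dl
  sturm := l1_sturm
  div_dl := l1_div_dl
  const_of_nonpos := l1_const_of_nonpos
  weight_two := l1_weight_two
  odd := l1_odd

end Fermat.Agent.S16
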