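/-
S16, shared tools (helper40): functions on `ℍ` that are holomorphic, bounded at `i∞` and periodic
of period `h` ("nice"), and their `q`-expansions in `q_h = e(z/h)`.
Used for the expansions of `F` (period 1) and `F ∣ S` (period `p`) for `F ∈ M_k(Γ0(p))`.
-/
import Fermat.Agent.S16.Defs
import Fermat.Prelude.Thm_CongruenceSubgroup_one_mem_strictPeriods_Gamma0

set_option autoImplicit false

open CongruenceSubgroup UpperHalfPlane ModularForm ModularFormClass Function Filter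
open scoped MatrixGroups ModularForm Manifold Topology

namespace Fermat.Agent.S16

local notation "𝕢" => Periodic.qParam

/-- `f` is holomorphic on `ℍ`, bounded at `i∞` and periodic of period `h`. -/
structure IsNice (h : ℝ) (f : ℍ → ℂ) : Prop where
  per : Periodic (f ∘ ofComplex) h
  holo : MDiff f
  bdd : IsBoundedAtImInfty f

/-- Periodicity on `ℍ` gives periodicity of `f ∘ ofComplex`. -/
theorem periodic_comp_ofComplex_of_vadd {h : ℝ} {f : ℍ → ℂ}
    (hf : ∀ z : ℍ, f (h +ᵥ z) = f z) : Periodic (f ∘ ofComplex) h := by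
  intro w
  by_cases hw : 0 < Complex.im w
  · have : 0 < Complex.im (w + h) := by simp [hw]
    simp only [comp_apply, ofComplex_apply_of_im_pos this, ofComplex_apply_of_im_pos hw]
    rw [← hf ⟨w, hw⟩]
    congr 1
    ext
    simp [add_comm]
  · have hw' : Complex.im w ≤ 0 := not_lt.mp hw
    have : Complex.im (w + h) ≤ 0 := by simpa using hw'
    simp [ofComplex_apply_of_im_nonpos this, ofComplex_apply_of_im_nonpos hw']

theorem IsNice.of_vadd {h : ℝ} {f : ℍ → ℂ} (hf : ∀ z : ℍ, f (h +ᵥ z) = f z) (h1 : MDiff f)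
    (h2 : IsBoundedAtImInfty f) : IsNice h f :=
  ⟨periodic_comp_ofComplex_of_vadd hf, h1, h2⟩

/-- Periodicity of `f ∘ ofComplex` gives periodicity on `ℍ`. -/
theorem IsNice.vadd {h : ℝ} {f : ℍ → ℂ} (hf : IsNice h f) (z : ℍ) : f (h +ᵥ z) = f z := by
  have := hf.per (z : ℂ)
  simp only [comp_apply, ofComplex_apply] at this
  rw [← this]
  congr 1
  have him : 0 < Complex.im ((z : ℂ) + h) := by simp [z.im_pos]
  rw [ofComplex_apply_of_im_pos him]
  ext
  simp [add_comm]

namespace IsNice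

variable {h : ℝ} {f g : ℍ → ℂ}

theorem analyticAt (hf : IsNice h f) (hh : 0 < h) : AnalyticAt ℂ (cuspFunction h f) 0 :=
  analyticAt_cuspFunction_zero hh hf.per hf.holo hf.bdd

theorem hasSum (hf : IsNice h f) (hh : 0 < h) (τ : ℍ) :
    HasSum (fun m : ℕ ↦ (qExpansion h f).coeff m • 𝕢 h τ ^ m) (f τ) :=
  hasSum_qExpansion hh hf.per hf.holo hf.bdd τ

theorem add (hf : IsNice h f) (hg : IsNice h g) : IsNice h (f + g) :=
  of_vadd (fun z => by simp [hf.vadd z, hg.vadd z]) (hf.holo.add hg.holo) (hf.bdd.add hg.bdd)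

theorem mul (hf : IsNice h f) (hg : IsNice h g) : IsNice h (f * g) :=
  of_vadd (fun z => by simp [hf.vadd z, hg.vadd z]) (hf.holo.mul hg.holo) (hf.bdd.mul hg.bdd)

theorem smul (hf : IsNice h f) (c : ℂ) : IsNice h (c • f) :=
  of_vadd (fun z => by simp [hf.vadd z]) (hf.holo.const_smul c) (hf.bdd.const_smul_left c)

theorem neg (hf : IsNice h f) : IsNice h (-f) := by
  have := hf.smul (-1)
  simpa using this

theorem sub (hf : IsNice h f) (hg : IsNice h g) : IsNice h (f - g) := by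
  rw [sub_eq_add_neg]
  exact hf.add hg.neg

theorem zero : IsNice h (0 : ℍ → ℂ) :=
  of_vadd (fun _ => rfl) (by exact mdifferentiable_const) (zero_form_isBoundedAtImInfty)

theorem qExpansion_add (hf : IsNice h f) (hg : IsNice h g) (hh : 0 < h) :
    qExpansion h (f + g) = qExpansion h f + qExpansion h g :=
  UpperHalfPlane.qExpansion_add (hf.analyticAt hh) (hg.analyticAt hh)

theorem qExpansion_mul (hf : IsNice h f) (hg : IsNice h g) (hh : 0 < h) :
    qExpansion h (f * g) = qExpansion h f * qExpansion h g :=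
  UpperHalfPlane.qExpansion_mul (hf.analyticAt hh) (hg.analyticAt hh)

theorem qExpansion_smul (hf : IsNice h f) (hh : 0 < h) (c : ℂ) :
    qExpansion h (c • f) = PowerSeries.C c * qExpansion h f := by
  rw [UpperHalfPlane.qExpansion_smul (hf.analyticAt hh)]
  ext n
  simp

/-- Uniqueness of the `q`-expansion. -/
theorem qExpansion_eq_of_hasSum (hf : IsNice h f) (hh : 0 < h) (c : ℕ → ℂ)
    (hc : ∀ τ : ℍ, HasSum (fun m ↦ c m • 𝕢 h τ ^ m) (f τ)) :
    qExpansion h f = PowerSeries.mk c := by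
  letI : FunLike (ℍ → ℂ) ℍ ℂ := ⟨fun f => f, fun _ _ h => h⟩
  ext m
  rw [PowerSeries.coeff_mk]
  exact (UpperHalfPlane.qExpansion_coeff_unique (F := ℍ → ℂ) f hh (hf.analyticAt hh) hc m).symm

end IsNice

/-- Slash invariance under `Γ0(N)`, for elements of `SL(2,ℤ)`. -/
theorem slash_of_mem_Gamma0 {N : ℕ} {k : ℤ} (F : ModularForm (Gamma0 N) k) {γ : SL(2, ℤ)}
    (hγ : γ ∈ Gamma0 N) : ⇑F ∣[k] γ = ⇑F := by
  rw [SL_slash]
  exact SlashInvariantForm.slash_action_eqn F _ ⟨γ, hγ, rfl⟩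

theorem denom_SL (γ : SL(2, ℤ)) (z : ℍ) :
    denom (Matrix.SpecialLinearGroup.toGL
      ((Matrix.SpecialLinearGroup.map (Int.castRingHom ℝ)) γ)) (z : ℂ) =
      (γ 1 0 : ℂ) * z + (γ 1 1 : ℂ) := by
  simp [denom]

theorem slash_T_zpow_apply (k : ℤ) (H : ℍ → ℂ) (n : ℤ) (z : ℍ) :
    (H ∣[k] (ModularGroup.T ^ n)) z = H ((n : ℝ) +ᵥ z) := by
  rw [SL_slash_apply, modular_T_zpow_smul, denom_SL, ModularGroup.coe_T_zpow]
  simp

/-- The matrix `S T^n S⁻¹ = (1 0; -n 1)`. -/
theorem S_mul_T_zpow_mul_S_inv (n : ℤ) :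
    ((ModularGroup.S * ModularGroup.T ^ n * ModularGroup.S⁻¹ : SL(2, ℤ)) :
      Matrix (Fin 2) (Fin 2) ℤ) = !![1, 0; -n, 1] := by
  rw [Matrix.SpecialLinearGroup.coe_mul, Matrix.SpecialLinearGroup.coe_mul,
    ModularGroup.coe_T_zpow, Matrix.SpecialLinearGroup.coe_inv, ModularGroup.coe_S]
  ext i j
  fin_cases i <;> fin_cases j <;> simp [Matrix.mul_apply, Fin.sum_univ_two, Matrix.adjugate_fin_two]

theorem S_mul_T_zpow_mem (p : ℕ) :
    ModularGroup.S * ModularGroup.T ^ (p : ℤ) * ModularGroup.S⁻¹ ∈ Gamma0 p := by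
  rw [Gamma0_mem, S_mul_T_zpow_mul_S_inv]
  simp

/-- `F ∣ S` has period `p` for `F` on `Γ0(p)`. -/
theorem slash_S_vadd {p : ℕ} {k : ℤ} (F : ModularForm (Gamma0 p) k) (z : ℍ) :
    (⇑F ∣[k] ModularGroup.S) (((p : ℕ) : ℝ) +ᵥ z) = (⇑F ∣[k] ModularGroup.S) z := by
  have h1 : (⇑F ∣[k] ModularGroup.S) ∣[k] (ModularGroup.T ^ (p : ℤ)) = ⇑F ∣[k] ModularGroup.S := by
    rw [← SlashAction.slash_mul]
    have : ModularGroup.S * ModularGroup.T ^ (p : ℤ) =
        (ModularGroup.S * ModularGroup.T ^ (p : ℤ) * ModularGroup.S⁻¹) * ModularGroup.S := by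
      group
    rw [this, SlashAction.slash_mul, slash_of_mem_Gamma0 F (S_mul_T_zpow_mem p)]
  have h2 := congrFun h1 z
  rw [slash_T_zpow_apply] at h2
  simpa using h2

theorem isNice_coe {p : ℕ} [NeZero p] {k : ℤ} (F : ModularForm (Gamma0 p) k) : IsNice 1 ⇑F where
  per := SlashInvariantFormClass.periodic_comp_ofComplex F (one_mem_strictPeriods_Gamma0 p)
  holo := ModularFormClass.holo F
  bdd := by
    have := ModularFormClass.bdd_at_infty_slash F (1 : SL(2, ℤ))
    simpa using this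

theorem isNice_slash_S {p : ℕ} [NeZero p] {k : ℤ} (F : ModularForm (Gamma0 p) k) :
    IsNice (p : ℝ) (⇑F ∣[k] ModularGroup.S) :=
  IsNice.of_vadd (slash_S_vadd F)
    (by rw [SL_slash]; exact (ModularFormClass.holo F).slash k _)
    (ModularFormClass.bdd_at_infty_slash F ModularGroup.S)

/-- The map `z ↦ c z` on `ℍ`, for `c > 0`. -/
def scaleH (c : ℝ) (hc : 0 < c) (z : ℍ) : ℍ :=
  ⟨(c : ℂ) * z, by
    have : ((c : ℂ) * (z : ℂ)).im = c * z.im := by simp
    rw [this]; exact mul_pos hc z.im_pos⟩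

@[simp] theorem coe_scaleH (c : ℝ) (hc : 0 < c) (z : ℍ) :
    ((scaleH c hc z : ℍ) : ℂ) = (c : ℂ) * z := rfl

theorem im_scaleH (c : ℝ) (hc : 0 < c) (z : ℍ) : (scaleH c hc z).im = c * z.im := by
  change ((c : ℂ) * (z : ℂ)).im = c * z.im
  simp

theorem tendsto_scaleH (c : ℝ) (hc : 0 < c) : Tendsto (scaleH c hc) atImInfty atImInfty := by
  rw [atImInfty, tendsto_comap_iff]
  have : (im ∘ scaleH c hc) = fun z : ℍ => c * z.im := funext fun z => im_scaleH c hc z
  rw [this]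
  exact Tendsto.const_mul_atTop hc tendsto_comap

theorem qParam_scaleH (c : ℝ) (hc : 0 < c) (h : ℝ) (z : ℍ) :
    𝕢 h (scaleH c hc z : ℂ) = 𝕢 (h / c) (z : ℂ) := by
  simp only [Periodic.qParam, coe_scaleH]
  congr 1
  push_cast
  field_simp

theorem mdiff_comp_scaleH (c : ℝ) (hc : 0 < c) {f : ℍ → ℂ} (hf : MDiff f) :
    MDiff (fun z => f (scaleH c hc z)) := by
  rw [UpperHalfPlane.mdifferentiable_iff] at hf ⊢
  have hmap : ∀ w : ℂ, 0 < w.im → 0 < ((c : ℂ) * w).im := by
    intro w hw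
    have : ((c : ℂ) * w).im = c * w.im := by simp
    rw [this]; exact mul_pos hc hw
  have e : Set.EqOn ((fun z => f (scaleH c hc z)) ∘ ofComplex)
      ((f ∘ ofComplex) ∘ fun w : ℂ => (c : ℂ) * w) {w | 0 < w.im} := by
    intro w hw
    simp only [comp_apply]
    rw [ofComplex_apply_of_im_pos hw, ofComplex_apply_of_im_pos (hmap w hw)]
    rfl
  refine DifferentiableOn.congr ?_ e
  exact hf.comp (by fun_prop) (fun w hw => hmap w hw)

/-- Scaling the variable: `f(c z)` is nice of period `h / c`, with the same `q`-expansion. -/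
theorem IsNice.comp_scaleH {h : ℝ} {f : ℍ → ℂ} (hf : IsNice h f) (c : ℝ) (hc : 0 < c) :
    IsNice (h / c) (fun z => f (scaleH c hc z)) := by
  refine IsNice.of_vadd (fun z => ?_) (mdiff_comp_scaleH c hc hf.holo)
    (hf.bdd.comp_tendsto (tendsto_scaleH c hc))
  have : scaleH c hc ((h / c) +ᵥ z) = h +ᵥ scaleH c hc z := by
    have hc' : (c : ℂ) ≠ 0 := by exact_mod_cast hc.ne'
    ext
    simp
    field_simp
  simp only [this, hf.vadd]

theorem IsNice.qExpansion_comp_scaleH {h : ℝ} {f : ℍ → ℂ} (hf : IsNice h f) (hh : 0 < h)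
    (c : ℝ) (hc : 0 < c) :
    qExpansion (h / c) (fun z => f (scaleH c hc z)) = qExpansion h f := by
  have h1 := (hf.comp_scaleH c hc).qExpansion_eq_of_hasSum (div_pos hh hc)
    (fun m => (qExpansion h f).coeff m) (fun τ => by
      have := hf.hasSum hh (scaleH c hc τ)
      rwa [qParam_scaleH] at this)
  rw [h1]
  ext m
  simp

end Fermat.Agent.S16
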