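/-
S16 (helper40): the `p + 1` cosets of `Γ0(p)` in `SL(2,ℤ)`, represented by `1` and `(S T^j)⁻¹`.
-/
import Fermat.Agent.S16.QExp
import Fermat.Agent.S20.Conj
import Fermat.Agent.S20.Glue

set_option autoImplicit false

open CongruenceSubgroup UpperHalfPlane ModularForm ModularFormClass Function Filter
open Fermat.Agent.S20
open scoped MatrixGroups ModularForm Manifold Topology

namespace Fermat.Agent.S16

/-- The coset representatives `1`, `(S T^j)⁻¹` (`0 ≤ j < p`) of `SL(2,ℤ)/Γ0(p)`. -/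
noncomputable def cosetRep (p : ℕ) : Option (Fin p) → SL(2, ℤ)
  | none => 1
  | some j => (ModularGroup.S * ModularGroup.T ^ ((j : ℕ) : ℤ))⁻¹

theorem coe_S_mul_T_zpow (n : ℤ) :
    ((ModularGroup.S * ModularGroup.T ^ n : SL(2, ℤ)) : Matrix (Fin 2) (Fin 2) ℤ) =
      !![0, -1; 1, n] := by
  rw [Matrix.SpecialLinearGroup.coe_mul, ModularGroup.coe_T_zpow, ModularGroup.coe_S]
  ext i j
  fin_cases i <;> fin_cases j <;> simp [Matrix.mul_apply, Fin.sum_univ_two]

theorem cosetRep_injective (p : ℕ) [Fact p.Prime] :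
    Function.Injective (fun o : Option (Fin p) => mkQ p (cosetRep p o)) := by
  have hp : p.Prime := Fact.out
  have hp1 : ¬ (p : ℤ) ∣ 1 := by
    intro h
    have := Int.natAbs_dvd_natAbs.mpr h
    simp at this
    exact hp.one_lt.ne' this
  intro a b hab
  simp only [mkQ_eq_iff] at hab
  rw [mem_Gamma0_iff_dvd] at hab
  rcases a with _ | i <;> rcases b with _ | j
  · rfl
  · exfalso
    simp only [cosetRep, inv_one, one_mul] at hab
    rw [Matrix.SpecialLinearGroup.coe_inv, coe_S_mul_T_zpow] at hab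
    simp [Matrix.adjugate_fin_two] at hab
    exact hp1 hab
  · exfalso
    simp only [cosetRep, inv_inv, mul_one] at hab
    rw [coe_S_mul_T_zpow] at hab
    simp at hab
    exact hp1 hab
  · simp only [cosetRep, inv_inv] at hab
    have e : ModularGroup.S * ModularGroup.T ^ ((i : ℕ) : ℤ) *
        (ModularGroup.S * ModularGroup.T ^ ((j : ℕ) : ℤ))⁻¹ =
        ModularGroup.S * ModularGroup.T ^ (((i : ℕ) : ℤ) - ((j : ℕ) : ℤ)) * ModularGroup.S⁻¹ := by
      rw [zpow_sub]; group
    rw [e, S_mul_T_zpow_mul_S_inv] at hab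
    simp only [Matrix.of_apply, Matrix.cons_val_one, Matrix.cons_val_zero] at hab
    rw [dvd_neg] at hab
    have hij : ((i : ℕ) : ℤ) = ((j : ℕ) : ℤ) := by
      have hi := i.2
      have hj := j.2
      have := Int.eq_of_sub_eq_zero (Int.eq_zero_of_abs_lt_dvd hab (by
        rw [abs_lt]; constructor <;> omega))
      exact this
    congr 1
    exact Fin.ext (by exact_mod_cast hij)

theorem cosetRep_bijective (p : ℕ) [Fact p.Prime] :
    Function.Bijective (fun o : Option (Fin p) => mkQ p (cosetRep p o)) := by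
  have hp : p.Prime := Fact.out
  rw [Fintype.bijective_iff_injective_and_card]
  refine ⟨cosetRep_injective p, ?_⟩
  rw [card_Q, dedekindPsi_prime hp]
  simp

/-- Sums over `SL(2,ℤ)/Γ0(p)`. -/
theorem sum_Q_eq (p : ℕ) [Fact p.Prime] {M : Type*} [AddCommMonoid M] (φ : Q p → M) :
    ∑ q : Q p, φ q = φ (mkQ p 1) +
      ∑ j ∈ Finset.range p, φ (mkQ p (ModularGroup.S * ModularGroup.T ^ ((j : ℕ) : ℤ))⁻¹) := by
  rw [← (Equiv.ofBijective _ (cosetRep_bijective p)).sum_comp, Fintype.sum_option]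
  simp only [Equiv.ofBijective_apply, cosetRep]
  congr 1
  rw [← Fin.sum_univ_eq_sum_range (fun j => φ (mkQ p (ModularGroup.S * ModularGroup.T ^ ((j : ℕ) : ℤ))⁻¹))]

end Fermat.Agent.S16
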