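/-
S16, piece P-tr (helper40): the fields `add`, `smul`, `mul`, `ofCusp`, `trace` of `TCPackage p`
(`fricke`, `toCusp` are in `Fermat/Agent/S16/Fricke.lean`).
-/
import Fermat.Agent.S16.Cosets
import Fermat.Prelude.Thm_UpperHalfPlane_qCoeff_heckeU

set_option autoImplicit false

open CongruenceSubgroup UpperHalfPlane ModularForm ModularFormClass Function Filter
open Fermat.Agent.S20
open scoped MatrixGroups ModularForm Manifold Topology

namespace Fermat.Agent.S16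

local notation "𝕢" => Periodic.qParam

variable {p : ℕ} [Fact p.Prime] {k : ℤ}

theorem tc_add (p : ℕ) [Fact p.Prime] {k : ℤ} {x y : PowerSeries ℂ × PowerSeries ℂ}
    (hx : x ∈ TwoCusp p k) (hy : y ∈ TwoCusp p k) : x + y ∈ TwoCusp p k := by
  obtain ⟨F, hF1, hF2⟩ := hx
  obtain ⟨G, hG1, hG2⟩ := hy
  refine ⟨F + G, ?_, ?_⟩
  · rw [Prod.fst_add, hF1, hG1, FunLike.coe_add,
      (isNice_coe F).qExpansion_add (isNice_coe G) one_pos]
  · have hp : (0 : ℝ) < p := by exact_mod_cast (Fact.out : p.Prime).pos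
    rw [Prod.snd_add, hF2, hG2, FunLike.coe_add, SlashAction.add_slash,
      (isNice_slash_S F).qExpansion_add (isNice_slash_S G) hp]

theorem tc_smul (p : ℕ) [Fact p.Prime] {k : ℤ} (c : ℂ) {x : PowerSeries ℂ × PowerSeries ℂ}
    (hx : x ∈ TwoCusp p k) : (PowerSeries.C c * x.1, PowerSeries.C c * x.2) ∈ TwoCusp p k := by
  obtain ⟨F, hF1, hF2⟩ := hx
  refine ⟨c • F, ?_, ?_⟩
  · show PowerSeries.C c * x.1 = _
    rw [hF1, FunLike.coe_smul, (isNice_coe F).qExpansion_smul one_pos]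
  · have hp : (0 : ℝ) < p := by exact_mod_cast (Fact.out : p.Prime).pos
    show PowerSeries.C c * x.2 = _
    rw [hF2, FunLike.coe_smul, SL_smul_slash,
      (isNice_slash_S F).qExpansion_smul hp]

theorem tc_mul (p : ℕ) [Fact p.Prime] {k l : ℤ} {x y : PowerSeries ℂ × PowerSeries ℂ}
    (hx : x ∈ TwoCusp p k) (hy : y ∈ TwoCusp p l) : (x.1 * y.1, x.2 * y.2) ∈ TwoCusp p (k + l) := by
  obtain ⟨F, hF1, hF2⟩ := hx
  obtain ⟨G, hG1, hG2⟩ := hy
  refine ⟨F.mul G, ?_, ?_⟩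
  · show x.1 * y.1 = _
    rw [hF1, hG1, ModularForm.coe_mul, (isNice_coe F).qExpansion_mul (isNice_coe G) one_pos]
  · have hp : (0 : ℝ) < p := by exact_mod_cast (Fact.out : p.Prime).pos
    show x.2 * y.2 = _
    rw [hF2, hG2, ModularForm.coe_mul, mul_slash_SL2,
      (isNice_slash_S F).qExpansion_mul (isNice_slash_S G) hp]

theorem tc_ofCusp (p : ℕ) [Fact p.Prime] (f : CuspForm (Gamma0 p) 2) :
    ∃ b : PowerSeries ℂ, (qExpansion 1 f, b) ∈ TwoCusp p 2 :=
  ⟨_, ModularFormClass.modularForm f, rfl, rfl⟩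


/-- The trace as a sum over the explicit cosets. -/
theorem trace_eq_add_sum (p : ℕ) [Fact p.Prime] {k : ℤ} (F : ModularForm (Gamma0 p) k) (z : ℍ) :
    ModularForm.trace 𝒮ℒ F z =
      F z + ∑ j ∈ Finset.range p, (⇑F ∣[k] ModularGroup.S) (((j : ℕ) : ℝ) +ᵥ z) := by
  have h := trace_apply (N := p) F z
  rw [h, sum_Q_eq p (fun q => cj F q z), cj_mkQ, inv_one]
  congr 1
  · rw [SlashAction.slash_one]
  · refine Finset.sum_congr rfl fun j _ => ?_
    rw [cj_mkQ, inv_inv, SlashAction.slash_mul, slash_T_zpow_apply]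
    simp

/-- `H(p · (τ + j)/p) = H(τ + j)`. -/
theorem scaleH_heckeMatrix_smul (p : ℕ) [Fact p.Prime] (j : ℕ) (τ : ℍ) :
    scaleH (p : ℝ) (by exact_mod_cast (Fact.out : p.Prime).pos) (heckeMatrix p j • τ) =
      ((j : ℕ) : ℝ) +ᵥ τ := by
  have hp : p ≠ 0 := (Fact.out : p.Prime).ne_zero
  have hp' : (p : ℂ) ≠ 0 := by exact_mod_cast hp
  ext
  rw [coe_scaleH, coe_heckeMatrix_smul hp]
  simp
  field_simp
  ring


/-- The `q`-expansion of `z ↦ ∑_{j<p} H(z + j)` for `H` nice of period `p`, given that the sum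
is nice of period `1`. -/
theorem qExpansion_sum_translates (p : ℕ) [Fact p.Prime] {H K : ℍ → ℂ} (hH : IsNice (p : ℝ) H)
    (hK : IsNice 1 K)
    (hKH : ∀ z, K z = ∑ j ∈ Finset.range p, H (((j : ℕ) : ℝ) +ᵥ z)) :
    qExpansion 1 K = PowerSeries.C (p : ℂ) * Up p (qExpansion (p : ℝ) H) := by
  have hp : p ≠ 0 := (Fact.out : p.Prime).ne_zero
  have hpR : (0 : ℝ) < p := by exact_mod_cast (Fact.out : p.Prime).pos
  have hpC : (p : ℂ) ≠ 0 := by exact_mod_cast hp
  -- `H'(z) = H(p z)`, nice of period 1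
  set H' : ℍ → ℂ := fun z => H (scaleH (p : ℝ) hpR z) with hH'
  have hH'nice : IsNice 1 H' := by
    have := hH.comp_scaleH (p : ℝ) hpR
    rwa [div_self hpR.ne'] at this
  have hH'q : qExpansion 1 H' = qExpansion (p : ℝ) H := by
    have := hH.qExpansion_comp_scaleH hpR (p : ℝ) hpR
    rwa [div_self hpR.ne'] at this
  -- `K = p • heckeU k p H'`
  have hU : heckeU 2 p H' = (p : ℂ)⁻¹ • K := by
    funext τ
    rw [heckeU_apply 2 hp, Pi.smul_apply, hKH, smul_eq_mul]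
    congr 1
    refine Finset.sum_congr rfl fun j _ => ?_
    simp only [hH']
    rw [scaleH_heckeMatrix_smul]
  have hK' : K = (p : ℂ) • heckeU 2 p H' := by
    rw [hU, smul_smul, mul_inv_cancel₀ hpC, one_smul]
  have hUnice : IsNice 1 (heckeU 2 p H') := by
    rw [hU]; exact hK.smul _
  rw [hK', hUnice.qExpansion_smul one_pos]
  congr 1
  ext n
  have := UpperHalfPlane.qCoeff_heckeU hH'nice.per hH'nice.holo hH'nice.bdd 2 hp n
  simp only [ModularFormClass.qCoeff, coeffHeckeU_apply] at this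
  rw [this, hH'q, Up, PowerSeries.coeff_mk, mul_comm]

theorem tc_trace (p : ℕ) [Fact p.Prime] {k : ℤ} {x : PowerSeries ℂ × PowerSeries ℂ}
    (hx : x ∈ TwoCusp p k) : x.1 + PowerSeries.C (p : ℂ) * Up p x.2 ∈ LevelOne k := by
  obtain ⟨F, hF1, hF2⟩ := hx
  refine ⟨ModularForm.trace 𝒮ℒ F, ?_⟩
  have hT : IsNice 1 ⇑(ModularForm.trace 𝒮ℒ F) :=
    ⟨SlashInvariantFormClass.periodic_comp_ofComplex _ _root_.one_mem_strictPeriods_SL,
      ModularFormClass.holo _, by
        have := ModularFormClass.bdd_at_infty_slash (ModularForm.trace 𝒮ℒ F) (1 : SL(2, ℤ))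
        simpa using this⟩
  set K : ℍ → ℂ := ⇑(ModularForm.trace 𝒮ℒ F) - ⇑F with hK
  have hKnice : IsNice 1 K := hT.sub (isNice_coe F)
  have hKH : ∀ z, K z = ∑ j ∈ Finset.range p, (⇑F ∣[k] ModularGroup.S) (((j : ℕ) : ℝ) +ᵥ z) := by
    intro z
    simp only [hK, Pi.sub_apply, trace_eq_add_sum p F z]
    ring
  have e : ⇑(ModularForm.trace 𝒮ℒ F) = ⇑F + K := by
    rw [hK]; ring
  rw [e, (isNice_coe F).qExpansion_add hKnice one_pos,
    qExpansion_sum_translates p (isNice_slash_S F) hKnice hKH, hF1, hF2]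

end Fermat.Agent.S16
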