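/-
S16, piece P-tr/toCusp (helper15): a modular form of weight 2 on `Γ0(p)` whose `q`-expansion at `∞`
has constant term `0` is a cusp form (`TCPackage.toCusp`).

The constant term at the cusp `0` vanishes because the trace to level one is a form of weight 2 on
`SL(2,ℤ)`, hence `0`: `a₀(F) + p · a₀(F ∣ S) = 0`.
-/
import Fermat.Agent.S16.Trace

set_option autoImplicit false

open CongruenceSubgroup UpperHalfPlane ModularForm ModularFormClass Function Filter
open Fermat.Agent.S20
open scoped MatrixGroups ModularForm Manifold Topology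

namespace Fermat.Agent.S16

local notation "𝕢" => Periodic.qParam

/-- A nice function tends at `i∞` to the constant term of its `q_h`-expansion. -/
theorem IsNice.tendsto_coeff_zero {h : ℝ} {f : ℍ → ℂ} (hf : IsNice h f) (hh : 0 < h) :
    Tendsto f atImInfty (𝓝 ((qExpansion h f).coeff 0)) := by
  have han := hf.analyticAt hh
  have h0 : (qExpansion h f).coeff 0 = cuspFunction h f 0 := by
    simp [qExpansion_coeff]
  rw [h0]
  have e : (cuspFunction h f ∘ fun τ : ℍ ↦ 𝕢 h τ : ℍ → ℂ) = f := by
    funext τ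
    simpa using eq_cuspFunction τ hh.ne' hf.per
  simpa [e] using han.continuousAt.tendsto.comp (qParam_tendsto_atImInfty hh)

/-- A nice function with vanishing constant term is zero at `i∞`. -/
theorem IsNice.isZeroAtImInfty {h : ℝ} {f : ℍ → ℂ} (hf : IsNice h f) (hh : 0 < h)
    (h0 : (qExpansion h f).coeff 0 = 0) : IsZeroAtImInfty f := by
  have := hf.tendsto_coeff_zero hh
  rwa [h0] at this

/-- Translation by a real number preserves vanishing at `i∞`. -/
theorem isZeroAtImInfty_vadd {f : ℍ → ℂ} (hf : IsZeroAtImInfty f) (c : ℝ) :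
    IsZeroAtImInfty (fun z : ℍ => f (c +ᵥ z)) := by
  have ht : Tendsto (fun z : ℍ => c +ᵥ z) atImInfty atImInfty := by
    rw [atImInfty, tendsto_comap_iff]
    have : (im ∘ fun z : ℍ => c +ᵥ z) = im := by
      funext z
      simp [UpperHalfPlane.vadd_im]
    rw [this]
    exact tendsto_comap
  exact hf.comp ht

/-- **`toCusp`**: a form of weight 2 on `Γ0(p)` vanishing at `∞` is a cusp form. -/
theorem tc_toCusp (p : ℕ) [Fact p.Prime] {x : PowerSeries ℂ × PowerSeries ℂ}
    (hx : x ∈ TwoCusp p 2) (h0 : x.1.coeff 0 = 0) :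
    ∃ f : CuspForm (Gamma0 p) 2, qExpansion 1 f = x.1 := by
  have hp : p ≠ 0 := (Fact.out : p.Prime).ne_zero
  have hpR : (0 : ℝ) < p := by exact_mod_cast (Fact.out : p.Prime).pos
  have hpC : (p : ℂ) ≠ 0 := by exact_mod_cast hp
  -- the trace is a form of weight 2 and level one, hence zero
  obtain ⟨G, hG⟩ := tc_trace p hx
  have hG0 : G = 0 :=
    rank_zero_iff_forall_zero.mp ModularForm.levelOne_weight_two_rank_zero G
  have h2 : x.2.coeff 0 = 0 := by
    have h := congrArg (PowerSeries.coeff 0) hG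
    rw [hG0, FunLike.coe_zero, qExpansion_zero] at h
    simp only [map_add, PowerSeries.coeff_C_mul, h0, zero_add, Up, PowerSeries.coeff_mk,
      mul_zero, map_zero, mul_eq_zero] at h
    rcases h with h | h
    · exact absurd h hpC
    · exact h
  obtain ⟨F, hF1, hF2⟩ := hx
  have hz1 : IsZeroAtImInfty ⇑F :=
    (isNice_coe F).isZeroAtImInfty one_pos (by rw [← hF1]; exact h0)
  have hz2 : IsZeroAtImInfty (⇑F ∣[(2 : ℤ)] ModularGroup.S) :=
    (isNice_slash_S F).isZeroAtImInfty hpR (by rw [← hF2]; exact h2)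
  refine ⟨toCusp F (fun q => ?_), ?_⟩
  · obtain ⟨o, rfl⟩ := (cosetRep_bijective p).surjective q
    rcases o with _ | j
    · simp only [cosetRep]
      rw [cj_mkQ, inv_one, SlashAction.slash_one]
      exact hz1
    · simp only [cosetRep]
      rw [cj_mkQ, inv_inv, SlashAction.slash_mul]
      have e : (⇑F ∣[(2 : ℤ)] ModularGroup.S) ∣[(2 : ℤ)] (ModularGroup.T ^ ((j : ℕ) : ℤ)) =
          fun z : ℍ => (⇑F ∣[(2 : ℤ)] ModularGroup.S) ((((j : ℕ) : ℤ) : ℝ) +ᵥ z) := by
        funext z
        exact slash_T_zpow_apply 2 _ _ z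
      rw [e]
      exact isZeroAtImInfty_vadd hz2 _
  · rw [hF1]
    rfl

end Fermat.Agent.S16
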