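/-
S16, piece P-ei: the Eisenstein series `(p E₂(pz) − E₂(z)) / 24` of weight 2 on `Γ₀(p)`,
with `q`-expansion `eisP p` (field `eis` of `TCPackage p`).
-/
import Fermat.Agent.S16.Defs
import Fermat.Agent.S23.ThetaSlash
import Fermat.Agent.S23.Theta

set_option autoImplicit false

open CongruenceSubgroup UpperHalfPlane ModularForm ModularFormClass EisensteinSeries Filter
  Asymptotics
open scoped MatrixGroups ModularForm Manifold Topology Real

namespace Fermat.Agent.S16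

noncomputable section

/-- The constant `1 / (2 ζ(2))` of `E2_slash_action`. -/
def eisKappa : ℂ := 1 / (2 * riemannZeta 2)

/-- `E₂(γ z) = (E₂(z) − κ D₂(γ, z)) (cz + d)²`. -/
theorem eis_E2_smul (γ : SL(2, ℤ)) (z : ℍ) :
    E2 (γ • z) = (E2 z - eisKappa * D2 γ z) * denom γ z ^ 2 := by
  have h := congrFun (E2_slash_action γ) z
  rw [SL_slash_apply] at h
  have hd : denom γ z ≠ 0 := denom_ne_zero γ z
  have h2 : (E2 - (1 / (2 * riemannZeta 2)) • D2 γ) z = E2 z - eisKappa * D2 γ z := by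
    simp [eisKappa]
  rw [h2] at h
  rw [← h, mul_assoc, zpow_neg, zpow_ofNat, inv_mul_cancel₀ (pow_ne_zero 2 hd), mul_one]

theorem eis_D2_apply (γ : SL(2, ℤ)) (z : ℍ) :
    D2 γ z = (2 * π * Complex.I * (γ 1 0 : ℂ)) / denom γ z := rfl

/-- `(p E₂(pz) − E₂(z)) / 24`. -/
def eisFun (p : ℕ) [NeZero p] : ℍ → ℂ :=
  fun z => ((p : ℂ) * E2 (S23.scaleN p z) - E2 z) / 24

theorem eisFun_apply (p : ℕ) [NeZero p] (z : ℍ) :
    eisFun p z = ((p : ℂ) * E2 (S23.scaleN p z) - E2 z) / 24 := rfl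

/-- Slash invariance of `eisFun p` under `Γ₀(p)`. -/
theorem eisFun_slash (p : ℕ) [NeZero p] (γ : SL(2, ℤ)) (h : γ ∈ Gamma0 p) :
    (eisFun p ∣[(2 : ℤ)] γ) = eisFun p := by
  have hdvd : (p : ℤ) ∣ γ 1 0 := by
    rw [Gamma0_mem] at h
    exact (ZMod.intCast_zmod_eq_zero_iff_dvd _ _).mp h
  ext z
  rw [SL_slash_apply, eisFun_apply, eisFun_apply, S23.P7_thetaCompanion_smul p γ hdvd z,
    eis_E2_smul, eis_E2_smul, S23.P7_thetaCompanion_denom, eis_D2_apply, eis_D2_apply,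
    S23.P7_thetaCompanion_denom]
  have hd : denom γ z ≠ 0 := denom_ne_zero γ z
  have hp : (p : ℂ) ≠ 0 := by exact_mod_cast NeZero.ne p
  have hc : (p : ℂ) * ((S23.P7_thetaCompanion p γ hdvd) 1 0 : ℂ) = (γ 1 0 : ℂ) := by
    obtain ⟨c, hc⟩ := hdvd
    have hN : (p : ℤ) ≠ 0 := by exact_mod_cast NeZero.ne p
    simp only [S23.P7_thetaCompanion]
    simp [hc, Int.mul_ediv_cancel_left _ hN]
  rw [zpow_neg, zpow_ofNat]
  field_simp
  linear_combination (-(2 * π * Complex.I * eisKappa)) * hc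

/-- `z ↦ g (p z)` is holomorphic if `g` is. -/
theorem eis_mdiff_comp_scaleN (p : ℕ) [NeZero p] {g : ℍ → ℂ} (hg : MDiff g) :
    MDiff (fun z : ℍ => g (S23.scaleN p z)) := by
  rw [UpperHalfPlane.mdifferentiable_iff]
  have hΔ := UpperHalfPlane.mdifferentiable_iff.mp hg
  have hN : (0 : ℝ) < (p : ℝ) := Nat.cast_pos.mpr (Nat.pos_of_ne_zero (NeZero.ne p))
  have hmaps : Set.MapsTo (fun w : ℂ => (p : ℂ) * w) {z | 0 < z.im} {z | 0 < z.im} := by
    intro w hw
    simp only [Set.mem_ofPred_eq, Complex.mul_im, Complex.natCast_re, Complex.natCast_im,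
      zero_mul, add_zero] at hw ⊢
    exact mul_pos hN hw
  have hcomp : DifferentiableOn ℂ ((g ∘ ofComplex) ∘ (fun w : ℂ => (p : ℂ) * w))
      {z | 0 < z.im} :=
    hΔ.comp (by fun_prop) hmaps
  refine hcomp.congr ?_
  intro w hw
  have hw' : 0 < ((p : ℂ) * w).im := hmaps hw
  simp only [Function.comp_apply]
  rw [ofComplex_apply_of_im_pos hw, ofComplex_apply_of_im_pos hw']
  rfl

theorem eisFun_mdiff (p : ℕ) [NeZero p] : MDiff (eisFun p) := by
  have h1 : MDiff (fun z : ℍ => E2 (S23.scaleN p z)) := eis_mdiff_comp_scaleN p E2_mdifferentiable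
  have h2 : MDiff E2 := E2_mdifferentiable
  rw [UpperHalfPlane.mdifferentiable_iff] at h1 h2 ⊢
  have := ((h1.const_mul (p : ℂ)).sub h2).div_const (24 : ℂ)
  exact this

/-- `D₂(γ, ·)` is bounded at `i∞`. -/
theorem eis_D2_isBoundedAtImInfty (γ : SL(2, ℤ)) : IsBoundedAtImInfty (D2 γ) := by
  rw [UpperHalfPlane.isBoundedAtImInfty_iff]
  refine ⟨2 * π, 1, fun z hz => ?_⟩
  rw [eis_D2_apply]
  by_cases hc : (γ 1 0 : ℤ) = 0
  · simp [hc]; positivity
  have hd : denom γ z ≠ 0 := denom_ne_zero γ z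
  have hcR : (0 : ℝ) < |((γ 1 0 : ℤ) : ℝ)| := abs_pos.mpr (by exact_mod_cast hc)
  have hden : |((γ 1 0 : ℤ) : ℝ)| ≤ ‖denom γ z‖ := by
    have him : (denom γ z).im = ((γ 1 0 : ℤ) : ℝ) * z.im := by
      rw [ModularGroup.denom_apply]
      simp
    calc |((γ 1 0 : ℤ) : ℝ)| ≤ |((γ 1 0 : ℤ) : ℝ)| * z.im := by
            nlinarith [hcR, hz]
      _ = |(denom γ z).im| := by rw [him, abs_mul, abs_of_pos z.im_pos]
      _ ≤ ‖denom γ z‖ := Complex.abs_im_le_norm _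
  rw [norm_div, div_le_iff₀ (norm_pos_iff.mpr hd)]
  have h1 : ‖2 * (π : ℂ) * Complex.I * ((γ 1 0 : ℤ) : ℂ)‖ = 2 * π * |((γ 1 0 : ℤ) : ℝ)| := by
    simp [abs_of_pos Real.pi_pos]
  rw [h1]
  exact mul_le_mul_of_nonneg_left hden (by positivity)

/-- `E₂ ∣[2] γ` is bounded at `i∞`. -/
theorem eis_E2_slash_isBoundedAtImInfty (γ : SL(2, ℤ)) :
    IsBoundedAtImInfty (E2 ∣[(2 : ℤ)] γ) := by
  rw [E2_slash_action]
  exact isBoundedAtImInfty_E2.sub ((eis_D2_isBoundedAtImInfty γ).const_smul_left _)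

/-- The translates of `eisFun p` under `SL(2, ℤ)`, via the Hermite decomposition. -/
theorem eisFun_slash_apply (p : ℕ) [NeZero p] (γ γ' : SL(2, ℤ)) (A B D : ℤ)
    (hA : 0 < A) (hD : 0 < D)
    (h00 : (p : ℤ) * γ 0 0 = γ' 0 0 * A)
    (h01 : (p : ℤ) * γ 0 1 = γ' 0 0 * B + γ' 0 1 * D)
    (h10 : γ 1 0 = γ' 1 0 * A) (h11 : γ 1 1 = γ' 1 0 * B + γ' 1 1 * D) (z : ℍ) :
    (eisFun p ∣[(2 : ℤ)] γ) z =
      ((p : ℂ) / (D : ℂ) ^ 2 * (E2 ∣[(2 : ℤ)] γ') (S23.P8_betaPt A B D hA hD z)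
        - (E2 ∣[(2 : ℤ)] γ) z) / 24 := by
  have hD' : (D : ℂ) ≠ 0 := by exact_mod_cast hD.ne'
  have hd : denom γ z ≠ 0 := denom_ne_zero γ z
  have hden := S23.P8_denom_eq γ γ' A B D hA hD h10 h11 z
  have hdenom : denom γ z = (γ 1 0 : ℂ) * z + (γ 1 1 : ℂ) := by
    rw [ModularGroup.denom_apply]
  have hdenom' : denom γ' (S23.P8_betaPt A B D hA hD z) =
      (γ' 1 0 : ℂ) * (S23.P8_betaPt A B D hA hD z : ℍ) + (γ' 1 1 : ℂ) := by
    rw [ModularGroup.denom_apply]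
  rw [SL_slash_apply, SL_slash_apply, SL_slash_apply, eisFun_apply,
    S23.P8_scaleN_smul p γ γ' A B D hA hD h00 h01 h10 h11 z, hdenom', hden, ← hdenom]
  rw [zpow_neg, zpow_ofNat]
  field_simp

/-- All `SL(2, ℤ)`-translates of `eisFun p` are bounded at `i∞`. -/
theorem eisFun_slash_isBoundedAtImInfty (p : ℕ) [NeZero p] (γ : SL(2, ℤ)) :
    IsBoundedAtImInfty (eisFun p ∣[(2 : ℤ)] γ) := by
  obtain ⟨γ', A, B, D, hA, hD, -, h00, h01, h10, h11, -⟩ := S23.P8_exists_hermite p γ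
  have h1 : IsBoundedAtImInfty (fun z : ℍ => (E2 ∣[(2 : ℤ)] γ') (S23.P8_betaPt A B D hA hD z)) := by
    have := (eis_E2_slash_isBoundedAtImInfty γ').comp_tendsto (S23.P8_tendsto_betaPt A B D hA hD)
    exact this
  have h2 := eis_E2_slash_isBoundedAtImInfty γ
  have h3 : IsBoundedAtImInfty (fun z : ℍ =>
      ((p : ℂ) / (D : ℂ) ^ 2 * (E2 ∣[(2 : ℤ)] γ') (S23.P8_betaPt A B D hA hD z)
        - (E2 ∣[(2 : ℤ)] γ) z) / 24) := by
    have h4 : IsBoundedAtImInfty (fun z : ℍ =>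
        (p : ℂ) / (D : ℂ) ^ 2 * (E2 ∣[(2 : ℤ)] γ') (S23.P8_betaPt A B D hA hD z)) :=
      h1.const_mul_left _
    have h5 := (h4.sub h2).const_mul_left ((24 : ℂ)⁻¹)
    refine h5.congr_left fun z => ?_
    show (24 : ℂ)⁻¹ * ((p : ℂ) / (D : ℂ) ^ 2 *
      (E2 ∣[(2 : ℤ)] γ') (S23.P8_betaPt A B D hA hD z) - (E2 ∣[(2 : ℤ)] γ) z) = _
    ring
  refine h3.congr_left fun z => ?_
  exact (eisFun_slash_apply p γ γ' A B D hA hD h00 h01 h10 h11 z).symm

/-- The Eisenstein series of weight 2 on `Γ₀(p)` as a modular form. -/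
def eisForm (p : ℕ) [NeZero p] : ModularForm (Gamma0 p) 2 where
  toFun := eisFun p
  slash_action_eq' := by
    rintro γ ⟨γ', hγ', rfl⟩
    exact eisFun_slash p γ' hγ'
  holo' := eisFun_mdiff p
  bdd_at_cusps' := by
    intro c hc
    rw [Subgroup.IsArithmetic.isCusp_iff_isCusp_SL2Z] at hc
    rw [OnePoint.isBoundedAt_iff_forall_SL2Z hc]
    intro γ _
    exact eisFun_slash_isBoundedAtImInfty p γ

@[simp] theorem eisForm_apply (p : ℕ) [NeZero p] (z : ℍ) : eisForm p z = eisFun p z := rfl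

/-! ### The `q`-expansion -/

/-- The coefficients of `E₂`. -/
def eisE2Coeff (m : ℕ) : ℂ := if m = 0 then 1 else -24 * (ArithmeticFunction.sigma 1 m : ℂ)

theorem eis_hasSum_E2 (τ : ℍ) :
    HasSum (fun m : ℕ => eisE2Coeff m • Function.Periodic.qParam 1 τ ^ m) (E2 τ) := by
  have := hasSum_qExpansion_E2 (z := τ)
  simpa only [Function.Periodic.qParam, Complex.ofReal_one, div_one, eisE2Coeff] using this

theorem eis_qParam_scaleN (p : ℕ) [NeZero p] (τ : ℍ) :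
    Function.Periodic.qParam 1 (S23.scaleN p τ) = Function.Periodic.qParam 1 τ ^ p := by
  simp only [Function.Periodic.qParam, Complex.ofReal_one, div_one, S23.coe_scaleN]
  rw [← Complex.exp_nat_mul]
  congr 1
  ring

theorem eis_hasSum_E2_scaleN (p : ℕ) [NeZero p] (τ : ℍ) :
    HasSum (fun n : ℕ => (if p ∣ n then eisE2Coeff (n / p) else 0) •
      Function.Periodic.qParam 1 τ ^ n) (E2 (S23.scaleN p τ)) := by
  have hp : 0 < p := Nat.pos_of_ne_zero (NeZero.ne p)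
  have h := eis_hasSum_E2 (S23.scaleN p τ)
  rw [eis_qParam_scaleN] at h
  have hinj : Function.Injective (fun m : ℕ => p * m) := fun a b hab =>
    Nat.eq_of_mul_eq_mul_left hp hab
  rw [← Function.Injective.hasSum_iff hinj]
  · convert h using 1
    funext m
    simp only [Function.comp_apply, dvd_mul_right, if_true, Nat.mul_div_cancel_left m hp, pow_mul]
  · intro n hn
    have : ¬ p ∣ n := by
      rintro ⟨m, rfl⟩
      exact hn ⟨m, rfl⟩
    simp [this]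

/-- `∑_{d ∣ n, p ∣ d} d = p ∑_{e ∣ n/p} e`. -/
theorem eis_sum_divisors_filter_dvd (p n : ℕ) (hp : 0 < p) (hn : n ≠ 0) (h : p ∣ n) :
    ∑ d ∈ n.divisors.filter (fun d => p ∣ d), (d : ℤ) = (p : ℤ) * ∑ e ∈ (n / p).divisors, (e : ℤ) := by
  rw [Finset.mul_sum]
  symm
  refine Finset.sum_bij (fun e _ => p * e) ?_ ?_ ?_ ?_
  · intro e he
    rw [Nat.mem_divisors] at he
    rw [Finset.mem_filter, Nat.mem_divisors]
    refine ⟨⟨?_, hn⟩, dvd_mul_right p e⟩
    obtain ⟨m, hm⟩ := h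
    rw [hm, Nat.mul_div_cancel_left m hp] at he
    rw [hm]
    exact mul_dvd_mul_left p he.1
  · intro a _ b _ hab
    exact Nat.eq_of_mul_eq_mul_left hp hab
  · intro d hd
    rw [Finset.mem_filter, Nat.mem_divisors] at hd
    obtain ⟨⟨hdn, -⟩, e, rfl⟩ := hd
    refine ⟨e, ?_, rfl⟩
    rw [Nat.mem_divisors]
    obtain ⟨m, hm⟩ := h
    rw [hm, Nat.mul_div_cancel_left m hp]
    rw [hm] at hdn
    refine ⟨(Nat.mul_dvd_mul_iff_left hp).mp hdn, ?_⟩
    rintro rfl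
    exact hn (by rw [hm, mul_zero])
  · intro e _
    push_cast
    ring

/-- `σ'(n) = σ(n) − p σ(n/p)` (the second term only if `p ∣ n`). -/
theorem eis_sigmaP_eq (p n : ℕ) (hp : 0 < p) (hn : n ≠ 0) :
    sigmaP p n = (ArithmeticFunction.sigma 1 n : ℤ) -
      (if p ∣ n then (p : ℤ) * (ArithmeticFunction.sigma 1 (n / p) : ℤ) else 0) := by
  have hsplit : (ArithmeticFunction.sigma 1 n : ℤ) =
      ∑ d ∈ n.divisors.filter (fun d => p ∣ d), (d : ℤ) + sigmaP p n := by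
    rw [ArithmeticFunction.sigma_apply, sigmaP]
    push_cast
    simp only [pow_one]
    exact (Finset.sum_filter_add_sum_filter_not _ _ _).symm
  by_cases h : p ∣ n
  · rw [if_pos h, hsplit, eis_sum_divisors_filter_dvd p n hp hn h, ArithmeticFunction.sigma_apply]
    push_cast
    simp only [pow_one]
    ring
  · rw [if_neg h, hsplit]
    have : n.divisors.filter (fun d => p ∣ d) = ∅ := by
      rw [Finset.filter_eq_empty_iff]
      intro d hd hpd
      exact h (hpd.trans (Nat.dvd_of_mem_divisors hd))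
    rw [this, Finset.sum_empty]
    ring

theorem eis_coeff_eq (p n : ℕ) (hp : 0 < p) :
    (eisP p).coeff n =
      ((p : ℂ) * (if p ∣ n then eisE2Coeff (n / p) else 0) - eisE2Coeff n) / 24 := by
  rw [eisP, PowerSeries.coeff_mk]
  by_cases hn : n = 0
  · subst hn
    simp [eisE2Coeff]
  rw [if_neg hn, eis_sigmaP_eq p n hp hn]
  by_cases h : p ∣ n
  · have hnp : n / p ≠ 0 := by
      obtain ⟨m, rfl⟩ := h
      rw [Nat.mul_div_cancel_left m hp]
      rintro rfl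
      exact hn (mul_zero p)
    simp only [if_pos h, eisE2Coeff, if_neg hn, if_neg hnp]
    push_cast
    ring
  · simp only [if_neg h, eisE2Coeff, if_neg hn]
    push_cast
    ring

theorem eis_hasSum_eisFun (p : ℕ) [NeZero p] (τ : ℍ) :
    HasSum (fun n : ℕ => (eisP p).coeff n • Function.Periodic.qParam 1 τ ^ n) (eisFun p τ) := by
  have hp : 0 < p := Nat.pos_of_ne_zero (NeZero.ne p)
  have h1 := (eis_hasSum_E2_scaleN p τ).mul_left (p : ℂ)
  have h2 := eis_hasSum_E2 τ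
  have h3 := ((h1.sub h2).mul_left ((24 : ℂ)⁻¹))
  rw [eisFun_apply]
  have e1 : (fun n : ℕ => (eisP p).coeff n • Function.Periodic.qParam 1 τ ^ n) =
      (fun i : ℕ => (24 : ℂ)⁻¹ *
        ((p : ℂ) * (if p ∣ i then eisE2Coeff (i / p) else 0) • Function.Periodic.qParam 1 τ ^ i -
          eisE2Coeff i • Function.Periodic.qParam 1 τ ^ i)) := by
    funext n
    rw [eis_coeff_eq p n hp]
    simp only [smul_eq_mul]
    ring
  have e2 : ((p : ℂ) * E2 (S23.scaleN p τ) - E2 τ) / 24 =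
      (24 : ℂ)⁻¹ * ((p : ℂ) * E2 (S23.scaleN p τ) - E2 τ) := by ring
  rw [e1, e2]
  exact h3

theorem eis_qExpansion (p : ℕ) [NeZero p] : qExpansion 1 (eisForm p) = eisP p := by
  ext n
  have := ModularFormClass.qExpansion_coeff_unique (f := eisForm p) (c := fun n => (eisP p).coeff n)
    one_pos (CongruenceSubgroup.one_mem_strictPeriods_Gamma0 p)
    (fun τ => eis_hasSum_eisFun p τ) n
  exact this.symm

/-- Field `eis` of `TCPackage p`: the Eisenstein series of weight 2 on `Γ₀(p)`. -/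
theorem tc_eis (p : ℕ) [Fact p.Prime] : ∃ b : PowerSeries ℂ, (eisP p, b) ∈ TwoCusp p 2 := by
  have : NeZero p := ⟨(Fact.out : p.Prime).ne_zero⟩
  exact ⟨qExpansion (p : ℝ) (⇑(eisForm p) ∣[(2 : ℤ)] ModularGroup.S), eisForm p,
    (eis_qExpansion p).symm, rfl⟩

end

end Fermat.Agent.S16
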