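/-
S16, piece P-tr (helper40): the Fricke involution `F ↦ (z ↦ (F ∣ S)(p z))` on `M_k(Γ0(p))` and the
field `fricke` of `TCPackage p`.
-/
import Fermat.Agent.S16.Trace
import Fermat.Prelude.Thm_ModularFormClass_isBoundedAt_heckeU

set_option autoImplicit false

open CongruenceSubgroup UpperHalfPlane ModularForm ModularFormClass Function Filter
open Fermat.Agent.S20
open scoped MatrixGroups ModularForm Manifold Topology

namespace Fermat.Agent.S16

/-- The Fricke matrix `(0 -1; p 0)` over `ℚ`. -/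
noncomputable def frickeQ (p : ℕ) [NeZero p] : GL (Fin 2) ℚ :=
  Matrix.GeneralLinearGroup.mkOfDetNeZero !![0, -1; (p : ℚ), 0]
    (by simp [Matrix.det_fin_two_of, NeZero.ne p])

/-- The Fricke matrix `(0 -1; p 0)` over `ℝ`. -/
noncomputable def frickeR (p : ℕ) [NeZero p] : GL (Fin 2) ℝ :=
  Matrix.GeneralLinearGroup.map (Rat.castHom ℝ) (frickeQ p)

theorem frickeR_eq (p : ℕ) [NeZero p] :
    frickeR p = ((ModularGroup.S : SL(2, ℤ)) : GL (Fin 2) ℝ) * heckeDiagMatrix p := by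
  ext i j
  fin_cases i <;> fin_cases j <;>
    simp [frickeR, frickeQ, Matrix.GeneralLinearGroup.mkOfDetNeZero, val_heckeDiagMatrix (NeZero.ne p),
      ModularGroup.coe_S, Matrix.mul_apply, Fin.sum_univ_two]

/-- The conjugate `W γ W⁻¹ = (d, -c/p; -p b, a)` of `γ = (a b; c d) ∈ Γ0(p)`. -/
noncomputable def frickeConj (p : ℕ) (γ : SL(2, ℤ)) (c' : ℤ) (hc : γ 1 0 = p * c') : SL(2, ℤ) :=
  ⟨!![γ 1 1, -c'; -(p * γ 0 1), γ 0 0], by
    have := γ.det_coe
    rw [Matrix.det_fin_two] at this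
    rw [Matrix.det_fin_two_of]
    rw [hc] at this
    linear_combination this⟩

theorem frickeConj_coe (p : ℕ) (γ : SL(2, ℤ)) (c' : ℤ) (hc : γ 1 0 = p * c') :
    ((frickeConj p γ c' hc : SL(2, ℤ)) : Matrix (Fin 2) (Fin 2) ℤ) =
      !![γ 1 1, -c'; -(p * γ 0 1), γ 0 0] := rfl

theorem frickeConj_mem (p : ℕ) (γ : SL(2, ℤ)) (c' : ℤ) (hc : γ 1 0 = p * c') :
    frickeConj p γ c' hc ∈ Gamma0 p := by
  rw [mem_Gamma0_iff_dvd]
  simp [frickeConj]

theorem frickeR_mul (p : ℕ) [NeZero p] (γ : SL(2, ℤ)) (c' : ℤ) (hc : γ 1 0 = p * c') :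
    frickeR p * (γ : GL (Fin 2) ℝ) = (frickeConj p γ c' hc : GL (Fin 2) ℝ) * frickeR p := by
  have hcR : (γ 1 0 : ℝ) = p * c' := by exact_mod_cast hc
  ext i j
  fin_cases i <;> fin_cases j <;>
    simp [frickeR, frickeQ, frickeConj_coe, Matrix.GeneralLinearGroup.mkOfDetNeZero,
      Matrix.mul_apply, Fin.sum_univ_two, hcR, mul_comm]


theorem isBoundedAt_const_smul {c : OnePoint ℝ} {f : ℍ → ℂ} {k : ℤ} (a : ℂ)
    (hf : c.IsBoundedAt f k) : c.IsBoundedAt (a • f) k := by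
  intro g hg
  rw [ModularForm.smul_slash]
  exact (hf g hg).const_smul_left _

/-- The Fricke involution `F ↦ (z ↦ (F ∣ S)(p z))` on `M_k(Γ0(p))`. -/
noncomputable def frickeForm (p : ℕ) [NeZero p] {k : ℤ} (F : ModularForm (Gamma0 p) k) :
    ModularForm (Gamma0 p) k where
  toFun := ((p : ℂ) ^ (1 - k)) • (⇑F ∣[k] frickeR p)
  slash_action_eq' γ hγ := by
    obtain ⟨δ, hδ, rfl⟩ := hγ
    have hδ' : δ ∈ Gamma0 p := hδ
    rw [mem_Gamma0_iff_dvd] at hδ'
    obtain ⟨c', hc⟩ := hδ'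
    have h1 : (⇑F ∣[k] frickeR p) ∣[k] (Matrix.SpecialLinearGroup.mapGL ℝ δ) =
        ⇑F ∣[k] frickeR p := by
      have h2 := frickeR_mul p δ c' hc
      rw [← SlashAction.slash_mul]
      change ⇑F ∣[k] (frickeR p * (δ : GL (Fin 2) ℝ)) = _
      rw [h2, SlashAction.slash_mul, ← SL_slash, slash_of_mem_Gamma0 F (frickeConj_mem p δ c' hc)]
    have h3 := SL_smul_slash k δ (⇑F ∣[k] frickeR p) ((p : ℂ) ^ (1 - k))
    rw [SL_slash] at h3
    change ((p : ℂ) ^ (1 - k) • (⇑F ∣[k] frickeR p)) ∣[k] (δ : GL (Fin 2) ℝ) = _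
    rw [h3]
    congr 1
  holo' := ((ModularFormClass.holo F).slash k _).const_smul _
  bdd_at_cusps' hc := isBoundedAt_const_smul _
    (P2MW.S_ModularFormClass_isBoundedAt_heckeU.ModularForm.S06W2.isBoundedAt_slash_ratCast
      F (frickeQ p) hc)


theorem heckeDiagMatrix_smul_eq (p : ℕ) [Fact p.Prime] (z : ℍ) :
    heckeDiagMatrix p • z = scaleH (p : ℝ) (by exact_mod_cast (Fact.out : p.Prime).pos) z := by
  ext
  rw [coe_heckeDiagMatrix_smul (Fact.out : p.Prime).ne_zero, coe_scaleH]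
  simp

theorem frickeForm_apply (p : ℕ) [Fact p.Prime] {k : ℤ} (F : ModularForm (Gamma0 p) k) (z : ℍ) :
    frickeForm p F z = (⇑F ∣[k] ModularGroup.S)
      (scaleH (p : ℝ) (by exact_mod_cast (Fact.out : p.Prime).pos) z) := by
  have hp : p ≠ 0 := (Fact.out : p.Prime).ne_zero
  have hpC : (p : ℂ) ≠ 0 := by exact_mod_cast hp
  change ((p : ℂ) ^ (1 - k) • (⇑F ∣[k] frickeR p)) z = _
  rw [Pi.smul_apply, frickeR_eq, SlashAction.slash_mul, slash_heckeDiagMatrix_apply k hp,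
    heckeDiagMatrix_smul_eq, ← SL_slash, smul_eq_mul, ← mul_assoc, ← zpow_add₀ hpC]
  simp

theorem coe_frickeForm (p : ℕ) [Fact p.Prime] {k : ℤ} (F : ModularForm (Gamma0 p) k) :
    ⇑(frickeForm p F) = fun z => (⇑F ∣[k] ModularGroup.S)
      (scaleH (p : ℝ) (by exact_mod_cast (Fact.out : p.Prime).pos) z) :=
  funext (frickeForm_apply p F)

theorem qExpansion_frickeForm (p : ℕ) [Fact p.Prime] {k : ℤ} (F : ModularForm (Gamma0 p) k) :
    qExpansion 1 (frickeForm p F) = qExpansion (p : ℝ) (⇑F ∣[k] ModularGroup.S) := by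
  have hpR : (0 : ℝ) < p := by exact_mod_cast (Fact.out : p.Prime).pos
  rw [coe_frickeForm]
  have := (isNice_slash_S F).qExpansion_comp_scaleH hpR (p : ℝ) hpR
  rwa [div_self hpR.ne'] at this

theorem denom_S (z : ℍ) :
    denom (Matrix.SpecialLinearGroup.toGL
      ((Matrix.SpecialLinearGroup.map (Int.castRingHom ℝ)) ModularGroup.S)) (z : ℂ) = z := by
  rw [denom_SL, ModularGroup.coe_S]
  simp

theorem frickeForm_slash_S_apply (p : ℕ) [Fact p.Prime] {k : ℤ} (F : ModularForm (Gamma0 p) k)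
    (z : ℍ) :
    (⇑(frickeForm p F) ∣[k] ModularGroup.S) z =
      (-(p : ℂ)) ^ (-k) * F (scaleH ((p : ℝ)⁻¹)
        (inv_pos.mpr (by exact_mod_cast (Fact.out : p.Prime).pos)) z) := by
  have hp : p ≠ 0 := (Fact.out : p.Prime).ne_zero
  have hpC : (p : ℂ) ≠ 0 := by exact_mod_cast hp
  have hpR : (0 : ℝ) < p := by exact_mod_cast (Fact.out : p.Prime).pos
  have hz : (z : ℂ) ≠ 0 := UpperHalfPlane.ne_zero z
  rw [SL_slash_apply, frickeForm_apply, SL_slash_apply, denom_S, denom_S]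
  have e1 : ModularGroup.S • scaleH (p : ℝ) hpR (ModularGroup.S • z) =
      scaleH ((p : ℝ)⁻¹) (inv_pos.mpr hpR) z := by
    ext
    rw [UpperHalfPlane.modular_S_smul, UpperHalfPlane.modular_S_smul]
    simp
    field_simp
  have e2 : ((scaleH (p : ℝ) hpR (ModularGroup.S • z) : ℍ) : ℂ) = -(p : ℂ) / z := by
    rw [coe_scaleH, UpperHalfPlane.modular_S_smul]
    simp
    field_simp
  rw [e1, e2, mul_assoc, ← mul_zpow, div_mul_cancel₀ _ hz, mul_comm]

theorem tc_fricke (p : ℕ) [Fact p.Prime] {k : ℤ} {x : PowerSeries ℂ × PowerSeries ℂ}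
    (hx : x ∈ TwoCusp p k) :
    (x.2, PowerSeries.C ((-(p : ℂ)) ^ (-k)) * x.1) ∈ TwoCusp p k := by
  obtain ⟨F, hF1, hF2⟩ := hx
  have hpR : (0 : ℝ) < p := by exact_mod_cast (Fact.out : p.Prime).pos
  refine ⟨frickeForm p F, ?_, ?_⟩
  · show x.2 = _
    rw [qExpansion_frickeForm, hF2]
  · show PowerSeries.C ((-(p : ℂ)) ^ (-k)) * x.1 = _
    have hn : IsNice (p : ℝ) (fun z => F (scaleH ((p : ℝ)⁻¹) (inv_pos.mpr hpR) z)) := by
      have := (isNice_coe F).comp_scaleH ((p : ℝ)⁻¹) (inv_pos.mpr hpR)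
      rwa [one_div, inv_inv] at this
    have hq : qExpansion (p : ℝ) (fun z => F (scaleH ((p : ℝ)⁻¹) (inv_pos.mpr hpR) z)) =
        qExpansion 1 F := by
      have := (isNice_coe F).qExpansion_comp_scaleH one_pos ((p : ℝ)⁻¹) (inv_pos.mpr hpR)
      rwa [one_div, inv_inv] at this
    have e : (⇑(frickeForm p F) ∣[k] ModularGroup.S) =
        ((-(p : ℂ)) ^ (-k)) • (fun z => F (scaleH ((p : ℝ)⁻¹) (inv_pos.mpr hpR) z)) := by
      funext z
      rw [frickeForm_slash_S_apply]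
      rfl
    rw [e, hn.qExpansion_smul hpR, hq, hF1]

end Fermat.Agent.S16
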