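/-
S16, piece P-lv (first half): field `ofLevelOne` of `TCPackage p`.
A modular form `B` of level one is a modular form on `Γ0(p)`; its expansion at `∞` is the
`q`-expansion `a` of `B`, and `B ∣ S = B` has the `q_p`-expansion `V_p a` (`q = q_p ^ p`).
-/
import Fermat.Agent.S16.Defs

set_option autoImplicit false

open CongruenceSubgroup UpperHalfPlane ModularForm ModularFormClass
open scoped MatrixGroups ModularForm

namespace Fermat.Agent.S16

noncomputable section

/-- `Γ0(p) ≤ SL(2,ℤ)` inside `GL(2,ℝ)`. -/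
theorem ofLevelOne_le (p : ℕ) : (Gamma0 p : Subgroup (GL (Fin 2) ℝ)) ≤ 𝒮ℒ :=
  Subgroup.map_le_range (Matrix.SpecialLinearGroup.mapGL ℝ) (Gamma0 p)

/-- A modular form of level one, seen as a modular form on `Γ0(p)`. -/
def ofLevelOneForm (p : ℕ) {k : ℤ} (B : ModularForm 𝒮ℒ k) : ModularForm (Gamma0 p) k where
  toFun := B
  slash_action_eq' := fun γ hγ => SlashInvariantForm.slash_action_eqn B γ (ofLevelOne_le p hγ)
  holo' := B.holo'
  bdd_at_cusps' := fun hc => B.bdd_at_cusps' (hc.mono (ofLevelOne_le p))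

@[simp]
theorem coe_ofLevelOneForm (p : ℕ) {k : ℤ} (B : ModularForm 𝒮ℒ k) :
    (⇑(ofLevelOneForm p B) : ℍ → ℂ) = ⇑B := rfl

/-- A form of level one is invariant under `S`. -/
theorem ofLevelOne_slash_S {k : ℤ} (B : ModularForm 𝒮ℒ k) :
    (⇑B ∣[k] ModularGroup.S) = ⇑B :=
  SlashInvariantForm.slash_action_eqn B _ ⟨ModularGroup.S, rfl⟩

/-- `p` is a strict period of `SL(2,ℤ)`. -/
theorem ofLevelOne_mem_strictPeriods (p : ℕ) : (p : ℝ) ∈ (𝒮ℒ).strictPeriods := by
  rw [Subgroup.strictPeriods_SL2Z]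
  exact ⟨(p : ℤ), by simp⟩

/-- `q = q_p ^ p`. -/
theorem ofLevelOne_qParam_pow (p : ℕ) (hp : p ≠ 0) (τ : ℍ) :
    Function.Periodic.qParam (p : ℝ) τ ^ p = Function.Periodic.qParam 1 τ := by
  unfold Function.Periodic.qParam
  rw [← Complex.exp_nat_mul]
  congr 1
  have : (p : ℂ) ≠ 0 := by exact_mod_cast hp
  push_cast
  field_simp

/-- The expansion of a level-one form in `q_p = e(z/p)` is `V_p` of its `q`-expansion. -/
theorem ofLevelOne_qExpansion (p : ℕ) (hp : p ≠ 0) {k : ℤ} (B : ModularForm 𝒮ℒ k) :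
    qExpansion (p : ℝ) B = Vp p (qExpansion 1 B) := by
  have hp' : (0 : ℝ) < (p : ℝ) := by exact_mod_cast Nat.pos_of_ne_zero hp
  ext n
  symm
  refine ModularFormClass.qExpansion_coeff_unique (c := fun n => (Vp p (qExpansion 1 B)).coeff n)
    hp' (ofLevelOne_mem_strictPeriods p) (f := B) (fun τ => ?_) n
  have h1 := ModularForm.hasSum_qExpansion (f := B) one_pos one_mem_strictPeriods_SL τ
  have hinj : Function.Injective (fun m : ℕ => p * m) :=
    fun a b h => Nat.eq_of_mul_eq_mul_left (Nat.pos_of_ne_zero hp) h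
  rw [← hinj.hasSum_iff]
  · convert h1 using 2 with m
    simp only [Function.comp_apply, Vp, PowerSeries.coeff_mk, dvd_mul_right, if_true,
      Nat.mul_div_cancel_left m (Nat.pos_of_ne_zero hp), smul_eq_mul]
    rw [pow_mul, ofLevelOne_qParam_pow p hp]
  · intro n hn
    have hnd : ¬ p ∣ n := by
      rintro ⟨m, rfl⟩
      exact hn ⟨m, rfl⟩
    simp [Vp, PowerSeries.coeff_mk, hnd]

/-- **Field `ofLevelOne` of `TCPackage p`.** -/
theorem tc_ofLevelOne (p : ℕ) (hp : p ≠ 0) {k : ℤ} {a : PowerSeries ℂ} (ha : a ∈ LevelOne k) :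
    (a, Vp p a) ∈ TwoCusp p k := by
  obtain ⟨B, rfl⟩ := ha
  refine ⟨ofLevelOneForm p B, rfl, ?_⟩
  show Vp p (qExpansion 1 B) = qExpansion (p : ℝ) (⇑(ofLevelOneForm p B) ∣[k] ModularGroup.S)
  rw [coe_ofLevelOneForm, ofLevelOne_slash_S, ofLevelOne_qExpansion p hp]

end

end Fermat.Agent.S16
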