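import Fermat.Agent.S16.Defs
import Fermat.Agent.S28.ScaleForm

/-!
# S16, piece P-lv (second half): `B(pz)` for `B` of level one, as a form on `Γ0(p)`

* `lvV_divPt p z = z / p`.
* `lvV_slash_S` : `(B(p·) ∣[k] S)(z) = p^(-k) B(z/p)`.
* `lvV_qExpansion_scale` : the `q`-expansion of `B(pz)` is `Vp p` of that of `B`.
* `lvV_qExpansion_slash` : the `q_p`-expansion of `B(p·) ∣[k] S` is `p^(-k)` times the
  `q`-expansion of `B`.
* `tc_ofLevelOneV` : field `ofLevelOneV` of `TCPackage p`.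
-/

set_option autoImplicit false

noncomputable section

namespace Fermat.Agent.S16

open UpperHalfPlane ModularForm CongruenceSubgroup Filter
open Fermat.Agent.S23 Fermat.Agent.S24 Fermat.Agent.S28
open scoped MatrixGroups ModularForm Manifold Topology

local notation "𝕢" => Function.Periodic.qParam

/-- the point `z / p` of the upper half plane -/
def lvV_divPt (p : ℕ) [NeZero p] (z : ℍ) : ℍ :=
  ⟨(z : ℂ) / (p : ℂ), by
    have hp : (0 : ℝ) < (p : ℝ) := Nat.cast_pos.mpr (Nat.pos_of_ne_zero (NeZero.ne p))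
    have : ((z : ℂ) / (p : ℂ)).im = z.im / (p : ℝ) := by
      rw [← Complex.ofReal_natCast, Complex.div_ofReal_im]; rfl
    rw [this]
    exact div_pos z.im_pos hp⟩

@[simp] theorem lvV_coe_divPt (p : ℕ) [NeZero p] (z : ℍ) :
    ((lvV_divPt p z : ℍ) : ℂ) = (z : ℂ) / (p : ℂ) := rfl

theorem lvV_qParam_divPt (p : ℕ) [NeZero p] (z : ℍ) :
    𝕢 1 (lvV_divPt p z : ℂ) = 𝕢 (p : ℝ) (z : ℂ) := by
  simp only [Function.Periodic.qParam, lvV_coe_divPt]
  congr 1
  push_cast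
  ring

theorem lvV_scaleN_S_smul (p : ℕ) [NeZero p] (z : ℍ) :
    scaleN p (ModularGroup.S • z) = ModularGroup.S • lvV_divPt p z := by
  have hp : (p : ℂ) ≠ 0 := Nat.cast_ne_zero.mpr (NeZero.ne p)
  have hz : (z : ℂ) ≠ 0 := ne_zero z
  ext
  rw [coe_scaleN, modular_S_smul, modular_S_smul]
  simp only [lvV_coe_divPt]
  field_simp

/-- `(B(p·) ∣[k] S)(z) = p^(-k) B(z/p)`. -/
theorem lvV_slash_S (p : ℕ) [NeZero p] {k : ℤ} (F : ModularForm 𝒮ℒ k) (z : ℍ) :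
    ((fun w => F (scaleN p w)) ∣[k] ModularGroup.S) z = (p : ℂ) ^ (-k) * F (lvV_divPt p z) := by
  have hp : (p : ℂ) ≠ 0 := Nat.cast_ne_zero.mpr (NeZero.ne p)
  have hz : (z : ℂ) ≠ 0 := ne_zero z
  rw [SL_slash_apply, lvV_scaleN_S_smul, levelOne_smul F ModularGroup.S]
  have h1 : denom ((ModularGroup.S : SL(2, ℤ)) : GL (Fin 2) ℝ) (lvV_divPt p z)
      = (z : ℂ) / (p : ℂ) := by
    simp [UpperHalfPlane.denom, ModularGroup.S]
  have h2 : denom (ModularGroup.S : SL(2, ℤ)) z = (z : ℂ) := by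
    simp [UpperHalfPlane.denom, ModularGroup.S]
  rw [h1, h2, div_zpow, zpow_neg, zpow_neg]
  have hz' : (z : ℂ) ^ k ≠ 0 := zpow_ne_zero _ hz
  have hp' : (p : ℂ) ^ k ≠ 0 := zpow_ne_zero _ hp
  field_simp

/-- `B(pz)` is a modular form on `Γ0(p)`. -/
theorem lvV_exists_form (p : ℕ) [NeZero p] {k : ℤ} (F : ModularForm 𝒮ℒ k) :
    ∃ G : ModularForm (Gamma0 p) k, (⇑G : ℍ → ℂ) = fun z => F (scaleN p z) :=
  isMF_comp_scaleN p F

theorem lvV_periodic_levelOne {k : ℤ} (F : ModularForm 𝒮ℒ k) :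
    Function.Periodic ((⇑F : ℍ → ℂ) ∘ ofComplex) (1 : ℝ) :=
  SlashInvariantFormClass.periodic_comp_ofComplex F one_mem_strictPeriods_SL

theorem lvV_hasSum_levelOne {k : ℤ} (F : ModularForm 𝒮ℒ k) (τ : ℍ) :
    HasSum (fun m : ℕ => (qExpansion 1 F).coeff m • 𝕢 1 τ ^ m) (F τ) :=
  hasSum_qExpansion (h := 1) one_pos (lvV_periodic_levelOne F) (ModularFormClass.holo F)
    (ModularFormClass.bdd_at_infty F) τ

theorem lvV_coeff_Vp (p : ℕ) (a : PowerSeries ℂ) (n : ℕ) :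
    (Vp p a).coeff n = if p ∣ n then a.coeff (n / p) else 0 := by
  simp [Vp]

/-- `B(pτ) = ∑ (V_p a)_n qⁿ`. -/
theorem lvV_hasSum_scale (p : ℕ) [NeZero p] {k : ℤ} (F : ModularForm 𝒮ℒ k) (τ : ℍ) :
    HasSum (fun m : ℕ => (Vp p (qExpansion 1 F)).coeff m • 𝕢 1 τ ^ m) (F (scaleN p τ)) := by
  have hp : p ≠ 0 := NeZero.ne p
  have h1 := lvV_hasSum_levelOne F (scaleN p τ)
  rw [P7_qParam_scaleN] at h1
  have hinj : Function.Injective (fun m : ℕ => p * m) := fun a b hab =>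
    Nat.eq_of_mul_eq_mul_left (Nat.pos_of_ne_zero hp) hab
  rw [← hinj.hasSum_iff]
  · convert h1 using 2 with m
    simp only [Function.comp_apply, lvV_coeff_Vp, dvd_mul_right, if_true,
      Nat.mul_div_cancel_left _ (Nat.pos_of_ne_zero hp), pow_mul]
  · intro x hx
    have : ¬ p ∣ x := fun ⟨k, hk⟩ => hx ⟨k, hk.symm⟩
    simp [lvV_coeff_Vp, this]

/-- The `q`-expansion of `B(pz)` is `V_p` of the `q`-expansion of `B`. -/
theorem lvV_qExpansion_scale (p : ℕ) [NeZero p] {k : ℤ} (F : ModularForm 𝒮ℒ k)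
    (G : ModularForm (Gamma0 p) k) (hG : (⇑G : ℍ → ℂ) = fun z => F (scaleN p z)) :
    qExpansion 1 G = Vp p (qExpansion 1 F) := by
  ext n
  refine (ModularFormClass.qExpansion_coeff_unique (c := fun n => (Vp p (qExpansion 1 F)).coeff n)
    one_pos (CongruenceSubgroup.one_mem_strictPeriods_Gamma0 p) (f := G) ?_ n).symm
  intro τ
  rw [hG]
  exact lvV_hasSum_scale p F τ

theorem lvV_mdiff_slash (p : ℕ) [NeZero p] {k : ℤ} (F : ModularForm 𝒮ℒ k) :
    MDiff ((fun w => F (scaleN p w)) ∣[k] ModularGroup.S) :=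
  (mdiff_comp_scaleN p (ModularFormClass.holo F)).slash k _

theorem lvV_periodic_slash (p : ℕ) [NeZero p] {k : ℤ} (F : ModularForm 𝒮ℒ k) :
    Function.Periodic (((fun w => F (scaleN p w)) ∣[k] ModularGroup.S) ∘ ofComplex) (p : ℝ) := by
  have hp : (p : ℂ) ≠ 0 := Nat.cast_ne_zero.mpr (NeZero.ne p)
  intro w
  by_cases hw : 0 < w.im
  · have hw' : 0 < (w + (p : ℝ)).im := by simpa using hw
    simp only [Function.comp_apply, ofComplex_apply_of_im_pos hw', ofComplex_apply_of_im_pos hw]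
    rw [lvV_slash_S, lvV_slash_S]
    congr 1
    have h1 := lvV_periodic_levelOne F (w / (p : ℂ))
    have him : 0 < (w / (p : ℂ)).im := (lvV_divPt p ⟨w, hw⟩).2
    have him' : 0 < (w / (p : ℂ) + (1 : ℝ)).im := by simpa using him
    simp only [Function.comp_apply, ofComplex_apply_of_im_pos him,
      ofComplex_apply_of_im_pos him'] at h1
    have e1 : lvV_divPt p ⟨w + (p : ℝ), hw'⟩ = ⟨w / (p : ℂ) + (1 : ℝ), him'⟩ := by
      ext
      simp only [lvV_coe_divPt]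
      push_cast
      field_simp
    have e2 : lvV_divPt p ⟨w, hw⟩ = ⟨w / (p : ℂ), him⟩ := rfl
    rw [e1, e2]
    exact h1
  · have hw0 : w.im ≤ 0 := not_lt.mp hw
    have hw' : (w + (p : ℝ)).im ≤ 0 := by simpa using hw0
    simp only [Function.comp_apply]
    rw [ofComplex_apply_of_im_nonpos hw', ofComplex_apply_of_im_nonpos hw0]

theorem lvV_analyticAt_slash (p : ℕ) [NeZero p] {k : ℤ} (F : ModularForm 𝒮ℒ k) :
    AnalyticAt ℂ (cuspFunction (p : ℝ) ((fun w => F (scaleN p w)) ∣[k] ModularGroup.S)) 0 :=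
  analyticAt_cuspFunction_zero (Nat.cast_pos.mpr (Nat.pos_of_ne_zero (NeZero.ne p)))
    (lvV_periodic_slash p F) (lvV_mdiff_slash p F)
    (comp_scaleN_slash_isBoundedAtImInfty p F ModularGroup.S)

/-- The `q_p`-expansion of `B(p·) ∣[k] S` is `p^(-k)` times the `q`-expansion of `B`. -/
theorem lvV_qExpansion_slash (p : ℕ) [NeZero p] {k : ℤ} (F : ModularForm 𝒮ℒ k) :
    qExpansion (p : ℝ) ((fun w => F (scaleN p w)) ∣[k] ModularGroup.S) =
      PowerSeries.C ((p : ℂ) ^ (-k)) * qExpansion 1 F := by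
  have hpR : (0 : ℝ) < (p : ℝ) := Nat.cast_pos.mpr (Nat.pos_of_ne_zero (NeZero.ne p))
  have hcont : Continuous ((fun w => F (scaleN p w)) ∣[k] ModularGroup.S) :=
    (lvV_mdiff_slash p F).continuous
  ext n
  rw [PowerSeries.coeff_C_mul]
  refine (UpperHalfPlane.qExpansion_coeff_unique
    (c := fun n => (p : ℂ) ^ (-k) * (qExpansion 1 F).coeff n)
    (ContinuousMap.mk _ hcont) hpR (lvV_analyticAt_slash p F) ?_ n).symm
  intro τ
  change HasSum _ (((fun w => F (scaleN p w)) ∣[k] ModularGroup.S) τ)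
  rw [lvV_slash_S]
  have h1 := (lvV_hasSum_levelOne F (lvV_divPt p τ)).mul_left ((p : ℂ) ^ (-k))
  rw [lvV_qParam_divPt] at h1
  have hfun : (fun m : ℕ => ((p : ℂ) ^ (-k) * (qExpansion 1 F).coeff m) • 𝕢 (p : ℝ) (τ : ℂ) ^ m)
      = fun m : ℕ => (p : ℂ) ^ (-k) * ((qExpansion 1 F).coeff m • 𝕢 (p : ℝ) (τ : ℂ) ^ m) := by
    funext m
    simp only [smul_eq_mul]
    ring
  rw [hfun]
  exact h1

/-- Field `ofLevelOneV` of `TCPackage p` (any `p ≠ 0`). -/
theorem tc_ofLevelOneV_of_neZero (p : ℕ) [NeZero p] {k : ℤ} {a : PowerSeries ℂ}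
    (ha : a ∈ LevelOne k) :
    (Vp p a, PowerSeries.C ((p : ℂ) ^ (-k)) * a) ∈ TwoCusp p k := by
  obtain ⟨F, rfl⟩ := ha
  obtain ⟨G, hG⟩ := lvV_exists_form p F
  refine ⟨G, ?_, ?_⟩
  · exact (lvV_qExpansion_scale p F G hG).symm
  · rw [hG]
    exact (lvV_qExpansion_slash p F).symm

/-- Field `ofLevelOneV` of `TCPackage p`. -/
theorem tc_ofLevelOneV (p : ℕ) [Fact p.Prime] {k : ℤ} {a : PowerSeries ℂ}
    (ha : a ∈ LevelOne k) :
    (Vp p a, PowerSeries.C ((p : ℂ) ^ (-k)) * a) ∈ TwoCusp p k :=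
  haveI : NeZero p := ⟨(Fact.out : p.Prime).ne_zero⟩
  tc_ofLevelOneV_of_neZero p ha

end Fermat.Agent.S16
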