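/-
S16: assembly of the analytic package `TCPackage p` from the pieces
(Trace, Fricke, Cusp, Serre, Eis, OfLevelOne, OfLevelOneV).
-/
import Fermat.Agent.S16.Trace
import Fermat.Agent.S16.Fricke
import Fermat.Agent.S16.Cusp
import Fermat.Agent.S16.Serre
import Fermat.Agent.S16.Eis
import Fermat.Agent.S16.OfLevelOne
import Fermat.Agent.S16.OfLevelOneV

set_option autoImplicit false

open CongruenceSubgroup UpperHalfPlane ModularForm ModularFormClass
open scoped MatrixGroups ModularForm

namespace Fermat.Agent.S16

/-- The analytic package `TCPackage p`. -/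
theorem tcPackage (p : ℕ) [Fact p.Prime] : TCPackage p :=
  haveI : NeZero p := ⟨(Fact.out : p.Prime).ne_zero⟩
  { add := fun hx hy => tc_add p hx hy
    smul := fun c _ hx => tc_smul p c hx
    mul := fun hx hy => tc_mul p hx hy
    ofLevelOne := fun ha => tc_ofLevelOne p (Fact.out : p.Prime).ne_zero ha
    ofLevelOneV := fun ha => tc_ofLevelOneV p ha
    trace := fun hx => tc_trace p hx
    fricke := fun hx => tc_fricke p hx
    serre := fun hx => tc_serre p hx
    eis := tc_eis p
    ofCusp := tc_ofCusp p
    toCusp := fun hx h0 => tc_toCusp p hx h0 }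

end Fermat.Agent.S16
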