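/-
S16, piece A1 (helper41): from one form `G ∈ M_2(Γ0(p))` with `q`-expansion in `1 + 2qℤ[[q]]`
(`StmtTheta p`) to a cusp form with integral `q`-expansion congruent to `δ = ∑ σ'(k) q^k`
modulo `n = (p-1)/gcd(p-1,12)` (`StmtA p`).

`f₀ := E - c·G` (`c = (p-1)/24`) has constant term `0`, hence is a cusp form; its `k`-th coefficient
is `σ'(k) - c·a_k(G)`, and with `d' = 12/gcd(p-1,12)` one has `d'·c·2 = n`, `gcd(d', n) = 1`.
Take `f := e·d'·f₀` with `e·d' ≡ 1 mod n`.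
-/
import Fermat.Agent.S16.Defs

set_option autoImplicit false

open CongruenceSubgroup UpperHalfPlane ModularForm ModularFormClass
open scoped MatrixGroups ModularForm

namespace Fermat.Agent.S16

/-- Arithmetic of the constants: with `r = gcd(p-1,12)`, `n = (p-1)/r` and `d' = 12/r` one has
`d'·(p-1) = 12·n` and `gcd(d', n) = 1`. -/
theorem lowerForm_arith (p : ℕ) (hp : 1 ≤ p) :
    ∃ (d' : ℕ) (e v : ℤ),
      (d' : ℤ) * ((p : ℤ) - 1) = 12 * (ModularCurve.eisensteinNumerator p : ℤ) ∧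
      e * (d' : ℤ) + v * (ModularCurve.eisensteinNumerator p : ℤ) = 1 := by
  have hrpos : 0 < Nat.gcd (p - 1) 12 := Nat.gcd_pos_of_pos_right _ (by norm_num)
  have h1 : Nat.gcd (p - 1) 12 ∣ p - 1 := Nat.gcd_dvd_left _ _
  have h2 : Nat.gcd (p - 1) 12 ∣ 12 := Nat.gcd_dvd_right _ _
  have hcop : Nat.Coprime (12 / Nat.gcd (p - 1) 12) ((p - 1) / Nat.gcd (p - 1) 12) :=
    (Nat.coprime_div_gcd_div_gcd hrpos).symm
  obtain ⟨e, v, hev⟩ := (Nat.isCoprime_iff_coprime.mpr hcop)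
  refine ⟨12 / Nat.gcd (p - 1) 12, e, v, ?_, ?_⟩
  · have key : ∀ r a b : ℕ, 0 < r → r ∣ a → r ∣ b → b / r * a = b * (a / r) := by
      rintro r a b hr ⟨x, rfl⟩ ⟨y, rfl⟩
      rw [Nat.mul_div_cancel_left _ hr, Nat.mul_div_cancel_left _ hr]; ring
    have hN : 12 / Nat.gcd (p - 1) 12 * (p - 1) = 12 * ((p - 1) / Nat.gcd (p - 1) 12) :=
      key _ _ _ hrpos h1 h2
    have hcast : ((p : ℤ) - 1) = ((p - 1 : ℕ) : ℤ) := by
      rw [Nat.cast_sub hp]; simp
    rw [hcast]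
    unfold ModularCurve.eisensteinNumerator
    exact_mod_cast hN
  · unfold ModularCurve.eisensteinNumerator
    exact hev

/-- **A1**: the lower bound (A) from the theta input (A2). -/
theorem stmtA_of_theta (p : ℕ) [Fact p.Prime] (hT : TCPackage p) (hθ : StmtTheta p) :
    StmtA p := by
  obtain ⟨G, hG0, hGn⟩ := hθ
  obtain ⟨b, hE⟩ := hT.eis
  have hGmem : (qExpansion 1 G, qExpansion (p : ℝ) (⇑G ∣[(2 : ℤ)] ModularGroup.S)) ∈
      TwoCusp p 2 := ⟨G, rfl, rfl⟩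
  obtain ⟨d', e, v, hd', hev⟩ := lowerForm_arith p (Fact.out : p.Prime).one_le
  have hx := hT.add (hT.smul ((e : ℂ) * (d' : ℂ)) hE)
    (hT.smul (-((e : ℂ) * (d' : ℂ) * (((p : ℂ) - 1) / 24))) hGmem)
  have hcoeff0 : ((PowerSeries.C ((e : ℂ) * (d' : ℂ)) * (eisP p, b).1,
      PowerSeries.C ((e : ℂ) * (d' : ℂ)) * (eisP p, b).2) +
      (PowerSeries.C (-((e : ℂ) * (d' : ℂ) * (((p : ℂ) - 1) / 24))) *
        (qExpansion 1 G, qExpansion (p : ℝ) (⇑G ∣[(2 : ℤ)] ModularGroup.S)).1,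
       PowerSeries.C (-((e : ℂ) * (d' : ℂ) * (((p : ℂ) - 1) / 24))) *
        (qExpansion 1 G, qExpansion (p : ℝ) (⇑G ∣[(2 : ℤ)] ModularGroup.S)).2)).1.coeff 0 = 0 := by
    simp only [Prod.fst_add, map_add, PowerSeries.coeff_C_mul, hG0, eisP, PowerSeries.coeff_mk,
      if_true]
    ring
  obtain ⟨f, hf⟩ := hT.toCusp hx hcoeff0
  refine ⟨f, fun k => ?_⟩
  have hq : qCoeff f k = (qExpansion 1 f).coeff k := rfl
  rcases Nat.eq_zero_or_pos k with hk | hk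
  · subst hk
    refine ⟨0, ?_, fun h => absurd h (by norm_num)⟩
    rw [hq, hf, hcoeff0]; simp
  · obtain ⟨m, hm⟩ := hGn k hk
    have hk0 : k ≠ 0 := Nat.pos_iff_ne_zero.mp hk
    have hdC : (d' : ℂ) * ((p : ℂ) - 1) = 12 * (ModularCurve.eisensteinNumerator p : ℂ) := by
      exact_mod_cast hd'
    refine ⟨e * d' * sigmaP p k - e * (ModularCurve.eisensteinNumerator p : ℤ) * m, ?_, fun _ => ?_⟩
    · rw [hq, hf]
      simp only [Prod.fst_add, map_add, PowerSeries.coeff_C_mul, hm, eisP, PowerSeries.coeff_mk,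
        if_neg hk0]
      push_cast
      linear_combination (-(e : ℂ) * (m : ℂ) / 12) * hdC
    · refine ⟨-v * sigmaP p k - e * m, ?_⟩
      linear_combination (sigmaP p k) * hev

end Fermat.Agent.S16
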