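/-
S16, piece A2 for the small primes (helper41): if `p - 1 ∣ 12` (i.e. `p ∈ {2, 3, 5, 7, 13}`) the form
`G := (24/(p-1))·E`, `E` the Eisenstein series of weight 2 on `Γ0(p)`, has `q`-expansion
`1 + (24/(p-1)) ∑ σ'(n) qⁿ ∈ 1 + 2qℤ[[q]]`.  In particular `StmtTheta 2` needs no theta series.
-/
import Fermat.Agent.S16.LowerForm

set_option autoImplicit false

open CongruenceSubgroup UpperHalfPlane ModularForm ModularFormClass
open scoped MatrixGroups ModularForm

namespace Fermat.Agent.S16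

/-- `StmtTheta p` for `p - 1 ∣ 12`, from the Eisenstein series. -/
theorem stmtTheta_of_sub_one_dvd_twelve (p : ℕ) [Fact p.Prime] (hT : TCPackage p)
    (h : p - 1 ∣ 12) : StmtTheta p := by
  have hpp : p.Prime := Fact.out
  obtain ⟨m, hm⟩ := h
  obtain ⟨b, hE⟩ := hT.eis
  obtain ⟨F, hF1, -⟩ := hT.smul (2 * (m : ℂ)) hE
  have hmC : ((p : ℂ) - 1) * (m : ℂ) = 12 := by
    have h1 : ((p - 1 : ℕ) : ℂ) = (p : ℂ) - 1 := by
      rw [Nat.cast_sub hpp.one_le]; simp
    rw [← h1]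
    exact_mod_cast hm.symm
  refine ⟨F, ?_, fun n hn => ?_⟩
  · rw [← hF1]
    simp only [PowerSeries.coeff_C_mul, eisP, PowerSeries.coeff_mk, if_true]
    linear_combination (1 / 12 : ℂ) * hmC
  · refine ⟨m * sigmaP p n, ?_⟩
    rw [← hF1]
    have hn0 : n ≠ 0 := Nat.pos_iff_ne_zero.mp hn
    simp only [PowerSeries.coeff_C_mul, eisP, PowerSeries.coeff_mk, if_neg hn0]
    push_cast
    ring

/-- `StmtTheta 2`. -/
theorem stmtTheta_two [Fact (Nat.Prime 2)] (hT : TCPackage 2) : StmtTheta 2 :=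
  stmtTheta_of_sub_one_dvd_twelve 2 hT (by norm_num)

/-- `StmtTheta 3`. -/
theorem stmtTheta_three [Fact (Nat.Prime 3)] (hT : TCPackage 3) : StmtTheta 3 :=
  stmtTheta_of_sub_one_dvd_twelve 3 hT (by norm_num)

/-- (A) for all primes, given the theta input for the odd primes. -/
theorem stmtA_of_theta_odd (p : ℕ) [Fact p.Prime] (hT : TCPackage p)
    (hθ : p ≠ 2 → StmtTheta p) : StmtA p := by
  by_cases hp : p = 2
  · subst hp
    exact stmtA_of_theta 2 hT (stmtTheta_two hT)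
  · exact stmtA_of_theta p hT (hθ hp)

end Fermat.Agent.S16
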