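/-
S16, piece B-p (helper52): the case `ℓ = p` of `NoG`.

`noG_p : TCPackage p → L1Package → NoG p p (expo p p)`.

Proof.  Let `(a, b) ∈ TwoCusp p 2`, `a₀ = 1`, `a ≡ 1 mod p^e`.  Weight 2 and level one give
`b = -p⁻¹ U_p a`; the traces of `G²`, `G³` are multiples of `E₄`, `E₆`:
`p a² + U_p((U_p a)²) = (p+1) E₄`,  `p² a³ - U_p((U_p a)³) = (p²-1) E₆`.
Modulo `p^e` the left sides are `p + 1`, `p² - 1`, so `p^e ∣ 240 (p+1)` and `p^e ∣ 504 (p²-1)`
(`q¹`-coefficients), which is false for `e = expo p p`.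
-/
import Fermat.Agent.S16.Defs

set_option autoImplicit false

open PowerSeries

namespace Fermat.Agent.S16

noncomputable section

/-! ### `ℓ`-integral numbers and power series -/

theorem caseP_isLInt_intCast (ℓ : ℕ) [Fact ℓ.Prime] (m : ℤ) : IsLInt ℓ (m : ℂ) := by
  refine ⟨(m : ℚ), by push_cast; rfl, ?_⟩
  simp only [Rat.den_intCast]
  exact (Fact.out : ℓ.Prime).one_lt.ne' ∘ Nat.dvd_one.mp

theorem caseP_isLInt_add (ℓ : ℕ) [Fact ℓ.Prime] {x y : ℂ} (hx : IsLInt ℓ x) (hy : IsLInt ℓ y) :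
    IsLInt ℓ (x + y) := by
  obtain ⟨r, rfl, hr⟩ := hx
  obtain ⟨s, rfl, hs⟩ := hy
  refine ⟨r + s, by push_cast; rfl, fun h => ?_⟩
  have h1 : ℓ ∣ r.den * s.den := h.trans (Rat.add_den_dvd r s)
  rcases (Nat.Prime.dvd_mul (Fact.out : ℓ.Prime)).mp h1 with h2 | h2
  · exact hr h2
  · exact hs h2

theorem caseP_isLInt_mul (ℓ : ℕ) [Fact ℓ.Prime] {x y : ℂ} (hx : IsLInt ℓ x) (hy : IsLInt ℓ y) :
    IsLInt ℓ (x * y) := by
  obtain ⟨r, rfl, hr⟩ := hx
  obtain ⟨s, rfl, hs⟩ := hy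
  refine ⟨r * s, by push_cast; rfl, fun h => ?_⟩
  have h1 : ℓ ∣ r.den * s.den := h.trans (Rat.mul_den_dvd r s)
  rcases (Nat.Prime.dvd_mul (Fact.out : ℓ.Prime)).mp h1 with h2 | h2
  · exact hr h2
  · exact hs h2

theorem caseP_isLInt_neg (ℓ : ℕ) {x : ℂ} (hx : IsLInt ℓ x) : IsLInt ℓ (-x) := by
  obtain ⟨r, rfl, hr⟩ := hx
  exact ⟨-r, by push_cast; rfl, by simpa using hr⟩

/-- The subring of `ℓ`-integral rational numbers in `ℂ`. -/
def caseP_lint (ℓ : ℕ) [Fact ℓ.Prime] : Subring ℂ where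
  carrier := {x | IsLInt ℓ x}
  mul_mem' := fun hx hy => caseP_isLInt_mul ℓ hx hy
  one_mem' := by simpa using caseP_isLInt_intCast ℓ 1
  add_mem' := fun hx hy => caseP_isLInt_add ℓ hx hy
  zero_mem' := by simpa using caseP_isLInt_intCast ℓ 0
  neg_mem' := fun hx => caseP_isLInt_neg ℓ hx

theorem caseP_mem_lint (ℓ : ℕ) [Fact ℓ.Prime] {x : ℂ} : x ∈ caseP_lint ℓ ↔ IsLInt ℓ x := Iff.rfl

/-- Power series with `ℓ`-integral coefficients. -/
def caseP_rint (ℓ : ℕ) [Fact ℓ.Prime] : Subring (PowerSeries ℂ) where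
  carrier := {a | ∀ n : ℕ, a.coeff n ∈ caseP_lint ℓ}
  mul_mem' := by
    intro a b ha hb n
    rw [PowerSeries.coeff_mul]
    exact Subring.sum_mem _ fun ij _ => Subring.mul_mem _ (ha _) (hb _)
  one_mem' := by
    intro n
    rw [PowerSeries.coeff_one]
    split_ifs
    · exact Subring.one_mem _
    · exact Subring.zero_mem _
  add_mem' := by
    intro a b ha hb n
    rw [map_add]
    exact Subring.add_mem _ (ha _) (hb _)
  zero_mem' := by
    intro n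
    rw [map_zero]
    exact Subring.zero_mem _
  neg_mem' := by
    intro a ha n
    rw [map_neg]
    exact Subring.neg_mem _ (ha _)

theorem caseP_mem_rint (ℓ : ℕ) [Fact ℓ.Prime] {a : PowerSeries ℂ} :
    a ∈ caseP_rint ℓ ↔ ∀ n : ℕ, IsLInt ℓ (a.coeff n) := Iff.rfl

theorem caseP_C_int_mem (ℓ : ℕ) [Fact ℓ.Prime] (m : ℤ) :
    PowerSeries.C ((m : ℂ)) ∈ caseP_rint ℓ := by
  intro n
  rw [PowerSeries.coeff_C]
  split_ifs
  · exact caseP_isLInt_intCast ℓ m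
  · exact Subring.zero_mem _

/-! ### The operator `U_m` -/

@[simp] theorem caseP_coeff_Up (m : ℕ) (a : PowerSeries ℂ) (n : ℕ) :
    (Up m a).coeff n = a.coeff (m * n) := by
  simp [Up]

theorem caseP_Up_add (m : ℕ) (a b : PowerSeries ℂ) : Up m (a + b) = Up m a + Up m b := by
  ext n; simp

theorem caseP_Up_sub (m : ℕ) (a b : PowerSeries ℂ) : Up m (a - b) = Up m a - Up m b := by
  ext n; simp

theorem caseP_Up_C_mul (m : ℕ) (c : ℂ) (a : PowerSeries ℂ) :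
    Up m (PowerSeries.C c * a) = PowerSeries.C c * Up m a := by
  ext n; simp

theorem caseP_Up_one (m : ℕ) (hm : m ≠ 0) : Up m (1 : PowerSeries ℂ) = 1 := by
  ext n
  simp only [caseP_coeff_Up, PowerSeries.coeff_one, mul_eq_zero, hm, false_or]

theorem caseP_Up_mem (ℓ : ℕ) [Fact ℓ.Prime] (m : ℕ) {a : PowerSeries ℂ}
    (ha : a ∈ caseP_rint ℓ) : Up m a ∈ caseP_rint ℓ := by
  intro n
  rw [caseP_coeff_Up]
  exact ha _

/-! ### Series congruent to `1` modulo `ℓ^e` -/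

/-- `a ∈ 1 + ℓ^e · ℤ_(ℓ)[[q]]`. -/
def caseP_IsOne (ℓ e : ℕ) [Fact ℓ.Prime] (a : PowerSeries ℂ) : Prop :=
  ∃ g ∈ caseP_rint ℓ, a = 1 + PowerSeries.C ((ℓ : ℂ) ^ e) * g

theorem caseP_isOne_of_psCong (ℓ e : ℕ) [Fact ℓ.Prime] {a : PowerSeries ℂ}
    (h : PSCong ℓ e a 1) : caseP_IsOne ℓ e a := by
  have hℓ : ((ℓ : ℂ) ^ e) ≠ 0 := pow_ne_zero _ (Nat.cast_ne_zero.mpr (Fact.out : ℓ.Prime).ne_zero)
  refine ⟨PowerSeries.C (((ℓ : ℂ) ^ e)⁻¹) * (a - 1), ?_, ?_⟩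
  · intro n
    obtain ⟨x, hx, hxe⟩ := h n
    have : (PowerSeries.C (((ℓ : ℂ) ^ e)⁻¹) * (a - 1)).coeff n = x := by
      rw [PowerSeries.coeff_C_mul, map_sub, hxe]
      field_simp
    rw [this]
    exact hx
  · rw [← mul_assoc, ← map_mul, mul_inv_cancel₀ hℓ, map_one, one_mul]
    ring

theorem caseP_isOne_mul (ℓ e : ℕ) [Fact ℓ.Prime] {a b : PowerSeries ℂ}
    (ha : caseP_IsOne ℓ e a) (hb : caseP_IsOne ℓ e b) : caseP_IsOne ℓ e (a * b) := by
  obtain ⟨g, hg, rfl⟩ := ha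
  obtain ⟨h, hh, rfl⟩ := hb
  refine ⟨g + h + PowerSeries.C ((ℓ : ℂ) ^ e) * (g * h), ?_, by ring⟩
  refine Subring.add_mem _ (Subring.add_mem _ hg hh) (Subring.mul_mem _ ?_ (Subring.mul_mem _ hg hh))
  have := caseP_C_int_mem ℓ ((ℓ : ℤ) ^ e)
  push_cast at this
  exact this

theorem caseP_isOne_Up (ℓ e : ℕ) [Fact ℓ.Prime] (m : ℕ) (hm : m ≠ 0) {a : PowerSeries ℂ}
    (ha : caseP_IsOne ℓ e a) : caseP_IsOne ℓ e (Up m a) := by
  obtain ⟨g, hg, rfl⟩ := ha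
  exact ⟨Up m g, caseP_Up_mem ℓ m hg, by rw [caseP_Up_add, caseP_Up_C_mul, caseP_Up_one m hm]⟩

/-! ### Weight 2 on `Γ0(p)`: the expansion at `0` is determined by the expansion at `∞` -/

theorem caseP_snd_eq (p : ℕ) [Fact p.Prime] (hT : TCPackage p) (hL : L1Package)
    {x : PowerSeries ℂ × PowerSeries ℂ} (hx : x ∈ TwoCusp p 2) :
    x.2 = PowerSeries.C (-(p : ℂ)⁻¹) * Up p x.1 := by
  have hp : (p : ℂ) ≠ 0 := Nat.cast_ne_zero.mpr (Fact.out : p.Prime).ne_zero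
  have h1 := hL.weight_two (hT.trace (hT.fricke hx))
  simp only at h1
  rw [caseP_Up_C_mul, ← mul_assoc, ← map_mul] at h1
  have h2 : (p : ℂ) * (-(p : ℂ)) ^ (-(2 : ℤ)) = (p : ℂ)⁻¹ := by
    rw [zpow_neg, zpow_ofNat]
    field_simp
  rw [h2] at h1
  rw [eq_neg_of_add_eq_zero_left h1, map_neg, neg_mul]

/-! ### Level one, weights 4 and 6 -/

theorem caseP_e4_coeff_zero : e4.coeff 0 = 1 := by simp [e4]

theorem caseP_e4_coeff_one : e4.coeff 1 = 240 := by simp [e4]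

theorem caseP_e6_coeff_zero : e6.coeff 0 = 1 := by simp [e6]

theorem caseP_e6_coeff_one : e6.coeff 1 = -504 := by simp [e6]

theorem caseP_levelOne_four (hL : L1Package) {F : PowerSeries ℂ} (hF : F ∈ LevelOne 4) :
    F = PowerSeries.C (F.coeff 0) * e4 := by
  have h1 : F + PowerSeries.C (-(F.coeff 0)) * e4 ∈ LevelOne 4 :=
    hL.add hF (hL.smul _ hL.e4_mem)
  have h2 := hL.sturm h1 (fun n hn => by
    have hn0 : n = 0 := by omega
    subst hn0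
    rw [map_add, PowerSeries.coeff_C_mul, caseP_e4_coeff_zero]
    ring)
  rw [map_neg, neg_mul, ← sub_eq_add_neg, sub_eq_zero] at h2
  exact h2

theorem caseP_levelOne_six (hL : L1Package) {F : PowerSeries ℂ} (hF : F ∈ LevelOne 6) :
    F = PowerSeries.C (F.coeff 0) * e6 := by
  have h1 : F + PowerSeries.C (-(F.coeff 0)) * e6 ∈ LevelOne 6 :=
    hL.add hF (hL.smul _ hL.e6_mem)
  have h2 := hL.sturm h1 (fun n hn => by
    have hn0 : n = 0 := by omega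
    subst hn0
    rw [map_add, PowerSeries.coeff_C_mul, caseP_e6_coeff_zero]
    ring)
  rw [map_neg, neg_mul, ← sub_eq_add_neg, sub_eq_zero] at h2
  exact h2

/-- If `c₁ F = c₂ + ℓ^e w` with `F` a multiple of a series `E = 1 + t q + …`, then
`c₂ t ∈ ℓ^e ℤ_(ℓ)`. -/
theorem caseP_coeff_one_cong (ℓ e : ℕ) [Fact ℓ.Prime] {F E w : PowerSeries ℂ} (c₁ c₂ : ℂ) (t : ℤ)
    (hE0 : E.coeff 0 = 1) (hE1 : E.coeff 1 = (t : ℂ))
    (hF : F = PowerSeries.C (F.coeff 0) * E) (hw : w ∈ caseP_rint ℓ)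
    (h : PowerSeries.C c₁ * F = PowerSeries.C c₂ + PowerSeries.C ((ℓ : ℂ) ^ e) * w) :
    ∃ y : ℂ, IsLInt ℓ y ∧ c₂ * (t : ℂ) = (ℓ : ℂ) ^ e * y := by
  refine ⟨w.coeff 1 - (t : ℂ) * w.coeff 0,
    caseP_isLInt_add ℓ (hw 1) (caseP_isLInt_neg ℓ
      (caseP_isLInt_mul ℓ (caseP_isLInt_intCast ℓ t) (hw 0))), ?_⟩
  have h0 := congrArg (PowerSeries.coeff 0) h
  have h1 := congrArg (PowerSeries.coeff 1) h
  rw [hF] at h0 h1
  simp only [PowerSeries.coeff_C_mul, map_add, hE0, hE1, PowerSeries.coeff_zero_C, mul_one] at h0 h1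
  rw [PowerSeries.coeff_C, if_neg one_ne_zero, zero_add] at h1
  linear_combination (-(t : ℂ)) * h0 + h1

/-! ### Integrality -/

theorem caseP_dvd_of_isLInt (ℓ e : ℕ) [Fact ℓ.Prime] (m : ℤ) {y : ℂ} (hy : IsLInt ℓ y)
    (h : (m : ℂ) = (ℓ : ℂ) ^ e * y) : (ℓ : ℤ) ^ e ∣ m := by
  obtain ⟨r, rfl, hr⟩ := hy
  have hq : (m : ℚ) = (ℓ : ℚ) ^ e * r := by
    have : ((m : ℚ) : ℂ) = (((ℓ : ℚ) ^ e * r : ℚ) : ℂ) := by push_cast; exact h
    exact_mod_cast this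
  have hℓ0 : ((ℓ : ℚ) ^ e) ≠ 0 := pow_ne_zero _ (Nat.cast_ne_zero.mpr (Fact.out : ℓ.Prime).ne_zero)
  have hr' : r = (m : ℚ) / (((ℓ ^ e : ℕ) : ℤ) : ℚ) := by
    rw [hq]; push_cast; field_simp
  have hden : r.den ∣ ℓ ^ e := by
    have := Rat.den_dvd m ((ℓ ^ e : ℕ) : ℤ)
    rw [Rat.divInt_eq_div, ← hr'] at this
    exact Int.natCast_dvd_natCast.mp this
  have hden1 : r.den = 1 := by
    obtain ⟨k, -, hk⟩ := (Nat.dvd_prime_pow (Fact.out : ℓ.Prime)).mp hden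
    rcases Nat.eq_zero_or_pos k with hk0 | hk0
    · rw [hk, hk0, pow_zero]
    · exact absurd (hk ▸ dvd_pow_self ℓ hk0.ne') hr
  refine ⟨r.num, ?_⟩
  have hrn : (r.num : ℚ) = r := by
    conv_rhs => rw [← Rat.num_div_den r, hden1]
    simp
  have : ((m : ℤ) : ℚ) = (((ℓ : ℤ) ^ e * r.num : ℤ) : ℚ) := by
    push_cast; rw [hrn]; exact hq
  exact_mod_cast this

theorem caseP_expo_two : expo 2 2 = 4 := by
  unfold expo
  norm_num
  rw [show (24 : ℕ) = 2 ^ 3 * 3 by norm_num]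
  have : Fact (Nat.Prime 2) := ⟨Nat.prime_two⟩
  rw [padicValNat.mul (by norm_num) (by norm_num), padicValNat.prime_pow]
  simp [padicValNat.eq_zero_of_not_dvd]

theorem caseP_expo_three : expo 3 3 = 2 := by
  unfold expo
  norm_num
  rw [show (12 : ℕ) = 3 ^ 1 * 4 by norm_num]
  have : Fact (Nat.Prime 3) := ⟨Nat.prime_three⟩
  rw [padicValNat.mul (by norm_num) (by norm_num), padicValNat.prime_pow]
  simp [padicValNat.eq_zero_of_not_dvd]

theorem caseP_expo_five : expo 5 5 = 1 := by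
  unfold expo
  norm_num

theorem caseP_one_le_expo (p ℓ : ℕ) : 1 ≤ expo p ℓ := by
  unfold expo; omega

/-! ### The two trace identities -/

/-- From the trace of `G²`: `(p + 1) · 240 ∈ p^e ℤ_(p)`. -/
theorem caseP_e4_cong (p e : ℕ) [Fact p.Prime] (hT : TCPackage p) (hL : L1Package)
    {x : PowerSeries ℂ × PowerSeries ℂ} (hx : x ∈ TwoCusp p 2) (h1 : PSCong p e x.1 1) :
    (p : ℤ) ^ e ∣ ((p : ℤ) + 1) * 240 := by
  have hp0 : p ≠ 0 := (Fact.out : p.Prime).ne_zero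
  have hp : (p : ℂ) ≠ 0 := Nat.cast_ne_zero.mpr hp0
  have hb := caseP_snd_eq p hT hL hx
  have hF : x.1 * x.1 + PowerSeries.C (p : ℂ) * Up p (x.2 * x.2) ∈ LevelOne 4 := by
    have := hT.trace (hT.mul hx hx)
    norm_num at this
    exact this
  have ha := caseP_isOne_of_psCong p e h1
  obtain ⟨g, hg, hge⟩ := caseP_isOne_mul p e ha ha
  obtain ⟨h, hh, hhe⟩ := caseP_isOne_Up p e p hp0
    (caseP_isOne_mul p e (caseP_isOne_Up p e p hp0 ha) (caseP_isOne_Up p e p hp0 ha))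
  have hpC : PowerSeries.C ((p : ℂ)) ∈ caseP_rint p := by
    have := caseP_C_int_mem p (p : ℤ)
    push_cast at this
    exact this
  have key : PowerSeries.C (p : ℂ) * (x.1 * x.1 + PowerSeries.C (p : ℂ) * Up p (x.2 * x.2)) =
      PowerSeries.C ((p : ℂ) + 1) +
        PowerSeries.C ((p : ℂ) ^ e) * (PowerSeries.C (p : ℂ) * g + h) := by
    have e1 : x.2 * x.2 = PowerSeries.C (((p : ℂ)⁻¹) ^ 2) * (Up p x.1 * Up p x.1) := by
      simp only [hb, map_neg, map_pow]; ring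
    rw [e1, caseP_Up_C_mul, hhe, hge]
    have e2 : PowerSeries.C (p : ℂ) * (PowerSeries.C (p : ℂ) * PowerSeries.C (((p : ℂ)⁻¹) ^ 2)) =
        (1 : PowerSeries ℂ) := by
      rw [← map_mul, ← map_mul, ← map_one (PowerSeries.C (R := ℂ))]
      congr 1
      field_simp
    rw [map_add, map_one]
    linear_combination (1 + PowerSeries.C ((p : ℂ) ^ e) * h) * e2
  obtain ⟨y, hy, hye⟩ := caseP_coeff_one_cong p e ((p : ℂ)) ((p : ℂ) + 1) 240
    caseP_e4_coeff_zero (by rw [caseP_e4_coeff_one]; norm_num) (caseP_levelOne_four hL hF)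
    (Subring.add_mem _ (Subring.mul_mem _ hpC hg) hh) key
  exact caseP_dvd_of_isLInt p e _ hy (by push_cast at hye ⊢; exact hye)

/-- From the trace of `G³`: `(p² - 1) · 504 ∈ p^e ℤ_(p)`. -/
theorem caseP_e6_cong (p e : ℕ) [Fact p.Prime] (hT : TCPackage p) (hL : L1Package)
    {x : PowerSeries ℂ × PowerSeries ℂ} (hx : x ∈ TwoCusp p 2) (h1 : PSCong p e x.1 1) :
    (p : ℤ) ^ e ∣ ((p : ℤ) ^ 2 - 1) * (-504) := by
  have hp0 : p ≠ 0 := (Fact.out : p.Prime).ne_zero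
  have hp : (p : ℂ) ≠ 0 := Nat.cast_ne_zero.mpr hp0
  have hb := caseP_snd_eq p hT hL hx
  have hF : x.1 * x.1 * x.1 + PowerSeries.C (p : ℂ) * Up p (x.2 * x.2 * x.2) ∈ LevelOne 6 := by
    have := hT.trace (hT.mul (hT.mul hx hx) hx)
    norm_num at this
    exact this
  have ha := caseP_isOne_of_psCong p e h1
  have hU := caseP_isOne_Up p e p hp0 ha
  obtain ⟨g, hg, hge⟩ := caseP_isOne_mul p e (caseP_isOne_mul p e ha ha) ha
  obtain ⟨h, hh, hhe⟩ := caseP_isOne_Up p e p hp0 (caseP_isOne_mul p e (caseP_isOne_mul p e hU hU) hU)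
  have hpC : PowerSeries.C ((p : ℂ) ^ 2) ∈ caseP_rint p := by
    have := caseP_C_int_mem p ((p : ℤ) ^ 2)
    push_cast at this
    exact this
  have key : PowerSeries.C ((p : ℂ) ^ 2) *
      (x.1 * x.1 * x.1 + PowerSeries.C (p : ℂ) * Up p (x.2 * x.2 * x.2)) =
      PowerSeries.C ((p : ℂ) ^ 2 - 1) +
        PowerSeries.C ((p : ℂ) ^ e) * (PowerSeries.C ((p : ℂ) ^ 2) * g - h) := by
    have e1 : x.2 * x.2 * x.2 =
        PowerSeries.C (-((p : ℂ)⁻¹) ^ 3) * (Up p x.1 * Up p x.1 * Up p x.1) := by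
      simp only [hb, map_neg, map_pow]; ring
    rw [e1, caseP_Up_C_mul, hhe, hge]
    have e2 : PowerSeries.C ((p : ℂ) ^ 2) *
        (PowerSeries.C (p : ℂ) * PowerSeries.C (-((p : ℂ)⁻¹) ^ 3)) = (-1 : PowerSeries ℂ) := by
      rw [← map_mul, ← map_mul, ← map_one (PowerSeries.C (R := ℂ)), ← map_neg]
      congr 1
      field_simp
    rw [map_sub, map_one]
    linear_combination (1 + PowerSeries.C ((p : ℂ) ^ e) * h) * e2
  obtain ⟨y, hy, hye⟩ := caseP_coeff_one_cong p e ((p : ℂ) ^ 2) ((p : ℂ) ^ 2 - 1) (-504)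
    caseP_e6_coeff_zero (by rw [caseP_e6_coeff_one]; norm_num) (caseP_levelOne_six hL hF)
    (Subring.sub_mem _ (Subring.mul_mem _ hpC hg) hh) key
  exact caseP_dvd_of_isLInt p e _ hy (by push_cast at hye ⊢; exact hye)

/-! ### The case `ℓ = p` -/

/-- **Piece B-p.** There is no form of weight 2 on `Γ0(p)` whose expansion at `∞` is
`≡ 1 mod p^(expo p p)`. -/
theorem noG_p (p : ℕ) [Fact p.Prime] (hT : TCPackage p) (hL : L1Package) : NoG p p (expo p p) := by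
  rintro ⟨x, hx, -, h1⟩
  have hpp : p.Prime := Fact.out
  have h4 := caseP_e4_cong p (expo p p) hT hL hx h1
  have h6 := caseP_e6_cong p (expo p p) hT hL hx h1
  by_cases h2 : p = 2
  · subst h2
    rw [caseP_expo_two] at h6
    norm_num at h6
  by_cases h5 : p = 5
  · subst h5
    rw [caseP_expo_five] at h6
    norm_num at h6
  -- now `p ∣ 240`, so `p = 3`
  have hpd : (p : ℤ) ∣ ((p : ℤ) + 1) * 240 :=
    (dvd_pow_self (p : ℤ) (by have := caseP_one_le_expo p p; omega)).trans h4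
  have hpd' : p ∣ (p + 1) * 240 := by exact_mod_cast hpd
  have hp240 : p ∣ 240 := by
    rcases (Nat.Prime.dvd_mul hpp).mp hpd' with h | h
    · exact absurd ((Nat.dvd_add_right (dvd_refl p)).mp h) (Nat.Prime.not_dvd_one hpp)
    · exact h
  have h3 : p = 3 := by
    have h240 : (240 : ℕ) = 2 ^ 4 * (3 * 5) := by norm_num
    rw [h240] at hp240
    rcases (Nat.Prime.dvd_mul hpp).mp hp240 with h | h
    · exact absurd ((Nat.prime_dvd_prime_iff_eq hpp Nat.prime_two).mp (hpp.dvd_of_dvd_pow h)) h2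
    · rcases (Nat.Prime.dvd_mul hpp).mp h with h | h
      · exact (Nat.prime_dvd_prime_iff_eq hpp Nat.prime_three).mp h
      · exact absurd ((Nat.prime_dvd_prime_iff_eq hpp Nat.prime_five).mp h) h5
  subst h3
  rw [caseP_expo_three] at h4
  norm_num at h4

end

end Fermat.Agent.S16
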