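/-
S16: the shared integrality API: the subring `ℤ_(ℓ) ⊆ ℂ`, divisibility by `ℓ^e`, congruences of
power series.  (helper16)
-/
import Fermat.Agent.S16.Defs

set_option autoImplicit false

namespace Fermat.Agent.S16

open PowerSeries

noncomputable section

variable (ℓ : ℕ) [hℓ : Fact ℓ.Prime]

/-! ### The subring `ℤ_(ℓ)` of `ℂ` -/

/-- `ℤ_(ℓ)` as a subring of `ℂ`. -/
def Zl : Subring ℂ where
  carrier := {x | IsLInt ℓ x}
  mul_mem' := by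
    rintro _ _ ⟨r, rfl, hr⟩ ⟨s, rfl, hs⟩
    refine ⟨r * s, by push_cast; rfl, fun h => ?_⟩
    have h1 : ℓ ∣ r.den * s.den := h.trans (Rat.mul_den_dvd r s)
    rcases (Nat.Prime.dvd_mul hℓ.out).1 h1 with h2 | h2
    · exact hr h2
    · exact hs h2
  one_mem' := ⟨1, by simp, by simpa using hℓ.out.one_lt.ne'⟩
  add_mem' := by
    rintro _ _ ⟨r, rfl, hr⟩ ⟨s, rfl, hs⟩
    refine ⟨r + s, by push_cast; rfl, fun h => ?_⟩
    have h1 : ℓ ∣ r.den * s.den := h.trans (Rat.add_den_dvd r s)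
    rcases (Nat.Prime.dvd_mul hℓ.out).1 h1 with h2 | h2
    · exact hr h2
    · exact hs h2
  zero_mem' := ⟨0, by simp, by simpa using hℓ.out.one_lt.ne'⟩
  neg_mem' := by
    rintro _ ⟨r, rfl, hr⟩
    exact ⟨-r, by push_cast; rfl, by simpa using hr⟩

variable {ℓ}

theorem mem_Zl {x : ℂ} : x ∈ Zl ℓ ↔ IsLInt ℓ x := Iff.rfl

theorem ratCast_mem_Zl {r : ℚ} (h : ¬ ℓ ∣ r.den) : (r : ℂ) ∈ Zl ℓ := ⟨r, rfl, h⟩

theorem intCast_mem_Zl (m : ℤ) : (m : ℂ) ∈ Zl ℓ := intCast_mem (Zl ℓ) m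

theorem natCast_mem_Zl (m : ℕ) : (m : ℂ) ∈ Zl ℓ := natCast_mem (Zl ℓ) m

theorem inv_natCast_mem_Zl {m : ℕ} (h : ¬ ℓ ∣ m) : ((m : ℂ))⁻¹ ∈ Zl ℓ := by
  have hm : m ≠ 0 := fun h0 => h (h0 ▸ dvd_zero ℓ)
  refine ⟨(m : ℚ)⁻¹, by push_cast; rfl, ?_⟩
  have : ((m : ℚ)⁻¹).den = m := by
    rw [Rat.inv_natCast_den]; simp [hm]
  rwa [this]

theorem inv_intCast_mem_Zl {m : ℤ} (h : ¬ (ℓ : ℤ) ∣ m) : ((m : ℂ))⁻¹ ∈ Zl ℓ := by
  have h1 : ¬ ℓ ∣ m.natAbs := fun h' => h (Int.natCast_dvd.mpr h')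
  have h2 := inv_natCast_mem_Zl (ℓ := ℓ) h1
  rcases Int.natAbs_eq m with hm | hm
  · rw [hm]; simpa using h2
  · rw [hm]; push_cast; rw [inv_neg]; exact (Zl ℓ).neg_mem (by simpa using h2)

/-- `ℓ` is not invertible in `ℤ_(ℓ)`. -/
theorem not_lDvd_one : ¬ LDvd ℓ 1 := by
  rintro ⟨y, ⟨r, rfl, hr⟩, h⟩
  have h1 : (1 : ℚ) = ℓ * r := by exact_mod_cast h
  have h2 : r = (ℓ : ℚ)⁻¹ := by
    have hl : (ℓ : ℚ) ≠ 0 := by exact_mod_cast hℓ.out.ne_zero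
    field_simp
    linarith
  apply hr
  rw [h2, Rat.inv_natCast_den]
  simp [hℓ.out.ne_zero]

theorem lDvd_iff {x : ℂ} : LDvd ℓ x ↔ ∃ y ∈ Zl ℓ, x = (ℓ : ℂ) * y := by
  constructor
  · rintro ⟨y, hy, h⟩; exact ⟨y, hy, h⟩
  · rintro ⟨y, hy, h⟩; exact ⟨y, hy, h⟩

theorem LDvd.mem {x : ℂ} (h : LDvd ℓ x) : x ∈ Zl ℓ := by
  obtain ⟨y, hy, rfl⟩ := h
  exact (Zl ℓ).mul_mem (natCast_mem_Zl ℓ) hy

theorem lDvd_zero : LDvd ℓ 0 := ⟨0, (Zl ℓ).zero_mem, by simp⟩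

theorem LDvd.add {x y : ℂ} (hx : LDvd ℓ x) (hy : LDvd ℓ y) : LDvd ℓ (x + y) := by
  obtain ⟨a, ha, rfl⟩ := hx
  obtain ⟨b, hb, rfl⟩ := hy
  exact ⟨a + b, (Zl ℓ).add_mem ha hb, by ring⟩

theorem LDvd.neg {x : ℂ} (hx : LDvd ℓ x) : LDvd ℓ (-x) := by
  obtain ⟨a, ha, rfl⟩ := hx
  exact ⟨-a, (Zl ℓ).neg_mem ha, by ring⟩

theorem LDvd.sub {x y : ℂ} (hx : LDvd ℓ x) (hy : LDvd ℓ y) : LDvd ℓ (x - y) := by
  rw [sub_eq_add_neg]; exact hx.add hy.neg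

theorem LDvd.mul_left {x : ℂ} (hx : LDvd ℓ x) {y : ℂ} (hy : y ∈ Zl ℓ) : LDvd ℓ (y * x) := by
  obtain ⟨a, ha, rfl⟩ := hx
  exact ⟨y * a, (Zl ℓ).mul_mem hy ha, by ring⟩

theorem LDvd.mul_right {x : ℂ} (hx : LDvd ℓ x) {y : ℂ} (hy : y ∈ Zl ℓ) : LDvd ℓ (x * y) := by
  rw [mul_comm]; exact hx.mul_left hy

theorem lDvd_sum {ι : Type*} (s : Finset ι) (f : ι → ℂ) (h : ∀ i ∈ s, LDvd ℓ (f i)) :
    LDvd ℓ (∑ i ∈ s, f i) := by
  classical
  induction s using Finset.induction_on with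
  | empty => simpa using lDvd_zero
  | insert i s hi ih =>
    rw [Finset.sum_insert hi]
    exact (h i (Finset.mem_insert_self i s)).add
      (ih fun j hj => h j (Finset.mem_insert_of_mem hj))

/-- For integers: divisibility in `ℤ_(ℓ)` is divisibility in `ℤ`. -/
theorem lDvd_intCast_iff {m : ℤ} : LDvd ℓ (m : ℂ) ↔ (ℓ : ℤ) ∣ m := by
  constructor
  · rintro ⟨y, ⟨r, rfl, hr⟩, h⟩
    have h1 : (m : ℚ) = ℓ * r := by exact_mod_cast h
    have hl : (ℓ : ℚ) ≠ 0 := by exact_mod_cast hℓ.out.ne_zero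
    -- r = m / ℓ has denominator prime to ℓ
    by_contra hnd
    have hcop : IsCoprime m (ℓ : ℤ) := by
      have := (Int.prime_iff_natAbs_prime.mpr (by simpa using hℓ.out) : Prime (ℓ : ℤ))
      exact (IsCoprime.symm ((Prime.coprime_iff_not_dvd this).mpr hnd))
    have h2 : r = (m : ℚ) / ℓ := by field_simp; linarith
    have h3 : r.den = ℓ := by
      rw [h2]
      have := Rat.den_div_eq_of_coprime (a := m) (b := (ℓ : ℤ))
        (by exact_mod_cast hℓ.out.pos) (by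
          rw [Int.isCoprime_iff_gcd_eq_one] at hcop
          simpa [Int.gcd, Nat.Coprime] using hcop)
      simpa using this
    exact hr (h3 ▸ dvd_rfl)
  · rintro ⟨k, rfl⟩
    exact ⟨k, intCast_mem_Zl k, by push_cast; ring⟩

/-- For an `ℓ`-integral rational: divisibility by `ℓ` in `ℤ_(ℓ)` is divisibility of the
numerator. -/
theorem lDvd_ratCast_iff {r : ℚ} (hd : ¬ ℓ ∣ r.den) : LDvd ℓ (r : ℂ) ↔ (ℓ : ℤ) ∣ r.num := by
  have hp : Prime (ℓ : ℤ) := Int.prime_iff_natAbs_prime.mpr (by simpa using hℓ.out)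
  constructor
  · rintro ⟨y, ⟨s, rfl, hs⟩, h⟩
    have h1 : r = ℓ * s := by exact_mod_cast h
    have hrd : (r.den : ℚ) ≠ 0 := by exact_mod_cast r.den_ne_zero
    have hsd : (s.den : ℚ) ≠ 0 := by exact_mod_cast s.den_ne_zero
    have e1 : (r.num : ℚ) = r * r.den := (Rat.mul_den_eq_num r).symm
    have e2 : (s.num : ℚ) = s * s.den := (Rat.mul_den_eq_num s).symm
    have h5 : r.num * (s.den : ℤ) = (ℓ : ℤ) * (s.num * (r.den : ℤ)) := by
      have : ((r.num * (s.den : ℤ) : ℤ) : ℚ) = (((ℓ : ℤ) * (s.num * (r.den : ℤ)) : ℤ) : ℚ) := by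
        push_cast
        rw [e1, e2, h1]; ring
      exact_mod_cast this
    have h6 : (ℓ : ℤ) ∣ r.num * (s.den : ℤ) := ⟨_, h5⟩
    rcases hp.dvd_or_dvd h6 with h7 | h7
    · exact h7
    · exact absurd (Int.natCast_dvd_natCast.mp h7) hs
  · rintro ⟨k, hk⟩
    have hrd : (r.den : ℂ) ≠ 0 := by exact_mod_cast r.den_ne_zero
    refine ⟨(((k : ℚ) / (r.den : ℚ) : ℚ) : ℂ), ⟨(k : ℚ) / r.den, rfl, ?_⟩, ?_⟩
    · intro h'
      have h8 : (((k : ℚ) / (r.den : ℚ)).den : ℤ) ∣ (r.den : ℤ) := by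
        have := Rat.den_dvd k (r.den : ℤ)
        rwa [Rat.divInt_eq_div] at this
      exact hd (h'.trans (Int.natCast_dvd_natCast.mp h8))
    · have e : (r : ℂ) = (r.num : ℂ) / (r.den : ℂ) := by
        have := (Rat.num_div_den r).symm
        exact_mod_cast congrArg (fun t : ℚ => (t : ℂ)) this
      rw [e, hk]; push_cast; field_simp

theorem isLUnit_iff {x : ℂ} : IsLUnit ℓ x ↔ x ∈ Zl ℓ ∧ ¬ LDvd ℓ x := by
  constructor
  · rintro ⟨r, rfl, hd, hn⟩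
    exact ⟨⟨r, rfl, hd⟩, fun h => hn ((lDvd_ratCast_iff hd).1 h)⟩
  · rintro ⟨⟨r, rfl, hd⟩, hn⟩
    exact ⟨r, rfl, hd, fun h => hn ((lDvd_ratCast_iff hd).2 h)⟩

theorem IsLUnit.mem {x : ℂ} (h : IsLUnit ℓ x) : x ∈ Zl ℓ := (isLUnit_iff.1 h).1

theorem IsLUnit.not_lDvd {x : ℂ} (h : IsLUnit ℓ x) : ¬ LDvd ℓ x := (isLUnit_iff.1 h).2

/-! ### Operators on power series -/

omit hℓ in
@[simp] theorem coeff_Up (m : ℕ) (a : PowerSeries ℂ) (n : ℕ) :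
    (Up m a).coeff n = a.coeff (m * n) := by simp [Up]

omit hℓ in
@[simp] theorem coeff_Vp (m : ℕ) (a : PowerSeries ℂ) (n : ℕ) :
    (Vp m a).coeff n = if m ∣ n then a.coeff (n / m) else 0 := by simp [Vp]

omit hℓ in
@[simp] theorem coeff_theta (a : PowerSeries ℂ) (n : ℕ) :
    (theta a).coeff n = (n : ℂ) * a.coeff n := by simp [theta]

omit hℓ in
theorem Vp_eq_expand {m : ℕ} (hm : m ≠ 0) (a : PowerSeries ℂ) :
    Vp m a = PowerSeries.expand m hm a := by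
  ext n
  rw [coeff_Vp, PowerSeries.coeff_expand]

omit hℓ in
theorem Vp_mul {m : ℕ} (hm : m ≠ 0) (a b : PowerSeries ℂ) : Vp m (a * b) = Vp m a * Vp m b := by
  simp only [Vp_eq_expand hm, map_mul]

omit hℓ in
theorem Vp_pow {m : ℕ} (hm : m ≠ 0) (a : PowerSeries ℂ) (k : ℕ) : Vp m (a ^ k) = Vp m a ^ k := by
  simp only [Vp_eq_expand hm, map_pow]

omit hℓ in
theorem Vp_add (m : ℕ) (a b : PowerSeries ℂ) : Vp m (a + b) = Vp m a + Vp m b := by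
  ext n; simp only [coeff_Vp, map_add]; split_ifs <;> simp

omit hℓ in
theorem Vp_sub (m : ℕ) (a b : PowerSeries ℂ) : Vp m (a - b) = Vp m a - Vp m b := by
  ext n; simp only [coeff_Vp, map_sub]; split_ifs <;> simp

omit hℓ in
theorem Vp_one {m : ℕ} (hm : m ≠ 0) : Vp m 1 = 1 := by
  simp only [Vp_eq_expand hm, map_one]

omit hℓ in
theorem Vp_C {m : ℕ} (hm : m ≠ 0) (c : ℂ) : Vp m (PowerSeries.C c) = PowerSeries.C c := by
  simp only [Vp_eq_expand hm, PowerSeries.expand_C]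

omit hℓ in
theorem Up_add (m : ℕ) (a b : PowerSeries ℂ) : Up m (a + b) = Up m a + Up m b := by
  ext n; simp

omit hℓ in
theorem Up_sub (m : ℕ) (a b : PowerSeries ℂ) : Up m (a - b) = Up m a - Up m b := by
  ext n; simp

omit hℓ in
theorem Up_C_mul (m : ℕ) (c : ℂ) (a : PowerSeries ℂ) :
    Up m (PowerSeries.C c * a) = PowerSeries.C c * Up m a := by
  ext n; simp

omit hℓ in
theorem Up_Vp {m : ℕ} (hm : m ≠ 0) (a : PowerSeries ℂ) : Up m (Vp m a) = a := by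
  ext n
  simp [Nat.mul_div_cancel_left _ (Nat.pos_of_ne_zero hm)]

omit hℓ in
/-- `U_m (V_m a · b) = a · U_m b`. -/
theorem Up_Vp_mul {m : ℕ} (hm : m ≠ 0) (a b : PowerSeries ℂ) :
    Up m (Vp m a * b) = a * Up m b := by
  ext n
  rw [coeff_Up, PowerSeries.coeff_mul, PowerSeries.coeff_mul]
  -- the terms with `m ∤ i` vanish; the others are indexed by the antidiagonal of `n`
  have hmpos := Nat.pos_of_ne_zero hm
  rw [← Finset.sum_filter_add_sum_filter_not (Finset.HasAntidiagonal.antidiagonal (m * n))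
    (fun x : ℕ × ℕ => m ∣ x.1)]
  have h2 : ∑ x ∈ (Finset.HasAntidiagonal.antidiagonal (m * n)).filter
      (fun x : ℕ × ℕ => ¬ m ∣ x.1), (Vp m a).coeff x.1 * b.coeff x.2 = 0 := by
    refine Finset.sum_eq_zero fun x hx => ?_
    rw [Finset.mem_filter] at hx
    simp [coeff_Vp, hx.2]
  rw [h2, add_zero]
  symm
  refine Finset.sum_bij (fun x _ => (m * x.1, m * x.2)) ?_ ?_ ?_ ?_
  · rintro ⟨i, j⟩ hx
    rw [Finset.HasAntidiagonal.mem_antidiagonal] at hx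
    simp only [Finset.mem_filter, Finset.HasAntidiagonal.mem_antidiagonal]
    exact ⟨by rw [← mul_add]; exact congrArg _ hx, dvd_mul_right _ _⟩
  · rintro ⟨i, j⟩ _ ⟨i', j'⟩ _ h
    simp only [Prod.mk.injEq] at h
    have h1 := Nat.eq_of_mul_eq_mul_left hmpos h.1
    have h3 := Nat.eq_of_mul_eq_mul_left hmpos h.2
    simp [h1, h3]
  · rintro ⟨i, j⟩ hx
    simp only [Finset.mem_filter, Finset.HasAntidiagonal.mem_antidiagonal] at hx
    obtain ⟨hij, ⟨i', rfl⟩⟩ := hx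
    have hj : m ∣ j := by
      have : m ∣ m * i' + j := hij ▸ dvd_mul_right m n
      exact (Nat.dvd_add_right (dvd_mul_right m i')).1 this
    obtain ⟨j', rfl⟩ := hj
    refine ⟨(i', j'), ?_, rfl⟩
    rw [Finset.HasAntidiagonal.mem_antidiagonal]
    rw [← mul_add] at hij
    exact Nat.eq_of_mul_eq_mul_left hmpos hij
  · rintro ⟨i, j⟩ _
    simp [coeff_Vp, Nat.mul_div_cancel_left _ hmpos]

omit hℓ in
theorem theta_eq (a : PowerSeries ℂ) : theta a = PowerSeries.X * PowerSeries.derivative ℂ a := by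
  ext n
  rcases n with _ | n
  · simp
  · rw [coeff_theta, PowerSeries.coeff_succ_X_mul, PowerSeries.coeff_derivative]
    push_cast; ring

omit hℓ in
theorem theta_mul (a b : PowerSeries ℂ) : theta (a * b) = theta a * b + a * theta b := by
  simp only [theta_eq, Derivation.leibniz, smul_eq_mul]; ring

omit hℓ in
theorem theta_add (a b : PowerSeries ℂ) : theta (a + b) = theta a + theta b := by
  ext n; simp [mul_add]

omit hℓ in
theorem theta_sub (a b : PowerSeries ℂ) : theta (a - b) = theta a - theta b := by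
  ext n; simp [mul_sub]

omit hℓ in
theorem theta_C_mul (c : ℂ) (a : PowerSeries ℂ) :
    theta (PowerSeries.C c * a) = PowerSeries.C c * theta a := by
  ext n; simp; ring

omit hℓ in
theorem theta_Vp (m : ℕ) (a : PowerSeries ℂ) :
    theta (Vp m a) = PowerSeries.C (m : ℂ) * Vp m (theta a) := by
  ext n
  simp only [coeff_theta, coeff_Vp, PowerSeries.coeff_C_mul]
  split_ifs with h
  · obtain ⟨k, rfl⟩ := h
    rcases Nat.eq_zero_or_pos m with hm | hm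
    · subst hm; simp
    · rw [Nat.mul_div_cancel_left _ hm]; push_cast; ring
  · simp

/-! ### Integral power series, divisibility and congruences -/

/-- The subring `ℤ_(ℓ)[[q]]` of `ℂ[[q]]`. -/
def ZlPS (ℓ : ℕ) [Fact ℓ.Prime] : Subring (PowerSeries ℂ) where
  carrier := {a | ∀ n, a.coeff n ∈ Zl ℓ}
  mul_mem' := by
    intro a b ha hb n
    rw [PowerSeries.coeff_mul]
    exact (Zl ℓ).sum_mem fun x _ => (Zl ℓ).mul_mem (ha _) (hb _)
  one_mem' := by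
    intro n
    rw [PowerSeries.coeff_one]
    split_ifs
    · exact (Zl ℓ).one_mem
    · exact (Zl ℓ).zero_mem
  add_mem' := by
    intro a b ha hb n
    rw [map_add]; exact (Zl ℓ).add_mem (ha _) (hb _)
  zero_mem' := by
    intro n
    rw [map_zero]; exact (Zl ℓ).zero_mem
  neg_mem' := by
    intro a ha n
    rw [map_neg]; exact (Zl ℓ).neg_mem (ha _)

theorem mem_ZlPS {a : PowerSeries ℂ} : a ∈ ZlPS ℓ ↔ ∀ n, IsLInt ℓ (a.coeff n) := Iff.rfl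

theorem C_mem_ZlPS {c : ℂ} (hc : c ∈ Zl ℓ) : PowerSeries.C c ∈ ZlPS ℓ := by
  intro n
  rw [PowerSeries.coeff_C]
  split_ifs
  · exact hc
  · exact (Zl ℓ).zero_mem

theorem X_mem_ZlPS : (PowerSeries.X : PowerSeries ℂ) ∈ ZlPS ℓ := by
  intro n
  rw [PowerSeries.coeff_X]
  split_ifs
  · exact (Zl ℓ).one_mem
  · exact (Zl ℓ).zero_mem

theorem Up_mem_ZlPS (m : ℕ) {a : PowerSeries ℂ} (ha : a ∈ ZlPS ℓ) : Up m a ∈ ZlPS ℓ := by
  intro n; rw [coeff_Up]; exact ha _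

theorem Vp_mem_ZlPS (m : ℕ) {a : PowerSeries ℂ} (ha : a ∈ ZlPS ℓ) : Vp m a ∈ ZlPS ℓ := by
  intro n; rw [coeff_Vp]
  split_ifs
  · exact ha _
  · exact (Zl ℓ).zero_mem

theorem theta_mem_ZlPS {a : PowerSeries ℂ} (ha : a ∈ ZlPS ℓ) : theta a ∈ ZlPS ℓ := by
  intro n; rw [coeff_theta]; exact (Zl ℓ).mul_mem (natCast_mem_Zl n) (ha _)

theorem e2_mem_ZlPS : e2 ∈ ZlPS ℓ := by
  intro n
  simp only [e2, PowerSeries.coeff_mk]
  split_ifs
  · exact (Zl ℓ).one_mem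
  · exact (Zl ℓ).mul_mem (by simpa using intCast_mem_Zl (ℓ := ℓ) (-24)) (natCast_mem_Zl _)

theorem e4_mem_ZlPS : e4 ∈ ZlPS ℓ := by
  intro n
  simp only [e4, PowerSeries.coeff_mk]
  split_ifs
  · exact (Zl ℓ).one_mem
  · exact (Zl ℓ).mul_mem (by simpa using intCast_mem_Zl (ℓ := ℓ) 240) (natCast_mem_Zl _)

theorem e6_mem_ZlPS : e6 ∈ ZlPS ℓ := by
  intro n
  simp only [e6, PowerSeries.coeff_mk]
  split_ifs
  · exact (Zl ℓ).one_mem
  · exact (Zl ℓ).mul_mem (by simpa using intCast_mem_Zl (ℓ := ℓ) (-504)) (natCast_mem_Zl _)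

theorem dl_mem_ZlPS (hL : L1Package) : dl ∈ ZlPS ℓ := by
  intro n
  obtain ⟨m, hm⟩ := hL.dl_int n
  rw [hm]; exact intCast_mem_Zl m

/-- `a ∈ ℓ^e · ℤ_(ℓ)[[q]]`. -/
def PSDvd (ℓ e : ℕ) (a : PowerSeries ℂ) : Prop :=
  ∀ n : ℕ, ∃ x : ℂ, IsLInt ℓ x ∧ a.coeff n = (ℓ : ℂ) ^ e * x

omit hℓ in
theorem psCong_iff {e : ℕ} {a b : PowerSeries ℂ} : PSCong ℓ e a b ↔ PSDvd ℓ e (a - b) := by
  simp only [PSCong, PSDvd, map_sub]

theorem psDvd_zero (e : ℕ) : PSDvd ℓ e 0 := fun n => ⟨0, (Zl ℓ).zero_mem, by simp⟩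

theorem PSDvd.mem {e : ℕ} {a : PowerSeries ℂ} (h : PSDvd ℓ e a) : a ∈ ZlPS ℓ := by
  intro n
  obtain ⟨x, hx, h1⟩ := h n
  rw [h1]
  exact (Zl ℓ).mul_mem ((Zl ℓ).pow_mem (natCast_mem_Zl ℓ) e) hx

theorem psDvd_zero_iff {a : PowerSeries ℂ} : PSDvd ℓ 0 a ↔ a ∈ ZlPS ℓ := by
  constructor
  · exact PSDvd.mem
  · intro h n; exact ⟨a.coeff n, h n, by simp⟩

theorem PSDvd.add {e : ℕ} {a b : PowerSeries ℂ} (ha : PSDvd ℓ e a) (hb : PSDvd ℓ e b) :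
    PSDvd ℓ e (a + b) := by
  intro n
  obtain ⟨x, hx, h1⟩ := ha n
  obtain ⟨y, hy, h2⟩ := hb n
  exact ⟨x + y, (Zl ℓ).add_mem hx hy, by rw [map_add, h1, h2]; ring⟩

theorem PSDvd.neg {e : ℕ} {a : PowerSeries ℂ} (ha : PSDvd ℓ e a) : PSDvd ℓ e (-a) := by
  intro n
  obtain ⟨x, hx, h1⟩ := ha n
  exact ⟨-x, (Zl ℓ).neg_mem hx, by rw [map_neg, h1]; ring⟩

theorem PSDvd.sub {e : ℕ} {a b : PowerSeries ℂ} (ha : PSDvd ℓ e a) (hb : PSDvd ℓ e b) :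
    PSDvd ℓ e (a - b) := by
  rw [sub_eq_add_neg]; exact ha.add hb.neg

theorem PSDvd.mono {e e' : ℕ} (h : e' ≤ e) {a : PowerSeries ℂ} (ha : PSDvd ℓ e a) :
    PSDvd ℓ e' a := by
  intro n
  obtain ⟨x, hx, h1⟩ := ha n
  refine ⟨(ℓ : ℂ) ^ (e - e') * x, (Zl ℓ).mul_mem ((Zl ℓ).pow_mem (natCast_mem_Zl ℓ) _) hx, ?_⟩
  rw [h1, ← mul_assoc, ← pow_add, Nat.add_sub_cancel' h]

/-- `ℓ^e · (integral)`. -/
theorem psDvd_C_mul (e : ℕ) {a : PowerSeries ℂ} (ha : a ∈ ZlPS ℓ) :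
    PSDvd ℓ e (PowerSeries.C ((ℓ : ℂ) ^ e) * a) := fun n =>
  ⟨a.coeff n, ha n, by rw [PowerSeries.coeff_C_mul]⟩

theorem PSDvd.exists_eq {e : ℕ} {a : PowerSeries ℂ} (ha : PSDvd ℓ e a) :
    ∃ b ∈ ZlPS ℓ, a = PowerSeries.C ((ℓ : ℂ) ^ e) * b := by
  choose x hx h1 using ha
  refine ⟨PowerSeries.mk x, fun n => ?_, ?_⟩
  · show (PowerSeries.mk x).coeff n ∈ Zl ℓ
    rw [PowerSeries.coeff_mk]; exact hx n
  · ext n
    rw [PowerSeries.coeff_C_mul, PowerSeries.coeff_mk, h1]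

theorem PSDvd.mul {e e' : ℕ} {a b : PowerSeries ℂ} (ha : PSDvd ℓ e a) (hb : PSDvd ℓ e' b) :
    PSDvd ℓ (e + e') (a * b) := by
  obtain ⟨a', ha', rfl⟩ := ha.exists_eq
  obtain ⟨b', hb', rfl⟩ := hb.exists_eq
  have : PowerSeries.C ((ℓ : ℂ) ^ e) * a' * (PowerSeries.C ((ℓ : ℂ) ^ e') * b') =
      PowerSeries.C ((ℓ : ℂ) ^ (e + e')) * (a' * b') := by
    rw [pow_add, map_mul]; ring
  rw [this]
  exact psDvd_C_mul _ ((ZlPS ℓ).mul_mem ha' hb')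

theorem PSDvd.mul_left {e : ℕ} {a b : PowerSeries ℂ} (hb : PSDvd ℓ e b) (ha : a ∈ ZlPS ℓ) :
    PSDvd ℓ e (a * b) := by
  have := (psDvd_zero_iff.2 ha).mul hb
  simpa using this

theorem PSDvd.mul_right {e : ℕ} {a b : PowerSeries ℂ} (ha : PSDvd ℓ e a) (hb : b ∈ ZlPS ℓ) :
    PSDvd ℓ e (a * b) := by
  rw [mul_comm]; exact ha.mul_left hb

omit hℓ in
theorem PSDvd.Up {e : ℕ} (m : ℕ) {a : PowerSeries ℂ} (ha : PSDvd ℓ e a) : PSDvd ℓ e (Up m a) := by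
  intro n; rw [coeff_Up]; exact ha _

theorem PSDvd.Vp {e : ℕ} (m : ℕ) {a : PowerSeries ℂ} (ha : PSDvd ℓ e a) : PSDvd ℓ e (Vp m a) := by
  intro n; rw [coeff_Vp]
  split_ifs
  · exact ha _
  · exact ⟨0, (Zl ℓ).zero_mem, by simp⟩

theorem PSDvd.theta {e : ℕ} {a : PowerSeries ℂ} (ha : PSDvd ℓ e a) : PSDvd ℓ e (theta a) := by
  intro n
  obtain ⟨x, hx, h1⟩ := ha n
  exact ⟨n * x, (Zl ℓ).mul_mem (natCast_mem_Zl n) hx, by rw [coeff_theta, h1]; ring⟩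

/-- Divide by `ℓ^e`. -/
theorem PSDvd.of_C_mul {e e' : ℕ} {a : PowerSeries ℂ}
    (h : PSDvd ℓ (e + e') (PowerSeries.C ((ℓ : ℂ) ^ e) * a)) : PSDvd ℓ e' a := by
  intro n
  obtain ⟨x, hx, h1⟩ := h n
  refine ⟨x, hx, ?_⟩
  have hl : ((ℓ : ℂ) ^ e) ≠ 0 := pow_ne_zero _ (by exact_mod_cast hℓ.out.ne_zero)
  rw [PowerSeries.coeff_C_mul, pow_add, mul_assoc] at h1
  exact mul_left_cancel₀ hl h1

omit hℓ in
theorem psDvd_one_iff {a : PowerSeries ℂ} : PSDvd ℓ 1 a ↔ ∀ n, LDvd ℓ (a.coeff n) := by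
  constructor
  · intro h n
    obtain ⟨x, hx, h1⟩ := h n
    exact ⟨x, hx, by simpa using h1⟩
  · intro h n
    obtain ⟨x, hx, h1⟩ := h n
    exact ⟨x, hx, by simpa using h1⟩

/-! #### congruences -/

theorem PSCong.refl (e : ℕ) (a : PowerSeries ℂ) : PSCong ℓ e a a := by
  rw [psCong_iff, sub_self]; exact psDvd_zero e

theorem PSCong.symm {e : ℕ} {a b : PowerSeries ℂ} (h : PSCong ℓ e a b) : PSCong ℓ e b a := by
  rw [psCong_iff] at h ⊢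
  have := h.neg
  rwa [neg_sub] at this

theorem PSCong.trans {e : ℕ} {a b c : PowerSeries ℂ} (h : PSCong ℓ e a b) (h' : PSCong ℓ e b c) :
    PSCong ℓ e a c := by
  rw [psCong_iff] at h h' ⊢
  have := h.add h'
  rwa [sub_add_sub_cancel] at this

theorem PSCong.mono {e e' : ℕ} (he : e' ≤ e) {a b : PowerSeries ℂ} (h : PSCong ℓ e a b) :
    PSCong ℓ e' a b := by
  rw [psCong_iff] at h ⊢; exact h.mono he

theorem PSCong.add {e : ℕ} {a b c d : PowerSeries ℂ} (h : PSCong ℓ e a b) (h' : PSCong ℓ e c d) :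
    PSCong ℓ e (a + c) (b + d) := by
  rw [psCong_iff] at h h' ⊢
  have := h.add h'
  rwa [show a - b + (c - d) = a + c - (b + d) by ring] at this

theorem PSCong.sub {e : ℕ} {a b c d : PowerSeries ℂ} (h : PSCong ℓ e a b) (h' : PSCong ℓ e c d) :
    PSCong ℓ e (a - c) (b - d) := by
  rw [psCong_iff] at h h' ⊢
  have := h.sub h'
  rwa [show a - b - (c - d) = a - c - (b - d) by ring] at this

theorem PSCong.neg {e : ℕ} {a b : PowerSeries ℂ} (h : PSCong ℓ e a b) :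
    PSCong ℓ e (-a) (-b) := by
  rw [psCong_iff] at h ⊢
  have := h.neg
  rwa [show -(a - b) = -a - -b by ring] at this

/-- If `a ≡ b` and `b` is integral, so is `a`. -/
theorem PSCong.mem_left {e : ℕ} {a b : PowerSeries ℂ} (h : PSCong ℓ e a b) (hb : b ∈ ZlPS ℓ) :
    a ∈ ZlPS ℓ := by
  rw [psCong_iff] at h
  have := (ZlPS ℓ).add_mem h.mem hb
  rwa [sub_add_cancel] at this

theorem PSCong.mem_right {e : ℕ} {a b : PowerSeries ℂ} (h : PSCong ℓ e a b) (ha : a ∈ ZlPS ℓ) :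
    b ∈ ZlPS ℓ := h.symm.mem_left ha

theorem PSCong.mul {e : ℕ} {a b c d : PowerSeries ℂ} (h : PSCong ℓ e a b) (h' : PSCong ℓ e c d)
    (hb : b ∈ ZlPS ℓ) (hc : c ∈ ZlPS ℓ) : PSCong ℓ e (a * c) (b * d) := by
  rw [psCong_iff] at h h' ⊢
  have := (h.mul_right hc).add (h'.mul_left hb)
  rwa [show (a - b) * c + b * (c - d) = a * c - b * d by ring] at this

theorem PSCong.mul_left {e : ℕ} {a b : PowerSeries ℂ} (c : PowerSeries ℂ) (hc : c ∈ ZlPS ℓ)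
    (h : PSCong ℓ e a b) : PSCong ℓ e (c * a) (c * b) := by
  rw [psCong_iff] at h ⊢
  have := h.mul_left hc
  rwa [mul_sub] at this

theorem PSCong.pow {e : ℕ} {a b : PowerSeries ℂ} (h : PSCong ℓ e a b) (hb : b ∈ ZlPS ℓ) (k : ℕ) :
    PSCong ℓ e (a ^ k) (b ^ k) := by
  induction k with
  | zero => simpa using PSCong.refl e 1
  | succ k ih =>
    rw [pow_succ, pow_succ]
    exact ih.mul h ((ZlPS ℓ).pow_mem hb k) (h.mem_left hb)

omit hℓ in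
theorem PSCong.Up {e : ℕ} (m : ℕ) {a b : PowerSeries ℂ} (h : PSCong ℓ e a b) :
    PSCong ℓ e (Up m a) (Up m b) := by
  rw [psCong_iff] at h ⊢
  have := h.Up m
  rwa [Up_sub] at this

theorem PSCong.Vp {e : ℕ} (m : ℕ) {a b : PowerSeries ℂ} (h : PSCong ℓ e a b) :
    PSCong ℓ e (Vp m a) (Vp m b) := by
  rw [psCong_iff] at h ⊢
  have := h.Vp m
  rwa [Vp_sub] at this

theorem PSCong.theta {e : ℕ} {a b : PowerSeries ℂ} (h : PSCong ℓ e a b) :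
    PSCong ℓ e (theta a) (theta b) := by
  rw [psCong_iff] at h ⊢
  have := h.theta
  rwa [theta_sub] at this

/-- `C c ≡ C d` if `c - d ∈ ℓ^e ℤ_(ℓ)`. -/
theorem psCong_C {e : ℕ} {c d : ℂ} (h : ∃ x ∈ Zl ℓ, c - d = (ℓ : ℂ) ^ e * x) :
    PSCong ℓ e (PowerSeries.C c) (PowerSeries.C d) := by
  obtain ⟨x, hx, h1⟩ := h
  intro n
  rw [PowerSeries.coeff_C, PowerSeries.coeff_C]
  split_ifs
  · exact ⟨x, hx, h1⟩
  · exact ⟨0, (Zl ℓ).zero_mem, by simp⟩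

end

end Fermat.Agent.S16
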