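/-
S16, piece B-2: the case `ℓ = 2`, `p ≡ 7 mod 8` of (B) (`NoG p 2 3`), by the `Δ`-trick
(NOTES/S16-plan.md, "HOLE 2"), from `TCPackage p`, `L1Package` and Lemma F (`StmtF p 2`).
-/
import Fermat.Agent.S16.Integrality
import Fermat.Agent.S16.CaseP

set_option autoImplicit false

open PowerSeries

namespace Fermat.Agent.S16

noncomputable section

/-! ### The computation at one cusp -/

theorem case2_C_two_pow (e : ℕ) :
    (PowerSeries.C (((2 : ℕ) : ℂ) ^ e) : PowerSeries ℂ) = (2 : PowerSeries ℂ) ^ e := by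
  rw [map_pow]; congr 1

/-- The cusp-local computation: from `G ≡ 1 mod 8`, `E₄ ≡ 1 mod 16`, `E₆ ≡ 1 mod 8`, `E₂ ≡ 1 mod 2`,
`E₄³ - E₆² = 1728 Δ` and `D Δ = E₂ Δ` (`D = c·θ`), the series `J = 3 D Z - 2 E₂ Z`, where
`8 Y = G E₄ - E₆`, `16 H = G² - E₄`, `4 Z = G Y - H E₄`, is `≡ Δ mod 2`. -/
theorem case2_local [Fact (Nat.Prime 2)] {G E4 E6 E2 Dl Y H Z J : PowerSeries ℂ} {c : ℂ}
    (hc : c ∈ Zl 2)
    (hG : PSCong 2 3 G 1) (hE4 : PSCong 2 4 E4 1) (hE6 : PSCong 2 3 E6 1) (hE2 : PSCong 2 1 E2 1)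
    (hDl : Dl ∈ ZlPS 2) (hrel : E4 ^ 3 - E6 ^ 2 = 1728 * Dl)
    (hD : PowerSeries.C c * theta Dl = E2 * Dl)
    (hY : 8 * Y = G * E4 - E6) (hH : 16 * H = G ^ 2 - E4) (hZ : 4 * Z = G * Y - H * E4)
    (hJ : J = 3 * (PowerSeries.C c * theta Z) - 2 * (E2 * Z)) :
    PSCong 2 1 J Dl := by
  obtain ⟨g, hg, hG'⟩ := (psCong_iff.1 hG).exists_eq
  obtain ⟨h, hh, hE4'⟩ := (psCong_iff.1 hE4).exists_eq
  obtain ⟨r, hr, hE6'⟩ := (psCong_iff.1 hE6).exists_eq
  obtain ⟨t, ht, hE2'⟩ := (psCong_iff.1 hE2).exists_eq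
  rw [case2_C_two_pow] at hG' hE4' hE6' hE2'
  have h2 : (2 : PowerSeries ℂ) ≠ 0 := by
    have e : (2 : PowerSeries ℂ) = PowerSeries.C 2 := (map_ofNat (PowerSeries.C) 2).symm
    rw [e]
    intro h0
    have := congrArg (PowerSeries.coeff 0) h0
    simp at this
  have h8 : (8 : PowerSeries ℂ) ≠ 0 := by
    have : (8 : PowerSeries ℂ) = 2 ^ 3 := by norm_num
    rw [this]; exact pow_ne_zero _ h2
  have h16 : (16 : PowerSeries ℂ) ≠ 0 := by
    have : (16 : PowerSeries ℂ) = 2 ^ 4 := by norm_num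
    rw [this]; exact pow_ne_zero _ h2
  have h4 : (4 : PowerSeries ℂ) ≠ 0 := by
    have : (4 : PowerSeries ℂ) = 2 ^ 2 := by norm_num
    rw [this]; exact pow_ne_zero _ h2
  -- `Y`, `H` are integral
  have hYe : Y = g + 2 * h + 16 * g * h - r := by
    apply mul_left_cancel₀ h8
    rw [hY]
    linear_combination (E4) * hG' + (1 + 8 * g) * hE4' - hE6'
  have hHe : H = g + 4 * g ^ 2 - h := by
    apply mul_left_cancel₀ h16
    rw [hH]
    linear_combination (G + 1 + 8 * g) * hG' - hE4'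
  have hYm : Y ∈ ZlPS 2 := by
    rw [hYe]
    have h2m : (2 : PowerSeries ℂ) ∈ ZlPS 2 := by
      simpa using (ZlPS 2).natCast_mem 2
    have h16m : (16 : PowerSeries ℂ) ∈ ZlPS 2 := by
      simpa using (ZlPS 2).natCast_mem 16
    exact (ZlPS 2).sub_mem ((ZlPS 2).add_mem ((ZlPS 2).add_mem hg ((ZlPS 2).mul_mem h2m hh))
      ((ZlPS 2).mul_mem ((ZlPS 2).mul_mem h16m hg) hh)) hr
  have hHm : H ∈ ZlPS 2 := by
    rw [hHe]
    have h4m : (4 : PowerSeries ℂ) ∈ ZlPS 2 := by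
      simpa using (ZlPS 2).natCast_mem 4
    exact (ZlPS 2).sub_mem ((ZlPS 2).add_mem hg ((ZlPS 2).mul_mem h4m ((ZlPS 2).pow_mem hg 2))) hh
  have hGm : G ∈ ZlPS 2 := hG.mem_left (ZlPS 2).one_mem
  have hE4m : E4 ∈ ZlPS 2 := hE4.mem_left (ZlPS 2).one_mem
  have hE2m : E2 ∈ ZlPS 2 := hE2.mem_left (ZlPS 2).one_mem
  -- `W = 4 Z` is integral, and `E₄ W = 4 (27 Δ + Y²)`
  set W := G * Y - H * E4 with hW
  have hWm : W ∈ ZlPS 2 :=
    (ZlPS 2).sub_mem ((ZlPS 2).mul_mem hGm hYm) ((ZlPS 2).mul_mem hHm hE4m)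
  have hEW : E4 * W = 4 * (27 * Dl + Y ^ 2) := by
    apply mul_left_cancel₀ h16
    have e1 : 16 * (E4 * W) = 2 * E4 * G * (8 * Y) - E4 ^ 2 * (16 * H) := by rw [hW]; ring
    rw [e1, hY, hH]
    have e2' : 16 * (4 * (27 * Dl + Y ^ 2)) = 1728 * Dl + (8 * Y) ^ 2 := by ring
    rw [e2', hY, ← hrel]
    ring
  have hZe : Z = 27 * Dl + Y ^ 2 - 4 * (h * W) := by
    apply mul_left_cancel₀ h4
    rw [hZ]
    have : E4 = 1 + 16 * h := by linear_combination hE4'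
    rw [this] at hEW
    linear_combination hEW
  -- mod 2
  have hcC : PowerSeries.C c ∈ ZlPS 2 := C_mem_ZlPS hc
  have hthZ : theta Z = 27 * theta Dl + 2 * (Y * theta Y) - 4 * theta (h * W) := by
    rw [hZe, theta_sub, theta_add]
    have a1 : theta (27 * Dl) = 27 * theta Dl := by
      have : (27 : PowerSeries ℂ) = PowerSeries.C 27 := (map_ofNat (PowerSeries.C) 27).symm
      rw [this, theta_C_mul]
    have a2 : theta (Y ^ 2) = 2 * (Y * theta Y) := by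
      rw [pow_two, theta_mul]; ring
    have a3 : theta (4 * (h * W)) = 4 * theta (h * W) := by
      have : (4 : PowerSeries ℂ) = PowerSeries.C 4 := (map_ofNat (PowerSeries.C) 4).symm
      rw [this, theta_C_mul]
    rw [a1, a2, a3]
  have key : J - Dl = 2 * (40 * Dl + 81 * (t * Dl) + 3 * (PowerSeries.C c * (Y * theta Y))
      - 6 * (PowerSeries.C c * theta (h * W)) - E2 * Z) := by
    rw [hJ, hthZ]
    have hE2e : E2 = 1 + 2 * t := by linear_combination hE2'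
    have hD' : PowerSeries.C c * theta Dl = Dl + 2 * (t * Dl) := by rw [hD, hE2e]; ring
    linear_combination 81 * hD'
  have hZm : Z ∈ ZlPS 2 := by
    rw [hZe]
    have h27 : (27 : PowerSeries ℂ) ∈ ZlPS 2 := by simpa using (ZlPS 2).natCast_mem 27
    have h4m : (4 : PowerSeries ℂ) ∈ ZlPS 2 := by simpa using (ZlPS 2).natCast_mem 4
    exact (ZlPS 2).sub_mem ((ZlPS 2).add_mem ((ZlPS 2).mul_mem h27 hDl) ((ZlPS 2).pow_mem hYm 2))
      ((ZlPS 2).mul_mem h4m ((ZlPS 2).mul_mem hh hWm))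
  rw [psCong_iff, key]
  have hmem : (40 * Dl + 81 * (t * Dl) + 3 * (PowerSeries.C c * (Y * theta Y))
      - 6 * (PowerSeries.C c * theta (h * W)) - E2 * Z) ∈ ZlPS 2 := by
    have h40 : (40 : PowerSeries ℂ) ∈ ZlPS 2 := by simpa using (ZlPS 2).natCast_mem 40
    have h81 : (81 : PowerSeries ℂ) ∈ ZlPS 2 := by simpa using (ZlPS 2).natCast_mem 81
    have h3 : (3 : PowerSeries ℂ) ∈ ZlPS 2 := by simpa using (ZlPS 2).natCast_mem 3
    have h6 : (6 : PowerSeries ℂ) ∈ ZlPS 2 := by simpa using (ZlPS 2).natCast_mem 6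
    refine (ZlPS 2).sub_mem ((ZlPS 2).sub_mem ((ZlPS 2).add_mem ((ZlPS 2).add_mem
      ((ZlPS 2).mul_mem h40 hDl) ((ZlPS 2).mul_mem h81 ((ZlPS 2).mul_mem ht hDl)))
      ((ZlPS 2).mul_mem h3 ((ZlPS 2).mul_mem hcC ((ZlPS 2).mul_mem hYm (theta_mem_ZlPS hYm)))))
      ((ZlPS 2).mul_mem h6 ((ZlPS 2).mul_mem hcC (theta_mem_ZlPS ((ZlPS 2).mul_mem hh hWm)))))
      ((ZlPS 2).mul_mem hE2m hZm)
  have := psDvd_C_mul (ℓ := 2) 1 hmem
  rwa [case2_C_two_pow, pow_one] at this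


/-! ### The congruences for the Eisenstein series -/

theorem case2_e4_cong [Fact (Nat.Prime 2)] : PSCong 2 4 e4 1 := by
  intro n
  simp only [e4, PowerSeries.coeff_mk, PowerSeries.coeff_one]
  split_ifs with h
  · exact ⟨0, (Zl 2).zero_mem, by simp⟩
  · refine ⟨15 * (ArithmeticFunction.sigma 3 n : ℂ),
      (Zl 2).mul_mem (by simpa using natCast_mem_Zl (ℓ := 2) 15) (natCast_mem_Zl _), ?_⟩
    push_cast; ring

theorem case2_e6_cong [Fact (Nat.Prime 2)] : PSCong 2 3 e6 1 := by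
  intro n
  simp only [e6, PowerSeries.coeff_mk, PowerSeries.coeff_one]
  split_ifs with h
  · exact ⟨0, (Zl 2).zero_mem, by simp⟩
  · refine ⟨-63 * (ArithmeticFunction.sigma 5 n : ℂ),
      (Zl 2).mul_mem (by simpa using intCast_mem_Zl (ℓ := 2) (-63)) (natCast_mem_Zl _), ?_⟩
    push_cast; ring

theorem case2_e2_cong [Fact (Nat.Prime 2)] : PSCong 2 1 e2 1 := by
  intro n
  simp only [e2, PowerSeries.coeff_mk, PowerSeries.coeff_one]
  split_ifs with h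
  · exact ⟨0, (Zl 2).zero_mem, by simp⟩
  · refine ⟨-12 * (ArithmeticFunction.sigma 1 n : ℂ),
      (Zl 2).mul_mem (by simpa using intCast_mem_Zl (ℓ := 2) (-12)) (natCast_mem_Zl _), ?_⟩
    push_cast; ring

theorem case2_ofNat_eq_C (n : ℕ) [n.AtLeastTwo] :
    (OfNat.ofNat n : PowerSeries ℂ) = PowerSeries.C (OfNat.ofNat n) :=
  (map_ofNat (PowerSeries.C) n).symm

theorem case2_rel : e4 ^ 3 - e6 ^ 2 = 1728 * dl := by
  rw [dl, ← mul_assoc, case2_ofNat_eq_C 1728, ← map_mul]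
  norm_num

/-- `-1/p ≡ 1 mod 8` for `p ≡ 7 mod 8`. -/
theorem case2_unit [Fact (Nat.Prime 2)] (p : ℕ) (hp : p % 8 = 7) :
    PSCong 2 3 (PowerSeries.C (-(p : ℂ)⁻¹)) 1 := by
  have hp0 : (p : ℂ) ≠ 0 := by
    rintro h
    have : p = 0 := by exact_mod_cast h
    omega
  have hodd : ¬ 2 ∣ p := by omega
  obtain ⟨m, hm⟩ : ∃ m : ℕ, p + 1 = 8 * m := ⟨(p + 1) / 8, by omega⟩
  have hmC : (p : ℂ) + 1 = 8 * m := by exact_mod_cast hm
  have h1 : (1 : PowerSeries ℂ) = PowerSeries.C 1 := (map_one _).symm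
  rw [h1]
  refine psCong_C ⟨-(m : ℂ) * (p : ℂ)⁻¹,
    (Zl 2).mul_mem ((Zl 2).neg_mem (natCast_mem_Zl m)) (inv_natCast_mem_Zl hodd), ?_⟩
  field_simp
  push_cast
  linear_combination -hmC

/-! ### The case `ℓ = 2`, `p ≡ 7 mod 8` -/

theorem case2_sub_mem {p : ℕ} (hT : TCPackage p) {k : ℤ} {x y : PowerSeries ℂ × PowerSeries ℂ}
    (hx : x ∈ TwoCusp p k) (hy : y ∈ TwoCusp p k) (c : ℂ) :
    (PowerSeries.C c * (x.1 - y.1), PowerSeries.C c * (x.2 - y.2)) ∈ TwoCusp p k := by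
  have h1 := hT.smul c (hT.add hx (hT.smul (-1) hy))
  have e : ∀ a b : PowerSeries ℂ, a + PowerSeries.C (-1) * b = a - b := by
    intro a b; rw [map_neg, map_one]; ring
  simpa only [Prod.fst_add, Prod.snd_add, e] using h1

theorem noG_two (p : ℕ) [Fact p.Prime] (hp : p % 8 = 7) (hT : TCPackage p) (hL : L1Package)
    (hF : StmtF p 2) : NoG p 2 3 := by
  have : Fact (Nat.Prime 2) := ⟨Nat.prime_two⟩
  rintro ⟨x, hx, -, hxc⟩
  have hp0 : p ≠ 0 := (Fact.out : p.Prime).ne_zero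
  have hpC : (p : ℂ) ≠ 0 := Nat.cast_ne_zero.mpr hp0
  have hodd : ¬ 2 ∣ p := by omega
  -- the expansion at `0` is `≡ 1 mod 8` as well
  have hb : x.2 = PowerSeries.C (-(p : ℂ)⁻¹) * Up p x.1 := caseP_snd_eq p hT hL hx
  have hbc : PSCong 2 3 x.2 1 := by
    rw [hb]
    have h1 : PSCong 2 3 (Up p x.1) 1 := by
      have := hxc.Up p
      rwa [caseP_Up_one p hp0] at this
    have := (case2_unit p hp).mul h1 (ZlPS 2).one_mem (h1.mem_left (ZlPS 2).one_mem)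
    rwa [one_mul] at this
  -- the forms `Y`, `H`, `Z`, `J`
  have E4p := hT.ofLevelOne (p := p) hL.e4_mem
  have E6p := hT.ofLevelOne (p := p) hL.e6_mem
  have GE4 : (x.1 * e4, x.2 * Vp p e4) ∈ TwoCusp p 6 := hT.mul hx E4p
  have Yp := case2_sub_mem hT GE4 E6p (1 / 8)
  have GG : (x.1 * x.1, x.2 * x.2) ∈ TwoCusp p 4 := hT.mul hx hx
  have Hp := case2_sub_mem hT GG E4p (1 / 16)
  have GY := hT.mul hx Yp
  have HE := hT.mul Hp E4p
  have Zp := case2_sub_mem hT (k := 8) GY HE (1 / 4)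
  have Jp := hT.smul 3 (hT.serre Zp)
  simp only at Yp Hp GY HE Zp Jp
  set Y1 := PowerSeries.C (1 / 8 : ℂ) * (x.1 * e4 - e6) with hY1
  set Y2 := PowerSeries.C (1 / 8 : ℂ) * (x.2 * Vp p e4 - Vp p e6) with hY2
  set H1 := PowerSeries.C (1 / 16 : ℂ) * (x.1 * x.1 - e4) with hH1
  set H2 := PowerSeries.C (1 / 16 : ℂ) * (x.2 * x.2 - Vp p e4) with hH2
  set Z1 := PowerSeries.C (1 / 4 : ℂ) * (x.1 * Y1 - H1 * e4) with hZ1
  set Z2 := PowerSeries.C (1 / 4 : ℂ) * (x.2 * Y2 - H2 * Vp p e4) with hZ2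
  have h8 : (8 : PowerSeries ℂ) * PowerSeries.C (1 / 8) = 1 := by
    rw [case2_ofNat_eq_C 8, ← map_mul]; norm_num
  have h16 : (16 : PowerSeries ℂ) * PowerSeries.C (1 / 16) = 1 := by
    rw [case2_ofNat_eq_C 16, ← map_mul]; norm_num
  have h4 : (4 : PowerSeries ℂ) * PowerSeries.C (1 / 4) = 1 := by
    rw [case2_ofNat_eq_C 4, ← map_mul]; norm_num
  have h3 : PowerSeries.C (3 : ℂ) = 3 := map_ofNat _ 3
  have hC1 : PowerSeries.C (1 : ℂ) = 1 := map_one _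
  have h23 : PowerSeries.C (3 : ℂ) * PowerSeries.C (((8 : ℤ) : ℂ) / 12) = 2 := by
    rw [← map_mul, case2_ofNat_eq_C 2]; norm_num
  refine hF 10 _ Jp dl 1 le_rfl (by norm_num) (dl_mem_ZlPS hL) ?_ ?_ ?_ ?_
  · intro n hn
    have : n = 0 := by omega
    subst this
    rw [hL.dl_coeff_zero]; exact lDvd_zero
  · rw [hL.dl_coeff_one]
    exact isLUnit_iff.2 ⟨(Zl 2).one_mem, not_lDvd_one⟩
  · -- at `∞`
    refine case2_local (c := 1) (Zl 2).one_mem hxc case2_e4_cong case2_e6_cong case2_e2_cong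
      (dl_mem_ZlPS hL) case2_rel (by rw [map_one, one_mul, hL.theta_dl])
      (Y := Y1) (H := H1) (Z := Z1) ?_ ?_ ?_ ?_
    · rw [hY1]; linear_combination (x.1 * e4 - e6) * h8
    · rw [hH1]; linear_combination (x.1 * x.1 - e4) * h16
    · rw [hZ1]; linear_combination (x.1 * Y1 - H1 * e4) * h4
    · linear_combination (theta Z1) * h3 - 3 * theta Z1 * hC1 - (e2 * Z1) * h23
  · -- at `0`
    have hrel : Vp p e4 ^ 3 - Vp p e6 ^ 2 = 1728 * Vp p dl := by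
      rw [← Vp_pow hp0, ← Vp_pow hp0, ← Vp_sub, case2_rel, case2_ofNat_eq_C 1728, Vp_mul hp0,
        Vp_C hp0]
    have hD : PowerSeries.C ((p : ℂ)⁻¹) * theta (Vp p dl) = Vp p e2 * Vp p dl := by
      rw [theta_Vp, hL.theta_dl, ← mul_assoc, ← map_mul, inv_mul_cancel₀ hpC, map_one, one_mul,
        Vp_mul hp0]
    have hone : Vp p (1 : PowerSeries ℂ) = 1 := Vp_one hp0
    refine case2_local (c := (p : ℂ)⁻¹) (inv_natCast_mem_Zl hodd) hbc
      (by simpa only [hone] using case2_e4_cong.Vp p)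
      (by simpa only [hone] using case2_e6_cong.Vp p)
      (by simpa only [hone] using case2_e2_cong.Vp p)
      (Vp_mem_ZlPS p (dl_mem_ZlPS hL)) hrel hD
      (Y := Y2) (H := H2) (Z := Z2) ?_ ?_ ?_ ?_
    · rw [hY2]; linear_combination (x.2 * Vp p e4 - Vp p e6) * h8
    · rw [hH2]; linear_combination (x.2 * x.2 - Vp p e4) * h16
    · rw [hZ2]; linear_combination (x.2 * Y2 - H2 * Vp p e4) * h4
    · linear_combination (PowerSeries.C ((p : ℂ)⁻¹) * theta Z2) * h3 - (Vp p e2 * Z2) * h23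

end

end Fermat.Agent.S16
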