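/-
S16, piece B-3 (helper23): the case `ℓ = 3`, `p ≡ 8 mod 9` of "no form of weight 2 on `Γ0(p)` is
`≡ 1 mod ℓ^e`".  With `G ≡ 1 mod 9` at both cusps, `K := (G² − E₄)/3` has weight `4` and is
`≡ κ := (1 − E₄)/3 = −80 ∑ σ₃(n) qⁿ mod 3` at both cusps; Lemma F (filtration) forbids this.
-/
import Fermat.Agent.S16.Defs

set_option autoImplicit false

open PowerSeries

namespace Fermat.Agent.S16

noncomputable section

namespace Case3

/-! ### `ℓ`-integral numbers -/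

theorem isLInt_intCast {ℓ : ℕ} (hℓ : ℓ.Prime) (m : ℤ) : IsLInt ℓ (m : ℂ) :=
  ⟨(m : ℚ), by push_cast; rfl, by
    rw [Rat.den_intCast]; exact hℓ.one_lt.ne' ∘ Nat.dvd_one.mp⟩

theorem isLInt_zero {ℓ : ℕ} (hℓ : ℓ.Prime) : IsLInt ℓ 0 := by
  simpa using isLInt_intCast hℓ 0

theorem isLInt_natCast {ℓ : ℕ} (hℓ : ℓ.Prime) (m : ℕ) : IsLInt ℓ (m : ℂ) := by
  simpa using isLInt_intCast hℓ (m : ℤ)

theorem isLInt_add {ℓ : ℕ} (hℓ : ℓ.Prime) {x y : ℂ} (hx : IsLInt ℓ x) (hy : IsLInt ℓ y) :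
    IsLInt ℓ (x + y) := by
  obtain ⟨r, rfl, hr⟩ := hx
  obtain ⟨s, rfl, hs⟩ := hy
  refine ⟨r + s, by push_cast; rfl, fun h => ?_⟩
  have h1 : ℓ ∣ r.den * s.den := h.trans (Rat.add_den_dvd r s)
  rcases (Nat.Prime.dvd_mul hℓ).mp h1 with h2 | h2
  · exact hr h2
  · exact hs h2

theorem isLInt_mul {ℓ : ℕ} (hℓ : ℓ.Prime) {x y : ℂ} (hx : IsLInt ℓ x) (hy : IsLInt ℓ y) :
    IsLInt ℓ (x * y) := by
  obtain ⟨r, rfl, hr⟩ := hx
  obtain ⟨s, rfl, hs⟩ := hy
  refine ⟨r * s, by push_cast; rfl, fun h => ?_⟩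
  have h1 : ℓ ∣ r.den * s.den := h.trans (Rat.mul_den_dvd r s)
  rcases (Nat.Prime.dvd_mul hℓ).mp h1 with h2 | h2
  · exact hr h2
  · exact hs h2

theorem isLInt_neg {ℓ : ℕ} (hℓ : ℓ.Prime) {x : ℂ} (hx : IsLInt ℓ x) : IsLInt ℓ (-x) := by
  have := isLInt_mul hℓ (isLInt_intCast hℓ (-1)) hx
  simpa using this

theorem isLInt_sum {ℓ : ℕ} (hℓ : ℓ.Prime) {ι : Type*} (s : Finset ι) (f : ι → ℂ)
    (h : ∀ i ∈ s, IsLInt ℓ (f i)) : IsLInt ℓ (∑ i ∈ s, f i) := by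
  classical
  induction s using Finset.induction_on with
  | empty => simpa using isLInt_zero hℓ
  | insert i s hi ih =>
    rw [Finset.sum_insert hi]
    exact isLInt_add hℓ (h i (Finset.mem_insert_self i s))
      (ih fun j hj => h j (Finset.mem_insert_of_mem hj))

theorem isLInt_inv_natCast {ℓ : ℕ} {d : ℕ} (hd : ¬ ℓ ∣ d) : IsLInt ℓ ((d : ℂ)⁻¹) := by
  have hd0 : d ≠ 0 := fun h => hd (h ▸ dvd_zero ℓ)
  refine ⟨(d : ℚ)⁻¹, by push_cast; rfl, ?_⟩
  have : ((d : ℚ)⁻¹).den = d := by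
    rw [Rat.inv_natCast_den]
    simp [hd0]
  rw [this]
  exact hd

/-! ### Series that are `≡ 1 mod 9` -/

/-- `a ≡ 1 mod 9` coefficientwise in `ℤ_(3)[[q]]`. -/
def One9 (a : PowerSeries ℂ) : Prop :=
  ∀ n : ℕ, ∃ y : ℂ, IsLInt 3 y ∧ a.coeff n - (1 : PowerSeries ℂ).coeff n = 9 * y

theorem one9_of_psCong {a : PowerSeries ℂ} (h : PSCong 3 2 a 1) : One9 a := by
  intro n
  obtain ⟨y, hy, hn⟩ := h n
  exact ⟨y, hy, by rw [hn]; norm_num⟩

theorem one9_isLInt {a : PowerSeries ℂ} (h : One9 a) (n : ℕ) : IsLInt 3 (a.coeff n) := by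
  obtain ⟨y, hy, hn⟩ := h n
  have h1 : a.coeff n = (1 : PowerSeries ℂ).coeff n + 9 * y := by rw [← hn]; ring
  rw [h1]
  refine isLInt_add Nat.prime_three ?_ (isLInt_mul Nat.prime_three ?_ hy)
  · rw [PowerSeries.coeff_one]
    split_ifs
    · simpa using isLInt_intCast Nat.prime_three 1
    · exact isLInt_zero Nat.prime_three
  · simpa using isLInt_intCast Nat.prime_three 9

/-- If `a ≡ 1 mod 9` then `a² ≡ 1 mod 9`. -/
theorem one9_sq {a : PowerSeries ℂ} (h : One9 a) (n : ℕ) :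
    ∃ z : ℂ, IsLInt 3 z ∧ (a * a).coeff n - (1 : PowerSeries ℂ).coeff n = 9 * z := by
  classical
  choose y hy hyn using h
  have hfac : a * a - 1 = (a - 1) * (a + 1) := by ring
  have hc : (a * a).coeff n - (1 : PowerSeries ℂ).coeff n = ((a - 1) * (a + 1)).coeff n := by
    rw [← hfac, map_sub]
  rw [hc, PowerSeries.coeff_mul]
  refine ⟨∑ ij ∈ Finset.HasAntidiagonal.antidiagonal n, y ij.1 * (a + 1).coeff ij.2, ?_, ?_⟩
  · refine isLInt_sum Nat.prime_three _ _ fun ij _ => ?_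
    refine isLInt_mul Nat.prime_three (hy ij.1) ?_
    rw [map_add]
    refine isLInt_add Nat.prime_three (one9_isLInt (fun m => ⟨y m, hy m, hyn m⟩) ij.2) ?_
    rw [PowerSeries.coeff_one]
    split_ifs
    · simpa using isLInt_intCast Nat.prime_three 1
    · exact isLInt_zero Nat.prime_three
  · rw [Finset.mul_sum]
    refine Finset.sum_congr rfl fun ij _ => ?_
    rw [map_sub, hyn ij.1]
    ring

/-! ### The weight-two relation `b = −p⁻¹ U_p a` -/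

theorem coeff_Up (m : ℕ) (a : PowerSeries ℂ) (n : ℕ) : (Up m a).coeff n = a.coeff (m * n) := by
  simp [Up]

theorem coeff_Vp (m : ℕ) (a : PowerSeries ℂ) (n : ℕ) :
    (Vp m a).coeff n = if m ∣ n then a.coeff (n / m) else 0 := by
  simp [Vp]

theorem snd_eq (p : ℕ) [Fact p.Prime] (hT : TCPackage p) (hL : L1Package)
    {x : PowerSeries ℂ × PowerSeries ℂ} (hx : x ∈ TwoCusp p 2) (n : ℕ) :
    x.2.coeff n = -((p : ℂ)⁻¹) * x.1.coeff (p * n) := by
  have hp0 : (p : ℂ) ≠ 0 := by exact_mod_cast (Fact.out : p.Prime).ne_zero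
  have h1 := hL.weight_two (hT.trace (hT.fricke hx))
  have h2 := congrArg (fun s : PowerSeries ℂ => s.coeff n) h1
  simp only [map_add, PowerSeries.coeff_C_mul, coeff_Up, map_zero] at h2
  have h3 : ((-(p : ℂ)) ^ (-(2 : ℤ))) = ((p : ℂ) ^ 2)⁻¹ := by
    rw [zpow_neg]
    congr 1
    rw [show (2 : ℤ) = ((2 : ℕ) : ℤ) by norm_num, zpow_natCast]
    ring
  rw [h3] at h2
  have h4 : x.2.coeff n = -((p : ℂ) * (((p : ℂ) ^ 2)⁻¹ * x.1.coeff (p * n))) := by
    linear_combination h2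
  rw [h4]
  field_simp

/-! ### The main statement -/

/-- `κ = (1 − E₄)/3 = −80 ∑ σ₃(n) qⁿ`. -/
def kappa : PowerSeries ℂ := PowerSeries.C ((3 : ℂ)⁻¹) * (1 - e4)

theorem coeff_e4 (n : ℕ) :
    e4.coeff n = if n = 0 then 1 else 240 * (ArithmeticFunction.sigma 3 n : ℂ) := by
  simp [e4]

theorem coeff_kappa (n : ℕ) :
    kappa.coeff n = if n = 0 then 0 else ((-80 * (ArithmeticFunction.sigma 3 n : ℤ) : ℤ) : ℂ) := by
  rw [kappa, PowerSeries.coeff_C_mul, map_sub, PowerSeries.coeff_one, coeff_e4]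
  split_ifs with h
  · simp
  · push_cast
    ring

theorem coeff_Vp_kappa (p : ℕ) (hp : 0 < p) (n : ℕ) :
    (Vp p kappa).coeff n =
      (3 : ℂ)⁻¹ * ((1 : PowerSeries ℂ).coeff n - (Vp p e4).coeff n) := by
  rw [coeff_Vp, coeff_Vp, PowerSeries.coeff_one]
  by_cases hdvd : p ∣ n
  · rw [if_pos hdvd, if_pos hdvd, kappa, PowerSeries.coeff_C_mul, map_sub, PowerSeries.coeff_one]
    have : (n / p = 0) ↔ n = 0 := by
      constructor
      · intro h
        obtain ⟨c, rfl⟩ := hdvd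
        rw [Nat.mul_div_cancel_left c hp] at h
        simp [h]
      · intro h
        simp [h]
    by_cases hn : n = 0
    · rw [if_pos hn, if_pos (this.mpr hn)]
    · rw [if_neg hn, if_neg (fun h => hn (this.mp h))]
  · rw [if_neg hdvd, if_neg hdvd]
    have hn : n ≠ 0 := fun h => hdvd (h ▸ dvd_zero p)
    rw [if_neg hn]
    ring

end Case3

open Case3 in
/-- **B-3**: for `p ≡ 8 mod 9` there is no form of weight 2 on `Γ0(p)` with `q`-expansion
`≡ 1 mod 9`. -/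
theorem noG_three (p : ℕ) [Fact p.Prime] (hp : p % 9 = 8) (hT : TCPackage p) (hL : L1Package)
    (hF : StmtF p 3) : NoG p 3 2 := by
  rintro ⟨x, hx, h0, hcong⟩
  have hpp : p.Prime := Fact.out
  have hp0 : (p : ℂ) ≠ 0 := by exact_mod_cast hpp.ne_zero
  have h3p : ¬ 3 ∣ p := by
    intro h
    have : p % 3 = 0 := Nat.mod_eq_zero_of_dvd h
    omega
  -- `a ≡ 1 mod 9`
  have ha : One9 x.1 := one9_of_psCong hcong
  -- `b ≡ 1 mod 9`
  have hb : One9 x.2 := by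
    intro n
    rw [snd_eq p hT hL hx n, PowerSeries.coeff_one]
    by_cases hn : n = 0
    · subst hn
      rw [if_pos rfl, Nat.mul_zero, h0]
      obtain ⟨c, hc⟩ : ∃ c : ℕ, p + 1 = 9 * c := ⟨(p + 1) / 9, by omega⟩
      refine ⟨-((c : ℂ) * (p : ℂ)⁻¹), isLInt_neg Nat.prime_three
        (isLInt_mul Nat.prime_three (isLInt_natCast Nat.prime_three c)
          (isLInt_inv_natCast h3p)), ?_⟩
      have hc' : (p : ℂ) + 1 = 9 * (c : ℂ) := by exact_mod_cast hc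
      field_simp
      linear_combination -hc'
    · rw [if_neg hn]
      obtain ⟨y, hy, hyn⟩ := ha (p * n)
      have hpn : p * n ≠ 0 := Nat.mul_ne_zero hpp.ne_zero hn
      rw [PowerSeries.coeff_one, if_neg hpn, sub_zero] at hyn
      refine ⟨-((p : ℂ)⁻¹ * y), isLInt_neg Nat.prime_three
        (isLInt_mul Nat.prime_three (isLInt_inv_natCast h3p) hy), ?_⟩
      rw [hyn]
      ring
  -- the form `K = (G² − E₄)/3` of weight 4
  have hK : (PowerSeries.C ((3 : ℂ)⁻¹) * (x.1 * x.1 + PowerSeries.C (-1 : ℂ) * e4),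
      PowerSeries.C ((3 : ℂ)⁻¹) * (x.2 * x.2 + PowerSeries.C (-1 : ℂ) * Vp p e4)) ∈
      TwoCusp p 4 := by
    have h1 : (x.1 * x.1, x.2 * x.2) ∈ TwoCusp p (2 + 2) := hT.mul hx hx
    have h2 : (e4, Vp p e4) ∈ TwoCusp p 4 := hT.ofLevelOne hL.e4_mem
    have h3 := hT.smul (-1 : ℂ) h2
    have h4 := hT.add (k := 4) h1 h3
    exact hT.smul ((3 : ℂ)⁻¹) h4
  refine hF 4 _ hK kappa 1 le_rfl (by norm_num) ?_ ?_ ?_ ?_ ?_
  · -- `κ` is integral
    intro n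
    rw [coeff_kappa]
    split_ifs
    · exact isLInt_zero Nat.prime_three
    · exact isLInt_intCast Nat.prime_three _
  · -- `κ₀ ≡ 0`
    intro n hn
    have hn0 : n = 0 := by omega
    subst hn0
    refine ⟨0, isLInt_zero Nat.prime_three, ?_⟩
    rw [coeff_kappa]
    simp
  · -- `κ₁ = −80` is a unit
    refine ⟨(-80 : ℚ), ?_, ?_, ?_⟩
    · rw [coeff_kappa]
      simp
    · norm_num
    · norm_num
  · -- at `∞`
    intro n
    obtain ⟨z, hz, hzn⟩ := one9_sq ha n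
    refine ⟨z, hz, ?_⟩
    show (PowerSeries.C ((3 : ℂ)⁻¹) * (x.1 * x.1 + PowerSeries.C (-1 : ℂ) * e4)).coeff n
      - kappa.coeff n = (3 : ℂ) ^ 1 * z
    rw [kappa, PowerSeries.coeff_C_mul, PowerSeries.coeff_C_mul, map_add, map_sub,
      PowerSeries.coeff_C_mul]
    linear_combination (3 : ℂ)⁻¹ * hzn
  · -- at `0`
    intro n
    obtain ⟨z, hz, hzn⟩ := one9_sq hb n
    refine ⟨z, hz, ?_⟩
    show (PowerSeries.C ((3 : ℂ)⁻¹) * (x.2 * x.2 + PowerSeries.C (-1 : ℂ) * Vp p e4)).coeff n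
      - (Vp p kappa).coeff n = (3 : ℂ) ^ 1 * z
    rw [coeff_Vp_kappa p hpp.pos, PowerSeries.coeff_C_mul, map_add, PowerSeries.coeff_C_mul]
    linear_combination (3 : ℂ)⁻¹ * hzn

end

end Fermat.Agent.S16
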