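/-
S16, piece B-l: the case `ℓ ≥ 5`, `ℓ ≠ p`, `p ≡ -1 mod ℓ` of `NoG p ℓ 1`, from Lemma F (`StmtF p ℓ`).

If `G = (a, b)` has weight 2 on `Γ0(p)` with `a ≡ 1 mod ℓ`, then `b = -p⁻¹ U_p a ≡ -1/p ≡ 1 mod ℓ`,
so `K = G^m - E_{2m}` (`m = 2` for `ℓ ≠ 5`, `m = 3` for `ℓ = 5`) is congruent at both cusps to
`κ = 1 - E_{2m} = unit·q + …`, of weight `2m < 12`: this contradicts Lemma F.
-/
import Fermat.Agent.S16.Defs

set_option autoImplicit false

open CongruenceSubgroup UpperHalfPlane ModularForm ModularFormClass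
open scoped MatrixGroups ModularForm

namespace Fermat.Agent.S16

namespace CaseL

/-! ### The ring of `ℓ`-integral numbers -/

section Integral

variable (ℓ : ℕ) [hℓ : Fact ℓ.Prime]

theorem isLInt_intCast (z : ℤ) : IsLInt ℓ (z : ℂ) := by
  refine ⟨(z : ℚ), by push_cast; rfl, ?_⟩
  rw [Rat.den_intCast]
  intro h
  exact hℓ.out.ne_one (Nat.dvd_one.mp h)

theorem isLInt_add {x y : ℂ} (hx : IsLInt ℓ x) (hy : IsLInt ℓ y) : IsLInt ℓ (x + y) := by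
  obtain ⟨r, rfl, hr⟩ := hx
  obtain ⟨s, rfl, hs⟩ := hy
  refine ⟨r + s, by push_cast; rfl, fun h => ?_⟩
  have h1 : ℓ ∣ r.den * s.den := h.trans (Rat.add_den_dvd r s)
  rcases hℓ.out.dvd_mul.mp h1 with h2 | h2
  exacts [hr h2, hs h2]

theorem isLInt_mul {x y : ℂ} (hx : IsLInt ℓ x) (hy : IsLInt ℓ y) : IsLInt ℓ (x * y) := by
  obtain ⟨r, rfl, hr⟩ := hx
  obtain ⟨s, rfl, hs⟩ := hy
  refine ⟨r * s, by push_cast; rfl, fun h => ?_⟩
  have h1 : ℓ ∣ r.den * s.den := h.trans (Rat.mul_den_dvd r s)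
  rcases hℓ.out.dvd_mul.mp h1 with h2 | h2
  exacts [hr h2, hs h2]

omit hℓ in
theorem isLInt_neg {x : ℂ} (hx : IsLInt ℓ x) : IsLInt ℓ (-x) := by
  obtain ⟨r, rfl, hr⟩ := hx
  refine ⟨-r, by push_cast; rfl, ?_⟩
  rwa [Rat.den_neg_eq_den]

/-- The subring of `ℓ`-integral rational numbers of `ℂ`. -/
def zl : Subring ℂ where
  carrier := {x | IsLInt ℓ x}
  mul_mem' := fun ha hb => isLInt_mul ℓ ha hb
  one_mem' := by simpa using isLInt_intCast ℓ 1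
  add_mem' := fun ha hb => isLInt_add ℓ ha hb
  zero_mem' := by simpa using isLInt_intCast ℓ 0
  neg_mem' := fun ha => isLInt_neg ℓ ha

theorem mem_zl {x : ℂ} : x ∈ zl ℓ ↔ IsLInt ℓ x := Iff.rfl

theorem natCast_mem_zl (n : ℕ) : (n : ℂ) ∈ zl ℓ := by
  have := isLInt_intCast ℓ (n : ℤ)
  rwa [Int.cast_natCast] at this

/-- The subring of power series with `ℓ`-integral coefficients. -/
def zlPS : Subring (PowerSeries ℂ) where
  carrier := {a | ∀ n, a.coeff n ∈ zl ℓ}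
  mul_mem' := by
    intro a b ha hb n
    rw [PowerSeries.coeff_mul]
    exact Subring.sum_mem _ (fun ij _ => Subring.mul_mem _ (ha _) (hb _))
  one_mem' := by
    intro n
    rw [PowerSeries.coeff_one]
    split_ifs
    · exact Subring.one_mem _
    · exact Subring.zero_mem _
  add_mem' := by
    intro a b ha hb n
    rw [map_add]
    exact Subring.add_mem _ (ha _) (hb _)
  zero_mem' := by
    intro n
    rw [map_zero]
    exact Subring.zero_mem _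
  neg_mem' := by
    intro a ha n
    rw [map_neg]
    exact Subring.neg_mem _ (ha _)

theorem mem_zlPS {a : PowerSeries ℂ} : a ∈ zlPS ℓ ↔ ∀ n, IsLInt ℓ (a.coeff n) := Iff.rfl

theorem C_mem_zlPS {x : ℂ} (hx : x ∈ zl ℓ) : PowerSeries.C x ∈ zlPS ℓ := by
  intro n
  rw [PowerSeries.coeff_C]
  split_ifs
  · exact hx
  · exact Subring.zero_mem _

theorem pscong_iff {e : ℕ} {a b : PowerSeries ℂ} :
    PSCong ℓ e a b ↔ ∃ c ∈ zlPS ℓ, a - b = PowerSeries.C ((ℓ : ℂ) ^ e) * c := by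
  constructor
  · intro h
    choose x hx1 hx2 using h
    refine ⟨PowerSeries.mk x, fun n => ?_, ?_⟩
    · rw [PowerSeries.coeff_mk]
      exact hx1 n
    · ext n
      rw [map_sub, hx2 n, PowerSeries.coeff_C_mul, PowerSeries.coeff_mk]
  · rintro ⟨c, hc, h⟩ n
    refine ⟨c.coeff n, hc n, ?_⟩
    rw [← map_sub, h, PowerSeries.coeff_C_mul]

theorem pscong_pow_one {e : ℕ} {a : PowerSeries ℂ} (h : PSCong ℓ e a 1) (m : ℕ) :
    PSCong ℓ e (a ^ m) 1 := by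
  obtain ⟨c, hc, hac⟩ := (pscong_iff ℓ).mp h
  have hC : PowerSeries.C ((ℓ : ℂ) ^ e) ∈ zlPS ℓ :=
    C_mem_zlPS ℓ (Subring.pow_mem _ (natCast_mem_zl ℓ ℓ) e)
  have ha : a ∈ zlPS ℓ := by
    have : a = 1 + PowerSeries.C ((ℓ : ℂ) ^ e) * c := by rw [← hac]; ring
    rw [this]
    exact Subring.add_mem _ (Subring.one_mem _) (Subring.mul_mem _ hC hc)
  refine (pscong_iff ℓ).mpr ⟨c * ∑ i ∈ Finset.range m, a ^ i, ?_, ?_⟩
  · exact Subring.mul_mem _ hc (Subring.sum_mem _ fun i _ => Subring.pow_mem _ ha i)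
  · rw [← mul_assoc, ← hac, mul_geom_sum]

theorem isLUnit_intCast (z : ℤ) (h : ¬ (ℓ : ℤ) ∣ z) : IsLUnit ℓ (z : ℂ) := by
  refine ⟨(z : ℚ), by push_cast; rfl, ?_, ?_⟩
  · rw [Rat.den_intCast]
    intro h
    exact hℓ.out.ne_one (Nat.dvd_one.mp h)
  · rwa [Rat.num_intCast]

theorem inv_mem_zl (p : ℕ) [hp : Fact p.Prime] (hne : ℓ ≠ p) : ((p : ℂ)⁻¹) ∈ zl ℓ := by
  refine ⟨(p : ℚ)⁻¹, by push_cast; rfl, ?_⟩
  rw [Rat.inv_natCast_den, if_neg hp.out.ne_zero]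
  intro h
  exact hne ((Nat.prime_dvd_prime_iff_eq hℓ.out hp.out).mp h)

end Integral

/-! ### Operators -/

theorem up_C_mul (m : ℕ) (c : ℂ) (a : PowerSeries ℂ) :
    Up m (PowerSeries.C c * a) = PowerSeries.C c * Up m a := by
  ext n
  simp [Up]

theorem vp_one (p : ℕ) (hp : p ≠ 0) : Vp p 1 = 1 := by
  ext n
  simp only [Vp, PowerSeries.coeff_mk, PowerSeries.coeff_one]
  by_cases hn : n = 0
  · subst hn
    simp
  · rw [if_neg hn]
    split_ifs with h1 h2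
    · exfalso
      obtain ⟨k, rfl⟩ := h1
      rw [Nat.mul_div_cancel_left _ (Nat.pos_of_ne_zero hp)] at h2
      subst h2
      exact hn (mul_zero _)
    · rfl
    · rfl

theorem vp_sub (p : ℕ) (a b : PowerSeries ℂ) : Vp p (a - b) = Vp p a - Vp p b := by
  ext n
  simp only [Vp, PowerSeries.coeff_mk, map_sub]
  split_ifs
  · rfl
  · simp

/-! ### Weight 2 -/

section Main

variable (p ℓ : ℕ) [hp : Fact p.Prime] [hℓ : Fact ℓ.Prime]

/-- For `(a, b)` of weight 2 on `Γ0(p)`: `b = -p⁻¹ U_p a`. -/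
theorem snd_eq_of_weight_two (hT : TCPackage p) (hL : L1Package)
    {x : PowerSeries ℂ × PowerSeries ℂ} (hx : x ∈ TwoCusp p 2) :
    x.2 = PowerSeries.C (-(p : ℂ)⁻¹) * Up p x.1 := by
  have h1 := hL.weight_two (hT.trace (hT.fricke hx))
  simp only at h1
  rw [up_C_mul, ← mul_assoc, ← map_mul] at h1
  have hp0 : (p : ℂ) ≠ 0 := Nat.cast_ne_zero.mpr hp.out.ne_zero
  have h2 : (p : ℂ) * (-(p : ℂ)) ^ (-2 : ℤ) = (p : ℂ)⁻¹ := by
    rw [zpow_neg, zpow_ofNat]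
    field_simp
  rw [h2] at h1
  rw [map_neg, neg_mul]
  exact eq_neg_of_add_eq_zero_left h1

/-- If `a ≡ 1 mod ℓ` and `p ≡ -1 mod ℓ`, then `b ≡ 1 mod ℓ`. -/
theorem pscong_snd (hne : ℓ ≠ p) (hdvd : ℓ ∣ p + 1) (hT : TCPackage p) (hL : L1Package)
    {x : PowerSeries ℂ × PowerSeries ℂ} (hx : x ∈ TwoCusp p 2) (h : PSCong ℓ 1 x.1 1) :
    PSCong ℓ 1 x.2 1 := by
  intro n
  obtain ⟨y, hy, hay⟩ := h (p * n)
  obtain ⟨t, ht⟩ := hdvd
  have hp0 : (p : ℂ) ≠ 0 := Nat.cast_ne_zero.mpr hp.out.ne_zero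
  have hinv := inv_mem_zl ℓ p hne
  have hone : (1 : PowerSeries ℂ).coeff (p * n) = (1 : PowerSeries ℂ).coeff n := by
    rw [PowerSeries.coeff_one, PowerSeries.coeff_one]
    by_cases hn : n = 0
    · subst hn
      simp
    · rw [if_neg hn, if_neg (Nat.mul_ne_zero hp.out.ne_zero hn)]
  have h1mem : (1 : PowerSeries ℂ).coeff n ∈ zl ℓ := (Subring.one_mem (zlPS ℓ)) n
  refine ⟨-((t : ℂ) * (p : ℂ)⁻¹ * (1 : PowerSeries ℂ).coeff n) - (p : ℂ)⁻¹ * y, ?_, ?_⟩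
  · exact Subring.sub_mem (zl ℓ)
      (Subring.neg_mem _ (Subring.mul_mem _ (Subring.mul_mem _ (natCast_mem_zl ℓ t) hinv) h1mem))
      (Subring.mul_mem _ hinv hy)
  · rw [snd_eq_of_weight_two p hT hL hx, PowerSeries.coeff_C_mul]
    have h3 : (Up p x.1).coeff n = (1 : PowerSeries ℂ).coeff n + (ℓ : ℂ) ^ 1 * y := by
      rw [Up, PowerSeries.coeff_mk, ← hone, ← hay]
      ring
    have h4 : ((p : ℂ) + 1) = (ℓ : ℂ) * (t : ℂ) := by exact_mod_cast ht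
    rw [h3, pow_one]
    field_simp
    linear_combination (-(1 : PowerSeries ℂ).coeff n) * h4

/-- `(a ^ m, b ^ m)` has weight `2m`. -/
theorem pow_mem_twoCusp (hT : TCPackage p) (hL : L1Package)
    {x : PowerSeries ℂ × PowerSeries ℂ} (hx : x ∈ TwoCusp p 2) (m : ℕ) :
    (x.1 ^ m, x.2 ^ m) ∈ TwoCusp p (2 * (m : ℤ)) := by
  induction m with
  | zero =>
    have h := hT.ofLevelOne hL.one_mem
    rw [vp_one p hp.out.ne_zero] at h
    simpa using h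
  | succ m ih =>
    have h := hT.mul ih hx
    simp only at h
    rw [pow_succ, pow_succ]
    have e : (2 * ((m + 1 : ℕ) : ℤ)) = 2 * (m : ℤ) + 2 := by push_cast; ring
    rw [e]
    exact h

/-- The general form: a level-one form `E = 1 + unit·q + …` of weight `2m < 12` with `ℓ`-integral
coefficients excludes `G ≡ 1 mod ℓ` when `p ≡ -1 mod ℓ`. -/
theorem noG_of_levelOne (hne : ℓ ≠ p) (hdvd : ℓ ∣ p + 1) (hT : TCPackage p) (hL : L1Package)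
    (hF : StmtF p ℓ) (m : ℕ) (hm : m < 6) (E : PowerSeries ℂ) (hE : E ∈ LevelOne (2 * (m : ℤ)))
    (hEint : E ∈ zlPS ℓ) (hE0 : E.coeff 0 = 1) (hE1 : IsLUnit ℓ ((1 - E).coeff 1)) :
    NoG p ℓ 1 := by
  rintro ⟨x, hx, -, hx1⟩
  have hx2 : PSCong ℓ 1 x.2 1 := pscong_snd p ℓ hne hdvd hT hL hx hx1
  have hK : (x.1 ^ m + PowerSeries.C (-1) * E, x.2 ^ m + PowerSeries.C (-1) * Vp p E) ∈
      TwoCusp p (2 * (m : ℤ)) :=
    hT.add (pow_mem_twoCusp p hT hL hx m) (hT.smul (-1) (hT.ofLevelOne hE))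
  refine hF (2 * (m : ℤ)) _ hK (1 - E) 1 le_rfl (by push_cast; omega) ?_ ?_ hE1 ?_ ?_
  · exact Subring.sub_mem (zlPS ℓ) (Subring.one_mem _) hEint
  · intro n hn
    have hn0 : n = 0 := by omega
    subst hn0
    refine ⟨0, Subring.zero_mem (zl ℓ), ?_⟩
    rw [map_sub, hE0, PowerSeries.coeff_one, if_pos rfl]
    ring
  · obtain ⟨c, hc, hac⟩ := (pscong_iff ℓ).mp (pscong_pow_one ℓ hx1 m)
    refine (pscong_iff ℓ).mpr ⟨c, hc, ?_⟩
    rw [← hac]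
    simp only [map_neg, map_one]
    ring
  · obtain ⟨c, hc, hac⟩ := (pscong_iff ℓ).mp (pscong_pow_one ℓ hx2 m)
    refine (pscong_iff ℓ).mpr ⟨c, hc, ?_⟩
    rw [← hac, vp_sub, vp_one p hp.out.ne_zero]
    simp only [map_neg, map_one]
    ring

/-! ### The two Eisenstein series -/

omit hp in
theorem e4_mem_zlPS : e4 ∈ zlPS ℓ := by
  intro n
  rw [e4, PowerSeries.coeff_mk]
  split_ifs
  · exact Subring.one_mem _
  · exact Subring.mul_mem _ (natCast_mem_zl ℓ 240) (natCast_mem_zl ℓ _)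

omit hp in
theorem e6_mem_zlPS : e6 ∈ zlPS ℓ := by
  intro n
  rw [e6, PowerSeries.coeff_mk]
  split_ifs
  · exact Subring.one_mem _
  · exact Subring.mul_mem _ (Subring.neg_mem _ (natCast_mem_zl ℓ 504)) (natCast_mem_zl ℓ _)

theorem one_sub_e4_coeff_one : (1 - e4).coeff 1 = ((-240 : ℤ) : ℂ) := by
  rw [map_sub, PowerSeries.coeff_one, e4, PowerSeries.coeff_mk]
  simp

theorem one_sub_e6_coeff_one : (1 - e6).coeff 1 = ((504 : ℤ) : ℂ) := by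
  rw [map_sub, PowerSeries.coeff_one, e6, PowerSeries.coeff_mk]
  simp

omit hp in
theorem not_dvd_240 (h5 : 5 ≤ ℓ) (hne5 : ℓ ≠ 5) : ¬ (ℓ : ℤ) ∣ (-240 : ℤ) := by
  intro h
  have h1 : ℓ ∣ 240 := by
    have := (Int.dvd_neg).mp h
    exact_mod_cast this
  have h2 : ℓ ∣ 2 ^ 4 * 3 * 5 := by simpa using h1
  rcases hℓ.out.dvd_mul.mp h2 with h3 | h3
  · rcases hℓ.out.dvd_mul.mp h3 with h4 | h4
    · have := (Nat.prime_dvd_prime_iff_eq hℓ.out Nat.prime_two).mp (hℓ.out.dvd_of_dvd_pow h4)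
      omega
    · have := (Nat.prime_dvd_prime_iff_eq hℓ.out Nat.prime_three).mp h4
      omega
  · exact hne5 ((Nat.prime_dvd_prime_iff_eq hℓ.out Nat.prime_five).mp h3)

end Main

/-- **Piece B-l**: for `ℓ ≥ 5`, `ℓ ≠ p`, `p ≡ -1 mod ℓ`, Lemma F excludes a form of weight 2 on
`Γ0(p)` congruent to `1` modulo `ℓ`. -/
theorem noG_caseL (p ℓ : ℕ) [Fact p.Prime] [hℓ : Fact ℓ.Prime] (h5 : 5 ≤ ℓ) (hne : ℓ ≠ p)
    (hdvd : ℓ ∣ p + 1) (hT : TCPackage p) (hL : L1Package) (hF : StmtF p ℓ) : NoG p ℓ 1 := by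
  by_cases hℓ5 : ℓ = 5
  · subst hℓ5
    refine noG_of_levelOne p 5 hne hdvd hT hL hF 3 (by norm_num) e6 hL.e6_mem (e6_mem_zlPS 5)
      (by simp [e6]) ?_
    rw [one_sub_e6_coeff_one]
    exact isLUnit_intCast 5 504 (by norm_num)
  · refine noG_of_levelOne p ℓ hne hdvd hT hL hF 2 (by norm_num) e4 hL.e4_mem (e4_mem_zlPS ℓ)
      (by simp [e4]) ?_
    rw [one_sub_e4_coeff_one]
    exact isLUnit_intCast ℓ (-240) (not_dvd_240 ℓ h5 hℓ5)

/-- For `ℓ ≥ 5` the exponent is `1`. -/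
theorem expo_eq_one (p ℓ : ℕ) [hℓ : Fact ℓ.Prime] (h5 : 5 ≤ ℓ) : expo p ℓ = 1 := by
  have hg : Nat.gcd (p - 1) 12 ∣ 24 := (Nat.gcd_dvd_right _ _).trans (by norm_num)
  have h24 : 24 / Nat.gcd (p - 1) 12 ∣ 2 ^ 3 * 3 := Nat.div_dvd_of_dvd hg
  have hnd : ¬ ℓ ∣ 24 / Nat.gcd (p - 1) 12 := by
    intro h
    have h2 : ℓ ∣ 2 ^ 3 * 3 := h.trans h24
    rcases hℓ.out.dvd_mul.mp h2 with h4 | h4
    · have := (Nat.prime_dvd_prime_iff_eq hℓ.out Nat.prime_two).mp (hℓ.out.dvd_of_dvd_pow h4)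
      omega
    · have := (Nat.prime_dvd_prime_iff_eq hℓ.out Nat.prime_three).mp h4
      omega
  rw [expo, padicValNat.eq_zero_of_not_dvd hnd]

/-- **Piece B-l**, in the form used by the reduction. -/
theorem noG_caseL_expo (p ℓ : ℕ) [Fact p.Prime] [Fact ℓ.Prime] (h5 : 5 ≤ ℓ) (hne : ℓ ≠ p)
    (hdvd : ℓ ∣ p + 1) (hT : TCPackage p) (hL : L1Package) (hF : StmtF p ℓ) :
    NoG p ℓ (expo p ℓ) := by
  rw [expo_eq_one p ℓ h5]
  exact noG_caseL p ℓ h5 hne hdvd hT hL hF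

end CaseL

end Fermat.Agent.S16
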