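/-
S16, piece B-tr: `NoG p ℓ (expo p ℓ)` for `ℓ ≠ p` in the "trace of `G²` plus `U_p`" cases,
from the analytic packages `TCPackage p` and `L1Package` (see NOTES/S16-plan.md).

Key identity (◆): for `(a, b) ∈ TwoCusp p 2` with `a₀ = 1`, `h := a - 1`:
  `(p - 1) (h²)_p + ((U_p h)²)_{p²} = 240 p³ (p + 1)`.
-/
import Fermat.Agent.S16.Integrality
import Fermat.Agent.S16.CaseP

set_option autoImplicit false

open PowerSeries

namespace Fermat.Agent.S16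

namespace CaseTr

/-! ### The operator `U_p` on power series -/

theorem Up_one {m : ℕ} (hm : m ≠ 0) : Up m (1 : PowerSeries ℂ) = 1 := by
  ext n
  simp only [coeff_Up, PowerSeries.coeff_one]
  by_cases hn : n = 0
  · simp [hn]
  · simp [hn, hm]

/-! ### Level one: weight 4 is spanned by `E₄` -/

theorem coeff_zero_e4 : coeff 0 e4 = 1 := by
  simp [e4, PowerSeries.coeff_mk]

theorem coeff_e4 {n : ℕ} (hn : n ≠ 0) :
    coeff n e4 = 240 * (ArithmeticFunction.sigma 3 n : ℂ) := by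
  simp [e4, PowerSeries.coeff_mk, hn]

theorem levelOne_four_eq (hL : L1Package) {a : PowerSeries ℂ} (ha : a ∈ LevelOne 4) :
    a = C (coeff 0 a) * e4 := by
  have hb : a + C (-(coeff 0 a)) * e4 ∈ LevelOne 4 := hL.add ha (hL.smul _ hL.e4_mem)
  have h0 : a + C (-(coeff 0 a)) * e4 = 0 := by
    refine hL.sturm hb (fun n hn => ?_)
    have hn0 : n = 0 := by omega
    subst hn0
    rw [map_add, PowerSeries.coeff_C_mul, coeff_zero_e4]
    ring
  rw [map_neg] at h0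
  linear_combination h0

/-! ### Weight two: the expansion at `0` is determined by the expansion at `∞` -/

section WeightTwo

variable {p : ℕ}

theorem zpow_aux {p : ℕ} (hp : p ≠ 0) : (p : ℂ) * (-(p : ℂ)) ^ (-(2 : ℤ)) = (p : ℂ)⁻¹ := by
  have hpc : (p : ℂ) ≠ 0 := by exact_mod_cast hp
  rw [zpow_neg, zpow_ofNat, neg_sq]
  field_simp

theorem snd_eq (hp : p ≠ 0) (hT : TCPackage p) (hL : L1Package)
    {x : PowerSeries ℂ × PowerSeries ℂ} (hx : x ∈ TwoCusp p 2) :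
    x.2 = C (-(p : ℂ)⁻¹) * Up p x.1 := by
  have fr := hT.fricke hx
  have h2 := hL.weight_two (hT.trace fr)
  simp only [Up_C_mul] at h2
  have h3 : (C (p : ℂ) : PowerSeries ℂ) * (C ((-(p : ℂ)) ^ (-(2 : ℤ))) * Up p x.1)
      = C ((p : ℂ)⁻¹) * Up p x.1 := by
    rw [← mul_assoc, ← map_mul, zpow_aux hp]
  rw [h3] at h2
  rw [map_neg]
  linear_combination h2

theorem Up_Up (hp : p ≠ 0) (hT : TCPackage p) (hL : L1Package)
    {x : PowerSeries ℂ × PowerSeries ℂ} (hx : x ∈ TwoCusp p 2) :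
    Up p (Up p x.1) = x.1 := by
  have h1 := hL.weight_two (hT.trace hx)
  rw [snd_eq hp hT hL hx, Up_C_mul, ← mul_assoc, ← map_mul] at h1
  have hpc : (p : ℂ) ≠ 0 := by exact_mod_cast hp
  have : (p : ℂ) * -(p : ℂ)⁻¹ = -1 := by field_simp
  rw [this, map_neg, map_one] at h1
  linear_combination -h1

theorem swap_mem (hp : p ≠ 0) (hT : TCPackage p) (hL : L1Package)
    {x : PowerSeries ℂ × PowerSeries ℂ} (hx : x ∈ TwoCusp p 2) :
    (Up p x.1, C (-(p : ℂ)⁻¹) * x.1) ∈ TwoCusp p 2 := by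
  have fr := hT.smul (-(p : ℂ)) (hT.fricke hx)
  have hpc : (p : ℂ) ≠ 0 := by exact_mod_cast hp
  have e1 : (C (-(p : ℂ)) : PowerSeries ℂ) * x.2 = Up p x.1 := by
    rw [snd_eq hp hT hL hx, ← mul_assoc, ← map_mul]
    have : -(p : ℂ) * -(p : ℂ)⁻¹ = 1 := by field_simp
    rw [this, map_one, one_mul]
  have e2 : (C (-(p : ℂ)) : PowerSeries ℂ) * (C ((-(p : ℂ)) ^ (-(2 : ℤ))) * x.1)
      = C (-(p : ℂ)⁻¹) * x.1 := by
    rw [← mul_assoc, ← map_mul]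
    congr 2
    rw [neg_mul, zpow_aux hp]
  simp only at fr
  rw [e1, e2] at fr
  exact fr

/-- The trace of `G²`: `a² + p⁻¹ U_p((U_p a)²) = (1 + p⁻¹) E₄`. -/
theorem trace_sq (hp : p ≠ 0) (hT : TCPackage p) (hL : L1Package)
    {x : PowerSeries ℂ × PowerSeries ℂ} (hx : x ∈ TwoCusp p 2) (h0 : coeff 0 x.1 = 1) :
    x.1 * x.1 + C ((p : ℂ)⁻¹) * Up p (Up p x.1 * Up p x.1) = C (1 + (p : ℂ)⁻¹) * e4 := by
  have hpc : (p : ℂ) ≠ 0 := by exact_mod_cast hp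
  have sq := hT.mul hx hx
  have tr := hT.trace sq
  have h22 : (2 : ℤ) + 2 = 4 := by norm_num
  rw [h22] at tr
  have I2 := levelOne_four_eq hL tr
  have hx2 := snd_eq hp hT hL hx
  have e1 : x.2 * x.2 = C (((p : ℂ)⁻¹) ^ 2) * (Up p x.1 * Up p x.1) := by
    rw [hx2, map_pow, map_neg]; ring
  have e2 : (C (p : ℂ) : PowerSeries ℂ) * Up p (x.2 * x.2)
      = C ((p : ℂ)⁻¹) * Up p (Up p x.1 * Up p x.1) := by
    rw [e1, Up_C_mul, ← mul_assoc, ← map_mul]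
    congr 2
    field_simp
  simp only at I2
  rw [e2] at I2
  have c0 : coeff 0 (x.1 * x.1 + C ((p : ℂ)⁻¹) * Up p (Up p x.1 * Up p x.1))
      = 1 + (p : ℂ)⁻¹ := by
    rw [map_add, PowerSeries.coeff_C_mul, coeff_Up, mul_zero, PowerSeries.coeff_zero_eq_constantCoeff,
      map_mul, map_mul, ← PowerSeries.coeff_zero_eq_constantCoeff, h0,
      coeff_Up, mul_zero, h0]
    ring
  rw [c0] at I2
  exact I2

/-- `(★)`: with `h = a - 1`: `2(p+1) h + p h² + U_p((U_p h)²) = (p+1)(E₄ - 1)`. -/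
theorem star (hp : p ≠ 0) (hT : TCPackage p) (hL : L1Package)
    {x : PowerSeries ℂ × PowerSeries ℂ} (hx : x ∈ TwoCusp p 2) (h0 : coeff 0 x.1 = 1) :
    C (2 * ((p : ℂ) + 1)) * (x.1 - 1) + C (p : ℂ) * ((x.1 - 1) * (x.1 - 1))
        + Up p (Up p (x.1 - 1) * Up p (x.1 - 1))
      = C ((p : ℂ) + 1) * (e4 - 1) := by
  have hpc : (p : ℂ) ≠ 0 := by exact_mod_cast hp
  have I2 := trace_sq hp hT hL hx h0
  have hUU := Up_Up hp hT hL hx
  set a := x.1 with ha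
  set h := a - 1 with hh
  have hUa : Up p a = 1 + Up p h := by
    rw [hh, Up_sub, Up_one hp]; ring
  have hUUh : Up p (Up p h) = h := by
    rw [hh, Up_sub, Up_sub, Up_one hp, Up_one hp, hUU]
  have hC2 : (C (2 : ℂ) : PowerSeries ℂ) = 2 := map_ofNat C 2
  have e3 : Up p a * Up p a = 1 + (C (2 : ℂ) * Up p h + Up p h * Up p h) := by
    rw [hUa, hC2]; ring
  have e4' : Up p (Up p a * Up p a) = 1 + (C (2 : ℂ) * h + Up p (Up p h * Up p h)) := by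
    rw [e3, Up_add, Up_add, Up_one hp, Up_C_mul, hUUh]
  rw [e4'] at I2
  have hP : (C (p : ℂ) : PowerSeries ℂ) * C ((p : ℂ)⁻¹) = 1 := by
    rw [← map_mul, mul_inv_cancel₀ hpc, map_one]
  simp only [map_add, map_mul, map_one, hC2] at I2 ⊢
  have haa : a = 1 + h := by rw [hh]; ring
  rw [haa] at I2
  linear_combination (C (p : ℂ)) * I2 - (h * 2 + Up p (Up p h * Up p h) + 1 - e4) * hP


theorem sigma_three_prime (hp : p.Prime) : ArithmeticFunction.sigma 3 p = 1 + p ^ 3 := by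
  rw [ArithmeticFunction.sigma_apply, Nat.Prime.sum_divisors hp]
  ring

/-- `(◆)`: `(p - 1) (h²)_p + ((U_p h)²)_{p²} = 240 p³ (p + 1)`. -/
theorem diamond (hp : p.Prime) (hT : TCPackage p) (hL : L1Package)
    {x : PowerSeries ℂ × PowerSeries ℂ} (hx : x ∈ TwoCusp p 2) (h0 : coeff 0 x.1 = 1) :
    ((p : ℂ) - 1) * coeff p ((x.1 - 1) * (x.1 - 1))
        + coeff (p * p) (Up p (x.1 - 1) * Up p (x.1 - 1))
      = 240 * (p : ℂ) ^ 3 * ((p : ℂ) + 1) := by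
  have hp0 : p ≠ 0 := hp.ne_zero
  have s1 := congrArg (coeff p) (star hp0 hT hL hx h0)
  have h0' : coeff 0 (Up p x.1) = 1 := by rw [coeff_Up, mul_zero, h0]
  have s2 := congrArg (coeff 1) (star hp0 hT hL (swap_mem hp0 hT hL hx) h0')
  simp only at s2
  have hU : Up p (Up p x.1 - 1) = x.1 - 1 := by
    rw [Up_sub, Up_one hp0, Up_Up hp0 hT hL hx]
  rw [hU] at s2
  have hk0 : constantCoeff (Up p x.1 - 1) = 0 := by
    rw [← PowerSeries.coeff_zero_eq_constantCoeff, map_sub, h0', PowerSeries.coeff_one]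
    simp
  have c1 : coeff 1 ((Up p x.1 - 1) * (Up p x.1 - 1)) = 0 := by
    rw [PowerSeries.coeff_one_mul, hk0]; ring
  have c2 : coeff 1 (Up p x.1 - 1) = coeff p (x.1 - 1) := by
    rw [map_sub, map_sub, coeff_Up, mul_one, PowerSeries.coeff_one, PowerSeries.coeff_one]
    simp [hp0]
  have c3 : coeff p (e4 - 1) = 240 * (1 + (p : ℂ) ^ 3) := by
    rw [map_sub, coeff_e4 hp0, sigma_three_prime hp, PowerSeries.coeff_one]
    simp [hp0]
  have c4 : coeff 1 (e4 - 1) = 240 := by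
    rw [map_sub, coeff_e4 one_ne_zero, PowerSeries.coeff_one]
    simp
  rw [map_add, map_add, PowerSeries.coeff_C_mul, PowerSeries.coeff_C_mul, coeff_Up,
    PowerSeries.coeff_C_mul, c3] at s1
  rw [map_add, map_add, PowerSeries.coeff_C_mul, PowerSeries.coeff_C_mul, coeff_Up,
    PowerSeries.coeff_C_mul, c4, c1, c2, mul_one] at s2
  linear_combination s1 - s2

end WeightTwo

/-! ### Integrality -/

section Integral

variable {ℓ : ℕ} [Fact ℓ.Prime]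

/-- The coefficients of a square: off-diagonal terms come in pairs. -/
theorem coeff_mul_self {g : PowerSeries ℂ} (hg : g ∈ ZlPS ℓ) (n : ℕ) :
    ∃ T ∈ Zl ℓ, coeff n (g * g)
      = 2 * T + (if 2 ∣ n then coeff (n / 2) g * coeff (n / 2) g else 0) := by
  classical
  refine ⟨∑ x ∈ Finset.HasAntidiagonal.antidiagonal n, (if x.1 < x.2 then coeff x.1 g * coeff x.2 g else 0),
    ?_, ?_⟩
  · refine (Zl ℓ).sum_mem fun x _ => ?_
    split_ifs
    · exact (Zl ℓ).mul_mem (hg _) (hg _)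
    · exact (Zl ℓ).zero_mem
  · rw [PowerSeries.coeff_mul]
    have hsplit : ∀ x : ℕ × ℕ, coeff x.1 g * coeff x.2 g =
        (if x.1 < x.2 then coeff x.1 g * coeff x.2 g else 0)
        + (if x.2 < x.1 then coeff x.1 g * coeff x.2 g else 0)
        + (if x.1 = x.2 then coeff x.1 g * coeff x.2 g else 0) := by
      intro x
      rcases lt_trichotomy x.1 x.2 with h | h | h
      · rw [if_pos h, if_neg (not_lt.2 h.le), if_neg h.ne]; ring
      · rw [if_neg (by omega), if_neg (by omega), if_pos h]; ring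
      · rw [if_neg (not_lt.2 h.le), if_pos h, if_neg h.ne']; ring
    rw [Finset.sum_congr rfl (fun x _ => hsplit x), Finset.sum_add_distrib,
      Finset.sum_add_distrib]
    have hswap : ∑ x ∈ Finset.HasAntidiagonal.antidiagonal n,
          (if x.2 < x.1 then coeff x.1 g * coeff x.2 g else 0)
        = ∑ x ∈ Finset.HasAntidiagonal.antidiagonal n,
          (if x.1 < x.2 then coeff x.1 g * coeff x.2 g else 0) := by
      rw [← Finset.Nat.sum_antidiagonal_swap]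
      refine Finset.sum_congr rfl fun x _ => ?_
      simp only [Prod.fst_swap, Prod.snd_swap]
      rw [mul_comm]
    have hdiag : ∑ x ∈ Finset.HasAntidiagonal.antidiagonal n,
          (if x.1 = x.2 then coeff x.1 g * coeff x.2 g else 0)
        = if 2 ∣ n then coeff (n / 2) g * coeff (n / 2) g else 0 := by
      split_ifs with h2
      · obtain ⟨m, rfl⟩ := h2
        have hm : 2 * m / 2 = m := by omega
        rw [hm, Finset.sum_eq_single (m, m)]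
        · simp
        · intro b hb hne
          rw [Finset.HasAntidiagonal.mem_antidiagonal] at hb
          have : b.1 ≠ b.2 := fun h => hne (Prod.ext (by simp only; omega) (by simp only; omega))
          rw [if_neg this]
        · intro h
          exact absurd (Finset.HasAntidiagonal.mem_antidiagonal.2 (by ring)) h
      · refine Finset.sum_eq_zero fun x hx => ?_
        rw [Finset.HasAntidiagonal.mem_antidiagonal] at hx
        have : x.1 ≠ x.2 := fun h => h2 ⟨x.1, by omega⟩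
        rw [if_neg this]
    rw [hswap, hdiag]
    ring

variable {p : ℕ}

/-- From `(◆)`: `ℓ^(2e) ∣ 240 p³ (p + 1)`. -/
theorem dvd_main (hp : p.Prime) (hT : TCPackage p) (hL : L1Package)
    {x : PowerSeries ℂ × PowerSeries ℂ} (hx : x ∈ TwoCusp p 2) (h0 : coeff 0 x.1 = 1)
    {e : ℕ} (h1 : PSCong ℓ e x.1 1) :
    (ℓ : ℤ) ^ (2 * e) ∣ 240 * (p : ℤ) ^ 3 * ((p : ℤ) + 1) := by
  obtain ⟨g, hg, hgh⟩ := (psCong_iff.1 h1).exists_eq
  have d := diamond hp hT hL hx h0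
  rw [hgh, Up_C_mul] at d
  have e1 : ∀ k : PowerSeries ℂ, C ((ℓ : ℂ) ^ e) * k * (C ((ℓ : ℂ) ^ e) * k)
      = C ((ℓ : ℂ) ^ (2 * e)) * (k * k) := by
    intro k
    rw [two_mul, pow_add, map_mul]; ring
  rw [e1, e1, PowerSeries.coeff_C_mul, PowerSeries.coeff_C_mul] at d
  refine caseP_dvd_of_isLInt ℓ (2 * e) _
    (y := ((p : ℂ) - 1) * coeff p (g * g) + coeff (p * p) (Up p g * Up p g)) ?_ ?_
  · exact (Zl ℓ).add_mem
      ((Zl ℓ).mul_mem ((Zl ℓ).sub_mem (natCast_mem_Zl p) (Zl ℓ).one_mem)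
        ((ZlPS ℓ).mul_mem hg hg p))
      ((ZlPS ℓ).mul_mem (Up_mem_ZlPS p hg) (Up_mem_ZlPS p hg) (p * p))
  · push_cast
    linear_combination -d

/-- From `(◆)` for `ℓ = 2`, `p` odd: `2^(2e+1) ∣ 240 p³ (p + 1)`. -/
theorem dvd_main_two (hp : p.Prime) (hodd : ¬ 2 ∣ p) (h2 : ℓ = 2) (hT : TCPackage p)
    (hL : L1Package)
    {x : PowerSeries ℂ × PowerSeries ℂ} (hx : x ∈ TwoCusp p 2) (h0 : coeff 0 x.1 = 1)
    {e : ℕ} (h1 : PSCong ℓ e x.1 1) :
    (ℓ : ℤ) ^ (2 * e + 1) ∣ 240 * (p : ℤ) ^ 3 * ((p : ℤ) + 1) := by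
  obtain ⟨g, hg, hgh⟩ := (psCong_iff.1 h1).exists_eq
  have d := diamond hp hT hL hx h0
  rw [hgh, Up_C_mul] at d
  have e1 : ∀ k : PowerSeries ℂ, C ((ℓ : ℂ) ^ e) * k * (C ((ℓ : ℂ) ^ e) * k)
      = C ((ℓ : ℂ) ^ (2 * e)) * (k * k) := by
    intro k
    rw [two_mul, pow_add, map_mul]; ring
  rw [e1, e1, PowerSeries.coeff_C_mul, PowerSeries.coeff_C_mul] at d
  obtain ⟨T, hTm, hTe⟩ := coeff_mul_self hg p
  obtain ⟨T', hTm', hTe'⟩ := coeff_mul_self (Up_mem_ZlPS p hg) (p * p)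
  rw [if_neg hodd, add_zero] at hTe
  have hodd2 : ¬ 2 ∣ p * p := fun h =>
    (Nat.Prime.dvd_mul Nat.prime_two).1 h |>.elim hodd hodd
  rw [if_neg hodd2, add_zero] at hTe'
  rw [hTe, hTe'] at d
  have hl2 : (ℓ : ℂ) = 2 := by rw [h2]; norm_num
  refine caseP_dvd_of_isLInt ℓ (2 * e + 1) _
    (y := ((p : ℂ) - 1) * T + T') ?_ ?_
  · exact (Zl ℓ).add_mem
      ((Zl ℓ).mul_mem ((Zl ℓ).sub_mem (natCast_mem_Zl p) (Zl ℓ).one_mem) hTm) hTm'
  · push_cast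
    rw [pow_succ, hl2] at d ⊢
    linear_combination -d

/-- The upgrade for `ℓ = 2`, `p ≡ 1 mod 4`: a congruence mod `4` is a congruence mod `8`. -/
theorem upgrade (hp : p.Prime) (hp4 : p % 4 = 1) (h2 : ℓ = 2) (hT : TCPackage p)
    (hL : L1Package)
    {x : PowerSeries ℂ × PowerSeries ℂ} (hx : x ∈ TwoCusp p 2) (h0 : coeff 0 x.1 = 1)
    (h1 : PSCong ℓ 2 x.1 1) : PSCong ℓ 3 x.1 1 := by
  have hp0 : p ≠ 0 := hp.ne_zero
  have hl2 : (ℓ : ℂ) = 2 := by rw [h2]; norm_num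
  obtain ⟨g, hg, hgh⟩ := (psCong_iff.1 h1).exists_eq
  rw [hl2] at hgh
  -- `U_p U_p g = g`
  have hUUh : Up p (Up p (x.1 - 1)) = x.1 - 1 := by
    rw [Up_sub, Up_sub, Up_one hp0, Up_one hp0, Up_Up hp0 hT hL hx]
  have hUUg : ∀ m : ℕ, coeff (p * (p * m)) g = coeff m g := by
    intro m
    have := congrArg (coeff m) hUUh
    rw [hgh, coeff_Up, coeff_Up, PowerSeries.coeff_C_mul, PowerSeries.coeff_C_mul] at this
    exact mul_left_cancel₀ (by norm_num) this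
  obtain ⟨k, hk⟩ : ∃ k : ℕ, p = 4 * k + 1 := ⟨p / 4, by omega⟩
  have hodd : ¬ 2 ∣ p := by omega
  have hu : ¬ ℓ ∣ (2 * k + 1) := by rw [h2]; omega
  have hpc : (p : ℂ) = 4 * (k : ℂ) + 1 := by rw [hk]; push_cast; ring
  rw [psCong_iff]
  intro n
  have st := congrArg (coeff n) (star hp0 hT hL hx h0)
  rw [hgh, Up_C_mul] at st
  have e1 : ∀ k : PowerSeries ℂ, C ((2 : ℂ) ^ 2) * k * (C ((2 : ℂ) ^ 2) * k)
      = C ((2 : ℂ) ^ 4) * (k * k) := by
    intro k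
    rw [show (2 : ℂ) ^ 4 = 2 ^ 2 * 2 ^ 2 by norm_num, map_mul]; ring
  rw [e1, e1, Up_C_mul, map_add, map_add, PowerSeries.coeff_C_mul, PowerSeries.coeff_C_mul,
    PowerSeries.coeff_C_mul, PowerSeries.coeff_C_mul, PowerSeries.coeff_C_mul,
    PowerSeries.coeff_C_mul, coeff_Up] at st
  obtain ⟨s, hs⟩ : ∃ s : ℕ, coeff n (e4 - 1) = 240 * (s : ℂ) := by
    rcases Nat.eq_zero_or_pos n with hn | hn
    · refine ⟨0, ?_⟩
      rw [hn, map_sub, coeff_zero_e4, PowerSeries.coeff_one]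
      simp
    · refine ⟨ArithmeticFunction.sigma 3 n, ?_⟩
      rw [map_sub, coeff_e4 hn.ne', PowerSeries.coeff_one]
      simp [hn.ne']
  rw [hs] at st
  obtain ⟨T, hTm, hTe⟩ := coeff_mul_self hg n
  obtain ⟨T', hTm', hTe'⟩ := coeff_mul_self (Up_mem_ZlPS p hg) (p * n)
  -- the diagonal terms agree
  have hD : (if 2 ∣ p * n then coeff (p * n / 2) (Up p g) * coeff (p * n / 2) (Up p g) else 0)
      = (if 2 ∣ n then coeff (n / 2) g * coeff (n / 2) g else 0) := by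
    by_cases hn2 : 2 ∣ n
    · obtain ⟨m, rfl⟩ := hn2
      have h1 : 2 ∣ p * (2 * m) := ⟨p * m, by ring⟩
      have h3 : p * (2 * m) / 2 = p * m := by
        rw [show p * (2 * m) = 2 * (p * m) by ring]; omega
      have h4 : 2 * m / 2 = m := by omega
      rw [if_pos h1, if_pos ⟨m, rfl⟩, h3, h4, coeff_Up, hUUg]
    · have h1 : ¬ 2 ∣ p * n := fun h =>
        (Nat.Prime.dvd_mul Nat.prime_two).1 h |>.elim hodd hn2
      rw [if_neg h1, if_neg hn2]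
  rw [hD] at hTe'
  set D : ℂ := (if 2 ∣ n then coeff (n / 2) g * coeff (n / 2) g else 0) with hDdef
  have hDm : D ∈ Zl ℓ := by
    rw [hDdef]
    split_ifs
    · exact (Zl ℓ).mul_mem (hg _) (hg _)
    · exact (Zl ℓ).zero_mem
  rw [hTe, hTe'] at st
  have hui := inv_natCast_mem_Zl hu
  have hune : ((2 * k + 1 : ℕ) : ℂ) ≠ 0 := Nat.cast_ne_zero.mpr (by omega)
  refine ⟨((2 * k + 1 : ℕ) : ℂ)⁻¹ *
      (15 * ((2 * k + 1 : ℕ) : ℂ) * (s : ℂ) - (p : ℂ) * T - T' - ((2 * k + 1 : ℕ) : ℂ) * D),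
    ?_, ?_⟩
  · refine (Zl ℓ).mul_mem hui ?_
    refine (Zl ℓ).sub_mem ((Zl ℓ).sub_mem ((Zl ℓ).sub_mem ?_ ?_) hTm') ?_
    · exact (Zl ℓ).mul_mem ((Zl ℓ).mul_mem (ofNat_mem (Zl ℓ) 15) (natCast_mem_Zl _))
        (natCast_mem_Zl _)
    · exact (Zl ℓ).mul_mem (natCast_mem_Zl _) hTm
    · exact (Zl ℓ).mul_mem (natCast_mem_Zl _) hDm
  · rw [hgh, PowerSeries.coeff_C_mul, hl2]
    have key : ((2 * k + 1 : ℕ) : ℂ) * coeff n g
        = 2 * (15 * ((2 * k + 1 : ℕ) : ℂ) * (s : ℂ) - (p : ℂ) * T - T'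
            - ((2 * k + 1 : ℕ) : ℂ) * D) := by
      rw [hpc] at st ⊢
      push_cast
      linear_combination (1 / 16 : ℂ) * st
    have key2 : coeff n g = 2 * (((2 * k + 1 : ℕ) : ℂ)⁻¹ *
      (15 * ((2 * k + 1 : ℕ) : ℂ) * (s : ℂ) - (p : ℂ) * T - T' - ((2 * k + 1 : ℕ) : ℂ) * D)) := by
      rw [← mul_assoc, mul_comm (2 : ℂ), mul_assoc, ← key, ← mul_assoc, inv_mul_cancel₀ hune,
        one_mul]
    rw [key2]
    ring

end Integral

/-! ### Arithmetic -/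

section Arith

variable {p ℓ : ℕ}

theorem natCast_dvd_aux {m : ℕ} (k : ℕ)
    (h : (m : ℤ) ^ k ∣ 240 * (p : ℤ) ^ 3 * ((p : ℤ) + 1)) : m ^ k ∣ p ^ 3 * (240 * (p + 1)) := by
  have : ((m ^ k : ℕ) : ℤ) ∣ ((p ^ 3 * (240 * (p + 1)) : ℕ) : ℤ) := by
    push_cast
    convert h using 1
    ring
  exact Int.natCast_dvd_natCast.mp this

theorem strip_p (hp : p.Prime) (hℓ : ℓ.Prime) (hne : ℓ ≠ p) {k j : ℕ} (hjk : j ≤ k)
    (h : (ℓ : ℤ) ^ k ∣ 240 * (p : ℤ) ^ 3 * ((p : ℤ) + 1)) : ℓ ^ j ∣ 240 * (p + 1) := by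
  have h1 := natCast_dvd_aux k h
  have cop : Nat.Coprime (ℓ ^ j) (p ^ 3) :=
    Nat.Coprime.pow _ _ ((Nat.coprime_primes hℓ hp).2 hne)
  exact cop.dvd_of_dvd_mul_left ((pow_dvd_pow ℓ hjk).trans h1)

theorem arith_ge5 (hp : p.Prime) (hℓ : ℓ.Prime) (hne : ℓ ≠ p) (h5 : 5 ≤ ℓ)
    (hnd : ¬ ℓ ∣ p + 1) {k : ℕ} (hk : 2 ≤ k)
    (h : (ℓ : ℤ) ^ k ∣ 240 * (p : ℤ) ^ 3 * ((p : ℤ) + 1)) : False := by
  have h1 := strip_p hp hℓ hne hk h
  have cop : Nat.Coprime (ℓ ^ 2) (p + 1) :=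
    Nat.Coprime.pow_left _ ((Nat.Prime.coprime_iff_not_dvd hℓ).2 hnd)
  have h2 : ℓ ^ 2 ∣ 240 := cop.dvd_of_dvd_mul_right h1
  have h3 : ℓ ^ 2 ≤ 240 := Nat.le_of_dvd (by norm_num) h2
  have h4 : ℓ ≤ 15 := by nlinarith
  interval_cases ℓ <;> omega

theorem arith_three (hp : p.Prime) (hne : 3 ≠ p) (h9 : ¬ 9 ∣ p + 1) {k : ℕ} (hk : 2 ≤ k)
    (hk2 : 3 ∣ p + 1 → 4 ≤ k)
    (h : ((3 : ℕ) : ℤ) ^ k ∣ 240 * (p : ℤ) ^ 3 * ((p : ℤ) + 1)) : False := by
  by_cases h3 : 3 ∣ p + 1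
  · have h1 := strip_p hp Nat.prime_three hne (hk2 h3) h
    omega
  · have h1 := strip_p hp Nat.prime_three hne hk h
    omega

theorem arith_two (hp : p.Prime) (hne : 2 ≠ p) (h8 : ¬ 8 ∣ p + 1) {k : ℕ} (hk : 7 ≤ k)
    (h : ((2 : ℕ) : ℤ) ^ k ∣ 240 * (p : ℤ) ^ 3 * ((p : ℤ) + 1)) : False := by
  have h1 := strip_p hp Nat.prime_two hne hk h
  omega

theorem gcd_cases (p : ℕ) : Nat.gcd (p - 1) 12 = 1 ∨ Nat.gcd (p - 1) 12 = 2 ∨
    Nat.gcd (p - 1) 12 = 3 ∨ Nat.gcd (p - 1) 12 = 4 ∨ Nat.gcd (p - 1) 12 = 6 ∨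
    Nat.gcd (p - 1) 12 = 12 := by
  have hd : Nat.gcd (p - 1) 12 ∣ 12 := Nat.gcd_dvd_right _ _
  have hle : Nat.gcd (p - 1) 12 ≤ 12 := Nat.le_of_dvd (by norm_num) hd
  have hpos : 0 < Nat.gcd (p - 1) 12 := Nat.gcd_pos_of_pos_right _ (by norm_num)
  generalize Nat.gcd (p - 1) 12 = d at hd hle hpos
  interval_cases d <;> omega

/-- `2 ≤ expo p 3` if `3 ∤ p - 1`. -/
theorem two_le_expo_three (h : ¬ 3 ∣ p - 1) : 2 ≤ expo p 3 := by
  have : Fact (Nat.Prime 3) := ⟨Nat.prime_three⟩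
  have hd : Nat.gcd (p - 1) 12 ∣ p - 1 := Nat.gcd_dvd_left _ _
  have key : 1 ≤ padicValNat 3 (24 / Nat.gcd (p - 1) 12) := by
    rcases gcd_cases p with h1 | h1 | h1 | h1 | h1 | h1 <;> rw [h1] at hd ⊢
    · exact one_le_padicValNat_of_dvd (by norm_num) (by norm_num)
    · exact one_le_padicValNat_of_dvd (by norm_num) (by norm_num)
    · exact absurd hd h
    · exact one_le_padicValNat_of_dvd (by norm_num) (by norm_num)
    · exact absurd (dvd_trans (by norm_num) hd) h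
    · exact absurd (dvd_trans (by norm_num) hd) h
  unfold expo
  omega

/-- `2 ≤ expo p 2`. -/
theorem two_le_expo_two (p : ℕ) : 2 ≤ expo p 2 := by
  have : Fact (Nat.Prime 2) := ⟨Nat.prime_two⟩
  have key : 1 ≤ padicValNat 2 (24 / Nat.gcd (p - 1) 12) := by
    rcases gcd_cases p with h1 | h1 | h1 | h1 | h1 | h1 <;> rw [h1] <;>
      exact one_le_padicValNat_of_dvd (by norm_num) (by norm_num)
  unfold expo
  omega

/-- `3 ≤ expo p 2` if `4 ∤ p - 1`. -/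
theorem three_le_expo_two (h : ¬ 4 ∣ p - 1) : 3 ≤ expo p 2 := by
  have : Fact (Nat.Prime 2) := ⟨Nat.prime_two⟩
  have hd : Nat.gcd (p - 1) 12 ∣ p - 1 := Nat.gcd_dvd_left _ _
  have key : 2 ≤ padicValNat 2 (24 / Nat.gcd (p - 1) 12) := by
    rcases gcd_cases p with h1 | h1 | h1 | h1 | h1 | h1 <;> rw [h1] at hd ⊢
    · exact (padicValNat_dvd_iff_le (by norm_num)).1 (by norm_num)
    · exact (padicValNat_dvd_iff_le (by norm_num)).1 (by norm_num)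
    · exact (padicValNat_dvd_iff_le (by norm_num)).1 (by norm_num)
    · exact absurd hd h
    · exact (padicValNat_dvd_iff_le (by norm_num)).1 (by norm_num)
    · exact absurd (dvd_trans (by norm_num) hd) h
  unfold expo
  omega

end Arith

end CaseTr

open CaseTr in
/-- **Piece B-tr.** For `ℓ ≠ p` in the cases `ℓ ≥ 5, ℓ ∤ p + 1`; `ℓ = 3, 9 ∤ p + 1`;
`ℓ = 2, 8 ∤ p + 1`: there is no form of weight 2 on `Γ0(p)` whose expansion at `∞` is
`≡ 1 mod ℓ^(expo p ℓ)`. -/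
theorem noG_tr (p ℓ : ℕ) [Fact p.Prime] [Fact ℓ.Prime] (hne : ℓ ≠ p) (hT : TCPackage p)
    (hL : L1Package)
    (hcase : (5 ≤ ℓ ∧ ¬ ℓ ∣ p + 1) ∨ (ℓ = 3 ∧ ¬ 9 ∣ p + 1) ∨ (ℓ = 2 ∧ ¬ 8 ∣ p + 1)) :
    NoG p ℓ (expo p ℓ) := by
  have hp : p.Prime := Fact.out
  have hℓ : ℓ.Prime := Fact.out
  rintro ⟨x, hx, h0, h1⟩
  have h0' : coeff 0 x.1 = 1 := h0
  have he1 : 1 ≤ expo p ℓ := caseP_one_le_expo p ℓ
  rcases hcase with ⟨h5, hnd⟩ | ⟨h3, h9⟩ | ⟨h2, h8⟩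
  · -- `ℓ ≥ 5`
    exact arith_ge5 hp hℓ hne h5 hnd (k := 2 * expo p ℓ) (by omega)
      (dvd_main hp hT hL hx h0' h1)
  · -- `ℓ = 3`
    have hd := dvd_main hp hT hL hx h0' h1
    have hne3 : 3 ≠ p := h3 ▸ hne
    have hp2 : 2 ≤ p := hp.two_le
    refine arith_three hp hne3 h9 (k := 2 * expo p ℓ) (by omega) (fun h => ?_) (h3 ▸ hd)
    have : 2 ≤ expo p 3 := two_le_expo_three (by omega)
    rw [h3]; omega
  · -- `ℓ = 2`
    have hne2 : 2 ≠ p := h2 ▸ hne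
    have hp2 : 2 ≤ p := hp.two_le
    have hodd : ¬ 2 ∣ p := fun h =>
      hne2 ((Nat.prime_dvd_prime_iff_eq Nat.prime_two hp).1 h)
    have h3 : PSCong ℓ 3 x.1 1 := by
      by_cases hp4 : p % 4 = 1
      · have h2' : PSCong ℓ 2 x.1 1 :=
          PSCong.mono (by rw [h2]; exact two_le_expo_two p) h1
        exact upgrade hp hp4 h2 hT hL hx h0' h2'
      · exact PSCong.mono (by rw [h2]; exact three_le_expo_two (by omega)) h1
    have hd := dvd_main_two hp hodd h2 hT hL hx h0' h3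
    exact arith_two hp hne2 h8 (k := 2 * 3 + 1) (by norm_num) (h2 ▸ hd)

end Fermat.Agent.S16
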