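/-
S16, piece B-sturm (helper32): the `ℓ`-integral Sturm bound in level one.

  `int_sturm` : a level-one form of weight `W` with `ℓ`-integral `q`-expansion whose coefficients
  `a_n`, `12 n ≤ W`, are divisible by `ℓ` has all its coefficients divisible by `ℓ`.

Also `levelOne_four`, `levelOne_six` : `M_4 = ℂ E₄`, `M_6 = ℂ E₆` (from `L1Package.sturm`).

The closure lemmas for `IsLInt`/`LDvd` used here live in the namespace `Fermat.Agent.S16.Sturm`.
-/
import Fermat.Agent.S16.Defs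

set_option autoImplicit false

open PowerSeries

namespace Fermat.Agent.S16

noncomputable section

namespace Sturm

variable {ℓ : ℕ}

/-! ### `ℤ_(ℓ)` inside `ℂ` -/

lemma isLInt_intCast [Fact ℓ.Prime] (m : ℤ) : IsLInt ℓ (m : ℂ) :=
  ⟨(m : ℚ), by push_cast; rfl, by
    rw [Rat.den_intCast]; exact (Fact.out : ℓ.Prime).not_dvd_one⟩

lemma isLInt_natCast [Fact ℓ.Prime] (m : ℕ) : IsLInt ℓ (m : ℂ) := by
  simpa using isLInt_intCast (ℓ := ℓ) (m : ℤ)

lemma isLInt_zero [Fact ℓ.Prime] : IsLInt ℓ 0 := by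
  simpa using isLInt_intCast (ℓ := ℓ) 0

lemma isLInt_one [Fact ℓ.Prime] : IsLInt ℓ 1 := by
  simpa using isLInt_intCast (ℓ := ℓ) 1

lemma isLInt_add [Fact ℓ.Prime] {x y : ℂ} (hx : IsLInt ℓ x) (hy : IsLInt ℓ y) :
    IsLInt ℓ (x + y) := by
  obtain ⟨r, rfl, hr⟩ := hx
  obtain ⟨s, rfl, hs⟩ := hy
  refine ⟨r + s, by push_cast; rfl, fun h => ?_⟩
  rcases (Nat.Prime.dvd_mul Fact.out).1 (Nat.dvd_trans h (Rat.add_den_dvd r s)) with h | h
  exacts [hr h, hs h]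

lemma isLInt_mul [Fact ℓ.Prime] {x y : ℂ} (hx : IsLInt ℓ x) (hy : IsLInt ℓ y) :
    IsLInt ℓ (x * y) := by
  obtain ⟨r, rfl, hr⟩ := hx
  obtain ⟨s, rfl, hs⟩ := hy
  refine ⟨r * s, by push_cast; rfl, fun h => ?_⟩
  rcases (Nat.Prime.dvd_mul Fact.out).1 (Nat.dvd_trans h (Rat.mul_den_dvd r s)) with h | h
  exacts [hr h, hs h]

lemma isLInt_neg {x : ℂ} (hx : IsLInt ℓ x) : IsLInt ℓ (-x) := by
  obtain ⟨r, rfl, hr⟩ := hx
  exact ⟨-r, by push_cast; rfl, by simpa using hr⟩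

lemma isLInt_sub [Fact ℓ.Prime] {x y : ℂ} (hx : IsLInt ℓ x) (hy : IsLInt ℓ y) :
    IsLInt ℓ (x - y) := by
  rw [sub_eq_add_neg]; exact isLInt_add hx (isLInt_neg hy)

lemma isLInt_pow [Fact ℓ.Prime] {x : ℂ} (hx : IsLInt ℓ x) (n : ℕ) : IsLInt ℓ (x ^ n) := by
  induction n with
  | zero => simpa using isLInt_one (ℓ := ℓ)
  | succ n ih => rw [pow_succ]; exact isLInt_mul ih hx

lemma isLInt_sum [Fact ℓ.Prime] {ι : Type*} (s : Finset ι) (f : ι → ℂ)
    (h : ∀ i ∈ s, IsLInt ℓ (f i)) : IsLInt ℓ (∑ i ∈ s, f i) := by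
  classical
  induction s using Finset.induction_on with
  | empty => simpa using isLInt_zero (ℓ := ℓ)
  | insert i s hi ih =>
    rw [Finset.sum_insert hi]
    exact isLInt_add (h i (Finset.mem_insert_self i s))
      (ih fun j hj => h j (Finset.mem_insert_of_mem hj))

lemma lDvd_zero [Fact ℓ.Prime] : LDvd ℓ 0 := ⟨0, isLInt_zero, by simp⟩

lemma lDvd_isLInt [Fact ℓ.Prime] {x : ℂ} (hx : LDvd ℓ x) : IsLInt ℓ x := by
  obtain ⟨y, hy, rfl⟩ := hx
  exact isLInt_mul (isLInt_natCast ℓ) hy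

lemma lDvd_add [Fact ℓ.Prime] {x y : ℂ} (hx : LDvd ℓ x) (hy : LDvd ℓ y) : LDvd ℓ (x + y) := by
  obtain ⟨u, hu, rfl⟩ := hx
  obtain ⟨v, hv, rfl⟩ := hy
  exact ⟨u + v, isLInt_add hu hv, by ring⟩

lemma lDvd_neg {x : ℂ} (hx : LDvd ℓ x) : LDvd ℓ (-x) := by
  obtain ⟨u, hu, rfl⟩ := hx
  exact ⟨-u, isLInt_neg hu, by ring⟩

lemma lDvd_sub [Fact ℓ.Prime] {x y : ℂ} (hx : LDvd ℓ x) (hy : LDvd ℓ y) : LDvd ℓ (x - y) := by
  rw [sub_eq_add_neg]; exact lDvd_add hx (lDvd_neg hy)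

lemma lDvd_mul_left [Fact ℓ.Prime] {x y : ℂ} (hx : IsLInt ℓ x) (hy : LDvd ℓ y) :
    LDvd ℓ (x * y) := by
  obtain ⟨v, hv, rfl⟩ := hy
  exact ⟨x * v, isLInt_mul hx hv, by ring⟩

lemma lDvd_mul_right [Fact ℓ.Prime] {x y : ℂ} (hx : LDvd ℓ x) (hy : IsLInt ℓ y) :
    LDvd ℓ (x * y) := by
  rw [mul_comm]; exact lDvd_mul_left hy hx

lemma lDvd_sum [Fact ℓ.Prime] {ι : Type*} (s : Finset ι) (f : ι → ℂ)
    (h : ∀ i ∈ s, LDvd ℓ (f i)) : LDvd ℓ (∑ i ∈ s, f i) := by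
  classical
  induction s using Finset.induction_on with
  | empty => simpa using lDvd_zero (ℓ := ℓ)
  | insert i s hi ih =>
    rw [Finset.sum_insert hi]
    exact lDvd_add (h i (Finset.mem_insert_self i s))
      (ih fun j hj => h j (Finset.mem_insert_of_mem hj))

/-! ### Power series with `ℓ`-integral coefficients -/

lemma psInt_mul [Fact ℓ.Prime] {a b : PowerSeries ℂ} (ha : ∀ n, IsLInt ℓ (a.coeff n))
    (hb : ∀ n, IsLInt ℓ (b.coeff n)) : ∀ n, IsLInt ℓ ((a * b).coeff n) := by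
  intro n
  rw [PowerSeries.coeff_mul]
  exact isLInt_sum _ _ fun p _ => isLInt_mul (ha _) (hb _)

lemma psInt_one [Fact ℓ.Prime] : ∀ n, IsLInt ℓ ((1 : PowerSeries ℂ).coeff n) := by
  intro n
  rw [PowerSeries.coeff_one]
  split_ifs
  exacts [isLInt_one, isLInt_zero]

lemma psInt_pow [Fact ℓ.Prime] {a : PowerSeries ℂ} (ha : ∀ n, IsLInt ℓ (a.coeff n)) (i : ℕ) :
    ∀ n, IsLInt ℓ ((a ^ i).coeff n) := by
  induction i with
  | zero => simpa using psInt_one (ℓ := ℓ)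
  | succ i ih => rw [pow_succ]; exact psInt_mul ih ha

lemma psDvd_mul_left [Fact ℓ.Prime] {a b : PowerSeries ℂ} (ha : ∀ n, IsLInt ℓ (a.coeff n))
    (hb : ∀ n, LDvd ℓ (b.coeff n)) : ∀ n, LDvd ℓ ((a * b).coeff n) := by
  intro n
  rw [PowerSeries.coeff_mul]
  exact lDvd_sum _ _ fun p _ => lDvd_mul_left (ha _) (hb _)

lemma psInt_e4 [Fact ℓ.Prime] : ∀ n, IsLInt ℓ (e4.coeff n) := by
  intro n
  rw [e4, PowerSeries.coeff_mk]
  split_ifs
  · exact isLInt_one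
  · exact isLInt_mul (by simpa using isLInt_natCast (ℓ := ℓ) 240) (isLInt_natCast _)

lemma psInt_e6 [Fact ℓ.Prime] : ∀ n, IsLInt ℓ (e6.coeff n) := by
  intro n
  rw [e6, PowerSeries.coeff_mk]
  split_ifs
  · exact isLInt_one
  · exact isLInt_mul (by simpa using isLInt_intCast (ℓ := ℓ) (-504)) (isLInt_natCast _)

lemma e4_coeff_zero : e4.coeff 0 = 1 := by simp [e4, PowerSeries.coeff_mk]

lemma e6_coeff_zero : e6.coeff 0 = 1 := by simp [e6, PowerSeries.coeff_mk]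

lemma coeff_zero_mul' (a b : PowerSeries ℂ) : (a * b).coeff 0 = a.coeff 0 * b.coeff 0 := by
  simp [PowerSeries.coeff_mul]

lemma coeff_zero_pow' (a : PowerSeries ℂ) (i : ℕ) : (a ^ i).coeff 0 = (a.coeff 0) ^ i := by
  induction i with
  | zero => simp
  | succ i ih => rw [pow_succ, coeff_zero_mul', ih, pow_succ]

/-! ### Level one -/

lemma levelOne_pow (hL : L1Package) {k : ℤ} {a : PowerSeries ℂ} (ha : a ∈ LevelOne k) (i : ℕ) :
    a ^ i ∈ LevelOne ((i : ℤ) * k) := by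
  induction i with
  | zero => simpa using hL.one_mem
  | succ i ih =>
    rw [pow_succ, show ((i + 1 : ℕ) : ℤ) * k = (i : ℤ) * k + k by push_cast; ring]
    exact hL.mul ih ha

lemma levelOne_sub_smul (hL : L1Package) {k : ℤ} {a e : PowerSeries ℂ} (ha : a ∈ LevelOne k)
    (he : e ∈ LevelOne k) (c : ℂ) : a - PowerSeries.C c * e ∈ LevelOne k := by
  have := hL.add ha (hL.smul (-c) he)
  rwa [map_neg, neg_mul, ← sub_eq_add_neg] at this

/-! ### Division by a series `q + …` -/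

lemma coeff_div (d b : PowerSeries ℂ) (hd0 : d.coeff 0 = 0) (hd1 : d.coeff 1 = 1) (n : ℕ) :
    b.coeff n = (d * b).coeff (n + 1) - ∑ k ∈ Finset.range n, b.coeff k * d.coeff (n + 1 - k) := by
  rw [mul_comm d b, PowerSeries.coeff_mul,
    Finset.Nat.sum_antidiagonal_eq_sum_range_succ (fun i j => b.coeff i * d.coeff j),
    Finset.sum_range_succ, Finset.sum_range_succ]
  simp [hd0, hd1]

lemma div_pred [Fact ℓ.Prime] (P : ℂ → Prop) (h0 : P 0) (hadd : ∀ x y, P x → P y → P (x + y))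
    (hneg : ∀ x, P x → P (-x)) (hmul : ∀ x y, P x → IsLInt ℓ y → P (x * y))
    (d b : PowerSeries ℂ) (hd0 : d.coeff 0 = 0) (hd1 : d.coeff 1 = 1)
    (hd : ∀ n, IsLInt ℓ (d.coeff n)) (N : ℕ) (ha : ∀ n, n ≤ N + 1 → P ((d * b).coeff n)) :
    ∀ n, n ≤ N → P (b.coeff n) := by
  have hsum : ∀ (s : Finset ℕ) (f : ℕ → ℂ), (∀ i ∈ s, P (f i)) → P (∑ i ∈ s, f i) := by
    intro s f h
    induction s using Finset.induction_on with
    | empty => simpa using h0
    | insert i s hi ih =>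
      rw [Finset.sum_insert hi]
      exact hadd _ _ (h i (Finset.mem_insert_self i s))
        (ih fun j hj => h j (Finset.mem_insert_of_mem hj))
  intro n
  induction n using Nat.strong_induction_on with
  | _ n ih =>
    intro hn
    rw [coeff_div d b hd0 hd1 n, sub_eq_add_neg]
    refine hadd _ _ (ha _ (by omega)) (hneg _ (hsum _ _ fun k hk => ?_))
    have hk' : k < n := Finset.mem_range.1 hk
    exact hmul _ _ (ih k hk' (by omega)) (hd _)

end Sturm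

open Sturm

/-- `M_4 = ℂ E₄`. -/
theorem levelOne_four (hL : L1Package) {a : PowerSeries ℂ} (ha : a ∈ LevelOne 4) :
    a = PowerSeries.C (a.coeff 0) * e4 := by
  have h := hL.sturm (levelOne_sub_smul hL ha hL.e4_mem (a.coeff 0)) (fun n hn => by
    have : n = 0 := by omega
    subst this
    rw [map_sub, PowerSeries.coeff_C_mul, e4_coeff_zero]; ring)
  exact sub_eq_zero.1 h

/-- `M_6 = ℂ E₆`. -/
theorem levelOne_six (hL : L1Package) {a : PowerSeries ℂ} (ha : a ∈ LevelOne 6) :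
    a = PowerSeries.C (a.coeff 0) * e6 := by
  have h := hL.sturm (levelOne_sub_smul hL ha hL.e6_mem (a.coeff 0)) (fun n hn => by
    have : n = 0 := by omega
    subst this
    rw [map_sub, PowerSeries.coeff_C_mul, e6_coeff_zero]; ring)
  exact sub_eq_zero.1 h

/-- The `ℓ`-integral Sturm bound in level one: if `a ∈ M_W(SL₂ℤ)` has `ℓ`-integral coefficients
and `a_n ≡ 0 mod ℓ` for `12 n ≤ W`, then `a ≡ 0 mod ℓ`. -/
theorem int_sturm (ℓ : ℕ) [Fact ℓ.Prime] (hL : L1Package) {W : ℤ} {a : PowerSeries ℂ}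
    (ha : a ∈ LevelOne W) (hint : ∀ n, IsLInt ℓ (a.coeff n))
    (h0 : ∀ n : ℕ, 12 * (n : ℤ) ≤ W → LDvd ℓ (a.coeff n)) : ∀ n, LDvd ℓ (a.coeff n) := by
  induction hN : W.toNat using Nat.strong_induction_on generalizing W a with
  | _ N ih =>
  by_cases hW0 : W ≤ 0
  · obtain ⟨h1, h2⟩ := hL.const_of_nonpos ha hW0
    intro n
    rcases Nat.eq_zero_or_pos n with rfl | hn
    · by_cases hW : W < 0
      · rw [h2 hW]; simpa using lDvd_zero (ℓ := ℓ)
      · exact h0 0 (by omega)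
    · rw [h1, PowerSeries.coeff_C, if_neg hn.ne']; exact lDvd_zero
  by_cases hodd : ¬ (2 : ℤ) ∣ W
  · rw [hL.odd ha hodd]; intro n; simpa using lDvd_zero (ℓ := ℓ)
  by_cases hW2 : W = 2
  · subst hW2; rw [hL.weight_two ha]; intro n; simpa using lDvd_zero (ℓ := ℓ)
  -- now `W ≥ 4` is even
  rw [not_le] at hW0
  rw [not_not] at hodd
  obtain ⟨i, j, hij⟩ : ∃ i j : ℕ, (i : ℤ) * 4 + (j : ℤ) * 6 = W := by
    obtain ⟨m, rfl⟩ := hodd
    rcases Int.emod_two_eq_zero_or_one m with hm | hm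
    · exact ⟨(m / 2).toNat, 0, by omega⟩
    · exact ⟨((m - 3) / 2).toNat, 1, by omega⟩
  set e : PowerSeries ℂ := e4 ^ i * e6 ^ j with he_def
  have he : e ∈ LevelOne W := by
    rw [← hij]
    exact hL.mul (levelOne_pow hL hL.e4_mem i) (levelOne_pow hL hL.e6_mem j)
  have heint : ∀ n, IsLInt ℓ (e.coeff n) := psInt_mul (psInt_pow psInt_e4 i) (psInt_pow psInt_e6 j)
  have he0 : e.coeff 0 = 1 := by
    rw [he_def, coeff_zero_mul', coeff_zero_pow', coeff_zero_pow', e4_coeff_zero, e6_coeff_zero]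
    simp
  have ha0 : LDvd ℓ (a.coeff 0) := h0 0 (by omega)
  -- `a' = a - a_0 e`
  have ha' : a - PowerSeries.C (a.coeff 0) * e ∈ LevelOne W := levelOne_sub_smul hL ha he _
  have hce : ∀ n, LDvd ℓ ((PowerSeries.C (a.coeff 0) * e).coeff n) := by
    intro n
    rw [PowerSeries.coeff_C_mul]
    exact lDvd_mul_right ha0 (heint n)
  have ha'0 : (a - PowerSeries.C (a.coeff 0) * e).coeff 0 = 0 := by
    rw [map_sub, PowerSeries.coeff_C_mul, he0]; ring
  obtain ⟨b, hb, hab⟩ := hL.div_dl ha' ha'0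
  have hdint : ∀ n, IsLInt ℓ (dl.coeff n) := fun n => by
    obtain ⟨m, hm⟩ := hL.dl_int n
    rw [hm]; exact isLInt_intCast m
  have ha'int : ∀ n, IsLInt ℓ ((dl * b).coeff n) := by
    intro n
    rw [← hab, map_sub]
    exact isLInt_sub (hint n) (lDvd_isLInt (hce n))
  have hbint : ∀ n, IsLInt ℓ (b.coeff n) := fun n =>
    div_pred (ℓ := ℓ) (IsLInt ℓ) isLInt_zero (fun _ _ => isLInt_add) (fun _ => isLInt_neg)
      (fun _ _ => isLInt_mul) dl b hL.dl_coeff_zero hL.dl_coeff_one hdint n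
      (fun m _ => ha'int m) n le_rfl
  have hb0 : ∀ n : ℕ, 12 * (n : ℤ) ≤ W - 12 → LDvd ℓ (b.coeff n) := fun n hn =>
    div_pred (ℓ := ℓ) (LDvd ℓ) lDvd_zero (fun _ _ => lDvd_add) (fun _ => lDvd_neg)
      (fun _ _ => lDvd_mul_right) dl b hL.dl_coeff_zero hL.dl_coeff_one hdint n
      (fun m hm => by
        rw [← hab, map_sub]
        exact lDvd_sub (h0 m (by omega)) (hce m)) n le_rfl
  have hbdvd : ∀ n, LDvd ℓ (b.coeff n) :=
    ih (W - 12).toNat (by omega) hb hbint hb0 rfl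
  intro n
  have : a = dl * b + PowerSeries.C (a.coeff 0) * e := by rw [← hab]; ring
  rw [this, map_add]
  exact lDvd_add (psDvd_mul_left hdint hbdvd n) (hce n)

end

end Fermat.Agent.S16
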