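/-
S16, piece B-F (helper32): LEMMA F (filtration).

  `stmtF : ℓ ≠ p → TCPackage p → L1Package → StmtF p ℓ`.

A form of weight `w < 12 s` on `Γ0(p)` cannot be congruent mod `ℓ`, at both cusps, to a series
`κ = unit·q^s + …` "of level one".  Proof: with `k = 12 p`, the trace `F` of
`(a, b)^k · (V_p Δ^p, p^{-12p} Δ^p)` is a level-one form of weight `W = k w + 12 p`, `ℓ`-integral,
`F ≡ κ^k · (V_p Δ^p + p^{1-12p} U_p Δ^p) = unit · q^{ks+1} + … mod ℓ`, and `12 (ks + 1) > W`: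
this contradicts the integral Sturm bound `int_sturm`.
-/
import Fermat.Agent.S16.Integrality
import Fermat.Agent.S16.Sturm

set_option autoImplicit false

open PowerSeries

namespace Fermat.Agent.S16

noncomputable section

namespace Filt

variable {ℓ : ℕ} [hℓ : Fact ℓ.Prime]

/-! ### elements with an inverse in `ℤ_(ℓ)` -/

/-- `x` has an inverse in `ℤ_(ℓ)`. -/
def HasInv (ℓ : ℕ) [Fact ℓ.Prime] (x : ℂ) : Prop := ∃ y ∈ Zl ℓ, x * y = 1

lemma HasInv.not_lDvd {x : ℂ} (h : HasInv ℓ x) : ¬ LDvd ℓ x := by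
  obtain ⟨y, hy, hxy⟩ := h
  intro hx
  have := hx.mul_right hy
  rw [hxy] at this
  exact not_lDvd_one this

lemma HasInv.mul {x y : ℂ} (hx : HasInv ℓ x) (hy : HasInv ℓ y) : HasInv ℓ (x * y) := by
  obtain ⟨x', hx', h1⟩ := hx
  obtain ⟨y', hy', h2⟩ := hy
  exact ⟨x' * y', (Zl ℓ).mul_mem hx' hy', by
    calc x * y * (x' * y') = (x * x') * (y * y') := by ring
      _ = 1 := by rw [h1, h2, one_mul]⟩

lemma HasInv.pow {x : ℂ} (hx : HasInv ℓ x) (k : ℕ) : HasInv ℓ (x ^ k) := by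
  obtain ⟨x', hx', h1⟩ := hx
  exact ⟨x' ^ k, (Zl ℓ).pow_mem hx' k, by rw [← mul_pow, h1, one_pow]⟩

lemma hasInv_of_isLUnit {x : ℂ} (h : IsLUnit ℓ x) : HasInv ℓ x := by
  obtain ⟨r, rfl, hd, hn⟩ := h
  have hn0 : r.num ≠ 0 := fun h0 => hn (h0 ▸ dvd_zero _)
  have hnC : ((r.num : ℤ) : ℂ) ≠ 0 := Int.cast_ne_zero.mpr hn0
  have hdC : ((r.den : ℕ) : ℂ) ≠ 0 := Nat.cast_ne_zero.mpr r.den_nz
  refine ⟨(r.den : ℂ) * ((r.num : ℂ))⁻¹,
    (Zl ℓ).mul_mem (natCast_mem_Zl _) (inv_intCast_mem_Zl hn), ?_⟩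
  have hr : (r : ℂ) = (r.num : ℂ) / (r.den : ℂ) := by
    conv_lhs => rw [← Rat.num_div_den r]
    push_cast; rfl
  rw [hr]
  field_simp

/-! ### orders modulo `ℓ` -/

lemma coeff_mul_low {c d : PowerSeries ℂ} (hc : c ∈ ZlPS ℓ) (hd : d ∈ ZlPS ℓ) {s t : ℕ}
    (hcs : ∀ n, n < s → LDvd ℓ (c.coeff n)) (hdt : ∀ n, n < t → LDvd ℓ (d.coeff n)) :
    (∀ n, n < s + t → LDvd ℓ ((c * d).coeff n)) ∧
      LDvd ℓ ((c * d).coeff (s + t) - c.coeff s * d.coeff t) := by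
  have hterm : ∀ i j : ℕ, i < s ∨ j < t → LDvd ℓ (c.coeff i * d.coeff j) := by
    rintro i j (h | h)
    · exact (hcs i h).mul_right (hd j)
    · exact (hdt j h).mul_left (hc i)
  constructor
  · intro n hn
    rw [PowerSeries.coeff_mul]
    refine lDvd_sum _ _ fun x hx => hterm _ _ ?_
    rw [Finset.HasAntidiagonal.mem_antidiagonal] at hx
    omega
  · rw [PowerSeries.coeff_mul]
    have hmem : (s, t) ∈ Finset.HasAntidiagonal.antidiagonal (s + t) := by simp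
    rw [← Finset.add_sum_erase _ _ hmem, add_sub_cancel_left]
    refine lDvd_sum _ _ fun x hx => hterm _ _ ?_
    rw [Finset.mem_erase, Finset.HasAntidiagonal.mem_antidiagonal] at hx
    obtain ⟨hne, hsum⟩ := hx
    by_contra hcon
    rw [not_or, not_lt, not_lt] at hcon
    apply hne
    ext <;> simp <;> omega

lemma coeff_pow_low {c : PowerSeries ℂ} (hc : c ∈ ZlPS ℓ) {s : ℕ}
    (hcs : ∀ n, n < s → LDvd ℓ (c.coeff n)) (k : ℕ) :
    (∀ n, n < k * s → LDvd ℓ ((c ^ k).coeff n)) ∧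
      LDvd ℓ ((c ^ k).coeff (k * s) - c.coeff s ^ k) := by
  induction k with
  | zero =>
    refine ⟨fun n hn => by omega, ?_⟩
    simpa using lDvd_zero (ℓ := ℓ)
  | succ k ih =>
    obtain ⟨ih1, ih2⟩ := ih
    obtain ⟨h1, h2⟩ := coeff_mul_low ((ZlPS ℓ).pow_mem hc k) hc ih1 hcs
    rw [pow_succ, Nat.succ_mul]
    refine ⟨h1, ?_⟩
    have := h2.add (ih2.mul_right (hc s))
    rw [pow_succ]
    have e : (c ^ k * c).coeff (k * s + s) - (c ^ k).coeff (k * s) * c.coeff s +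
        ((c ^ k).coeff (k * s) - c.coeff s ^ k) * c.coeff s =
        (c ^ k * c).coeff (k * s + s) - c.coeff s ^ k * c.coeff s := by ring
    rwa [e] at this

/-- transfer of divisibility along a congruence -/
lemma lDvd_of_psCong {F G : PowerSeries ℂ} (h : PSCong ℓ 1 F G) {n : ℕ}
    (hG : LDvd ℓ (G.coeff n)) : LDvd ℓ (F.coeff n) := by
  have h1 : LDvd ℓ (F.coeff n - G.coeff n) := by
    have := psDvd_one_iff.1 (psCong_iff.1 h) n
    rwa [map_sub] at this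
  have := h1.add hG
  rwa [sub_add_cancel] at this

/-! ### powers in `TwoCusp` -/

lemma tc_pow {p : ℕ} [Fact p.Prime] (hT : TCPackage p) (hL : L1Package) {w : ℤ}
    {x : PowerSeries ℂ × PowerSeries ℂ} (hx : x ∈ TwoCusp p w) (k : ℕ) :
    (x.1 ^ k, x.2 ^ k) ∈ TwoCusp p ((k : ℤ) * w) := by
  have hp0 : p ≠ 0 := (Fact.out : p.Prime).ne_zero
  induction k with
  | zero =>
    have := hT.ofLevelOne hL.one_mem
    rw [Vp_one hp0] at this
    simpa using this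
  | succ k ih =>
    have := hT.mul ih hx
    rw [show ((k + 1 : ℕ) : ℤ) * w = (k : ℤ) * w + w by push_cast; ring, pow_succ, pow_succ]
    exact this

end Filt

open Filt

/-- LEMMA F. -/
theorem stmtF (p ℓ : ℕ) [Fact p.Prime] [Fact ℓ.Prime] (h : ℓ ≠ p) (hT : TCPackage p)
    (hL : L1Package) : StmtF p ℓ := by
  intro w x hx κ s hs hws hκ hκlow hκs hc1 hc2
  have hpp : p.Prime := Fact.out
  have hℓp : ℓ.Prime := Fact.out
  have hp0 : p ≠ 0 := hpp.ne_zero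
  have hpC : (p : ℂ) ≠ 0 := Nat.cast_ne_zero.mpr hp0
  have hℓp' : ¬ ℓ ∣ p := fun hd => h ((Nat.prime_dvd_prime_iff_eq hℓp hpp).1 hd)
  have hκm : κ ∈ ZlPS ℓ := hκ
  set k : ℕ := 12 * p with hk
  set D : PowerSeries ℂ := dl ^ p with hD
  -- the constants
  set c0 : ℂ := (p : ℂ) ^ (-((p : ℤ) * 12)) with hc0
  have hc0eq : c0 = (((p ^ (p * 12) : ℕ) : ℂ))⁻¹ := by
    rw [hc0, zpow_neg]
    congr 1
    rw [show ((p : ℤ) * 12) = ((p * 12 : ℕ) : ℤ) by push_cast; rfl, zpow_natCast]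
    push_cast; rfl
  have hc0m : c0 ∈ Zl ℓ := by
    rw [hc0eq]
    exact inv_natCast_mem_Zl fun hd => hℓp' (hℓp.dvd_of_dvd_pow hd)
  have hpm : (p : ℂ) ∈ Zl ℓ := natCast_mem_Zl p
  have hcinv : HasInv ℓ ((p : ℂ) * c0) := by
    refine ⟨(p : ℂ)⁻¹ * ((p ^ (p * 12) : ℕ) : ℂ),
      (Zl ℓ).mul_mem (inv_natCast_mem_Zl hℓp') (natCast_mem_Zl _), ?_⟩
    have hne : (((p ^ (p * 12) : ℕ) : ℂ)) ≠ 0 := Nat.cast_ne_zero.mpr (pow_ne_zero _ hp0)
    rw [hc0eq]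
    field_simp
  -- the forms
  have hxk : (x.1 ^ k, x.2 ^ k) ∈ TwoCusp p ((k : ℤ) * w) := tc_pow hT hL hx k
  have hDm : D ∈ LevelOne ((p : ℤ) * 12) := Sturm.levelOne_pow hL hL.dl_mem p
  have hy := hT.ofLevelOneV hDm
  have hz := hT.mul hxk hy
  have hF := hT.trace hz
  simp only at hF
  rw [← hc0] at hF
  set F : PowerSeries ℂ := x.1 ^ k * Vp p D + PowerSeries.C (p : ℂ) *
    Up p (x.2 ^ k * (PowerSeries.C c0 * D)) with hFdef
  -- `G`
  set G : PowerSeries ℂ := Vp p D + PowerSeries.C ((p : ℂ) * c0) * Up p D with hG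
  have hdl : dl ∈ ZlPS ℓ := dl_mem_ZlPS hL
  have hDz : D ∈ ZlPS ℓ := (ZlPS ℓ).pow_mem hdl p
  have hCc0 : (PowerSeries.C c0 : PowerSeries ℂ) ∈ ZlPS ℓ := C_mem_ZlPS hc0m
  have hCp : (PowerSeries.C (p : ℂ) : PowerSeries ℂ) ∈ ZlPS ℓ := C_mem_ZlPS hpm
  have hGm : G ∈ ZlPS ℓ :=
    (ZlPS ℓ).add_mem (Vp_mem_ZlPS p hDz)
      ((ZlPS ℓ).mul_mem (C_mem_ZlPS ((Zl ℓ).mul_mem hpm hc0m)) (Up_mem_ZlPS p hDz))
  -- orders of `D = Δ^p`
  obtain ⟨hDlow, hDp⟩ := coeff_pow_low (ℓ := ℓ) hdl (s := 1)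
    (fun n hn => by
      obtain rfl : n = 0 := by omega
      rw [hL.dl_coeff_zero]; exact lDvd_zero) p
  rw [mul_one, hL.dl_coeff_one, one_pow, ← hD] at hDp
  rw [mul_one, ← hD] at hDlow
  have hD0 : LDvd ℓ (D.coeff 0) := hDlow 0 (Nat.pos_of_ne_zero hp0)
  -- orders of `G`
  have hG0 : ∀ n, n < 1 → LDvd ℓ (G.coeff n) := by
    intro n hn
    obtain rfl : n = 0 := by omega
    rw [hG, map_add, PowerSeries.coeff_C_mul, coeff_Vp, if_pos (dvd_zero p), Nat.zero_div,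
      coeff_Up, mul_zero]
    exact hD0.add (hD0.mul_left ((Zl ℓ).mul_mem hpm hc0m))
  have hG1 : LDvd ℓ (G.coeff 1 - (p : ℂ) * c0) := by
    have hp1 : ¬ p ∣ 1 := fun hd => hpp.one_lt.ne' (Nat.dvd_one.1 hd)
    rw [hG, map_add, PowerSeries.coeff_C_mul, coeff_Vp, if_neg hp1, coeff_Up, mul_one, zero_add]
    have := hDp.mul_left ((Zl ℓ).mul_mem hpm hc0m)
    rwa [mul_sub, mul_one] at this
  -- orders of `κ^k`
  obtain ⟨hκklow, hκk⟩ := coeff_pow_low (ℓ := ℓ) hκm hκlow k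
  have hκkm : κ ^ k ∈ ZlPS ℓ := (ZlPS ℓ).pow_mem hκm k
  -- orders of `κ^k G`
  obtain ⟨hPlow, hP⟩ := coeff_mul_low hκkm hGm hκklow hG0
  -- `F ≡ κ^k G`
  have hcong : PSCong ℓ 1 F (κ ^ k * G) := by
    have e1 : PSCong ℓ 1 (x.1 ^ k * Vp p D) (κ ^ k * Vp p D) :=
      (hc1.pow hκm k).mul (PSCong.refl 1 _) hκkm (Vp_mem_ZlPS p hDz)
    have e2 : PSCong ℓ 1 (x.2 ^ k * (PowerSeries.C c0 * D))
        (Vp p (κ ^ k) * (PowerSeries.C c0 * D)) := by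
      have := (hc2.pow (Vp_mem_ZlPS p hκm) k).mul (PSCong.refl 1 (PowerSeries.C c0 * D))
        ((ZlPS ℓ).pow_mem (Vp_mem_ZlPS p hκm) k) ((ZlPS ℓ).mul_mem hCc0 hDz)
      rwa [← Vp_pow hp0] at this
    have e3 := (e2.Up p).mul_left _ hCp
    rw [Up_Vp_mul hp0, Up_C_mul] at e3
    have e4 := e1.add e3
    have e : κ ^ k * Vp p D + PowerSeries.C (p : ℂ) * (κ ^ k * (PowerSeries.C c0 * Up p D)) =
        κ ^ k * G := by
      rw [hG, map_mul]; ring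
    rwa [e] at e4
  have hFm : F ∈ ZlPS ℓ := hcong.mem_left ((ZlPS ℓ).mul_mem hκkm hGm)
  -- the Sturm bound
  have hsturm := int_sturm ℓ hL hF hFm (fun n hn => by
    refine lDvd_of_psCong hcong (hPlow n ?_)
    have h1 : w + 1 ≤ 12 * (s : ℤ) := by omega
    have h2 : (p : ℤ) * (w + 1) ≤ (p : ℤ) * (12 * (s : ℤ)) :=
      mul_le_mul_of_nonneg_left h1 (by positivity)
    have h3 : ((k : ℕ) : ℤ) = 12 * (p : ℤ) := by rw [hk]; push_cast; ring
    rw [h3] at hn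
    have h4 : (n : ℤ) ≤ ((k * s : ℕ) : ℤ) := by
      rw [hk]; push_cast
      nlinarith
    have h5 : n ≤ k * s := by exact_mod_cast h4
    omega) (k * s + 1)
  -- contradiction with the unit
  have hu : HasInv ℓ (κ.coeff s ^ k * ((p : ℂ) * c0)) := ((hasInv_of_isLUnit hκs).pow k).mul hcinv
  refine hu.not_lDvd ?_
  have t1 : LDvd ℓ ((κ ^ k * G).coeff (k * s + 1)) := by
    have := psDvd_one_iff.1 (psCong_iff.1 hcong.symm) (k * s + 1)
    rw [map_sub] at this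
    have := this.add hsturm
    rwa [sub_add_cancel] at this
  have t2 : LDvd ℓ ((κ ^ k).coeff (k * s) * G.coeff 1) := by
    have := t1.sub hP
    rwa [sub_sub_cancel] at this
  have t3 : LDvd ℓ (κ.coeff s ^ k * G.coeff 1) := by
    have := t2.sub (hκk.mul_right (hGm 1))
    have e : (κ ^ k).coeff (k * s) * G.coeff 1 -
        ((κ ^ k).coeff (k * s) - κ.coeff s ^ k) * G.coeff 1 = κ.coeff s ^ k * G.coeff 1 := by
      ring
    rwa [e] at this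
  have t4 := t3.sub (hG1.mul_left ((Zl ℓ).pow_mem (hκ s) k))
  have e : κ.coeff s ^ k * G.coeff 1 - κ.coeff s ^ k * (G.coeff 1 - (p : ℂ) * c0) =
      κ.coeff s ^ k * ((p : ℂ) * c0) := by ring
  rwa [e] at t4

end

end Fermat.Agent.S16
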