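/-
S16, assembly of the upper bound (helper23): `NoG p ℓ (expo p ℓ)` for every prime `ℓ`, by the case
split  ℓ = p (CaseP) / trace cases (CaseTr, passed as the hypothesis `htr`) / ℓ ≥ 5, ℓ ∣ p + 1 (CaseL)
/ ℓ = 3, 9 ∣ p + 1 (Case3) / ℓ = 2, 8 ∣ p + 1 (Case2).
-/
import Fermat.Agent.S16.CaseP
import Fermat.Agent.S16.CaseL
import Fermat.Agent.S16.Case3
import Fermat.Agent.S16.Case2
import Fermat.Agent.S16.CaseTr
import Fermat.Agent.S16.Filtration
import Fermat.Agent.S16.Reduce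

set_option autoImplicit false

namespace Fermat.Agent.S16

noncomputable section

/-- `v_ℓ(ℓ^k · m) = k` for `ℓ ∤ m`. -/
theorem upper_padicValNat_pow_mul (ℓ k m : ℕ) [hℓ : Fact ℓ.Prime] (hm : ¬ ℓ ∣ m) :
    padicValNat ℓ (ℓ ^ k * m) = k := by
  have hm0 : m ≠ 0 := fun h => hm (h ▸ dvd_zero ℓ)
  rw [padicValNat.mul (pow_ne_zero _ hℓ.out.ne_zero) hm0, padicValNat.prime_pow,
    padicValNat.eq_zero_of_not_dvd hm, add_zero]

theorem upper_gcd_mod (a : ℕ) : Nat.gcd a 12 = Nat.gcd (a % 12) 12 := by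
  rw [Nat.gcd_comm, Nat.gcd_rec]

/-- For `p ≡ 8 mod 9` the exponent at `3` is `2`. -/
theorem upper_expo_three (p : ℕ) (hp : p % 9 = 8) : expo p 3 = 2 := by
  have : Fact (Nat.Prime 3) := ⟨Nat.prime_three⟩
  have hr : (p - 1) % 12 = 1 ∨ (p - 1) % 12 = 4 ∨ (p - 1) % 12 = 7 ∨ (p - 1) % 12 = 10 := by
    omega
  unfold expo
  rw [upper_gcd_mod]
  rcases hr with h | h | h | h <;> rw [h]
  · rw [show Nat.gcd 1 12 = 1 by decide, show 24 / 1 = 3 ^ 1 * 8 by norm_num,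
      upper_padicValNat_pow_mul 3 1 8 (by norm_num)]
  · rw [show Nat.gcd 4 12 = 4 by decide, show 24 / 4 = 3 ^ 1 * 2 by norm_num,
      upper_padicValNat_pow_mul 3 1 2 (by norm_num)]
  · rw [show Nat.gcd 7 12 = 1 by decide, show 24 / 1 = 3 ^ 1 * 8 by norm_num,
      upper_padicValNat_pow_mul 3 1 8 (by norm_num)]
  · rw [show Nat.gcd 10 12 = 2 by decide, show 24 / 2 = 3 ^ 1 * 4 by norm_num,
      upper_padicValNat_pow_mul 3 1 4 (by norm_num)]

/-- For `p ≡ 7 mod 8` the exponent at `2` is `3`. -/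
theorem upper_expo_two (p : ℕ) (hp : p % 8 = 7) : expo p 2 = 3 := by
  have : Fact (Nat.Prime 2) := ⟨Nat.prime_two⟩
  have hr : (p - 1) % 12 = 2 ∨ (p - 1) % 12 = 6 ∨ (p - 1) % 12 = 10 := by
    omega
  unfold expo
  rw [upper_gcd_mod]
  rcases hr with h | h | h <;> rw [h]
  · rw [show Nat.gcd 2 12 = 2 by decide, show 24 / 2 = 2 ^ 2 * 3 by norm_num,
      upper_padicValNat_pow_mul 2 2 3 (by norm_num)]
  · rw [show Nat.gcd 6 12 = 6 by decide, show 24 / 6 = 2 ^ 2 * 1 by norm_num,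
      upper_padicValNat_pow_mul 2 2 1 (by norm_num)]
  · rw [show Nat.gcd 10 12 = 2 by decide, show 24 / 2 = 2 ^ 2 * 3 by norm_num,
      upper_padicValNat_pow_mul 2 2 3 (by norm_num)]

/-- The hypothesis under which the trace cases (B-tr) apply. -/
def TrCase (p ℓ : ℕ) : Prop :=
  (5 ≤ ℓ ∧ ¬ ℓ ∣ p + 1) ∨ (ℓ = 3 ∧ ¬ 9 ∣ p + 1) ∨ (ℓ = 2 ∧ ¬ 8 ∣ p + 1)

/-- Assembly of the upper bound, with the trace cases as a hypothesis. -/
theorem noG_all_of (p ℓ : ℕ) [Fact p.Prime] [hℓ : Fact ℓ.Prime] (hT : TCPackage p)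
    (hL : L1Package) (hF : ℓ ≠ p → StmtF p ℓ)
    (htr : ℓ ≠ p → TrCase p ℓ → NoG p ℓ (expo p ℓ)) : NoG p ℓ (expo p ℓ) := by
  by_cases hne : ℓ = p
  · subst hne
    exact noG_p ℓ hT hL
  have hℓ2 : 2 ≤ ℓ := hℓ.out.two_le
  have hℓ4 : ℓ ≠ 4 := by
    rintro rfl
    exact absurd hℓ.out (by norm_num)
  rcases (by omega : ℓ = 2 ∨ ℓ = 3 ∨ 5 ≤ ℓ) with h2 | h3 | h5
  · subst h2
    by_cases hd : 8 ∣ p + 1
    · have hp : p % 8 = 7 := by
        obtain ⟨c, hc⟩ := hd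
        omega
      rw [upper_expo_two p hp]
      exact noG_two p hp hT hL (hF hne)
    · exact htr hne (Or.inr (Or.inr ⟨rfl, hd⟩))
  · subst h3
    by_cases hd : 9 ∣ p + 1
    · have hp : p % 9 = 8 := by
        obtain ⟨c, hc⟩ := hd
        omega
      rw [upper_expo_three p hp]
      exact noG_three p hp hT hL (hF hne)
    · exact htr hne (Or.inr (Or.inl ⟨rfl, hd⟩))
  · by_cases hd : ℓ ∣ p + 1
    · exact CaseL.noG_caseL_expo p ℓ h5 hne hd hT hL (hF hne)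
    · exact htr hne (Or.inl ⟨h5, hd⟩)

/-- **Assembly of the upper bound**: `NoG p ℓ (expo p ℓ)` for every prime `ℓ`. -/
theorem noG_all (p ℓ : ℕ) [Fact p.Prime] [Fact ℓ.Prime] (hT : TCPackage p) (hL : L1Package)
    (hF : ℓ ≠ p → StmtF p ℓ) : NoG p ℓ (expo p ℓ) :=
  noG_all_of p ℓ hT hL hF fun hne hcase => noG_tr p ℓ hne hT hL hcase

/-- The same with Lemma F (`Filtration.lean`) plugged in. -/
theorem noG_all' (p ℓ : ℕ) [Fact p.Prime] [Fact ℓ.Prime] (hT : TCPackage p) (hL : L1Package) :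
    NoG p ℓ (expo p ℓ) :=
  noG_all p ℓ hT hL fun hne => stmtF p ℓ hne hT hL

/-- **(B)**, the upper bound, from the two packages. -/
theorem stmtB_of_packages (p : ℕ) [Fact p.Prime] (hT : TCPackage p) (hL : L1Package) :
    StmtB p :=
  stmtB_of_noG p hT hL fun ℓ hℓ => by
    haveI : Fact ℓ.Prime := ⟨hℓ⟩
    exact noG_all' p ℓ hT hL

end

end Fermat.Agent.S16
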