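/-
S16: the index of the Eisenstein ideal, reduced to the theta input `StmtTheta p` (odd `p`).
Everything else is assembled here: (C) Dual, (B) Upper, (A1) LowerForm/ThetaSmall, the packages.
-/
import Fermat.Agent.S16.Dual
import Fermat.Agent.S16.Package
import Fermat.Agent.S16.LevelOne
import Fermat.Agent.S16.Upper
import Fermat.Agent.S16.ThetaSmall

set_option autoImplicit false

open ModularCurve CuspForm

namespace Fermat.Agent.S16

/-- (B), unconditionally. -/
theorem stmtB (p : ℕ) [Fact p.Prime] : StmtB p :=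
  stmtB_of_packages p (tcPackage p) l1Package

/-- (A), from the theta input for odd `p`. -/
theorem stmtA_of_stmtTheta (p : ℕ) [Fact p.Prime] (hθ : p ≠ 2 → StmtTheta p) : StmtA p :=
  stmtA_of_theta_odd p (tcPackage p) hθ

/-- S16, from the theta input for odd `p`. -/
theorem s16_of_theta (p : ℕ) [Fact p.Prime] (hθ : p ≠ 2 → StmtTheta p) :
    Nat.card (↥(heckeLatticeAlgebra p ∅) ⧸
        Ideal.map ((latticeRestrictHom p ∅).toRingHom.comp (heckeEvalForms p 2))
          (eisensteinIdeal p)) =
      eisensteinNumerator p :=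
  card_of_A_B p (stmtA_of_stmtTheta p hθ) (stmtB p)

/-- S16 for the primes `p` with `p - 1 ∣ 12` (`p ∈ {2, 3, 5, 7, 13}`), unconditionally. -/
theorem s16_small (p : ℕ) [Fact p.Prime] (h : p - 1 ∣ 12) :
    Nat.card (↥(heckeLatticeAlgebra p ∅) ⧸
        Ideal.map ((latticeRestrictHom p ∅).toRingHom.comp (heckeEvalForms p 2))
          (eisensteinIdeal p)) =
      eisensteinNumerator p :=
  s16_of_theta p fun _ => stmtTheta_of_sub_one_dvd_twelve p (tcPackage p) h

end Fermat.Agent.S16
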