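/-
S16, pieces A7/A8 (helper41): the arithmetic input of the theta construction (A2).

For an odd prime `p` there is a prime `d ≡ 3 mod 4`, `d > p`, with `(-d/p) = -1` (Dirichlet), and then
`(-p/d) = +1` by quadratic reciprocity, i.e. there is `s` with `d ∣ s² + p`.
-/
import Mathlib.NumberTheory.LSeries.PrimesInAP
import Mathlib.NumberTheory.LegendreSymbol.QuadraticReciprocity

set_option autoImplicit false

namespace Fermat.Agent.S16

/-- Dirichlet: a prime `d ≡ 3 mod 4`, `d > p`, with `-d` a non-square modulo the odd prime `p`. -/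
theorem exists_auxPrime_nonsquare (p : ℕ) [Fact p.Prime] (hp2 : p ≠ 2) :
    ∃ d : ℕ, d.Prime ∧ d % 4 = 3 ∧ p < d ∧ ¬ IsSquare (-(d : ZMod p)) := by
  have hpp : p.Prime := Fact.out
  obtain ⟨x, hx⟩ := FiniteField.exists_nonsquare (F := ZMod p)
    (by rw [ZMod.ringChar_zmod_n]; exact hp2)
  have hx0 : x ≠ 0 := by
    rintro rfl
    exact hx ⟨0, by simp⟩
  have hcop : Nat.Coprime 4 p := by
    have h2 : Nat.Coprime 2 p := (Nat.coprime_primes Nat.prime_two hpp).mpr (Ne.symm hp2)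
    have : Nat.Coprime (2 * 2) p := Nat.Coprime.mul_left h2 h2
    simpa using this
  have : NeZero (4 * p) := ⟨Nat.mul_ne_zero (by norm_num) hpp.ne_zero⟩
  have hu3 : IsUnit (3 : ZMod 4) := by decide
  have hux : IsUnit (-x) := (isUnit_iff_ne_zero.mpr hx0).neg
  have hu : IsUnit ((ZMod.chineseRemainder hcop).symm ((3 : ZMod 4), -x)) := by
    have h1 : IsUnit (((3 : ZMod 4), -x) : ZMod 4 × ZMod p) := Prod.isUnit_iff.mpr ⟨hu3, hux⟩
    exact h1.map (ZMod.chineseRemainder hcop).symm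
  obtain ⟨d, hdp, hd, hda⟩ := Nat.forall_exists_prime_gt_and_eq_mod hu p
  have hpair : (ZMod.chineseRemainder hcop) (d : ZMod (4 * p)) = ((3 : ZMod 4), -x) := by
    rw [hda, RingEquiv.apply_symm_apply]
  rw [map_natCast] at hpair
  have h4 : (d : ZMod 4) = 3 := by
    have := congrArg Prod.fst hpair
    simpa using this
  have hpx : (d : ZMod p) = -x := by
    have := congrArg Prod.snd hpair
    simpa using this
  refine ⟨d, hd, ?_, hdp, ?_⟩
  · have h43 : (d : ZMod 4) = ((3 : ℕ) : ZMod 4) := by simpa using h4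
    have := (ZMod.natCast_eq_natCast_iff' d 3 4).mp h43
    simpa using this
  · rw [hpx, neg_neg]; exact hx

/-- **A7/A8**: for an odd prime `p` there are a prime `d ≡ 3 mod 4`, `d > p`, with `(-d/p) = -1`,
and `s < d` with `d ∣ s² + p`. -/
theorem exists_auxPrime (p : ℕ) [Fact p.Prime] (hp2 : p ≠ 2) :
    ∃ d s : ℕ, d.Prime ∧ d % 4 = 3 ∧ p < d ∧ s < d ∧ legendreSym p (-(d : ℤ)) = -1 ∧
      ¬ IsSquare (-(d : ZMod p)) ∧ d ∣ s ^ 2 + p := by
  have hpp : p.Prime := Fact.out
  obtain ⟨d, hd, hd4, hpd, hns⟩ := exists_auxPrime_nonsquare p hp2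
  have : Fact d.Prime := ⟨hd⟩
  have hd2 : d ≠ 2 := by rintro rfl; norm_num at hd4
  have hL : legendreSym p (-(d : ℤ)) = -1 := by
    rw [legendreSym.eq_neg_one_iff]
    simpa using hns
  -- `(d/p)` in terms of `χ₄ p`
  have hmul : legendreSym p (-(d : ℤ)) = ZMod.χ₄ p * legendreSym p d := by
    rw [show (-(d : ℤ)) = (-1) * (d : ℤ) by ring, legendreSym.mul, legendreSym.at_neg_one hp2]
  have hmul' : legendreSym d (-(p : ℤ)) = ZMod.χ₄ d * legendreSym d p := by
    rw [show (-(p : ℤ)) = (-1) * (p : ℤ) by ring, legendreSym.mul, legendreSym.at_neg_one hd2]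
  have hχd : ZMod.χ₄ (d : ZMod 4) = -1 := ZMod.χ₄_nat_three_mod_four hd4
  have hL' : legendreSym d (-(p : ℤ)) = 1 := by
    rcases Nat.Prime.eq_two_or_odd hpp with h | h
    · exact absurd h hp2
    · have h4 : p % 4 = 1 ∨ p % 4 = 3 := by omega
      rcases h4 with h4 | h4
      · have hqr : legendreSym d p = legendreSym p d :=
          legendreSym.quadratic_reciprocity_one_mod_four h4 hd2
        rw [ZMod.χ₄_nat_one_mod_four h4, one_mul] at hmul
        rw [hmul', hχd, hqr, ← hmul, hL]; norm_num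
      · have hqr : legendreSym d p = -legendreSym p d :=
          legendreSym.quadratic_reciprocity_three_mod_four h4 hd4
        rw [ZMod.χ₄_nat_three_mod_four h4] at hmul
        rw [hmul', hχd, hqr]
        have : legendreSym p d = 1 := by
          have := hmul.symm.trans hL
          linarith
        rw [this]; norm_num
  have hp0 : ((-(p : ℤ) : ℤ) : ZMod d) ≠ 0 := by
    intro h
    rw [ZMod.intCast_zmod_eq_zero_iff_dvd] at h
    have h' : (d : ℤ) ∣ (p : ℤ) := (dvd_neg.mp h)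
    have h'' : d ∣ p := by exact_mod_cast h'
    have := (Nat.prime_dvd_prime_iff_eq hd hpp).mp h''
    omega
  obtain ⟨r, hr⟩ := (legendreSym.eq_one_iff d hp0).mp hL'
  refine ⟨d, r.val, hd, hd4, hpd, ZMod.val_lt r, hL, hns, ?_⟩
  rw [← ZMod.natCast_eq_zero_iff]
  push_cast
  rw [ZMod.natCast_zmod_val, pow_two, ← hr]
  push_cast
  ring

/-- The integer form of `exists_auxPrime`. -/
theorem exists_auxPrime_int (p : ℕ) [Fact p.Prime] (hp2 : p ≠ 2) :
    ∃ (d : ℕ) (s : ℤ), d.Prime ∧ d % 4 = 3 ∧ p < d ∧ 0 ≤ s ∧ s < d ∧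
      legendreSym p (-(d : ℤ)) = -1 ∧ (d : ℤ) ∣ s ^ 2 + p := by
  obtain ⟨d, s, hd, hd4, hpd, hsd, hL, -, hdvd⟩ := exists_auxPrime p hp2
  refine ⟨d, s, hd, hd4, hpd, by positivity, by exact_mod_cast hsd, hL, ?_⟩
  exact_mod_cast hdvd

end Fermat.Agent.S16
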