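import Fermat.Agent.S16.Theta4

/-!
# S16 (A2): the product theta series indexed by the finite group `∏ ZMod (2 m_i)`
-/

namespace Fermat.Agent.S16

open Complex Real ModularGroup
open UpperHalfPlane hiding I
open scoped MatrixGroups Manifold ModularForm

variable {ι : Type*} [Fintype ι] [DecidableEq ι] (m : ι → ℕ) [∀ i, NeZero (m i)]

/-- The finite group `𝔊 = ∏ ZMod (2 m_i)`. -/
abbrev ZG (m : ι → ℕ) : Type _ := (i : ι) → ZMod (2 * m i)

/-- The standard integer representative. -/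
def zrep (g : ZG m) : ι → ℤ := fun i => ((g i).val : ℤ)

/-- The projection `ℤ^ι → 𝔊`. -/
def zproj (j : ι → ℤ) : ZG m := fun i => ((j i : ℤ) : ZMod (2 * m i))

/-- `e(Q̄(g))`. -/
noncomputable def zchi (g : ZG m) : ℂ := cexp (2 * π * I * thQ m (zrep m g))

/-- `e(B̄(g, g'))`. -/
noncomputable def zbeta (g g' : ZG m) : ℂ := cexp (2 * π * I * thB m (zrep m g) (zrep m g'))

/-- The theta series with characteristic `g ∈ 𝔊`. -/
noncomputable def thetaZ (g : ZG m) : ℍ → ℂ := thetaH m (zrep m g)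

omit [Fintype ι] [DecidableEq ι] in
lemma zg_pos (i : ι) : 0 < m i := Nat.pos_of_ne_zero (NeZero.ne _)

omit [Fintype ι] [DecidableEq ι] in
theorem zproj_zrep (g : ZG m) : zproj m (zrep m g) = g := by
  funext i
  simp only [zproj, zrep, Int.cast_natCast]
  exact ZMod.natCast_zmod_val (g i)

omit [Fintype ι] [DecidableEq ι] [∀ i, NeZero (m i)] in
theorem zproj_add (j j' : ι → ℤ) : zproj m (j + j') = zproj m j + zproj m j' := by
  funext i
  simp [zproj]

omit [Fintype ι] [DecidableEq ι] [∀ i, NeZero (m i)] in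
theorem zproj_neg (j : ι → ℤ) : zproj m (-j) = -zproj m j := by
  funext i
  simp [zproj]

omit [Fintype ι] [DecidableEq ι] [∀ i, NeZero (m i)] in
theorem zproj_eq_iff (j j' : ι → ℤ) :
    zproj m j = zproj m j' ↔ ∀ i, j i ≡ j' i [ZMOD ((2 * m i : ℕ) : ℤ)] := by
  rw [funext_iff]
  refine forall_congr' fun i => ?_
  simp only [zproj]
  exact ZMod.intCast_eq_intCast_iff _ _ _

omit [Fintype ι] [DecidableEq ι] in
lemma zrep_zproj_modEq (j : ι → ℤ) (i : ι) :
    zrep m (zproj m j) i ≡ j i [ZMOD ((2 * m i : ℕ) : ℤ)] := by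
  have := (zproj_eq_iff m (zrep m (zproj m j)) j).mp (zproj_zrep m (zproj m j))
  exact this i

/-! ### The exponentials only depend on residues -/

lemma th_exp_sq_congr {M : ℕ} (hM : 0 < M) {a b : ℤ} (h : a ≡ b [ZMOD ((2 * M : ℕ) : ℤ)]) :
    cexp (2 * π * I * ((a : ℂ) ^ 2 / (4 * M))) = cexp (2 * π * I * ((b : ℂ) ^ 2 / (4 * M))) := by
  have hM' : (M : ℂ) ≠ 0 := Nat.cast_ne_zero.mpr hM.ne'
  obtain ⟨c, hc⟩ := (Int.modEq_iff_dvd.mp h)
  have hb : b = a + (2 * M : ℕ) * c := by linarith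
  have key : 2 * π * I * ((b : ℂ) ^ 2 / (4 * M)) =
      2 * π * I * ((a : ℂ) ^ 2 / (4 * M)) + ((c * a + M * c ^ 2 : ℤ) : ℂ) * (2 * π * I) := by
    rw [hb]
    push_cast
    field_simp
    ring
  rw [key, Complex.exp_add, Complex.exp_int_mul_two_pi_mul_I, mul_one]

lemma th_exp_mul_congr {M : ℕ} (hM : 0 < M) {a b a' b' : ℤ}
    (h : a ≡ b [ZMOD ((2 * M : ℕ) : ℤ)]) (h' : a' ≡ b' [ZMOD ((2 * M : ℕ) : ℤ)]) :
    cexp (2 * π * I * ((a : ℂ) * (a' : ℂ) / (2 * M))) =
      cexp (2 * π * I * ((b : ℂ) * (b' : ℂ) / (2 * M))) := by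
  have hM' : (M : ℂ) ≠ 0 := Nat.cast_ne_zero.mpr hM.ne'
  obtain ⟨c, hc⟩ := (Int.modEq_iff_dvd.mp h)
  obtain ⟨c', hc'⟩ := (Int.modEq_iff_dvd.mp h')
  have hb : b = a + (2 * M : ℕ) * c := by linarith
  have hb' : b' = a' + (2 * M : ℕ) * c' := by linarith
  have key : 2 * π * I * ((b : ℂ) * (b' : ℂ) / (2 * M)) =
      2 * π * I * ((a : ℂ) * (a' : ℂ) / (2 * M)) +
        ((a * c' + c * a' + 2 * M * c * c' : ℤ) : ℂ) * (2 * π * I) := by
    rw [hb, hb']
    push_cast
    field_simp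
    ring
  rw [key, Complex.exp_add, Complex.exp_int_mul_two_pi_mul_I, mul_one]

omit [DecidableEq ι] in
theorem thQ_exp_congr {j j' : ι → ℤ} (h : ∀ i, j i ≡ j' i [ZMOD ((2 * m i : ℕ) : ℤ)]) :
    cexp (2 * π * I * thQ m j) = cexp (2 * π * I * thQ m j') := by
  unfold thQ
  rw [Finset.mul_sum, Finset.mul_sum, Complex.exp_sum, Complex.exp_sum]
  exact Finset.prod_congr rfl fun i _ => th_exp_sq_congr (zg_pos m i) (h i)

omit [DecidableEq ι] in
theorem thB_exp_congr {j j' k k' : ι → ℤ} (h : ∀ i, j i ≡ j' i [ZMOD ((2 * m i : ℕ) : ℤ)])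
    (h' : ∀ i, k i ≡ k' i [ZMOD ((2 * m i : ℕ) : ℤ)]) :
    cexp (2 * π * I * thB m j k) = cexp (2 * π * I * thB m j' k') := by
  unfold thB
  rw [Finset.mul_sum, Finset.mul_sum, Complex.exp_sum, Complex.exp_sum]
  exact Finset.prod_congr rfl fun i _ => th_exp_mul_congr (zg_pos m i) (h i) (h' i)

omit [DecidableEq ι] in
theorem zchi_zproj (j : ι → ℤ) : zchi m (zproj m j) = cexp (2 * π * I * thQ m j) :=
  thQ_exp_congr m (zrep_zproj_modEq m j)

omit [DecidableEq ι] in
theorem zbeta_zproj (j j' : ι → ℤ) :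
    zbeta m (zproj m j) (zproj m j') = cexp (2 * π * I * thB m j j') :=
  thB_exp_congr m (zrep_zproj_modEq m j) (zrep_zproj_modEq m j')

omit [DecidableEq ι] in
theorem thetaZ_zproj (j : ι → ℤ) : thetaZ m (zproj m j) = thetaH m j := by
  funext τ
  exact thProd_congr_mod (zg_pos m) (zrep_zproj_modEq m j) τ.im_pos

/-! ### Additivity -/

omit [DecidableEq ι] [∀ i, NeZero (m i)] in
lemma thQ_add (j j' : ι → ℤ) : thQ m (j + j') = thQ m j + thQ m j' + thB m j j' := by
  unfold thQ thB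
  rw [← Finset.sum_add_distrib, ← Finset.sum_add_distrib]
  refine Finset.sum_congr rfl fun i _ => ?_
  simp only [Pi.add_apply]
  push_cast
  ring

omit [DecidableEq ι] [∀ i, NeZero (m i)] in
lemma thB_add_left (j j' k : ι → ℤ) : thB m (j + j') k = thB m j k + thB m j' k := by
  unfold thB
  rw [← Finset.sum_add_distrib]
  refine Finset.sum_congr rfl fun i _ => ?_
  simp only [Pi.add_apply]
  push_cast
  ring

omit [DecidableEq ι] [∀ i, NeZero (m i)] in
lemma thB_comm (j k : ι → ℤ) : thB m j k = thB m k j := by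
  unfold thB
  refine Finset.sum_congr rfl fun i _ => ?_
  ring

omit [DecidableEq ι] in
theorem zchi_add (a b : ZG m) : zchi m (a + b) = zchi m a * zchi m b * zbeta m a b := by
  have h : a + b = zproj m (zrep m a + zrep m b) := by
    rw [zproj_add, zproj_zrep, zproj_zrep]
  rw [h, zchi_zproj, thQ_add]
  unfold zchi zbeta
  rw [← Complex.exp_add, ← Complex.exp_add]
  congr 1
  ring

omit [DecidableEq ι] in
theorem zbeta_add_left (a b j : ZG m) : zbeta m (a + b) j = zbeta m a j * zbeta m b j := by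
  have h : a + b = zproj m (zrep m a + zrep m b) := by
    rw [zproj_add, zproj_zrep, zproj_zrep]
  have hj : j = zproj m (zrep m j) := (zproj_zrep m j).symm
  rw [h]
  conv_lhs => rw [hj]
  rw [zbeta_zproj, thB_add_left]
  unfold zbeta
  rw [← Complex.exp_add]
  congr 1
  ring

omit [DecidableEq ι] [∀ i, NeZero (m i)] in
theorem zbeta_comm (a b : ZG m) : zbeta m a b = zbeta m b a := by
  unfold zbeta
  rw [thB_comm]

omit [DecidableEq ι] in
theorem zbeta_add_right (j a b : ZG m) : zbeta m j (a + b) = zbeta m j a * zbeta m j b := by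
  rw [zbeta_comm, zbeta_add_left, zbeta_comm m a, zbeta_comm m b]

omit [DecidableEq ι] in
theorem zbeta_zero_left (j : ZG m) : zbeta m 0 j = 1 := by
  unfold zbeta thB zrep
  simp

/-! ### Non-degeneracy -/

lemma zbeta_single (g : ZG m) (i₀ : ι) :
    zbeta m g (zproj m (Pi.single i₀ 1)) =
      cexp (2 * π * I * (((g i₀).val : ℂ) / (2 * m i₀))) := by
  conv_lhs => rw [← zproj_zrep m g]
  rw [zbeta_zproj]
  congr 2
  unfold thB
  rw [Finset.sum_eq_single i₀]
  · simp [zrep]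
  · intro b _ hb
    simp [Pi.single_eq_of_ne hb]
  · intro h
    exact absurd (Finset.mem_univ i₀) h

lemma zbeta_single_ne_one (g : ZG m) (i₀ : ι) (h : g i₀ ≠ 0) :
    zbeta m g (zproj m (Pi.single i₀ 1)) ≠ 1 := by
  rw [zbeta_single]
  intro h1
  rw [Complex.exp_eq_one_iff] at h1
  obtain ⟨n, hn⟩ := h1
  have hm0 : (m i₀ : ℂ) ≠ 0 := Nat.cast_ne_zero.mpr (NeZero.ne _)
  have hI : (2 * (π : ℂ) * I) ≠ 0 := by
    simp [Real.pi_ne_zero, Complex.I_ne_zero]
  have h2 : ((g i₀).val : ℂ) = n * (2 * m i₀) := by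
    have : (2 * (π : ℂ) * I) * (((g i₀).val : ℂ) / (2 * m i₀)) = (2 * π * I) * n := by
      rw [hn]; ring
    have := mul_left_cancel₀ hI this
    field_simp at this
    linear_combination this
  have h3 : ((g i₀).val : ℤ) = n * (2 * m i₀) := by
    exact_mod_cast h2
  have hlt : (g i₀).val < 2 * m i₀ := ZMod.val_lt (g i₀)
  have hpos : 0 < (g i₀).val := Nat.pos_of_ne_zero (by
    intro h0
    exact h ((ZMod.val_eq_zero (g i₀)).mp h0))
  have hmpos : (0 : ℤ) < 2 * m i₀ := by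
    have := zg_pos m i₀
    omega
  have hn1 : 0 < n := by
    by_contra hneg
    have hneg' : n ≤ 0 := not_lt.mp hneg
    have : n * (2 * (m i₀ : ℤ)) ≤ 0 := mul_nonpos_of_nonpos_of_nonneg hneg' hmpos.le
    omega
  have : (2 * (m i₀ : ℤ)) ≤ n * (2 * m i₀) := by nlinarith
  omega

theorem zbeta_sum_eq_zero (g : ZG m) (hg : g ≠ 0) : ∑ g' : ZG m, zbeta m g g' = 0 := by
  obtain ⟨i₀, hi₀⟩ : ∃ i₀, g i₀ ≠ 0 := by
    by_contra hcon
    exact hg (funext fun i => by_contra fun hi => hcon ⟨i, hi⟩)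
  set h : ZG m := zproj m (Pi.single i₀ 1) with hh
  have h1 : zbeta m g h ≠ 1 := zbeta_single_ne_one m g i₀ hi₀
  have h2 : ∑ g' : ZG m, zbeta m g g' = zbeta m g h * ∑ g' : ZG m, zbeta m g g' := by
    rw [Finset.mul_sum]
    rw [← Equiv.sum_comp (Equiv.addLeft h) (fun g' => zbeta m g g')]
    refine Finset.sum_congr rfl fun g' _ => ?_
    simp only [Equiv.coe_addLeft]
    rw [zbeta_add_right]
  have h3 : (1 - zbeta m g h) * ∑ g' : ZG m, zbeta m g g' = 0 := by
    rw [sub_mul, one_mul, ← h2, sub_self]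
  rcases mul_eq_zero.mp h3 with h4 | h4
  · exact absurd (sub_eq_zero.mp h4).symm h1
  · exact h4

/-! ### Slash laws, holomorphy, boundedness -/

omit [DecidableEq ι] in
theorem thetaZ_slash_T (g : ZG m) :
    thetaZ m g ∣[(2 : ℤ)] (T : SL(2, ℤ)) = zchi m g • thetaZ m g :=
  thetaH_slash_T (zg_pos m) (zrep m g) 2

omit [Fintype ι] [DecidableEq ι] [∀ i, NeZero (m i)] in
lemma zrep_zproj_natCast {j' : ι → ℕ} (hj : ∀ i, j' i < 2 * m i) :
    zrep m (zproj m (fun i => (j' i : ℤ))) = fun i => (j' i : ℤ) := by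
  funext i
  simp only [zrep, zproj, Int.cast_natCast, ZMod.val_natCast]
  rw [Nat.mod_eq_of_lt (hj i)]

theorem thetaZ_slash_S (hι : Fintype.card ι = 4) (g : ZG m) :
    thetaZ m g ∣[(2 : ℤ)] (S : SL(2, ℤ)) =
      (-1 / (∏ i, ((√(2 * m i : ℝ) : ℝ) : ℂ))) • ∑ g' : ZG m, zbeta m g g' • thetaZ m g' := by
  unfold thetaZ
  rw [thetaH_slash_S hι (zg_pos m) (zrep m g)]
  congr 1
  refine Finset.sum_bij' (fun j' _ => zproj m (fun i => (j' i : ℤ)))
    (fun g' _ => fun i => (g' i).val) ?_ ?_ ?_ ?_ ?_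
  · intro a _
    exact Finset.mem_univ _
  · intro a _
    unfold thBox
    rw [Fintype.mem_piFinset]
    intro i
    exact Finset.mem_range.mpr (ZMod.val_lt (a i))
  · intro a ha
    unfold thBox at ha
    rw [Fintype.mem_piFinset] at ha
    funext i
    simp only [zproj, Int.cast_natCast, ZMod.val_natCast]
    exact Nat.mod_eq_of_lt (Finset.mem_range.mp (ha i))
  · intro a _
    exact zproj_zrep m a
  · intro a ha
    unfold thBox at ha
    rw [Fintype.mem_piFinset] at ha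
    have hlt : ∀ i, a i < 2 * m i := fun i => Finset.mem_range.mp (ha i)
    unfold zbeta
    rw [zrep_zproj_natCast m hlt]

omit [DecidableEq ι] in
theorem thetaZ_mdifferentiable (g : ZG m) : MDifferentiable 𝓘(ℂ) 𝓘(ℂ) (thetaZ m g) :=
  thetaH_mdifferentiable (zg_pos m) (zrep m g)

omit [DecidableEq ι] in
theorem thetaZ_isBoundedAtImInfty (g : ZG m) : IsBoundedAtImInfty (thetaZ m g) :=
  thetaH_isBoundedAtImInfty (zg_pos m) (zrep m g)

end Fermat.Agent.S16
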