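/-
S16, piece A2 (2) (helper41): the counting side of the theta series of the quaternary lattice
`L' = {n ∈ ℤ⁴ : 2 ∣ n₁ - n₂, p ∣ n₃, p ∣ n₄, 2 ∣ n₃ - n₄, d ∣ p n₁ - s n₃}` with the norm form
`N(n) = p n₁² + p d n₂² + n₃² + d n₄²` (`= 4pd·Q`; here `n = (U₁, W₁, pU₂, pW₂)`).

* `thetaNorm_dvd`: `4pd ∣ N(n)` on `L'` (for `d ≡ 3 mod 4`, `d ∣ s² + p`, `p ≠ d` primes);
* `thetaR p d s k := #{n ∈ L' : N(n) = 4pd·k}`: finite fibres, `thetaR_zero` (`= 1`),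
  `thetaR_even` (`k ≥ 1`);
* `hasSum_thetaCount`: `∑_{h ∈ R} ∏ᵢ th mᵢ hᵢ τ = ∑_k r(k) e(kτ)` for every system `R` of
  representatives of `L'` modulo `(2d, 2, 2pd, 2p)·ℤ⁴`, `m = (d, 1, pd, p)`;
* `thetaReps`: the canonical system of representatives (in the box `∏ [0, 2mᵢ)`).
-/
import Fermat.Agent.S16.ThetaZ

set_option autoImplicit false

namespace Fermat.Agent.S16

open Complex Real

/-- The lattice `L'`. -/
def thetaLat (p d : ℕ) (s : ℤ) : Set (ℤ × ℤ × ℤ × ℤ) :=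
  {n | (2 : ℤ) ∣ n.1 - n.2.1 ∧ (p : ℤ) ∣ n.2.2.1 ∧ (p : ℤ) ∣ n.2.2.2 ∧
    (2 : ℤ) ∣ n.2.2.1 - n.2.2.2 ∧ (d : ℤ) ∣ p * n.1 - s * n.2.2.1}

/-- The norm form `N(n) = p n₁² + p d n₂² + n₃² + d n₄²`. -/
def thetaNorm (p d : ℕ) (n : ℤ × ℤ × ℤ × ℤ) : ℤ :=
  p * n.1 ^ 2 + p * d * n.2.1 ^ 2 + n.2.2.1 ^ 2 + d * n.2.2.2 ^ 2

/-- The translate `h + (2d k₁, 2 k₂, 2pd k₃, 2p k₄)`. -/
def thetaShift (p d : ℕ) (h k : ℤ × ℤ × ℤ × ℤ) : ℤ × ℤ × ℤ × ℤ :=
  (2 * d * k.1 + h.1, 2 * k.2.1 + h.2.1, 2 * (p * d) * k.2.2.1 + h.2.2.1,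
    2 * p * k.2.2.2 + h.2.2.2)

theorem thetaLat_zero_mem (p d : ℕ) (s : ℤ) : (0 : ℤ × ℤ × ℤ × ℤ) ∈ thetaLat p d s := by
  simp [thetaLat]

theorem thetaLat_neg_mem {p d : ℕ} {s : ℤ} {n : ℤ × ℤ × ℤ × ℤ} (hn : n ∈ thetaLat p d s) :
    -n ∈ thetaLat p d s := by
  obtain ⟨h1, h2, h3, h4, h5⟩ := hn
  refine ⟨?_, ?_, ?_, ?_, ?_⟩
  · have : (-n).1 - (-n).2.1 = -(n.1 - n.2.1) := by simp; ring
    rw [this]; exact (dvd_neg).mpr h1
  · simpa using h2
  · simpa using h3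
  · have : (-n).2.2.1 - (-n).2.2.2 = -(n.2.2.1 - n.2.2.2) := by simp; ring
    rw [this]; exact (dvd_neg).mpr h4
  · have : (p : ℤ) * (-n).1 - s * (-n).2.2.1 = -(p * n.1 - s * n.2.2.1) := by simp; ring
    rw [this]; exact (dvd_neg).mpr h5

theorem thetaNorm_neg (p d : ℕ) (n : ℤ × ℤ × ℤ × ℤ) : thetaNorm p d (-n) = thetaNorm p d n := by
  simp [thetaNorm]

theorem thetaNorm_nonneg (p d : ℕ) (n : ℤ × ℤ × ℤ × ℤ) : 0 ≤ thetaNorm p d n := by
  unfold thetaNorm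
  positivity

theorem thetaShift_mem {p d : ℕ} {s : ℤ} {h : ℤ × ℤ × ℤ × ℤ} (hh : h ∈ thetaLat p d s)
    (k : ℤ × ℤ × ℤ × ℤ) : thetaShift p d h k ∈ thetaLat p d s := by
  obtain ⟨h1, h2, h3, h4, h5⟩ := hh
  refine ⟨?_, ?_, ?_, ?_, ?_⟩
  · have : (thetaShift p d h k).1 - (thetaShift p d h k).2.1 =
        2 * (d * k.1 - k.2.1) + (h.1 - h.2.1) := by simp [thetaShift]; ring
    rw [this]; exact dvd_add (dvd_mul_right _ _) h1
  · have : (thetaShift p d h k).2.2.1 = p * (2 * d * k.2.2.1) + h.2.2.1 := by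
      simp [thetaShift]; ring
    rw [this]; exact dvd_add (dvd_mul_right _ _) h2
  · have : (thetaShift p d h k).2.2.2 = p * (2 * k.2.2.2) + h.2.2.2 := by
      simp [thetaShift]; ring
    rw [this]; exact dvd_add (dvd_mul_right _ _) h3
  · have : (thetaShift p d h k).2.2.1 - (thetaShift p d h k).2.2.2 =
        2 * (p * d * k.2.2.1 - p * k.2.2.2) + (h.2.2.1 - h.2.2.2) := by
      simp [thetaShift]; ring
    rw [this]; exact dvd_add (dvd_mul_right _ _) h4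
  · have : (p : ℤ) * (thetaShift p d h k).1 - s * (thetaShift p d h k).2.2.1 =
        d * (2 * p * k.1 - 2 * s * p * k.2.2.1) + (p * h.1 - s * h.2.2.1) := by
      simp [thetaShift]; ring
    rw [this]; exact dvd_add (dvd_mul_right _ _) h5

/-- `4pd ∣ N(n)` on `L'`. -/
theorem thetaNorm_dvd {p d : ℕ} {s : ℤ} (hp : p.Prime) (hd : d.Prime) (hp2 : p ≠ 2)
    (hd4 : d % 4 = 3) (hpd : p ≠ d) (hs : (d : ℤ) ∣ s ^ 2 + p) {n : ℤ × ℤ × ℤ × ℤ}
    (hn : n ∈ thetaLat p d s) : (4 * p * d : ℤ) ∣ thetaNorm p d n := by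
  obtain ⟨⟨a, ha⟩, ⟨x, hx⟩, ⟨y, hy⟩, ⟨b, hb⟩, ⟨z, hz⟩⟩ := hn
  obtain ⟨t, ht⟩ := hs
  have hd2 : d ≠ 2 := by rintro rfl; norm_num at hd4
  -- `4 ∣ N`
  have h4 : (4 : ℤ) ∣ thetaNorm p d n := by
    have hdc : (d : ℤ) = 4 * ((d / 4 : ℕ) : ℤ) + 3 := by
      have := Nat.div_add_mod d 4
      rw [hd4] at this
      exact_mod_cast this.symm
    have e1 : n.1 = n.2.1 + 2 * a := by linarith
    have e3 : n.2.2.1 = n.2.2.2 + 2 * b := by linarith
    refine ⟨(((d / 4 : ℕ) : ℤ) + 1) * (p * n.2.1 ^ 2 + n.2.2.2 ^ 2) + p * a * n.2.1 + p * a ^ 2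
      + b * n.2.2.2 + b ^ 2, ?_⟩
    unfold thetaNorm
    rw [e1, e3]
    generalize ((d / 4 : ℕ) : ℤ) = c at hdc
    rw [hdc]
    ring
  -- `p ∣ N`
  have hpN : (p : ℤ) ∣ thetaNorm p d n := by
    refine ⟨n.1 ^ 2 + d * n.2.1 ^ 2 + p * x ^ 2 + d * p * y ^ 2, ?_⟩
    unfold thetaNorm
    rw [hx, hy]
    ring
  -- `d ∣ N`
  have hdN : (d : ℤ) ∣ thetaNorm p d n := by
    have hcop : IsCoprime (d : ℤ) (p : ℤ) :=
      Nat.isCoprime_iff_coprime.mpr ((Nat.coprime_primes hd hp).mpr (Ne.symm hpd))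
    have hdp : (d : ℤ) ∣ p * thetaNorm p d n := by
      have e : (p : ℤ) * n.1 = s * n.2.2.1 + d * z := by linarith
      refine ⟨t * n.2.2.1 ^ 2 + 2 * s * n.2.2.1 * z + d * z ^ 2 + p ^ 2 * n.2.1 ^ 2
        + p * n.2.2.2 ^ 2, ?_⟩
      have e2 : (p : ℤ) * thetaNorm p d n = (p * n.1) ^ 2 + p ^ 2 * d * n.2.1 ^ 2
          + p * n.2.2.1 ^ 2 + p * d * n.2.2.2 ^ 2 := by
        unfold thetaNorm; ring
      rw [e2, e]
      linear_combination (n.2.2.1 ^ 2) * ht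
    exact hcop.dvd_of_dvd_mul_left hdp
  have hc4p : IsCoprime (4 : ℤ) (p : ℤ) := by
    have h2p : Nat.Coprime 2 p := (Nat.coprime_primes Nat.prime_two hp).mpr (Ne.symm hp2)
    have : Nat.Coprime (2 ^ 2) p := Nat.Coprime.pow_left 2 h2p
    have h' : IsCoprime ((4 : ℕ) : ℤ) (p : ℤ) := Nat.isCoprime_iff_coprime.mpr (by simpa using this)
    simpa using h'
  have hc4d : IsCoprime (4 : ℤ) (d : ℤ) := by
    have h2d : Nat.Coprime 2 d := (Nat.coprime_primes Nat.prime_two hd).mpr (Ne.symm hd2)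
    have : Nat.Coprime (2 ^ 2) d := Nat.Coprime.pow_left 2 h2d
    have h' : IsCoprime ((4 : ℕ) : ℤ) (d : ℤ) := Nat.isCoprime_iff_coprime.mpr (by simpa using this)
    simpa using h'
  have hcpd : IsCoprime (p : ℤ) (d : ℤ) :=
    Nat.isCoprime_iff_coprime.mpr ((Nat.coprime_primes hp hd).mpr hpd)
  have h4p : (4 * p : ℤ) ∣ thetaNorm p d n := hc4p.mul_dvd h4 hpN
  exact (IsCoprime.mul_left hc4d hcpd).mul_dvd h4p hdN

/-! ### The representation numbers -/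

/-- The fibre `{n ∈ L' : N(n) = 4pd·k}`. -/
def thetaFib (p d : ℕ) (s : ℤ) (k : ℕ) : Set (ℤ × ℤ × ℤ × ℤ) :=
  {n | n ∈ thetaLat p d s ∧ thetaNorm p d n = 4 * p * d * k}

/-- `r(k) = #{n ∈ L' : N(n) = 4pd·k}`. -/
noncomputable def thetaR (p d : ℕ) (s : ℤ) (k : ℕ) : ℕ := Nat.card (thetaFib p d s k)

theorem thetaNorm_bound {p d : ℕ} (hp : 0 < p) (hd : 0 < d) (n : ℤ × ℤ × ℤ × ℤ) :
    n.1 ^ 2 ≤ thetaNorm p d n ∧ n.2.1 ^ 2 ≤ thetaNorm p d n ∧ n.2.2.1 ^ 2 ≤ thetaNorm p d n ∧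
      n.2.2.2 ^ 2 ≤ thetaNorm p d n := by
  have hp' : (1 : ℤ) ≤ p := by exact_mod_cast hp
  have hd' : (1 : ℤ) ≤ d := by exact_mod_cast hd
  have h1 := sq_nonneg n.1
  have h2 := sq_nonneg n.2.1
  have h3 := sq_nonneg n.2.2.1
  have h4 := sq_nonneg n.2.2.2
  have hpd : (1 : ℤ) ≤ p * d := by nlinarith
  unfold thetaNorm
  refine ⟨?_, ?_, ?_, ?_⟩ <;> nlinarith [mul_nonneg (sub_nonneg.mpr hp') h1,
    mul_nonneg (sub_nonneg.mpr hpd) h2, mul_nonneg (sub_nonneg.mpr hd') h4,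
    mul_nonneg (by linarith : (0 : ℤ) ≤ p) h1, mul_nonneg (by linarith : (0 : ℤ) ≤ p * d) h2,
    mul_nonneg (by linarith : (0 : ℤ) ≤ d) h4]

theorem theta_abs_le_of_sq_le {x B : ℤ} (h : x ^ 2 ≤ B) : x ∈ Set.Icc (-B) B := by
  have h1 : x ≤ x ^ 2 := Int.le_self_sq x
  have h2 : -x ≤ (-x) ^ 2 := Int.le_self_sq (-x)
  rw [neg_sq] at h2
  constructor <;> linarith

theorem thetaFib_finite {p d : ℕ} (hp : 0 < p) (hd : 0 < d) (s : ℤ) (k : ℕ) :
    (thetaFib p d s k).Finite := by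
  have hbox : (Set.Icc (-(4 * p * d * k : ℤ)) (4 * p * d * k) ×ˢ
      (Set.Icc (-(4 * p * d * k : ℤ)) (4 * p * d * k) ×ˢ
        (Set.Icc (-(4 * p * d * k : ℤ)) (4 * p * d * k) ×ˢ
          Set.Icc (-(4 * p * d * k : ℤ)) (4 * p * d * k)))).Finite :=
    (Set.finite_Icc _ _).prod ((Set.finite_Icc _ _).prod
      ((Set.finite_Icc _ _).prod (Set.finite_Icc _ _)))
  refine hbox.subset ?_
  rintro n ⟨-, hn⟩
  obtain ⟨h1, h2, h3, h4⟩ := thetaNorm_bound hp hd n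
  rw [hn] at h1 h2 h3 h4
  exact ⟨theta_abs_le_of_sq_le h1, theta_abs_le_of_sq_le h2, theta_abs_le_of_sq_le h3,
    theta_abs_le_of_sq_le h4⟩

theorem thetaNorm_eq_zero {p d : ℕ} (hp : 0 < p) (hd : 0 < d) {n : ℤ × ℤ × ℤ × ℤ}
    (h : thetaNorm p d n = 0) : n = 0 := by
  obtain ⟨h1, h2, h3, h4⟩ := thetaNorm_bound hp hd n
  rw [h] at h1 h2 h3 h4
  have e1 : n.1 = 0 := by nlinarith [sq_nonneg n.1]
  have e2 : n.2.1 = 0 := by nlinarith [sq_nonneg n.2.1]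
  have e3 : n.2.2.1 = 0 := by nlinarith [sq_nonneg n.2.2.1]
  have e4 : n.2.2.2 = 0 := by nlinarith [sq_nonneg n.2.2.2]
  exact Prod.ext e1 (Prod.ext e2 (Prod.ext e3 e4))

/-- `r(0) = 1`. -/
theorem thetaR_zero {p d : ℕ} (hp : 0 < p) (hd : 0 < d) (s : ℤ) : thetaR p d s 0 = 1 := by
  have : thetaFib p d s 0 = {0} := by
    ext n
    simp only [thetaFib, Set.mem_ofPred_eq, Nat.cast_zero, mul_zero, Set.mem_singleton_iff]
    constructor
    · rintro ⟨-, h⟩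
      exact thetaNorm_eq_zero hp hd h
    · rintro rfl
      exact ⟨thetaLat_zero_mem p d s, by simp [thetaNorm]⟩
  unfold thetaR
  rw [this]
  simp

/-- `r(k)` is even for `k ≥ 1` (`n ↦ -n`). -/
theorem thetaR_even {p d : ℕ} (hp : 0 < p) (hd : 0 < d) (s : ℤ) {k : ℕ} (hk : 1 ≤ k) :
    Even (thetaR p d s k) := by
  classical
  have hfin := thetaFib_finite hp hd s k
  have hcard : thetaR p d s k = hfin.toFinset.card := by
    unfold thetaR
    exact Nat.card_eq_card_finite_toFinset hfin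
  rw [hcard]
  have hsum : ∑ _n ∈ hfin.toFinset, (1 : ZMod 2) = 0 := by
    refine Finset.sum_involution (fun n _ => -n) ?_ ?_ ?_ ?_
    · intro n _
      decide
    · intro n hn _ hneg
      have hn' := (Set.Finite.mem_toFinset hfin).mp hn
      have h0 : n = 0 := by
        have h2 : n + n = 0 := by
          nth_rewrite 1 [← hneg]
          exact neg_add_cancel n
        have e1 : n.1 = 0 := by
          have := congrArg Prod.fst h2
          simp only [Prod.fst_add, Prod.fst_zero] at this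
          omega
        have e2 : n.2.1 = 0 := by
          have := congrArg (fun x => x.2.1) h2
          simp only [Prod.snd_add, Prod.fst_add, Prod.snd_zero, Prod.fst_zero] at this
          omega
        have e3 : n.2.2.1 = 0 := by
          have := congrArg (fun x => x.2.2.1) h2
          simp only [Prod.snd_add, Prod.fst_add, Prod.snd_zero, Prod.fst_zero] at this
          omega
        have e4 : n.2.2.2 = 0 := by
          have := congrArg (fun x => x.2.2.2) h2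
          simp only [Prod.snd_add, Prod.snd_zero] at this
          omega
        exact Prod.ext e1 (Prod.ext e2 (Prod.ext e3 e4))
      have hN := hn'.2
      rw [h0] at hN
      have hz : thetaNorm p d 0 = 0 := by simp [thetaNorm]
      rw [hz] at hN
      have hpos : (0 : ℤ) < 4 * p * d * k := by positivity
      omega
    · intro n hn
      have hn' := (Set.Finite.mem_toFinset hfin).mp hn
      exact (Set.Finite.mem_toFinset hfin).mpr
        ⟨thetaLat_neg_mem hn'.1, by rw [thetaNorm_neg]; exact hn'.2⟩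
    · intro n _
      exact neg_neg n
  rw [Finset.sum_const, nsmul_eq_mul, mul_one] at hsum
  have := (ZMod.natCast_eq_zero_iff _ 2).mp hsum
  exact even_iff_two_dvd.mpr this

/-! ### The theta series as a sum over the lattice -/

/-- The general term `e(N(n) τ / (4pd))`. -/
noncomputable def thetaE (p d : ℕ) (τ : ℂ) (n : ℤ × ℤ × ℤ × ℤ) : ℂ :=
  cexp (2 * π * I * (thetaNorm p d n : ℂ) / (4 * p * d) * τ)

theorem thTerm_mul_four {p d : ℕ} (hp : 0 < p) (hd : 0 < d) (h k : ℤ × ℤ × ℤ × ℤ) (τ : ℂ) :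
    thTerm d h.1 τ k.1 * (thTerm 1 h.2.1 τ k.2.1 *
      (thTerm (p * d) h.2.2.1 τ k.2.2.1 * thTerm p h.2.2.2 τ k.2.2.2)) =
      thetaE p d τ (thetaShift p d h k) := by
  have hp' : (p : ℂ) ≠ 0 := Nat.cast_ne_zero.mpr hp.ne'
  have hd' : (d : ℂ) ≠ 0 := Nat.cast_ne_zero.mpr hd.ne'
  unfold thTerm thetaE thetaNorm thetaShift
  rw [← Complex.exp_add, ← Complex.exp_add, ← Complex.exp_add]
  congr 1
  push_cast
  field_simp
  ring

/-- The product of four absolutely convergent series. -/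
theorem hasSum_mul_four {f1 f2 f3 f4 : ℤ → ℂ} {a1 a2 a3 a4 : ℂ} (h1 : HasSum f1 a1)
    (h2 : HasSum f2 a2) (h3 : HasSum f3 a3) (h4 : HasSum f4 a4) :
    HasSum (fun k : ℤ × ℤ × ℤ × ℤ => f1 k.1 * (f2 k.2.1 * (f3 k.2.2.1 * f4 k.2.2.2)))
      (a1 * a2 * a3 * a4) := by
  have s1 := h1.summable.norm
  have s2 := h2.summable.norm
  have s3 := h3.summable.norm
  have s4 := h4.summable.norm
  have h34 : HasSum (fun x : ℤ × ℤ => f3 x.1 * f4 x.2) (a3 * a4) :=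
    h3.mul h4 (summable_mul_of_summable_norm s3 s4)
  have s34 : Summable fun x : ℤ × ℤ => ‖f3 x.1 * f4 x.2‖ := s3.mul_norm s4
  have h234 : HasSum (fun x : ℤ × ℤ × ℤ => f2 x.1 * (f3 x.2.1 * f4 x.2.2)) (a2 * (a3 * a4)) :=
    HasSum.mul (f := f2) (g := fun x : ℤ × ℤ => f3 x.1 * f4 x.2) h2 h34
      (summable_mul_of_summable_norm (f := f2) (g := fun x : ℤ × ℤ => f3 x.1 * f4 x.2) s2 s34)
  have s234 : Summable fun x : ℤ × ℤ × ℤ => ‖f2 x.1 * (f3 x.2.1 * f4 x.2.2)‖ :=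
    Summable.mul_norm (f := f2) (g := fun x : ℤ × ℤ => f3 x.1 * f4 x.2) s2 s34
  have h1234 : HasSum (fun x : ℤ × ℤ × ℤ × ℤ => f1 x.1 * (f2 x.2.1 * (f3 x.2.2.1 * f4 x.2.2.2)))
      (a1 * (a2 * (a3 * a4))) :=
    HasSum.mul (f := f1) (g := fun x : ℤ × ℤ × ℤ => f2 x.1 * (f3 x.2.1 * f4 x.2.2)) h1 h234
      (summable_mul_of_summable_norm (f := f1)
        (g := fun x : ℤ × ℤ × ℤ => f2 x.1 * (f3 x.2.1 * f4 x.2.2)) s1 s234)
  have hval : a1 * a2 * a3 * a4 = a1 * (a2 * (a3 * a4)) := by simp only [mul_assoc]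
  rw [hval]
  exact h1234

/-- The theta series with characteristic `h` as a sum over the coset `h + (2d, 2, 2pd, 2p)·ℤ⁴`. -/
theorem hasSum_thetaShift {p d : ℕ} (hp : 0 < p) (hd : 0 < d) (h : ℤ × ℤ × ℤ × ℤ) {τ : ℂ}
    (hτ : 0 < τ.im) :
    HasSum (fun k : ℤ × ℤ × ℤ × ℤ => thetaE p d τ (thetaShift p d h k))
      (th d h.1 τ * th 1 h.2.1 τ * th (p * d) h.2.2.1 τ * th p h.2.2.2 τ) := by
  have h1 := th_hasSum hd h.1 hτ
  have h2 := th_hasSum one_pos h.2.1 hτ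
  have h3 := th_hasSum (Nat.mul_pos hp hd) h.2.2.1 hτ
  have h4 := th_hasSum hp h.2.2.2 hτ
  have key := hasSum_mul_four h1 h2 h3 h4
  have e : (fun k : ℤ × ℤ × ℤ × ℤ => thetaE p d τ (thetaShift p d h k)) =
      fun k : ℤ × ℤ × ℤ × ℤ => thTerm d h.1 τ k.1 * (thTerm 1 h.2.1 τ k.2.1 *
        (thTerm (p * d) h.2.2.1 τ k.2.2.1 * thTerm p h.2.2.2 τ k.2.2.2)) :=
    funext fun k => (thTerm_mul_four hp hd h k τ).symm
  rw [e]
  exact key

theorem thetaShift_injective {p d : ℕ} (hp : 0 < p) (hd : 0 < d) (h : ℤ × ℤ × ℤ × ℤ) :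
    Function.Injective (thetaShift p d h) := by
  have hp' : (p : ℤ) ≠ 0 := Nat.cast_ne_zero.mpr hp.ne'
  have hd' : (d : ℤ) ≠ 0 := Nat.cast_ne_zero.mpr hd.ne'
  intro k k' hkk
  simp only [thetaShift, Prod.mk.injEq, add_left_inj] at hkk
  obtain ⟨e1, e2, e3, e4⟩ := hkk
  have f1 : k.1 = k'.1 := mul_left_cancel₀ (mul_ne_zero two_ne_zero hd') e1
  have f2 : k.2.1 = k'.2.1 := mul_left_cancel₀ two_ne_zero e2
  have f3 : k.2.2.1 = k'.2.2.1 :=
    mul_left_cancel₀ (mul_ne_zero two_ne_zero (mul_ne_zero hp' hd')) e3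
  have f4 : k.2.2.2 = k'.2.2.2 := mul_left_cancel₀ (mul_ne_zero two_ne_zero hp') e4
  exact Prod.ext f1 (Prod.ext f2 (Prod.ext f3 f4))

/-- The theta series of the lattice: `∑_{h ∈ R} ϑ_h = ∑_{n ∈ L'} e(N(n)τ/(4pd))` for a system `R`
of representatives of `L'` modulo `(2d, 2, 2pd, 2p)·ℤ⁴`. -/
theorem hasSum_thetaLat {p d : ℕ} {s : ℤ} (hp : 0 < p) (hd : 0 < d)
    (R : Finset (ℤ × ℤ × ℤ × ℤ)) (hR1 : ∀ h ∈ R, h ∈ thetaLat p d s)
    (hR2 : ∀ n ∈ thetaLat p d s, ∃ h ∈ R, ∃ k, thetaShift p d h k = n)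
    (hR3 : ∀ h ∈ R, ∀ h' ∈ R, ∀ k k', thetaShift p d h k = thetaShift p d h' k' → h = h')
    {τ : ℂ} (hτ : 0 < τ.im) :
    HasSum ((thetaLat p d s).indicator (thetaE p d τ))
      (∑ h ∈ R, th d h.1 τ * th 1 h.2.1 τ * th (p * d) h.2.2.1 τ * th p h.2.2.2 τ) := by
  classical
  have hcoset : ∀ h ∈ R, HasSum ((Set.range (thetaShift p d h)).indicator (thetaE p d τ))
      (th d h.1 τ * th 1 h.2.1 τ * th (p * d) h.2.2.1 τ * th p h.2.2.2 τ) := by
    intro h _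
    rw [← (thetaShift_injective hp hd h).hasSum_iff
      (fun x hx => Set.indicator_of_notMem hx _)]
    have e : ((Set.range (thetaShift p d h)).indicator (thetaE p d τ)) ∘ (thetaShift p d h) =
        fun k => thetaE p d τ (thetaShift p d h k) := by
      funext k
      simp only [Function.comp_apply]
      rw [Set.indicator_of_mem (Set.mem_range_self k)]
    rw [e]
    exact hasSum_thetaShift hp hd h hτ
  have hsum := hasSum_sum hcoset
  convert hsum using 1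
  funext n
  by_cases hn : n ∈ thetaLat p d s
  · rw [Set.indicator_of_mem hn]
    obtain ⟨h₀, hh₀, k₀, hk₀⟩ := hR2 n hn
    rw [Finset.sum_eq_single h₀]
    · rw [Set.indicator_of_mem (show n ∈ Set.range (thetaShift p d h₀) from ⟨k₀, hk₀⟩)]
    · intro h hh hne
      apply Set.indicator_of_notMem
      rintro ⟨k, hk⟩
      exact hne (hR3 h hh h₀ hh₀ k k₀ (hk.trans hk₀.symm))
    · intro hcon
      exact absurd hh₀ hcon
  · rw [Set.indicator_of_notMem hn]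
    symm
    apply Finset.sum_eq_zero
    intro h hh
    apply Set.indicator_of_notMem
    rintro ⟨k, hk⟩
    exact hn (hk ▸ thetaShift_mem (hR1 h hh) k)

/-- The quotient `N(n)/(4pd)` as a natural number. -/
noncomputable def thetaKappa (p d : ℕ) (n : ℤ × ℤ × ℤ × ℤ) : ℕ :=
  (thetaNorm p d n / (4 * p * d)).toNat

theorem thetaKappa_spec {p d : ℕ} {s : ℤ} (hp : p.Prime) (hd : d.Prime) (hp2 : p ≠ 2)
    (hd4 : d % 4 = 3) (hpd : p ≠ d) (hs : (d : ℤ) ∣ s ^ 2 + p) {n : ℤ × ℤ × ℤ × ℤ}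
    (hn : n ∈ thetaLat p d s) : thetaNorm p d n = 4 * p * d * (thetaKappa p d n : ℤ) := by
  obtain ⟨c, hc⟩ := thetaNorm_dvd hp hd hp2 hd4 hpd hs hn
  have hpos : (0 : ℤ) < 4 * p * d := by
    have := hp.pos
    have := hd.pos
    positivity
  have hc0 : 0 ≤ c := by
    have h0 := thetaNorm_nonneg p d n
    rw [hc] at h0
    exact nonneg_of_mul_nonneg_right h0 hpos
  unfold thetaKappa
  rw [hc, Int.mul_ediv_cancel_left _ hpos.ne', Int.toNat_of_nonneg hc0]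

/-- The sum over a fibre of `κ`. -/
theorem thetaCount_fibre {p d : ℕ} {s : ℤ} (hp : p.Prime) (hd : d.Prime) (hp2 : p ≠ 2)
    (hd4 : d % 4 = 3) (hpd : p ≠ d) (hs : (d : ℤ) ∣ s ^ 2 + p) (k : ℕ) (τ : ℂ) :
    ∑' (b : ↑(thetaKappa p d ⁻¹' {k})), (thetaLat p d s).indicator (thetaE p d τ) ↑b =
      (thetaR p d s k : ℂ) * cexp (2 * π * I * k * τ) := by
  classical
  have hp' : (p : ℂ) ≠ 0 := Nat.cast_ne_zero.mpr hp.pos.ne'
  have hd' : (d : ℂ) ≠ 0 := Nat.cast_ne_zero.mpr hd.pos.ne'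
  rw [tsum_subtype ((thetaKappa p d) ⁻¹' {k}) ((thetaLat p d s).indicator (thetaE p d τ))]
  have e : ((thetaKappa p d) ⁻¹' {k}).indicator ((thetaLat p d s).indicator (thetaE p d τ)) =
      (thetaFib p d s k).indicator (fun _ => cexp (2 * π * I * k * τ)) := by
    funext n
    by_cases hn : n ∈ thetaLat p d s
    · have hspec := thetaKappa_spec hp hd hp2 hd4 hpd hs hn
      by_cases hk : thetaKappa p d n = k
      · have hmem : n ∈ thetaFib p d s k := ⟨hn, by rw [hspec, hk]⟩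
        rw [Set.indicator_of_mem (show n ∈ (thetaKappa p d) ⁻¹' {k} from hk),
          Set.indicator_of_mem hn, Set.indicator_of_mem hmem]
        unfold thetaE
        congr 1
        rw [hmem.2]
        push_cast
        field_simp
      · have hnot : n ∉ thetaFib p d s k := by
          rintro ⟨-, h2⟩
          rw [hspec] at h2
          have hpos : (4 * p * d : ℤ) ≠ 0 := by
            have := hp.pos
            have := hd.pos
            positivity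
          have := mul_left_cancel₀ hpos h2
          exact hk (by exact_mod_cast this)
        rw [Set.indicator_of_notMem (show n ∉ (thetaKappa p d) ⁻¹' {k} from hk),
          Set.indicator_of_notMem hnot]
    · have hnot : n ∉ thetaFib p d s k := fun h => hn h.1
      rw [Set.indicator_of_notMem hnot]
      by_cases hk : n ∈ (thetaKappa p d) ⁻¹' {k}
      · rw [Set.indicator_of_mem hk, Set.indicator_of_notMem hn]
      · rw [Set.indicator_of_notMem hk]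
  rw [e, ← tsum_subtype (thetaFib p d s k) (fun _ => cexp (2 * π * I * k * τ)), tsum_const,
    nsmul_eq_mul]
  rfl


/-- **Counting**: `∑_{h ∈ R} ϑ_h(τ) = ∑_k r(k) e(kτ)`. -/
theorem hasSum_thetaCount {p d : ℕ} {s : ℤ} (hp : p.Prime) (hd : d.Prime) (hp2 : p ≠ 2)
    (hd4 : d % 4 = 3) (hpd : p ≠ d) (hs : (d : ℤ) ∣ s ^ 2 + p)
    (R : Finset (ℤ × ℤ × ℤ × ℤ)) (hR1 : ∀ h ∈ R, h ∈ thetaLat p d s)
    (hR2 : ∀ n ∈ thetaLat p d s, ∃ h ∈ R, ∃ k, thetaShift p d h k = n)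
    (hR3 : ∀ h ∈ R, ∀ h' ∈ R, ∀ k k', thetaShift p d h k = thetaShift p d h' k' → h = h')
    {τ : ℂ} (hτ : 0 < τ.im) :
    HasSum (fun k : ℕ => (thetaR p d s k : ℂ) * cexp (2 * π * I * k * τ))
      (∑ h ∈ R, th d h.1 τ * th 1 h.2.1 τ * th (p * d) h.2.2.1 τ * th p h.2.2.2 τ) := by
  classical
  have hp' : (p : ℂ) ≠ 0 := Nat.cast_ne_zero.mpr hp.pos.ne'
  have hd' : (d : ℂ) ≠ 0 := Nat.cast_ne_zero.mpr hd.pos.ne'
  have hL := hasSum_thetaLat hp.pos hd.pos R hR1 hR2 hR3 hτ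
  have hF := hL.tsum_fiberwise (thetaKappa p d)
  have hfun : (fun k : ℕ => (thetaR p d s k : ℂ) * cexp (2 * π * I * k * τ)) =
      fun c => ∑' (b : ↑(thetaKappa p d ⁻¹' {c})),
        (thetaLat p d s).indicator (thetaE p d τ) ↑b := by
    funext k
    symm
    exact thetaCount_fibre hp hd hp2 hd4 hpd hs k τ
  rw [hfun]
  exact hF

/-! ### The form used in the wiring: characteristics in `ZG m`, `m = (d, 1, pd, p)` -/

/-- A function `Fin 4 → ℤ` as a quadruple. -/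
def thetaTup (j : Fin 4 → ℤ) : ℤ × ℤ × ℤ × ℤ := (j 0, j 1, j 2, j 3)

theorem thetaTup_mem_iff (p d : ℕ) (s : ℤ) (j : Fin 4 → ℤ) :
    thetaTup j ∈ thetaLat p d s ↔
      ((2 : ℤ) ∣ j 0 - j 1 ∧ (p : ℤ) ∣ j 2 ∧ (p : ℤ) ∣ j 3 ∧ (2 : ℤ) ∣ j 2 - j 3 ∧
        (d : ℤ) ∣ p * j 0 - s * j 2) := Iff.rfl

theorem thetaNorm_thetaTup (p d : ℕ) (j : Fin 4 → ℤ) :
    thetaNorm p d (thetaTup j) = p * j 0 ^ 2 + p * d * j 1 ^ 2 + j 2 ^ 2 + d * j 3 ^ 2 := rfl

theorem thetaTup_injective : Function.Injective thetaTup := by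
  intro j j' h
  simp only [thetaTup, Prod.mk.injEq] at h
  obtain ⟨h0, h1, h2, h3⟩ := h
  funext i
  fin_cases i
  · exact h0
  · exact h1
  · exact h2
  · exact h3

section ZGform

variable (m : Fin 4 → ℕ) [∀ i, NeZero (m i)]

theorem zrep_injective : Function.Injective (zrep m) := by
  intro g g' h
  rw [← zproj_zrep m g, ← zproj_zrep m g', h]

omit [∀ i, NeZero (m i)] in
theorem zrep_nonneg (g : ZG m) (i : Fin 4) : 0 ≤ zrep m g i := by
  simp only [zrep]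
  positivity

theorem zrep_lt (g : ZG m) (i : Fin 4) : zrep m g i < 2 * (m i : ℤ) := by
  simp only [zrep]
  have := ZMod.val_lt (g i)
  exact_mod_cast this

theorem zrep_zproj_eq (j : Fin 4 → ℤ) (i : Fin 4) :
    zrep m (zproj m j) i = j i % (2 * (m i : ℤ)) := by
  simp only [zrep, zproj]
  rw [ZMod.val_intCast]
  push_cast
  rfl

/-- **Counting, final form.** `H ⊆ ZG m` is the image of the lattice `L'`. -/
theorem hasSum_thetaCount_ZG {p d : ℕ} {s : ℤ} (hp : p.Prime) (hd : d.Prime) (hp2 : p ≠ 2)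
    (hd4 : d % 4 = 3) (hpd : p ≠ d) (hs : (d : ℤ) ∣ s ^ 2 + p)
    (hm0 : m 0 = d) (hm1 : m 1 = 1) (hm2 : m 2 = p * d) (hm3 : m 3 = p)
    (H : Finset (ZG m)) (hH : ∀ g : ZG m, g ∈ H ↔ thetaTup (zrep m g) ∈ thetaLat p d s)
    {τ : ℂ} (hτ : 0 < τ.im) :
    HasSum (fun k : ℕ => (thetaR p d s k : ℂ) * cexp (2 * π * I * k * τ))
      (∑ h ∈ H, thProd m (zrep m h) τ) := by
  classical
  have hinj : Function.Injective (fun g : ZG m => thetaTup (zrep m g)) :=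
    thetaTup_injective.comp (zrep_injective m)
  have hsum : ∑ h ∈ H, thProd m (zrep m h) τ =
      ∑ t ∈ H.image (fun g : ZG m => thetaTup (zrep m g)),
        th d t.1 τ * th 1 t.2.1 τ * th (p * d) t.2.2.1 τ * th p t.2.2.2 τ := by
    rw [Finset.sum_image (fun a _ b _ hab => hinj hab)]
    refine Finset.sum_congr rfl fun h _ => ?_
    unfold thProd
    rw [Fin.prod_univ_four, hm0, hm1, hm2, hm3]
    rfl
  rw [hsum]
  have e0 : ((2 * m 0 : ℕ) : ℤ) = 2 * d := by rw [hm0]; push_cast; ring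
  have e1 : ((2 * m 1 : ℕ) : ℤ) = 2 := by rw [hm1]; norm_num
  have e2 : ((2 * m 2 : ℕ) : ℤ) = 2 * (p * d) := by rw [hm2]; push_cast; ring
  have e3 : ((2 * m 3 : ℕ) : ℤ) = 2 * p := by rw [hm3]; push_cast; ring
  have f0 : (2 * (m 0 : ℤ)) = 2 * d := by rw [hm0]
  have f1 : (2 * (m 1 : ℤ)) = 2 := by rw [hm1]; norm_num
  have f2 : (2 * (m 2 : ℤ)) = 2 * (p * d) := by rw [hm2]; push_cast; ring
  have f3 : (2 * (m 3 : ℤ)) = 2 * p := by rw [hm3]
  refine hasSum_thetaCount hp hd hp2 hd4 hpd hs _ ?_ ?_ ?_ hτ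
  · -- representatives lie in the lattice
    intro t ht
    obtain ⟨g, hg, rfl⟩ := Finset.mem_image.mp ht
    exact (hH g).mp hg
  · -- every lattice point is congruent to a representative
    intro n hn
    let j : Fin 4 → ℤ := ![n.1, n.2.1, n.2.2.1, n.2.2.2]
    let k : ℤ × ℤ × ℤ × ℤ :=
      (n.1 / (2 * d), n.2.1 / 2, n.2.2.1 / (2 * (p * d)), n.2.2.2 / (2 * p))
    have hz0 : zrep m (zproj m j) 0 = n.1 % (2 * d) := by
      rw [zrep_zproj_eq, f0]; rfl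
    have hz1 : zrep m (zproj m j) 1 = n.2.1 % 2 := by
      rw [zrep_zproj_eq, f1]; rfl
    have hz2 : zrep m (zproj m j) 2 = n.2.2.1 % (2 * (p * d)) := by
      rw [zrep_zproj_eq, f2]; rfl
    have hz3 : zrep m (zproj m j) 3 = n.2.2.2 % (2 * p) := by
      rw [zrep_zproj_eq, f3]; rfl
    have hshift : thetaShift p d (thetaTup (zrep m (zproj m j))) k = n := by
      simp only [thetaShift, thetaTup, hz0, hz1, hz2, hz3, k]
      refine Prod.ext ?_ (Prod.ext ?_ (Prod.ext ?_ ?_))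
      · exact Int.mul_ediv_add_emod n.1 (2 * d)
      · exact Int.mul_ediv_add_emod n.2.1 2
      · exact Int.mul_ediv_add_emod n.2.2.1 (2 * (p * d))
      · exact Int.mul_ediv_add_emod n.2.2.2 (2 * p)
    have hback : thetaTup (zrep m (zproj m j)) = thetaShift p d n (-k) := by
      have h0 := Int.mul_ediv_add_emod n.1 (2 * d)
      have h1 := Int.mul_ediv_add_emod n.2.1 2
      have h2 := Int.mul_ediv_add_emod n.2.2.1 (2 * (p * d))
      have h3 := Int.mul_ediv_add_emod n.2.2.2 (2 * p)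
      simp only [thetaShift, thetaTup, hz0, hz1, hz2, hz3, k, Prod.fst_neg, Prod.snd_neg]
      refine Prod.ext ?_ (Prod.ext ?_ (Prod.ext ?_ ?_))
      · show n.1 % (2 * d) = 2 * d * -(n.1 / (2 * d)) + n.1
        linarith
      · show n.2.1 % 2 = 2 * -(n.2.1 / 2) + n.2.1
        linarith
      · show n.2.2.1 % (2 * (p * d)) = 2 * (p * d) * -(n.2.2.1 / (2 * (p * d))) + n.2.2.1
        linarith
      · show n.2.2.2 % (2 * p) = 2 * p * -(n.2.2.2 / (2 * p)) + n.2.2.2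
        linarith
    have hmem : zproj m j ∈ H := by
      rw [hH, hback]
      exact thetaShift_mem hn _
    exact ⟨_, Finset.mem_image.mpr ⟨zproj m j, hmem, rfl⟩, k, hshift⟩
  · -- distinct representatives are incongruent
    intro t ht t' ht' k k' hkk
    obtain ⟨g, -, rfl⟩ := Finset.mem_image.mp ht
    obtain ⟨g', -, rfl⟩ := Finset.mem_image.mp ht'
    have hgg : g = g' := by
      rw [← zproj_zrep m g, ← zproj_zrep m g', zproj_eq_iff]
      simp only [thetaShift, thetaTup, Prod.mk.injEq] at hkk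
      obtain ⟨c0, c1, c2, c3⟩ := hkk
      intro i
      fin_cases i
      · show zrep m g 0 ≡ zrep m g' 0 [ZMOD ((2 * m 0 : ℕ) : ℤ)]
        rw [e0]
        exact (Int.modEq_iff_dvd.mpr ⟨k.1 - k'.1, by linarith⟩)
      · show zrep m g 1 ≡ zrep m g' 1 [ZMOD ((2 * m 1 : ℕ) : ℤ)]
        rw [e1]
        exact (Int.modEq_iff_dvd.mpr ⟨k.2.1 - k'.2.1, by linarith⟩)
      · show zrep m g 2 ≡ zrep m g' 2 [ZMOD ((2 * m 2 : ℕ) : ℤ)]
        rw [e2]
        exact (Int.modEq_iff_dvd.mpr ⟨k.2.2.1 - k'.2.2.1, by linarith⟩)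
      · show zrep m g 3 ≡ zrep m g' 3 [ZMOD ((2 * m 3 : ℕ) : ℤ)]
        rw [e3]
        exact (Int.modEq_iff_dvd.mpr ⟨k.2.2.2 - k'.2.2.2, by linarith⟩)
    rw [hgg]

/-- **Counting, packaged for `stmtTheta_of_family`.** -/
theorem thetaCount_package {p d : ℕ} {s : ℤ} (hp : p.Prime) (hd : d.Prime) (hp2 : p ≠ 2)
    (hd4 : d % 4 = 3) (hpd : p ≠ d) (hs : (d : ℤ) ∣ s ^ 2 + p)
    (hm0 : m 0 = d) (hm1 : m 1 = 1) (hm2 : m 2 = p * d) (hm3 : m 3 = p)
    (H : Finset (ZG m)) (hH : ∀ g : ZG m, g ∈ H ↔ thetaTup (zrep m g) ∈ thetaLat p d s) :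
    ∃ a : ℕ → ℂ, a 0 = 1 ∧ (∀ n : ℕ, 1 ≤ n → ∃ c : ℤ, a n = 2 * (c : ℂ)) ∧
      ∀ τ : UpperHalfPlane, HasSum (fun n : ℕ => a n * cexp (2 * π * I * n * τ))
        (∑ h ∈ H, thProd m (zrep m h) (τ : ℂ)) := by
  refine ⟨fun k => (thetaR p d s k : ℂ), ?_, ?_, ?_⟩
  · show ((thetaR p d s 0 : ℕ) : ℂ) = 1
    rw [thetaR_zero hp.pos hd.pos s]
    simp
  · intro n hn
    obtain ⟨c, hc⟩ := thetaR_even hp.pos hd.pos s hn
    refine ⟨c, ?_⟩
    show ((thetaR p d s n : ℕ) : ℂ) = 2 * ((c : ℤ) : ℂ)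
    rw [hc]
    push_cast
    ring
  · intro τ
    exact hasSum_thetaCount_ZG m hp hd hp2 hd4 hpd hs hm0 hm1 hm2 hm3 H hH τ.im_pos

end ZGform

end Fermat.Agent.S16
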