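/-
S16 (A2), piece FF (helper17): the arithmetic of the quaternary lattice, in integer form.

`m = (d, 1, p d, p)`, `N(j) = p j₀² + p d j₁² + j₂² + d j₃²` (so `Σ j_i²/(4 m_i) = N(j)/(4 p d)`),
`B(j, k) = p j₀k₀ + p d j₁k₁ + j₂k₂ + d j₃k₃` (so `Σ j_i k_i/(2 m_i) = B(j,k)/(2 p d)`), and the glue
`H = {j : 2 ∣ j₀ - j₁, p ∣ j₂, p ∣ j₃, 2 ∣ j₂ - j₃, d ∣ p j₀ - s j₂}`.
-/
import Mathlib.Tactic
import Mathlib.Data.Int.ModEq
import Mathlib.Data.Int.GCD
import Mathlib.RingTheory.Coprime.Lemmas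
import Mathlib.Data.Fin.VecNotation

set_option autoImplicit false

namespace Fermat.Agent.S16

/-- The moduli `m = (d, 1, p d, p)`. -/
def latM (p d : ℕ) : Fin 4 → ℕ := ![d, 1, p * d, p]

@[simp] theorem latM_zero (p d : ℕ) : latM p d 0 = d := rfl
@[simp] theorem latM_one (p d : ℕ) : latM p d 1 = 1 := rfl
@[simp] theorem latM_two (p d : ℕ) : latM p d 2 = p * d := rfl
@[simp] theorem latM_three (p d : ℕ) : latM p d 3 = p := rfl

theorem latM_pos {p d : ℕ} (hp : 0 < p) (hd : 0 < d) (i : Fin 4) : 0 < latM p d i := by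
  fin_cases i
  · exact hd
  · exact Nat.one_pos
  · exact Nat.mul_pos hp hd
  · exact hp

instance latM_neZero (p d : ℕ) [NeZero p] [NeZero d] (i : Fin 4) : NeZero (latM p d i) :=
  ⟨(latM_pos (Nat.pos_of_ne_zero (NeZero.ne p)) (Nat.pos_of_ne_zero (NeZero.ne d)) i).ne'⟩

/-- The glue group, as a predicate on integer vectors. -/
def latH (p d : ℕ) (s : ℤ) (j : Fin 4 → ℤ) : Prop :=
  (2 : ℤ) ∣ j 0 - j 1 ∧ (p : ℤ) ∣ j 2 ∧ (p : ℤ) ∣ j 3 ∧ (2 : ℤ) ∣ j 2 - j 3 ∧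
    (d : ℤ) ∣ p * j 0 - s * j 2

instance latH_decidable (p d : ℕ) (s : ℤ) (j : Fin 4 → ℤ) : Decidable (latH p d s j) := by
  unfold latH; infer_instance

/-- The norm form `N(j) = 4 p d · Σ j_i² / (4 m_i)`. -/
def latN (p d : ℕ) (j : Fin 4 → ℤ) : ℤ := p * j 0 ^ 2 + p * d * j 1 ^ 2 + j 2 ^ 2 + d * j 3 ^ 2

/-- The bilinear form `B(j, k) = 2 p d · Σ j_i k_i / (2 m_i)`. -/
def latB (p d : ℕ) (j k : Fin 4 → ℤ) : ℤ :=
  p * j 0 * k 0 + p * d * j 1 * k 1 + j 2 * k 2 + d * j 3 * k 3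

section

variable {p d : ℕ} {s : ℤ}

theorem latH_zero : latH p d s 0 := by
  refine ⟨?_, ?_, ?_, ?_, ?_⟩ <;> simp

theorem latH_add {j k : Fin 4 → ℤ} (hj : latH p d s j) (hk : latH p d s k) :
    latH p d s (j + k) := by
  obtain ⟨h1, h2, h3, h4, h5⟩ := hj
  obtain ⟨k1, k2, k3, k4, k5⟩ := hk
  refine ⟨?_, ?_, ?_, ?_, ?_⟩
  · have := dvd_add h1 k1
    simpa [Pi.add_apply, add_sub_add_comm] using this
  · simpa using dvd_add h2 k2
  · simpa using dvd_add h3 k3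
  · have := dvd_add h4 k4
    simpa [Pi.add_apply, add_sub_add_comm] using this
  · have := dvd_add h5 k5
    have e : (p : ℤ) * (j + k) 0 - s * (j + k) 2 = p * j 0 - s * j 2 + (p * k 0 - s * k 2) := by
      simp only [Pi.add_apply]; ring
    rw [e]; exact this

theorem latH_neg {j : Fin 4 → ℤ} (hj : latH p d s j) : latH p d s (-j) := by
  obtain ⟨h1, h2, h3, h4, h5⟩ := hj
  refine ⟨?_, ?_, ?_, ?_, ?_⟩
  · have e : (-j) 0 - (-j) 1 = -(j 0 - j 1) := by simp only [Pi.neg_apply]; ring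
    rw [e]; exact (dvd_neg).mpr h1
  · simpa using h2
  · simpa using h3
  · have e : (-j) 2 - (-j) 3 = -(j 2 - j 3) := by simp only [Pi.neg_apply]; ring
    rw [e]; exact (dvd_neg).mpr h4
  · have e : (p : ℤ) * (-j) 0 - s * (-j) 2 = -(p * j 0 - s * j 2) := by
      simp only [Pi.neg_apply]; ring
    rw [e]; exact (dvd_neg).mpr h5

/-- `latH` only depends on `j` modulo `2 m`. -/
theorem latH_of_sub {j k : Fin 4 → ℤ}
    (h : ∀ i, ((2 * latM p d i : ℕ) : ℤ) ∣ k i - j i) (hj : latH p d s j) : latH p d s k := by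
  have e : k = j + (k - j) := by abel
  rw [e]
  refine latH_add hj ?_
  have h0 := h 0
  have h1 := h 1
  have h2 := h 2
  have h3 := h 3
  simp only [latM_zero, latM_one, latM_two, latM_three, Nat.cast_mul, Nat.cast_ofNat,
    mul_one] at h0 h1 h2 h3
  obtain ⟨a, ha⟩ := h0
  obtain ⟨b, hb⟩ := h1
  obtain ⟨c, hc⟩ := h2
  obtain ⟨e', he⟩ := h3
  refine ⟨?_, ?_, ?_, ?_, ?_⟩
  · simp only [Pi.sub_apply]
    rw [ha, hb]
    exact ⟨d * a - b, by ring⟩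
  · simp only [Pi.sub_apply]
    rw [hc]
    exact ⟨2 * d * c, by ring⟩
  · simp only [Pi.sub_apply]
    rw [he]
    exact ⟨2 * e', by ring⟩
  · simp only [Pi.sub_apply]
    rw [hc, he]
    exact ⟨p * d * c - p * e', by ring⟩
  · simp only [Pi.sub_apply]
    rw [ha, hc]
    exact ⟨2 * p * a - 2 * s * p * c, by ring⟩

theorem latH_congr {j k : Fin 4 → ℤ}
    (h : ∀ i, j i ≡ k i [ZMOD ((2 * latM p d i : ℕ) : ℤ)]) : latH p d s j ↔ latH p d s k :=
  ⟨latH_of_sub fun i => (Int.modEq_iff_dvd.mp (h i)),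
    latH_of_sub fun i => (Int.modEq_iff_dvd.mp (h i).symm)⟩

/-- **Isotropy**: `4 p d ∣ N(j)` on the glue group. -/
theorem latH_dvd_latN (hp : Odd p) (hd4 : d % 4 = 3) (hpd : Nat.Coprime p d)
    (hs : (d : ℤ) ∣ s ^ 2 + p) {j : Fin 4 → ℤ} (hj : latH p d s j) :
    (4 * p * d : ℤ) ∣ latN p d j := by
  obtain ⟨h1, h2, h3, h4, h5⟩ := hj
  obtain ⟨c, hc⟩ := h2
  obtain ⟨e, he⟩ := h3
  have hpdZ : IsCoprime (p : ℤ) (d : ℤ) := Nat.isCoprime_iff_coprime.mpr hpd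
  have hp2 : IsCoprime (2 : ℤ) (p : ℤ) := by
    have : Nat.Coprime 2 p := by
      rw [Nat.coprime_two_left]; exact hp
    exact_mod_cast Nat.isCoprime_iff_coprime.mpr this
  have hdodd : Odd d := by
    rw [Nat.odd_iff]; omega
  have h2d : IsCoprime (2 : ℤ) (d : ℤ) := by
    have : Nat.Coprime 2 d := by rw [Nat.coprime_two_left]; exact hdodd
    exact_mod_cast Nat.isCoprime_iff_coprime.mpr this
  have h4d : IsCoprime (4 : ℤ) (d : ℤ) := by
    have : (4 : ℤ) = 2 * 2 := by norm_num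
    rw [this]
    exact IsCoprime.mul_left h2d h2d
  -- `c ≡ e mod 2`
  have hce : (2 : ℤ) ∣ c - e := by
    have : (2 : ℤ) ∣ p * (c - e) := by
      have e' : (p : ℤ) * (c - e) = j 2 - j 3 := by rw [hc, he]; ring
      rw [e']; exact h4
    exact hp2.dvd_of_dvd_mul_left this
  -- `a ≡ s c mod d`
  have hac : (d : ℤ) ∣ j 0 - s * c := by
    have : (d : ℤ) ∣ p * (j 0 - s * c) := by
      have e' : (p : ℤ) * (j 0 - s * c) = p * j 0 - s * j 2 := by rw [hc]; ring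
      rw [e']; exact h5
    exact hpdZ.symm.dvd_of_dvd_mul_left this
  -- reduce to `4 d ∣ M`
  have hM : latN p d j = p * (j 0 ^ 2 + d * j 1 ^ 2 + p * c ^ 2 + p * d * e ^ 2) := by
    unfold latN
    rw [hc, he]; ring
  rw [hM]
  have e4 : (4 * p * d : ℤ) = p * (4 * d) := by ring
  rw [e4]
  apply mul_dvd_mul_left
  apply h4d.mul_dvd
  · -- mod 4
    obtain ⟨t, ht⟩ := h1
    obtain ⟨r, hr⟩ := hce
    obtain ⟨k, hk⟩ : ∃ k : ℤ, (d : ℤ) = 4 * k + 3 := by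
      refine ⟨(d / 4 : ℕ), ?_⟩
      have := Nat.div_add_mod d 4
      rw [hd4] at this
      have h' : (d : ℤ) = ((4 * (d / 4) + 3 : ℕ) : ℤ) := by rw [this]
      rw [h']; push_cast; ring
    have ha : j 0 = j 1 + 2 * t := by linarith
    have hc' : c = e + 2 * r := by linarith
    refine ⟨j 1 ^ 2 + t * j 1 + t ^ 2 + k * j 1 ^ 2 +
      p * (e ^ 2 + r * e + r ^ 2 + k * e ^ 2), ?_⟩
    rw [ha, hc', hk]; ring
  · -- mod d
    obtain ⟨t, ht⟩ := hac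
    obtain ⟨w, hw⟩ := hs
    have ha : j 0 = s * c + d * t := by linarith
    refine ⟨2 * s * c * t + d * t ^ 2 + w * c ^ 2 + j 1 ^ 2 + p * e ^ 2, ?_⟩
    rw [ha]
    linear_combination (c ^ 2) * hw

end

end Fermat.Agent.S16
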