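/-
S16 (A2), piece FF (helper17): the glue group `H ⊂ 𝔊 = Π ZMod (2 m_i)`, the representatives
`ι : 𝔽_p² → H^⊥` and the family `Θ_u = Σ_{h ∈ H} ϑ_{ι u + h}`.  Definitions only.
-/
import Fermat.Agent.S16.ThetaZ
import Fermat.Agent.S16.ThetaLatInt

set_option autoImplicit false

open Complex Real ModularGroup
open UpperHalfPlane hiding I
open scoped MatrixGroups Manifold ModularForm

namespace Fermat.Agent.S16

variable (p d : ℕ) [NeZero p] [NeZero d] (s : ℤ)

/-- The glue group `H` as a finite subset of `𝔊 = ZG (latM p d)`. -/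
def latHset : Finset (ZG (latM p d)) :=
  Finset.univ.filter fun g => latH p d s (zrep (latM p d) g)

/-- The integer vector `(0, 0, 2 d x, 2 y)`. -/
def latNu (x y : ℤ) : Fin 4 → ℤ := ![0, 0, 2 * d * x, 2 * y]

/-- The representatives `ι(x, y) = (0, 0, 2 d x, 2 y)` of `H^⊥ / H ≅ 𝔽_p²`. -/
def latIota (u : ZMod p × ZMod p) : ZG (latM p d) :=
  zproj (latM p d) (latNu d (u.1.val : ℤ) (u.2.val : ℤ))

/-- The family `Θ_u = Σ_{h ∈ H} ϑ_{ι u + h}`. -/
noncomputable def latTheta (u : ZMod p × ZMod p) : ℍ → ℂ :=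
  ∑ h ∈ latHset p d s, thetaZ (latM p d) (latIota p d u + h)

variable {p d s}

theorem mem_latHset {g : ZG (latM p d)} : g ∈ latHset p d s ↔ latH p d s (zrep (latM p d) g) := by
  simp [latHset]

theorem zproj_mem_latHset {j : Fin 4 → ℤ} : zproj (latM p d) j ∈ latHset p d s ↔ latH p d s j := by
  rw [mem_latHset]
  exact latH_congr (zrep_zproj_modEq (latM p d) j)

end Fermat.Agent.S16
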