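/-
S16, piece A2 (2), bridge (helper41): the counting statement for helper17's glue group
`latHset p d s ⊂ ZG (latM p d)`:

  `∑_{h ∈ latHset} thProd (latM p d) (zrep h) τ = ∑_k a_k e(kτ)`, `a_0 = 1`, `a_k ∈ 2ℤ` (`k ≥ 1`).

This is exactly the input `a, hsum, ha0, ha` of `stmtTheta_of_family` (ThetaMF.lean) for `Θ_0`.
-/
import Fermat.Agent.S16.ThetaCount
import Fermat.Agent.S16.ThetaLatDefs

set_option autoImplicit false

namespace Fermat.Agent.S16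

open Complex Real

theorem latH_iff_thetaLat (p d : ℕ) (s : ℤ) (j : Fin 4 → ℤ) :
    latH p d s j ↔ thetaTup j ∈ thetaLat p d s := Iff.rfl

theorem latN_eq_thetaNorm (p d : ℕ) (j : Fin 4 → ℤ) :
    latN p d j = thetaNorm p d (thetaTup j) := rfl

/-- `4pd ∣ latN` on the glue lattice. -/
theorem latH_dvd_latN' {p d : ℕ} {s : ℤ} (hp : p.Prime) (hd : d.Prime) (hp2 : p ≠ 2)
    (hd4 : d % 4 = 3) (hpd : p ≠ d) (hs : (d : ℤ) ∣ s ^ 2 + p) {j : Fin 4 → ℤ}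
    (hj : latH p d s j) : (4 * p * d : ℤ) ∣ latN p d j :=
  thetaNorm_dvd hp hd hp2 hd4 hpd hs ((latH_iff_thetaLat p d s j).mp hj)

/-- **Counting for `latHset`** (the coefficients are `a k = thetaR p d s k`). -/
theorem latCount_hasSum (p d : ℕ) [NeZero p] [NeZero d] (s : ℤ) (hp : p.Prime) (hd : d.Prime)
    (hp2 : p ≠ 2) (hd4 : d % 4 = 3) (hpd : p ≠ d) (hs : (d : ℤ) ∣ s ^ 2 + p)
    (τ : UpperHalfPlane) :
    HasSum (fun k : ℕ => (thetaR p d s k : ℂ) * cexp (2 * π * I * k * τ))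
      (∑ h ∈ latHset p d s, thProd (latM p d) (zrep (latM p d) h) (τ : ℂ)) :=
  hasSum_thetaCount_ZG (latM p d) hp hd hp2 hd4 hpd hs rfl rfl rfl rfl (latHset p d s)
    (fun _ => mem_latHset) τ.im_pos

/-- **Counting for `latHset`, packaged.** -/
theorem latCount (p d : ℕ) [NeZero p] [NeZero d] (s : ℤ) (hp : p.Prime) (hd : d.Prime)
    (hp2 : p ≠ 2) (hd4 : d % 4 = 3) (hpd : p ≠ d) (hs : (d : ℤ) ∣ s ^ 2 + p) :
    ∃ a : ℕ → ℂ, a 0 = 1 ∧ (∀ n : ℕ, 1 ≤ n → ∃ c : ℤ, a n = 2 * (c : ℂ)) ∧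
      ∀ τ : UpperHalfPlane, HasSum (fun n : ℕ => a n * cexp (2 * π * I * n * τ))
        (∑ h ∈ latHset p d s, thProd (latM p d) (zrep (latM p d) h) (τ : ℂ)) :=
  thetaCount_package (latM p d) hp hd hp2 hd4 hpd hs rfl rfl rfl rfl (latHset p d s)
    (fun _ => mem_latHset)

end Fermat.Agent.S16
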