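import Mathlib

/-!
# S16 (A), piece GEN: generators of `Γ₀(p)`

For a prime `p`, the group `Γ₀(p) ⊂ SL(2, ℤ)` is generated by `-1`, `T`, `S T^p S⁻¹` and the elements
`S T^a S T^b S` with `a b ≡ 1 mod p` (Schreier generators for the transversal `{1, S T^j}`).

* `Fermat.Agent.S16.gamma0Gens p` : the generating set;
* `Fermat.Agent.S16.closure_gamma0Gens` : `Subgroup.closure (gamma0Gens p) = Gamma0 p`;
* `Fermat.Agent.S16.Gamma0_induction` : the induction principle.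
-/

set_option autoImplicit false

open Matrix Matrix.SpecialLinearGroup ModularGroup CongruenceSubgroup
open scoped MatrixGroups

namespace Fermat.Agent.S16

/-- `S⁻¹ = -S` in `SL(2, ℤ)`. -/
theorem g0_S_inv_eq : (S : SL(2, ℤ))⁻¹ = -1 * S := by
  ext i j
  fin_cases i <;> fin_cases j <;> simp [coe_S, Matrix.adjugate_fin_two]

theorem g0_S_mul_S : (S : SL(2, ℤ)) * S = -1 := by
  ext i j
  fin_cases i <;> fin_cases j <;> simp [coe_S, Matrix.mul_apply, Fin.sum_univ_two]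

theorem g0_neg_one_mul_comm (g : SL(2, ℤ)) : (-1 : SL(2, ℤ)) * g = g * (-1) := by
  ext i j
  simp

theorem g0_S_inv_mul_neg_one : (S : SL(2, ℤ))⁻¹ * -1 = S := by
  ext i j
  fin_cases i <;> fin_cases j <;> simp [coe_S, Matrix.adjugate_fin_two]

/-- The matrix `S T^a S T^b S = [[-b, 1], [ab - 1, -a]]`. -/
theorem g0_coe_STSTS (a b : ℤ) :
    ((S * T ^ a * S * T ^ b * S : SL(2, ℤ)) : Matrix (Fin 2) (Fin 2) ℤ) =
      !![-b, 1; a * b - 1, -a] := by
  simp only [coe_mul, coe_S, coe_T_zpow]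
  ext i j
  fin_cases i <;> fin_cases j <;> simp [Matrix.mul_apply, Fin.sum_univ_two] <;> ring

/-- The matrix `S T^j = [[0, -1], [1, j]]`. -/
theorem g0_coe_ST (j : ℤ) :
    ((S * T ^ j : SL(2, ℤ)) : Matrix (Fin 2) (Fin 2) ℤ) = !![0, -1; 1, j] := by
  simp only [coe_mul, coe_S, coe_T_zpow]
  ext i j
  fin_cases i <;> fin_cases j <;> simp [Matrix.mul_apply, Fin.sum_univ_two]

/-- The matrix `S T^n S⁻¹ = [[1, 0], [-n, 1]]`. -/
theorem g0_coe_STSinv (n : ℤ) :
    ((S * T ^ n * S⁻¹ : SL(2, ℤ)) : Matrix (Fin 2) (Fin 2) ℤ) = !![1, 0; -n, 1] := by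
  simp only [coe_mul, coe_S, coe_T_zpow, coe_inv, Matrix.adjugate_fin_two]
  ext i j
  fin_cases i <;> fin_cases j <;> simp [Matrix.mul_apply, Fin.sum_univ_two]

/-- The Schreier generators of `Γ₀(p)`. -/
def gamma0Gens (p : ℕ) : Set SL(2, ℤ) :=
  {g | g = -1 ∨ g = T ∨ g = S * T ^ (p : ℤ) * S⁻¹ ∨
    ∃ a b : ℤ, a * b ≡ 1 [ZMOD (p : ℤ)] ∧ g = S * T ^ a * S * T ^ b * S}

theorem g0_neg_one_mem_gamma0Gens (p : ℕ) : (-1 : SL(2, ℤ)) ∈ gamma0Gens p := Or.inl rfl

theorem g0_T_mem_gamma0Gens (p : ℕ) : T ∈ gamma0Gens p := Or.inr (Or.inl rfl)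

theorem g0_STS_mem_gamma0Gens (p : ℕ) : S * T ^ (p : ℤ) * S⁻¹ ∈ gamma0Gens p :=
  Or.inr (Or.inr (Or.inl rfl))

theorem g0_STSTS_mem_gamma0Gens (p : ℕ) {a b : ℤ} (h : a * b ≡ 1 [ZMOD (p : ℤ)]) :
    S * T ^ a * S * T ^ b * S ∈ gamma0Gens p :=
  Or.inr (Or.inr (Or.inr ⟨a, b, h, rfl⟩))

theorem gamma0Gens_subset (p : ℕ) : gamma0Gens p ⊆ (Gamma0 p : Set SL(2, ℤ)) := by
  rintro g (rfl | rfl | rfl | ⟨a, b, hab, rfl⟩)
  · show ((-1 : SL(2, ℤ)) 1 0 : ZMod p) = 0
    simp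
  · show ((T : SL(2, ℤ)) 1 0 : ZMod p) = 0
    simp [coe_T]
  · show (((S * T ^ (p : ℤ) * S⁻¹ : SL(2, ℤ)) : Matrix (Fin 2) (Fin 2) ℤ) 1 0 : ZMod p) = 0
    rw [g0_coe_STSinv]
    simp
  · show (((S * T ^ a * S * T ^ b * S : SL(2, ℤ)) : Matrix (Fin 2) (Fin 2) ℤ) 1 0 : ZMod p) = 0
    rw [g0_coe_STSTS]
    have h : ((a * b - 1 : ℤ) : ZMod p) = 0 := by
      rw [ZMod.intCast_zmod_eq_zero_iff_dvd]
      exact (Int.modEq_iff_dvd.mp hab.symm)
    simpa using h

theorem closure_gamma0Gens_le (p : ℕ) : Subgroup.closure (gamma0Gens p) ≤ Gamma0 p :=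
  (Subgroup.closure_le _).mpr (gamma0Gens_subset p)

section Main

variable (p : ℕ)

/-- The set `K ∪ ⋃ⱼ K S Tʲ`, where `K` is the subgroup generated by `gamma0Gens p`. -/
def gamma0Cover : Set SL(2, ℤ) :=
  {g | g ∈ Subgroup.closure (gamma0Gens p) ∨
    ∃ k ∈ Subgroup.closure (gamma0Gens p), ∃ j : ℤ, g = k * S * T ^ j}

variable {p}

theorem g0_mul_neg_one_mem_closure {k : SL(2, ℤ)} (hk : k ∈ Subgroup.closure (gamma0Gens p)) :
    k * -1 ∈ Subgroup.closure (gamma0Gens p) :=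
  mul_mem hk (Subgroup.subset_closure (g0_neg_one_mem_gamma0Gens p))

/-- Key step: `K S Tʲ S ⊆ K ∪ ⋃ K S Tⁱ`. -/
theorem g0_mul_STS_mem_gamma0Cover [Fact p.Prime] {k : SL(2, ℤ)}
    (hk : k ∈ Subgroup.closure (gamma0Gens p)) (j : ℤ) :
    k * S * T ^ j * S ∈ gamma0Cover p := by
  by_cases hj : (p : ℤ) ∣ j
  · -- `S T^(p m) S = (S T^p S⁻¹)^m * (-1)`
    obtain ⟨m, rfl⟩ := hj
    left
    have h1 : S * T ^ ((p : ℤ) * m) * S = (S * T ^ (p : ℤ) * S⁻¹) ^ m * (-1 : SL(2, ℤ)) := by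
      rw [conj_zpow, ← _root_.zpow_mul, mul_assoc _ S⁻¹, g0_S_inv_mul_neg_one]
    have h2 : k * S * T ^ ((p : ℤ) * m) * S = k * (S * T ^ ((p : ℤ) * m) * S) := by
      simp only [mul_assoc]
    rw [h2, h1]
    exact mul_mem hk (mul_mem (zpow_mem (Subgroup.subset_closure (g0_STS_mem_gamma0Gens p)) m)
      (Subgroup.subset_closure (g0_neg_one_mem_gamma0Gens p)))
  · -- `j` is invertible mod `p`
    have hp : Prime (p : ℤ) := Nat.prime_iff_prime_int.mp Fact.out
    have hcop : IsCoprime j (p : ℤ) := by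
      rw [isCoprime_comm]
      exact (Prime.coprime_iff_not_dvd hp).mpr hj
    obtain ⟨b, c, hbc⟩ := hcop
    have hab : j * b ≡ 1 [ZMOD (p : ℤ)] := by
      rw [Int.modEq_iff_dvd]
      exact ⟨c, by linear_combination -hbc⟩
    right
    refine ⟨k * (S * T ^ j * S * T ^ b * S) * -1, ?_, -b, ?_⟩
    · exact g0_mul_neg_one_mem_closure
        (mul_mem hk (Subgroup.subset_closure (g0_STSTS_mem_gamma0Gens p hab)))
    · -- `S T^j S = (S T^j S T^b S) * (-1) * S * T^(-b)`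
      have hS : S * (-1 : SL(2, ℤ)) * S = 1 := by
        rw [← g0_neg_one_mul_comm, mul_assoc, g0_S_mul_S]
        ext i j
        simp
      have : S * T ^ j * S * T ^ b * S * (-1 : SL(2, ℤ)) * S * T ^ (-b) = S * T ^ j * S := by
        calc S * T ^ j * S * T ^ b * S * (-1 : SL(2, ℤ)) * S * T ^ (-b)
            = S * T ^ j * S * T ^ b * (S * (-1 : SL(2, ℤ)) * S) * T ^ (-b) := by
              simp only [mul_assoc]
          _ = S * T ^ j * S := by
              rw [hS, mul_one, mul_assoc, ← _root_.zpow_add, add_neg_cancel, zpow_zero, mul_one]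
      calc k * S * T ^ j * S = k * (S * T ^ j * S) := by simp only [mul_assoc]
        _ = k * (S * T ^ j * S * T ^ b * S * (-1 : SL(2, ℤ)) * S * T ^ (-b)) := by rw [this]
        _ = k * (S * T ^ j * S * T ^ b * S) * -1 * S * T ^ (-b) := by simp only [mul_assoc]

theorem g0_mem_gamma0Cover [Fact p.Prime] (g : SL(2, ℤ)) : g ∈ gamma0Cover p := by
  have hg : g ∈ Subgroup.closure ({S, T} : Set SL(2, ℤ)) := by
    rw [SpecialLinearGroup.SL2Z_generators]; exact Subgroup.mem_top g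
  induction hg using Subgroup.closure_induction_right with
  | one => exact Or.inl (one_mem _)
  | mul_right x hx y hy ih =>
    rcases hy with rfl | rfl
    · -- right multiplication by `S`
      rcases ih with hk | ⟨k, hk, j, rfl⟩
      · exact Or.inr ⟨x, hk, 0, by simp⟩
      · exact g0_mul_STS_mem_gamma0Cover hk j
    · -- right multiplication by `T`
      rcases ih with hk | ⟨k, hk, j, rfl⟩
      · exact Or.inl (mul_mem hk (Subgroup.subset_closure (g0_T_mem_gamma0Gens p)))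
      · exact Or.inr ⟨k, hk, j + 1, by rw [_root_.zpow_add, zpow_one, mul_assoc]⟩
  | mul_inv_cancel x hx y hy ih =>
    rcases hy with rfl | rfl
    · -- right multiplication by `S⁻¹ = (-1) S`
      rcases ih with hk | ⟨k, hk, j, rfl⟩
      · refine Or.inr ⟨x * -1, g0_mul_neg_one_mem_closure hk, 0, ?_⟩
        rw [g0_S_inv_eq, zpow_zero, mul_one, mul_assoc]
      · have := g0_mul_STS_mem_gamma0Cover (g0_mul_neg_one_mem_closure hk) j
        have e : k * S * T ^ j * S⁻¹ = k * -1 * S * T ^ j * S := by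
          rw [g0_S_inv_eq]
          calc k * S * T ^ j * (-1 * S) = k * (S * T ^ j * -1) * S := by simp only [mul_assoc]
            _ = k * (-1 * (S * T ^ j)) * S := by rw [g0_neg_one_mul_comm]
            _ = k * -1 * S * T ^ j * S := by simp only [mul_assoc]
        rw [e]; exact this
    · -- right multiplication by `T⁻¹`
      rcases ih with hk | ⟨k, hk, j, rfl⟩
      · exact Or.inl (mul_mem hk (inv_mem (Subgroup.subset_closure (g0_T_mem_gamma0Gens p))))
      · exact Or.inr ⟨k, hk, j - 1, by rw [_root_.zpow_sub, zpow_one, mul_assoc]⟩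

/-- **Generators of `Γ₀(p)`.** -/
theorem closure_gamma0Gens (p : ℕ) [Fact p.Prime] :
    Subgroup.closure (gamma0Gens p) = Gamma0 p := by
  refine le_antisymm (closure_gamma0Gens_le p) fun g hg => ?_
  rcases g0_mem_gamma0Cover (p := p) g with hk | ⟨k, hk, j, rfl⟩
  · exact hk
  · exfalso
    have hk' : k ∈ Gamma0 p := closure_gamma0Gens_le p hk
    have hST : S * T ^ j ∈ Gamma0 p := by
      have : S * T ^ j = k⁻¹ * (k * S * T ^ j) := by simp only [mul_assoc, inv_mul_cancel_left]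
      rw [this]
      exact mul_mem (inv_mem hk') hg
    have h10 : (((S * T ^ j : SL(2, ℤ)) : Matrix (Fin 2) (Fin 2) ℤ) 1 0 : ZMod p) = 0 := hST
    rw [g0_coe_ST] at h10
    have hp1 : (1 : ZMod p) ≠ 0 := by
      have : Fact (1 < p) := ⟨(Fact.out : p.Prime).one_lt⟩
      exact one_ne_zero
    exact hp1 (by simpa using h10)

/-- **Induction principle for `Γ₀(p)`**: a property of elements of `SL(2, ℤ)` that is stable under
products and inverses and holds for `1`, `-1`, `T`, `S T^p S⁻¹` and all `S T^a S T^b S` with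
`a b ≡ 1 mod p`, holds on `Γ₀(p)`. -/
theorem Gamma0_induction {p : ℕ} [Fact p.Prime] {P : SL(2, ℤ) → Prop}
    (hone : P 1) (hmul : ∀ g h, P g → P h → P (g * h)) (hinv : ∀ g, P g → P g⁻¹)
    (hneg : P (-1)) (hT : P T) (hSTS : P (S * T ^ (p : ℤ) * S⁻¹))
    (hab : ∀ a b : ℤ, a * b ≡ 1 [ZMOD (p : ℤ)] → P (S * T ^ a * S * T ^ b * S))
    {γ : SL(2, ℤ)} (hγ : γ ∈ Gamma0 p) : P γ := by
  rw [← closure_gamma0Gens p] at hγ
  induction hγ using Subgroup.closure_induction with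
  | mem x hx =>
    rcases hx with rfl | rfl | rfl | ⟨a, b, h, rfl⟩
    · exact hneg
    · exact hT
    · exact hSTS
    · exact hab a b h
  | one => exact hone
  | mul x y _ _ hx hy => exact hmul x y hx hy
  | inv x _ hx => exact hinv x hx

end Main

end Fermat.Agent.S16

namespace Fermat.Agent.S16

open UpperHalfPlane
open scoped ModularForm

/-- **Invariance criterion.** A function on the upper half plane that is invariant under the
weight-`k` slash action of `-1`, `T`, `S T^p S⁻¹` and all `S T^a S T^b S` with `a b ≡ 1 mod p` is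
invariant under `Γ₀(p)`. -/
theorem slash_eq_of_mem_Gamma0 {p : ℕ} [Fact p.Prime] (k : ℤ) (f : ℍ → ℂ)
    (hneg : f ∣[k] (-1 : SL(2, ℤ)) = f) (hT : f ∣[k] (T : SL(2, ℤ)) = f)
    (hSTS : f ∣[k] (S * T ^ (p : ℤ) * S⁻¹ : SL(2, ℤ)) = f)
    (hab : ∀ a b : ℤ, a * b ≡ 1 [ZMOD (p : ℤ)] →
      f ∣[k] (S * T ^ a * S * T ^ b * S : SL(2, ℤ)) = f)
    {γ : SL(2, ℤ)} (hγ : γ ∈ Gamma0 p) : f ∣[k] γ = f := by
  refine Gamma0_induction (P := fun g : SL(2, ℤ) => f ∣[k] g = f) ?_ ?_ ?_ hneg hT hSTS hab hγ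
  · exact SlashAction.slash_one k f
  · intro g h hg hh
    show f ∣[k] (g * h) = f
    rw [SlashAction.slash_mul, hg, hh]
  · intro g hg
    show f ∣[k] g⁻¹ = f
    conv_lhs => rw [← hg]
    rw [← SlashAction.slash_mul, mul_inv_cancel, SlashAction.slash_one]

end Fermat.Agent.S16
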