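/-
S16 (A2), piece FF (helper17): invariance of `Θ_0` under `Γ₀(p)`.

A family `Θ : ZMod p × ZMod p → ℍ → ℂ` transforming under `T`, `S` by the Weil representation of the
quadratic form `q(x, y) = d x² + y²` on `𝔽_p²`,
  Θ_u ∣ T = ψ(q u) Θ_u,      Θ_u ∣ S = -p⁻¹ Σ_v ψ(b(u, v)) Θ_v      (b(u,v) = q(u+v) - q(u) - q(v)),
with Gauss sum `Σ_u ψ(a q(u)) = -p` (`a ≠ 0`), has `Θ_0` invariant under `Γ₀(p)`.
-/
import Fermat.Agent.S16.Gamma0Gen
import Fermat.Agent.S16.ThetaGauss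

set_option autoImplicit false

open UpperHalfPlane ModularGroup CongruenceSubgroup
open scoped MatrixGroups ModularForm

namespace Fermat.Agent.S16

/-- The weight-2 slash action of `-1` is trivial. -/
theorem slash_two_neg_one (f : ℍ → ℂ) : f ∣[(2 : ℤ)] (-1 : SL(2, ℤ)) = f := by
  ext τ
  rw [ModularForm.SL_slash_apply]
  have h1 : ((-1 : SL(2, ℤ)) • τ) = τ := by
    rw [ModularGroup.SL_neg_smul, one_smul]
  have h2 : denom ((-1 : SL(2, ℤ)) : GL (Fin 2) ℝ) τ = -1 := by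
    simp [denom]
  rw [h1, h2]
  norm_num

/-- Powers of `T` act on an eigenfunction of `T` by powers of the eigenvalue. -/
theorem slash_T_zpow_of_eigen (k : ℤ) (f : ℍ → ℂ) (c : ℂ) (hc : c ≠ 0)
    (hT : f ∣[k] (T : SL(2, ℤ)) = c • f) (n : ℤ) :
    f ∣[k] (T ^ n : SL(2, ℤ)) = c ^ n • f := by
  have hTinv : f ∣[k] (T⁻¹ : SL(2, ℤ)) = c⁻¹ • f := by
    have h1 : (c • f) ∣[k] (T⁻¹ : SL(2, ℤ)) = f := by
      have h0 : (f ∣[k] (T : SL(2, ℤ))) ∣[k] (T⁻¹ : SL(2, ℤ)) = f := by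
        rw [← SlashAction.slash_mul, mul_inv_cancel, SlashAction.slash_one]
      rwa [hT] at h0
    rw [ModularForm.SL_smul_slash] at h1
    conv_rhs => rw [← h1]
    rw [smul_smul, inv_mul_cancel₀ hc, one_smul]
  induction n using Int.induction_on with
  | zero => simp
  | succ n ih =>
    rw [zpow_add_one, SlashAction.slash_mul, ih, ModularForm.SL_smul_slash, hT, smul_smul,
      zpow_add_one₀ hc]
  | pred n ih =>
    rw [zpow_sub_one, SlashAction.slash_mul, ih, ModularForm.SL_smul_slash, hTinv, smul_smul,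
      zpow_sub_one₀ hc]

section Weil

variable (p : ℕ) [Fact p.Prime]

/-- The quadratic form `d x² + y²` on `𝔽_p²`. -/
def weilQ (d : ZMod p) (u : ZMod p × ZMod p) : ZMod p := d * u.1 ^ 2 + u.2 ^ 2

/-- Its polar form `2 (d x x' + y y')`. -/
def weilB (d : ZMod p) (u v : ZMod p × ZMod p) : ZMod p := 2 * (d * u.1 * v.1 + u.2 * v.2)

variable {p}

theorem weilQ_add (d : ZMod p) (u v : ZMod p × ZMod p) :
    weilQ p d (u + v) = weilQ p d u + weilQ p d v + weilB p d u v := by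
  simp only [weilQ, weilB, Prod.fst_add, Prod.snd_add]
  ring

theorem weilQ_smul (d c : ZMod p) (u : ZMod p × ZMod p) :
    weilQ p d (c • u) = c ^ 2 * weilQ p d u := by
  simp only [weilQ, Prod.smul_fst, Prod.smul_snd, smul_eq_mul]
  ring

theorem weilB_smul_right (d c : ZMod p) (u v : ZMod p × ZMod p) :
    weilB p d u (c • v) = c * weilB p d u v := by
  simp only [weilB, Prod.smul_fst, Prod.smul_snd, smul_eq_mul]
  ring

theorem weilB_zero_left (d : ZMod p) (v : ZMod p × ZMod p) : weilB p d 0 v = 0 := by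
  simp [weilB]

theorem weilQ_zero (d : ZMod p) : weilQ p d 0 = 0 := by
  simp [weilQ]

/-- The Weil representation hypotheses on a family `Θ`. -/
structure WeilFamily (p : ℕ) [Fact p.Prime] (d : ZMod p) (Θ : ZMod p × ZMod p → ℍ → ℂ) : Prop where
  slash_T : ∀ u, Θ u ∣[(2 : ℤ)] (T : SL(2, ℤ)) = (ZMod.stdAddChar (weilQ p d u) : ℂ) • Θ u
  slash_S : ∀ u, Θ u ∣[(2 : ℤ)] (S : SL(2, ℤ)) =
    (-(p : ℂ)⁻¹) • ∑ v, (ZMod.stdAddChar (weilB p d u v) : ℂ) • Θ v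

variable {d : ZMod p} {Θ : ZMod p × ZMod p → ℍ → ℂ}

theorem stdAddChar_ne_zero' (x : ZMod p) : (ZMod.stdAddChar x : ℂ) ≠ 0 := by
  intro h
  have h1 : (ZMod.stdAddChar (x + -x) : ℂ) = 1 := by
    rw [add_neg_cancel, AddChar.map_zero_eq_one]
  rw [AddChar.map_add_eq_mul, h, zero_mul] at h1
  exact zero_ne_one h1

theorem WeilFamily.slash_T_zpow (hΘ : WeilFamily p d Θ) (n : ℤ) (u : ZMod p × ZMod p) :
    Θ u ∣[(2 : ℤ)] (T ^ n : SL(2, ℤ)) = (ZMod.stdAddChar ((n : ZMod p) * weilQ p d u) : ℂ) • Θ u := by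
  rw [slash_T_zpow_of_eigen 2 (Θ u) _ (stdAddChar_ne_zero' _) (hΘ.slash_T u) n]
  congr 1
  rw [← AddChar.map_zsmul_eq_zpow]
  congr 1
  simp [zsmul_eq_mul]

/-- Action of `T ^ n` on linear combinations. -/
theorem WeilFamily.comb_slash_T (hΘ : WeilFamily p d Θ) (n : ℤ) (f : ZMod p × ZMod p → ℂ) :
    (∑ u, f u • Θ u) ∣[(2 : ℤ)] (T ^ n : SL(2, ℤ)) =
      ∑ u, (f u * (ZMod.stdAddChar ((n : ZMod p) * weilQ p d u) : ℂ)) • Θ u := by
  rw [SlashAction.sum_slash]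
  refine Finset.sum_congr rfl fun u _ => ?_
  rw [ModularForm.SL_smul_slash, hΘ.slash_T_zpow, smul_smul]

/-- Action of `S` on linear combinations. -/
theorem WeilFamily.comb_slash_S (hΘ : WeilFamily p d Θ) (f : ZMod p × ZMod p → ℂ) :
    (∑ u, f u • Θ u) ∣[(2 : ℤ)] (S : SL(2, ℤ)) =
      ∑ v, ((-(p : ℂ)⁻¹) * ∑ u, f u * (ZMod.stdAddChar (weilB p d u v) : ℂ)) • Θ v := by
  rw [SlashAction.sum_slash]
  simp_rw [ModularForm.SL_smul_slash, hΘ.slash_S, Finset.smul_sum, smul_smul]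
  rw [Finset.sum_comm]
  refine Finset.sum_congr rfl fun v _ => ?_
  rw [← Finset.sum_smul]
  congr 1
  rw [Finset.mul_sum]
  refine Finset.sum_congr rfl fun u _ => ?_
  ring

theorem theta_zero_eq_comb (Θ : ZMod p × ZMod p → ℍ → ℂ) :
    Θ 0 = ∑ u, (if u = 0 then (1 : ℂ) else 0) • Θ u := by
  classical
  simp [Finset.sum_ite_eq']

/-- `Θ_0 ∣ S = -p⁻¹ Σ_v Θ_v`. -/
theorem WeilFamily.zero_slash_S (hΘ : WeilFamily p d Θ) :
    Θ 0 ∣[(2 : ℤ)] (S : SL(2, ℤ)) = ∑ v, (-(p : ℂ)⁻¹) • Θ v := by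
  rw [hΘ.slash_S, Finset.smul_sum]
  refine Finset.sum_congr rfl fun v _ => ?_
  rw [weilB_zero_left, AddChar.map_zero_eq_one, one_smul]

/-- Invariance under `S T^p S⁻¹`. -/
theorem WeilFamily.slash_STpS (hΘ : WeilFamily p d Θ) :
    Θ 0 ∣[(2 : ℤ)] (S * T ^ (p : ℤ) * S⁻¹ : SL(2, ℤ)) = Θ 0 := by
  rw [SlashAction.slash_mul, SlashAction.slash_mul, hΘ.zero_slash_S, hΘ.comb_slash_T]
  have h : ∀ u : ZMod p × ZMod p,
      ((-(p : ℂ)⁻¹) * (ZMod.stdAddChar (((p : ℤ) : ZMod p) * weilQ p d u) : ℂ)) = -(p : ℂ)⁻¹ := by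
    intro u
    have : ((p : ℤ) : ZMod p) = 0 := by simp
    rw [this, zero_mul, AddChar.map_zero_eq_one, mul_one]
  simp_rw [h]
  rw [← hΘ.zero_slash_S, ← SlashAction.slash_mul, mul_inv_cancel, SlashAction.slash_one]

/-- Invariance under `S T^a S T^b S`, `a b ≡ 1 mod p`, given the Gauss sums. -/
theorem WeilFamily.slash_STSTS (hΘ : WeilFamily p d Θ)
    (hG : ∀ a : ZMod p, a ≠ 0 → ∑ u : ZMod p × ZMod p, (ZMod.stdAddChar (a * weilQ p d u) : ℂ) =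
      -(p : ℂ))
    (hN : ∀ r : ZMod p × ZMod p, ∑ m : ZMod p × ZMod p, (ZMod.stdAddChar (weilB p d m r) : ℂ) =
      if r = 0 then (p : ℂ) ^ 2 else 0)
    (a b : ℤ) (hab : a * b ≡ 1 [ZMOD (p : ℤ)]) :
    Θ 0 ∣[(2 : ℤ)] (S * T ^ a * S * T ^ b * S : SL(2, ℤ)) = Θ 0 := by
  classical
  have hp0 : (p : ℂ) ≠ 0 := Nat.cast_ne_zero.mpr (Fact.out : p.Prime).ne_zero
  have hab' : (a : ZMod p) * (b : ZMod p) = 1 := by
    have := (ZMod.intCast_eq_intCast_iff (a * b) 1 p).mpr hab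
    simpa using this
  have ha0 : (a : ZMod p) ≠ 0 := by
    intro h
    rw [h, zero_mul] at hab'
    exact zero_ne_one hab'
  rw [SlashAction.slash_mul, SlashAction.slash_mul, SlashAction.slash_mul, SlashAction.slash_mul,
    hΘ.zero_slash_S, hΘ.comb_slash_T, hΘ.comb_slash_S, hΘ.comb_slash_T, hΘ.comb_slash_S]
  conv_rhs => rw [theta_zero_eq_comb Θ]
  refine Finset.sum_congr rfl fun r _ => ?_
  congr 1
  -- the coefficient of `Θ_r`
  have key : ∀ w : ZMod p × ZMod p,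
      (-(p : ℂ)⁻¹ * ∑ v, -(p : ℂ)⁻¹ * (ZMod.stdAddChar ((a : ZMod p) * weilQ p d v) : ℂ) *
          (ZMod.stdAddChar (weilB p d v w) : ℂ)) *
        (ZMod.stdAddChar ((b : ZMod p) * weilQ p d w) : ℂ) = -(p : ℂ)⁻¹ := by
    intro w
    have h1 : ∀ v : ZMod p × ZMod p,
        -(p : ℂ)⁻¹ * (ZMod.stdAddChar ((a : ZMod p) * weilQ p d v) : ℂ) *
          (ZMod.stdAddChar (weilB p d v w) : ℂ) * (ZMod.stdAddChar ((b : ZMod p) * weilQ p d w) : ℂ)
        = -(p : ℂ)⁻¹ * (ZMod.stdAddChar ((a : ZMod p) * weilQ p d (v + (b : ZMod p) • w)) : ℂ) := by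
      intro v
      rw [mul_assoc, mul_assoc, ← AddChar.map_add_eq_mul, ← AddChar.map_add_eq_mul]
      congr 2
      rw [weilQ_add, weilQ_smul, weilB_smul_right]
      linear_combination (-(weilB p d v w) - (b : ZMod p) * weilQ p d w) * hab'
    rw [mul_assoc, Finset.sum_mul]
    simp_rw [h1]
    rw [← Finset.mul_sum]
    have h2 : ∑ v : ZMod p × ZMod p,
        (ZMod.stdAddChar ((a : ZMod p) * weilQ p d (v + (b : ZMod p) • w)) : ℂ) = -(p : ℂ) := by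
      rw [← hG (a : ZMod p) ha0]
      exact Fintype.sum_equiv (Equiv.addRight ((b : ZMod p) • w)) _ _ (fun v => rfl)
    rw [h2]
    field_simp
  simp_rw [key]
  rw [← Finset.mul_sum, hN r]
  split_ifs with hr
  · field_simp
  · simp

/-- **Invariance of `Θ_0` under `Γ₀(p)`.** -/
theorem WeilFamily.slash_Gamma0 (hΘ : WeilFamily p d Θ)
    (hG : ∀ a : ZMod p, a ≠ 0 → ∑ u : ZMod p × ZMod p, (ZMod.stdAddChar (a * weilQ p d u) : ℂ) =
      -(p : ℂ))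
    (hN : ∀ r : ZMod p × ZMod p, ∑ m : ZMod p × ZMod p, (ZMod.stdAddChar (weilB p d m r) : ℂ) =
      if r = 0 then (p : ℂ) ^ 2 else 0)
    {γ : SL(2, ℤ)} (hγ : γ ∈ Gamma0 p) : Θ 0 ∣[(2 : ℤ)] γ = Θ 0 := by
  refine slash_eq_of_mem_Gamma0 2 (Θ 0) (slash_two_neg_one _) ?_ hΘ.slash_STpS
    (fun a b hab => hΘ.slash_STSTS hG hN a b hab) hγ
  rw [hΘ.slash_T, weilQ_zero, AddChar.map_zero_eq_one, one_smul]

/-- **Invariance of `Θ_0` under `Γ₀(p)`** (`p` odd, `-d` a non-square mod `p`). -/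
theorem WeilFamily.slash_Gamma0_of_nonsquare (hp2 : p ≠ 2) (hd : ¬ IsSquare (-d))
    (hΘ : WeilFamily p d Θ) {γ : SL(2, ℤ)} (hγ : γ ∈ Gamma0 p) : Θ 0 ∣[(2 : ℤ)] γ = Θ 0 := by
  have hd0 : d ≠ 0 := by
    rintro rfl
    exact hd ⟨0, by simp⟩
  refine hΘ.slash_Gamma0 (fun a ha => ?_) (fun r => ?_) hγ
  · rw [Fintype.sum_prod_type]
    exact gauss_quad_sum p hp2 d a ha hd
  · exact sum_bilin_char p hp2 d hd0 r

end Weil

end Fermat.Agent.S16
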