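import Mathlib

/-!
# S16 (A2), piece MF: from a finite family of functions to a modular form on `Γ₀(p)`

Let `Θ : ι → ℍ → ℂ` be a family of functions on the upper half plane, each bounded at `i∞`, whose
span is stable under the weight `k` slash action of the two generators `S` and `T` of `SL(2, ℤ)`.
Then the span is stable under all of `SL(2, ℤ)`, so every `SL(2, ℤ)`-translate of a member of the
family is bounded at `i∞`.  Hence a holomorphic member of the family which is invariant under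
`Γ₀(p)` is a modular form on `Γ₀(p)`.

* `Fermat.Agent.S16.mf_slash_mem_span` : stability of the span under `SL(2, ℤ)`;
* `Fermat.Agent.S16.mf_isBoundedAtImInfty_slash` : boundedness of all translates;
* `Fermat.Agent.S16.exists_modularForm_of_family` : the modular form;
* `Fermat.Agent.S16.qExpansion_coeff_of_hasSum` : the `q`-expansion from a pointwise expansion;
* `Fermat.Agent.S16.stmtTheta_of_family` : the combination, in the shape of `StmtTheta p`.
-/

set_option autoImplicit false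

open Matrix Matrix.SpecialLinearGroup ModularGroup CongruenceSubgroup UpperHalfPlane ModularForm
open scoped MatrixGroups Manifold Real

namespace Fermat.Agent.S16

/-! ### Relations in `SL(2, ℤ)` -/

/-- `S⁻¹ = S³` in `SL(2, ℤ)`. -/
theorem mf_S_inv_eq : (S : SL(2, ℤ))⁻¹ = S * S * S := by
  ext i j
  fin_cases i <;> fin_cases j <;>
    simp [coe_S, Matrix.mul_apply, Fin.sum_univ_two, Matrix.adjugate_fin_two]

/-- `T⁻¹ = S³ T S T S` in `SL(2, ℤ)` (from `(S T)³ = -1 = S²`). -/
theorem mf_T_inv_eq : (T : SL(2, ℤ))⁻¹ = S * S * S * T * S * T * S := by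
  ext i j
  fin_cases i <;> fin_cases j <;>
    simp [coe_S, coe_T, Matrix.mul_apply, Fin.sum_univ_two, Matrix.adjugate_fin_two]

/-! ### The slash operator as a linear map -/

/-- The weight `k` slash operator of `γ ∈ SL(2, ℤ)` as a `ℂ`-linear map on functions. -/
noncomputable def mfSlashLin (k : ℤ) (γ : SL(2, ℤ)) : (ℍ → ℂ) →ₗ[ℂ] (ℍ → ℂ) where
  toFun f := f ∣[k] γ
  map_add' f g := SlashAction.add_slash k γ f g
  map_smul' c f := by
    simp only [RingHom.id_apply]
    exact ModularForm.SL_smul_slash k γ f c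

@[simp] theorem mfSlashLin_apply (k : ℤ) (γ : SL(2, ℤ)) (f : ℍ → ℂ) :
    mfSlashLin k γ f = f ∣[k] γ := rfl

section family

variable {ι : Type*} (k : ℤ) (Θ : ι → ℍ → ℂ)

/-- If the slash operator of `γ` maps each member of the family into the span, it maps the span
into itself. -/
theorem mf_slash_mem_span_of_forall (γ : SL(2, ℤ))
    (h : ∀ i, Θ i ∣[k] γ ∈ Submodule.span ℂ (Set.range Θ)) {f : ℍ → ℂ}
    (hf : f ∈ Submodule.span ℂ (Set.range Θ)) :
    f ∣[k] γ ∈ Submodule.span ℂ (Set.range Θ) := by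
  have hle : Submodule.span ℂ (Set.range Θ) ≤
      (Submodule.span ℂ (Set.range Θ)).comap (mfSlashLin k γ) := by
    rw [Submodule.span_le]
    rintro _ ⟨i, rfl⟩
    exact h i
  exact hle hf

/-- **Stability of the span.**  If the span of the family is stable under the slash operators
of `S` and `T`, it is stable under all of `SL(2, ℤ)`. -/
theorem mf_slash_mem_span
    (hS : ∀ i, Θ i ∣[k] S ∈ Submodule.span ℂ (Set.range Θ))
    (hT : ∀ i, Θ i ∣[k] T ∈ Submodule.span ℂ (Set.range Θ))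
    (γ : SL(2, ℤ)) {f : ℍ → ℂ} (hf : f ∈ Submodule.span ℂ (Set.range Θ)) :
    f ∣[k] γ ∈ Submodule.span ℂ (Set.range Θ) := by
  have hS' : ∀ {f : ℍ → ℂ}, f ∈ Submodule.span ℂ (Set.range Θ) →
      f ∣[k] S ∈ Submodule.span ℂ (Set.range Θ) :=
    fun hf => mf_slash_mem_span_of_forall k Θ S hS hf
  have hT' : ∀ {f : ℍ → ℂ}, f ∈ Submodule.span ℂ (Set.range Θ) →
      f ∣[k] T ∈ Submodule.span ℂ (Set.range Θ) :=
    fun hf => mf_slash_mem_span_of_forall k Θ T hT hf
  have hγ : γ ∈ Subgroup.closure ({S, T} : Set SL(2, ℤ)) := by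
    rw [SpecialLinearGroup.SL2Z_generators]
    exact Subgroup.mem_top γ
  revert f
  induction hγ using Subgroup.closure_induction'' with
  | mem x hx =>
    intro f hf
    rcases hx with rfl | rfl
    · exact hS' hf
    · exact hT' hf
  | inv_mem x hx =>
    intro f hf
    rcases hx with rfl | rfl
    · rw [mf_S_inv_eq, SlashAction.slash_mul, SlashAction.slash_mul]
      exact hS' (hS' (hS' hf))
    · rw [mf_T_inv_eq]
      simp only [SlashAction.slash_mul]
      exact hS' (hT' (hS' (hT' (hS' (hS' (hS' hf))))))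
  | one =>
    intro f hf
    rw [SlashAction.slash_one]
    exact hf
  | mul x y _ _ hx hy =>
    intro f hf
    rw [SlashAction.slash_mul]
    exact hy (hx hf)

/-- Members of the span of a family of functions bounded at `i∞` are bounded at `i∞`. -/
theorem mf_isBoundedAtImInfty_of_mem_span (bdd : ∀ i, IsBoundedAtImInfty (Θ i)) {f : ℍ → ℂ}
    (hf : f ∈ Submodule.span ℂ (Set.range Θ)) : IsBoundedAtImInfty f := by
  induction hf using Submodule.span_induction with
  | mem x hx =>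
    obtain ⟨i, rfl⟩ := hx
    exact bdd i
  | zero => exact zero_form_isBoundedAtImInfty
  | add x y _ _ hx hy => exact Filter.BoundedAtFilter.add hx hy
  | smul c x _ hx => exact Filter.BoundedAtFilter.smul c hx

/-- **Boundedness of all translates.** -/
theorem mf_isBoundedAtImInfty_slash (bdd : ∀ i, IsBoundedAtImInfty (Θ i))
    (hS : ∀ i, Θ i ∣[k] S ∈ Submodule.span ℂ (Set.range Θ))
    (hT : ∀ i, Θ i ∣[k] T ∈ Submodule.span ℂ (Set.range Θ))
    (γ : SL(2, ℤ)) {f : ℍ → ℂ} (hf : f ∈ Submodule.span ℂ (Set.range Θ)) :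
    IsBoundedAtImInfty (f ∣[k] γ) :=
  mf_isBoundedAtImInfty_of_mem_span Θ bdd (mf_slash_mem_span k Θ hS hT γ hf)

/-- A finite linear combination of the family lies in its span. -/
theorem mf_sum_smul_mem_span [Fintype ι] (c : ι → ℂ) :
    ∑ j, c j • Θ j ∈ Submodule.span ℂ (Set.range Θ) :=
  Submodule.sum_mem _ fun j _ => Submodule.smul_mem _ _ (Submodule.subset_span ⟨j, rfl⟩)

/-- **The modular form attached to a family (span form).**  A holomorphic `Γ`-invariant member of
the span of a family of functions bounded at `i∞` whose span is stable under `S` and `T` is a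
modular form of level `Γ₀(N)`. -/
theorem exists_modularForm_of_mem_span (N : ℕ) [NeZero N] (f : ℍ → ℂ)
    (hf : f ∈ Submodule.span ℂ (Set.range Θ)) (hol : MDiff f)
    (bdd : ∀ i, IsBoundedAtImInfty (Θ i))
    (hS : ∀ i, Θ i ∣[k] S ∈ Submodule.span ℂ (Set.range Θ))
    (hT : ∀ i, Θ i ∣[k] T ∈ Submodule.span ℂ (Set.range Θ))
    (hinv : ∀ γ ∈ Gamma0 N, f ∣[k] γ = f) :
    ∃ G : ModularForm (Gamma0 N) k, ⇑G = f := by
  refine ⟨{ toFun := f
            slash_action_eq' := ?_
            holo' := hol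
            bdd_at_cusps' := ?_ }, rfl⟩
  · rintro γ ⟨γ', hγ', rfl⟩
    exact hinv γ' hγ'
  · intro c hc
    rw [Subgroup.IsArithmetic.isCusp_iff_isCusp_SL2Z] at hc
    rw [OnePoint.isBoundedAt_iff_forall_SL2Z hc]
    intro γ _
    exact mf_isBoundedAtImInfty_slash k Θ bdd hS hT γ hf

/-- **The modular form attached to a family.**  Let `Θ` be a finite family of functions on `ℍ`,
bounded at `i∞`, such that `Θ i ∣[k] S` and `Θ i ∣[k] T` are linear combinations of the family.
If `Θ i₀` is holomorphic and invariant under `Γ₀(N)`, it is a modular form of level `Γ₀(N)`. -/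
theorem exists_modularForm_of_family (N : ℕ) [NeZero N] [Fintype ι] (i₀ : ι)
    (hol : MDiff (Θ i₀)) (bdd : ∀ i, IsBoundedAtImInfty (Θ i))
    (hS : ∀ i, ∃ c : ι → ℂ, Θ i ∣[k] S = ∑ j, c j • Θ j)
    (hT : ∀ i, ∃ c : ι → ℂ, Θ i ∣[k] T = ∑ j, c j • Θ j)
    (hinv : ∀ γ ∈ Gamma0 N, Θ i₀ ∣[k] γ = Θ i₀) :
    ∃ G : ModularForm (Gamma0 N) k, ⇑G = Θ i₀ := by
  refine exists_modularForm_of_mem_span k Θ N (Θ i₀) (Submodule.subset_span ⟨i₀, rfl⟩) hol bdd
    (fun i => ?_) (fun i => ?_) hinv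
  · obtain ⟨c, hc⟩ := hS i
    rw [hc]
    exact mf_sum_smul_mem_span Θ c
  · obtain ⟨c, hc⟩ := hT i
    rw [hc]
    exact mf_sum_smul_mem_span Θ c

end family

/-! ### The `q`-expansion -/

theorem mf_one_mem_strictPeriods_Gamma0 (N : ℕ) :
    (1 : ℝ) ∈ (Subgroup.map (Matrix.SpecialLinearGroup.mapGL ℝ) (Gamma0 N)).strictPeriods := by
  have hT : ModularGroup.T ∈ Gamma0 N := by
    rw [CongruenceSubgroup.Gamma0_mem]
    simp [ModularGroup.T]
  rw [Subgroup.strictPeriods_eq_zmultiples_one_of_T_mem hT]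
  exact AddSubgroup.mem_zmultiples (1 : ℝ)

/-- `𝕢 1 τ ^ n = exp (2 π i n τ)`. -/
theorem mf_qParam_pow (τ : ℂ) (n : ℕ) :
    Function.Periodic.qParam 1 τ ^ n = Complex.exp (2 * π * Complex.I * n * τ) := by
  simp only [Function.Periodic.qParam, Complex.ofReal_one, div_one]
  rw [← Complex.exp_nat_mul]
  congr 1
  ring

/-- **The `q`-expansion from a pointwise expansion.**  If `G τ = ∑ a n exp (2 π i n τ)` for all
`τ`, then the `a n` are the `q`-expansion coefficients of `G`. -/
theorem qExpansion_coeff_of_hasSum (N : ℕ) (k : ℤ) (G : ModularForm (Gamma0 N) k) (a : ℕ → ℂ)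
    (h : ∀ τ : ℍ, HasSum (fun n : ℕ => a n * Complex.exp (2 * π * Complex.I * n * τ)) (G τ))
    (n : ℕ) : (qExpansion 1 G).coeff n = a n := by
  have := ModularFormClass.qExpansion_coeff_unique (f := G) (c := a) one_pos
    (mf_one_mem_strictPeriods_Gamma0 N)
    (fun τ => by
      have h1 := h τ
      have e : (fun m : ℕ => a m • Function.Periodic.qParam 1 (τ : ℂ) ^ m) =
          fun n : ℕ => a n * Complex.exp (2 * π * Complex.I * n * τ) := by
        funext m
        rw [mf_qParam_pow, smul_eq_mul]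
      rw [e]
      exact h1) n
  exact this.symm

/-- **`StmtTheta` from a family.**  The conclusion is (definitionally) `StmtTheta p`. -/
theorem stmtTheta_of_family (p : ℕ) [NeZero p] {ι : Type*} [Fintype ι] (Θ : ι → ℍ → ℂ) (i₀ : ι)
    (hol : MDiff (Θ i₀)) (bdd : ∀ i, IsBoundedAtImInfty (Θ i))
    (hS : ∀ i, ∃ c : ι → ℂ, Θ i ∣[(2 : ℤ)] S = ∑ j, c j • Θ j)
    (hT : ∀ i, ∃ c : ι → ℂ, Θ i ∣[(2 : ℤ)] T = ∑ j, c j • Θ j)
    (hinv : ∀ γ ∈ Gamma0 p, Θ i₀ ∣[(2 : ℤ)] γ = Θ i₀)
    (a : ℕ → ℂ)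
    (hsum : ∀ τ : ℍ, HasSum (fun n : ℕ => a n * Complex.exp (2 * π * Complex.I * n * τ))
      (Θ i₀ τ))
    (ha0 : a 0 = 1) (ha : ∀ n : ℕ, 1 ≤ n → ∃ m : ℤ, a n = 2 * (m : ℂ)) :
    ∃ G : ModularForm (Gamma0 p) 2, (qExpansion 1 G).coeff 0 = 1 ∧
      ∀ n : ℕ, 1 ≤ n → ∃ m : ℤ, (qExpansion 1 G).coeff n = 2 * (m : ℂ) := by
  obtain ⟨G, hG⟩ := exists_modularForm_of_family (2 : ℤ) Θ p i₀ hol bdd hS hT hinv
  have hq : ∀ n, (qExpansion 1 G).coeff n = a n :=
    qExpansion_coeff_of_hasSum p 2 G a (fun τ => by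
      have : G τ = Θ i₀ τ := congrFun hG τ
      rw [this]
      exact hsum τ)
  refine ⟨G, ?_, fun n hn => ?_⟩
  · rw [hq, ha0]
  · obtain ⟨m, hm⟩ := ha n hn
    exact ⟨m, by rw [hq, hm]⟩

end Fermat.Agent.S16
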