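import Fermat.Agent.S16.ThetaFF

/-!
# S16 (A2): the Fourier count `|H| · (|P| · |H|) = |𝔊|`
-/

set_option autoImplicit false

namespace Fermat.Agent.S16

theorem ff_card_sq {𝔊 : Type*} [AddCommGroup 𝔊] [Fintype 𝔊] [DecidableEq 𝔊] (β : 𝔊 → 𝔊 → ℂ)
    (hβl : ∀ a b j, β (a + b) j = β a j * β b j) (hβ0 : ∀ j, β 0 j = 1)
    (hβr : ∀ j a b, β j (a + b) = β j a * β j b)
    (hnd : ∀ g, g ≠ 0 → ∑ g', β g g' = 0)
    (H : Finset 𝔊) (h0 : (0 : 𝔊) ∈ H) (hadd : ∀ a ∈ H, ∀ b ∈ H, a + b ∈ H) (hneg : ∀ a ∈ H, -a ∈ H)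
    (hHH : ∀ a ∈ H, ∀ b ∈ H, β a b = 1)
    {P : Type*} [Fintype P] (ι : P → 𝔊) (hιH : ∀ u, ∀ h ∈ H, β h (ι u) = 1)
    (hperp : ∀ j, (∀ h ∈ H, β h j = 1) → ∃ u, ∃ h ∈ H, j = ι u + h)
    (hinj : ∀ u v, ι u - ι v ∈ H → u = v) :
    H.card * (Fintype.card P * H.card) = Fintype.card 𝔊 := by
  classical
  -- character sums over `H`
  have hA : ∀ j, ∑ h ∈ H, β h j = if ∀ h ∈ H, β h j = 1 then (H.card : ℂ) else 0 := by
    intro j
    split_ifs with hj
    · rw [Finset.sum_congr rfl hj]; simp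
    · have hj' : ∃ h₀ ∈ H, β h₀ j ≠ 1 := by
        by_contra hcon
        exact hj fun h hh => by_contra fun hne => hcon ⟨h, hh, hne⟩
      obtain ⟨h₀, h₀H, h₀j⟩ := hj'
      exact ff_sum_eq_zero β hβl H hadd hneg j h₀H h₀j
  -- the image of `P × H`
  let g : P × 𝔊 → 𝔊 := fun x => ι x.1 + x.2
  have hginj : ∀ x ∈ (Finset.univ : Finset P) ×ˢ H, ∀ y ∈ (Finset.univ : Finset P) ×ˢ H,
      g x = g y → x = y := by
    rintro ⟨u, h⟩ hx ⟨v, h'⟩ hy hxy
    simp only [Finset.mem_product, Finset.mem_univ, true_and] at hx hy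
    simp only [g] at hxy
    have huv : u = v := by
      apply hinj
      have : ι u - ι v = h' + -h := by
        have h1 : ι u = ι v + h' - h := eq_sub_of_add_eq hxy
        rw [h1]; abel
      rw [this]
      exact hadd _ hy _ (hneg _ hx)
    subst huv
    have : h = h' := add_left_cancel hxy
    rw [this]
  have himg : (Finset.univ.filter fun j => ∀ h ∈ H, β h j = 1) =
      ((Finset.univ : Finset P) ×ˢ H).image g := by
    ext j
    simp only [Finset.mem_filter, Finset.mem_univ, true_and, Finset.mem_image,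
      Finset.mem_product, Prod.exists, g]
    constructor
    · intro hj
      obtain ⟨u, h, hh, rfl⟩ := hperp j hj
      exact ⟨u, h, hh, rfl⟩
    · rintro ⟨u, h, hh, rfl⟩ h' hh'
      rw [hβr, hιH u h' hh', hHH h' hh' h hh, mul_one]
  have hcard : (Finset.univ.filter fun j => ∀ h ∈ H, β h j = 1).card =
      Fintype.card P * H.card := by
    rw [himg, Finset.card_image_of_injOn (fun x hx y hy hxy => hginj x hx y hy hxy),
      Finset.card_product, Finset.card_univ]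
  -- first evaluation
  have h1 : ∑ j : 𝔊, ∑ h ∈ H, β h j = (H.card : ℂ) * ((Fintype.card P * H.card : ℕ) : ℂ) := by
    simp_rw [hA]
    rw [← Finset.sum_filter, Finset.sum_const, hcard, nsmul_eq_mul, mul_comm]
  -- second evaluation
  have h2 : ∑ j : 𝔊, ∑ h ∈ H, β h j = (Fintype.card 𝔊 : ℂ) := by
    rw [Finset.sum_comm]
    rw [Finset.sum_eq_single_of_mem (0 : 𝔊) h0]
    · simp [hβ0]
    · intro b _ hb
      exact hnd b hb
  have h3 : ((H.card * (Fintype.card P * H.card) : ℕ) : ℂ) = ((Fintype.card 𝔊 : ℕ) : ℂ) := by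
    rw [← h2, h1]
    push_cast
    ring
  exact_mod_cast h3

end Fermat.Agent.S16
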