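import Fermat.Agent.S16.ThetaLatDefs
import Fermat.Agent.S16.ThetaInv

/-!
# S16 (A2): the characters `zchi`, `zbeta` at the representatives `latIota`, and `∏ √(2 m_i) = 4pd`
-/

set_option autoImplicit false

open Complex Real

namespace Fermat.Agent.S16

variable (p d : ℕ) [Fact p.Prime] [NeZero d]

lemma thQ_latNu (x y : ℤ) :
    thQ (latM p d) (latNu d x y) = (((d * x ^ 2 + y ^ 2 : ℤ) : ℂ)) / p := by
  have hp : (p : ℂ) ≠ 0 := Nat.cast_ne_zero.mpr (Fact.out : p.Prime).ne_zero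
  have hd : (d : ℂ) ≠ 0 := Nat.cast_ne_zero.mpr (NeZero.ne d)
  unfold thQ latNu
  rw [Fin.sum_univ_four]
  simp only [latM_zero, latM_one, latM_two, latM_three, Matrix.cons_val_zero, Matrix.cons_val_one,
    Matrix.cons_val_two, Matrix.cons_val_three, Matrix.head_cons, Matrix.tail_cons]
  push_cast
  field_simp
  ring

lemma thB_latNu (x y x' y' : ℤ) :
    thB (latM p d) (latNu d x y) (latNu d x' y') =
      (((2 * (d * x * x' + y * y') : ℤ) : ℂ)) / p := by
  have hp : (p : ℂ) ≠ 0 := Nat.cast_ne_zero.mpr (Fact.out : p.Prime).ne_zero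
  have hd : (d : ℂ) ≠ 0 := Nat.cast_ne_zero.mpr (NeZero.ne d)
  unfold thB latNu
  rw [Fin.sum_univ_four]
  simp only [latM_zero, latM_one, latM_two, latM_three, Matrix.cons_val_zero, Matrix.cons_val_one,
    Matrix.cons_val_two, Matrix.cons_val_three, Matrix.head_cons, Matrix.tail_cons]
  push_cast
  field_simp
  ring

theorem zchi_latIota (u : ZMod p × ZMod p) :
    zchi (latM p d) (latIota p d u) = (ZMod.stdAddChar (weilQ p (d : ZMod p) u) : ℂ) := by
  unfold latIota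
  rw [zchi_zproj, thQ_latNu]
  have h : weilQ p (d : ZMod p) u =
      (((d * (u.1.val : ℤ) ^ 2 + (u.2.val : ℤ) ^ 2 : ℤ)) : ZMod p) := by
    unfold weilQ
    push_cast
    rw [ZMod.natCast_zmod_val, ZMod.natCast_zmod_val]
  rw [h, ZMod.stdAddChar_coe]
  congr 1
  ring

theorem zbeta_latIota (u v : ZMod p × ZMod p) :
    zbeta (latM p d) (latIota p d u) (latIota p d v) =
      (ZMod.stdAddChar (weilB p (d : ZMod p) u v) : ℂ) := by
  unfold latIota
  rw [zbeta_zproj, thB_latNu]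
  have h : weilB p (d : ZMod p) u v =
      (((2 * (d * (u.1.val : ℤ) * (v.1.val : ℤ) + (u.2.val : ℤ) * (v.2.val : ℤ)) : ℤ)) :
        ZMod p) := by
    unfold weilB
    push_cast
    rw [ZMod.natCast_zmod_val, ZMod.natCast_zmod_val, ZMod.natCast_zmod_val,
      ZMod.natCast_zmod_val]
  rw [h, ZMod.stdAddChar_coe]
  congr 1
  ring

omit [Fact p.Prime] [NeZero d] in
theorem latM_prod_sqrt : ∏ i, ((√(2 * latM p d i : ℝ) : ℝ) : ℂ) = 4 * p * d := by
  rw [Fin.prod_univ_four]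
  simp only [latM_zero, latM_one, latM_two, latM_three]
  rw [← Complex.ofReal_mul, ← Complex.ofReal_mul, ← Complex.ofReal_mul]
  have hp : (0 : ℝ) ≤ p := Nat.cast_nonneg p
  have hd : (0 : ℝ) ≤ d := Nat.cast_nonneg d
  have h : √(2 * (d : ℝ)) * √(2 * ((1 : ℕ) : ℝ)) * √(2 * ((p * d : ℕ) : ℝ)) * √(2 * (p : ℝ)) =
      4 * p * d := by
    rw [← Real.sqrt_mul (by positivity), ← Real.sqrt_mul (by positivity),
      ← Real.sqrt_mul (by positivity)]
    have e : 2 * (d : ℝ) * (2 * ((1 : ℕ) : ℝ)) * (2 * ((p * d : ℕ) : ℝ)) * (2 * (p : ℝ)) =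
        (4 * p * d) ^ 2 := by
      push_cast
      ring
    rw [e, Real.sqrt_sq (by positivity)]
  rw [h]
  push_cast
  ring

end Fermat.Agent.S16
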