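/-
S16 (A2), piece FF (helper17): abstract finite Fourier analysis for theta functions.

A family `ϑ : 𝔊 → ℍ → ℂ` indexed by a finite abelian group with
  (T)  ϑ_j ∣ T = χ(j) ϑ_j,      (S)  ϑ_j ∣ S = c Σ_{j'} β(j, j') ϑ_{j'}
(`β` a bicharacter, `χ(a + b) = χ(a) χ(b) β(a, b)`), an isotropic subgroup `H` (`χ = 1` on `H`) and
representatives `ι : P → 𝔊` of `H^⊥ / H` give the family `Θ_u = Σ_{h ∈ H} ϑ_{ι u + h}` with
  (T')  Θ_u ∣ T = χ(ι u) Θ_u,   (S')  Θ_u ∣ S = c |H| Σ_v β(ι u, ι v) Θ_v.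
-/
import Mathlib.NumberTheory.ModularForms.SlashActions
import Mathlib.NumberTheory.ModularForms.CongruenceSubgroups

set_option autoImplicit false

open UpperHalfPlane ModularGroup
open scoped MatrixGroups ModularForm

namespace Fermat.Agent.S16

section FiniteFourier

variable {𝔊 : Type*} [AddCommGroup 𝔊]

/-- `χ` is trivial on `H` implies `β` is trivial on `H × H` (values in a field, `χ ≠ 0`). -/
theorem ff_beta_eq_one_of_isotropic (χ : 𝔊 → ℂ) (β : 𝔊 → 𝔊 → ℂ)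
    (hχ : ∀ a b, χ (a + b) = χ a * χ b * β a b)
    (H : Finset 𝔊) (hadd : ∀ a ∈ H, ∀ b ∈ H, a + b ∈ H) (hH : ∀ h ∈ H, χ h = 1)
    {a b : 𝔊} (ha : a ∈ H) (hb : b ∈ H) : β a b = 1 := by
  have h := hχ a b
  rw [hH _ (hadd a ha b hb), hH a ha, hH b hb, one_mul, one_mul] at h
  exact h.symm

/-- **(T')** -/
theorem ff_slash_T (ϑ : 𝔊 → ℍ → ℂ) (χ : 𝔊 → ℂ) (β : 𝔊 → 𝔊 → ℂ)
    (hχ : ∀ a b, χ (a + b) = χ a * χ b * β a b)
    (hT : ∀ j, ϑ j ∣[(2 : ℤ)] (T : SL(2, ℤ)) = χ j • ϑ j)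
    (H : Finset 𝔊) (hH : ∀ h ∈ H, χ h = 1)
    (ν : 𝔊) (hν : ∀ h ∈ H, β ν h = 1) :
    (∑ h ∈ H, ϑ (ν + h)) ∣[(2 : ℤ)] (T : SL(2, ℤ)) = χ ν • ∑ h ∈ H, ϑ (ν + h) := by
  rw [SlashAction.sum_slash, Finset.smul_sum]
  refine Finset.sum_congr rfl fun h hh => ?_
  rw [hT, hχ, hH h hh, hν h hh, mul_one, mul_one]

/-- Orthogonality: the sum of a non-trivial character of `H` vanishes. -/
theorem ff_sum_eq_zero (β : 𝔊 → 𝔊 → ℂ)
    (hβl : ∀ a b j, β (a + b) j = β a j * β b j)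
    (H : Finset 𝔊) (hadd : ∀ a ∈ H, ∀ b ∈ H, a + b ∈ H) (hneg : ∀ a ∈ H, -a ∈ H)
    (j : 𝔊) {h₀ : 𝔊} (h₀H : h₀ ∈ H) (h₀j : β h₀ j ≠ 1) :
    ∑ h ∈ H, β h j = 0 := by
  have key : ∑ h ∈ H, β h j = β h₀ j * ∑ h ∈ H, β h j := by
    rw [Finset.mul_sum]
    refine Finset.sum_equiv (Equiv.addLeft (-h₀)) (fun h => ?_) (fun h hh => ?_)
    · constructor
      · intro hh
        exact hadd _ (hneg _ h₀H) _ hh
      · intro hh
        have := hadd _ h₀H _ hh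
        simpa using this
    · have : h = h₀ + (-h₀ + h) := by abel
      conv_lhs => rw [this]
      rw [hβl]
      rfl
  have h2 : (1 - β h₀ j) * ∑ h ∈ H, β h j = 0 := by
    rw [sub_mul, one_mul, ← key, sub_self]
  rcases mul_eq_zero.mp h2 with h | h
  · exact absurd (sub_eq_zero.mp h).symm h₀j
  · exact h

variable [Fintype 𝔊] [DecidableEq 𝔊]

/-- **(S')** -/
theorem ff_slash_S (ϑ : 𝔊 → ℍ → ℂ) (β : 𝔊 → 𝔊 → ℂ) (c : ℂ)
    (hβl : ∀ a b j, β (a + b) j = β a j * β b j)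
    (hβr : ∀ j a b, β j (a + b) = β j a * β j b)
    (hS : ∀ j, ϑ j ∣[(2 : ℤ)] (S : SL(2, ℤ)) = c • ∑ j', β j j' • ϑ j')
    (H : Finset 𝔊) (hadd : ∀ a ∈ H, ∀ b ∈ H, a + b ∈ H) (hneg : ∀ a ∈ H, -a ∈ H)
    (hHH : ∀ a ∈ H, ∀ b ∈ H, β a b = 1)
    {P : Type*} [Fintype P] (ι : P → 𝔊)
    (hιH : ∀ u, ∀ h ∈ H, β h (ι u) = 1)
    (hperp : ∀ j, (∀ h ∈ H, β h j = 1) → ∃ u, ∃ h ∈ H, j = ι u + h)
    (hinj : ∀ u v, ι u - ι v ∈ H → u = v)
    (ν : 𝔊) (hν : ∀ h ∈ H, β ν h = 1) :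
    (∑ h ∈ H, ϑ (ν + h)) ∣[(2 : ℤ)] (S : SL(2, ℤ)) =
      (c * (H.card : ℂ)) • ∑ u : P, β ν (ι u) • ∑ h ∈ H, ϑ (ι u + h) := by
  classical
  -- the left hand side as a sum over `j`
  have hL : (∑ h ∈ H, ϑ (ν + h)) ∣[(2 : ℤ)] (S : SL(2, ℤ)) =
      c • ∑ j, (β ν j * ∑ h ∈ H, β h j) • ϑ j := by
    rw [SlashAction.sum_slash]
    simp_rw [hS]
    rw [← Finset.smul_sum, Finset.sum_comm]
    congr 1
    refine Finset.sum_congr rfl fun j _ => ?_
    rw [← Finset.sum_smul, Finset.mul_sum]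
    congr 1
    refine Finset.sum_congr rfl fun h _ => ?_
    rw [hβl]
  -- evaluate the character sums
  have hA : ∀ j, ∑ h ∈ H, β h j = if ∀ h ∈ H, β h j = 1 then (H.card : ℂ) else 0 := by
    intro j
    split_ifs with hj
    · rw [Finset.sum_congr rfl hj]; simp
    · push Not at hj
      obtain ⟨h₀, h₀H, h₀j⟩ := hj
      exact ff_sum_eq_zero β hβl H hadd hneg j h₀H h₀j
  -- the image of `P × H`
  let g : P × 𝔊 → 𝔊 := fun x => ι x.1 + x.2
  have hginj : ∀ x ∈ (Finset.univ : Finset P) ×ˢ H, ∀ y ∈ (Finset.univ : Finset P) ×ˢ H,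
      g x = g y → x = y := by
    rintro ⟨u, h⟩ hx ⟨v, h'⟩ hy hxy
    simp only [Finset.mem_product, Finset.mem_univ, true_and] at hx hy
    simp only [g] at hxy
    have huv : u = v := by
      apply hinj
      have : ι u - ι v = h' + -h := by
        have h1 : ι u = ι v + h' - h := eq_sub_of_add_eq hxy
        rw [h1]; abel
      rw [this]
      exact hadd _ hy _ (hneg _ hx)
    subst huv
    have : h = h' := add_left_cancel hxy
    rw [this]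
  have himg : (Finset.univ.filter fun j => ∀ h ∈ H, β h j = 1) =
      ((Finset.univ : Finset P) ×ˢ H).image g := by
    ext j
    simp only [Finset.mem_filter, Finset.mem_univ, true_and, Finset.mem_image,
      Finset.mem_product, Prod.exists, g]
    constructor
    · intro hj
      obtain ⟨u, h, hh, rfl⟩ := hperp j hj
      exact ⟨u, h, hh, rfl⟩
    · rintro ⟨u, h, hh, rfl⟩ h' hh'
      rw [hβr, hιH u h' hh', hHH h' hh' h hh, mul_one]
  rw [hL]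
  simp_rw [hA]
  have hsum : ∑ j, (β ν j * if ∀ h ∈ H, β h j = 1 then (H.card : ℂ) else 0) • ϑ j =
      (H.card : ℂ) • ∑ j ∈ Finset.univ.filter (fun j => ∀ h ∈ H, β h j = 1), β ν j • ϑ j := by
    rw [Finset.sum_filter, Finset.smul_sum]
    refine Finset.sum_congr rfl fun j _ => ?_
    split_ifs with hj
    · rw [smul_smul, mul_comm]
    · simp
  rw [hsum, himg, Finset.sum_image hginj, Finset.sum_product, smul_smul]
  congr 1
  refine Finset.sum_congr rfl fun u _ => ?_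
  rw [Finset.smul_sum]
  refine Finset.sum_congr rfl fun h hh => ?_
  simp only [g]
  rw [hβr, hν h hh, mul_one]

end FiniteFourier

end Fermat.Agent.S16
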