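/-
S16 (A2), piece FF (helper17): the glue group `H` is isotropic, `H^⊥ = H + ι(𝔽_p²)`, and the family
`Θ_u = Σ_{h ∈ H} ϑ_{ι u + h}` is a Weil family for `d x² + y²` on `𝔽_p²`.
-/
import Fermat.Agent.S16.ThetaLatDefs
import Fermat.Agent.S16.ThetaFF
import Fermat.Agent.S16.ThetaInv

set_option autoImplicit false

open Complex Real ModularGroup
open UpperHalfPlane hiding I
open scoped MatrixGroups Manifold ModularForm

namespace Fermat.Agent.S16

/-- `e(n / M) = 1 ↔ M ∣ n`. -/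
theorem lat_cexp_eq_one_iff {M : ℕ} (hM : M ≠ 0) (n : ℤ) :
    cexp (2 * π * I * ((n : ℂ) / (M : ℂ))) = 1 ↔ (M : ℤ) ∣ n := by
  have hM' : (M : ℂ) ≠ 0 := Nat.cast_ne_zero.mpr hM
  have h2 : (2 * π * I : ℂ) ≠ 0 := by
    simp [Real.pi_ne_zero, Complex.I_ne_zero]
  rw [Complex.exp_eq_one_iff]
  constructor
  · rintro ⟨k, hk⟩
    have h3 : (n : ℂ) = (M : ℂ) * k := by
      have h4 : (2 * π * I : ℂ) * ((n : ℂ) / (M : ℂ)) = (2 * π * I) * k := by
        rw [hk]; ring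
      have h5 := mul_left_cancel₀ h2 h4
      rw [div_eq_iff hM'] at h5
      rw [h5]; ring
    exact ⟨k, by exact_mod_cast h3⟩
  · rintro ⟨k, rfl⟩
    refine ⟨k, ?_⟩
    push_cast
    field_simp

section

variable {p d : ℕ} {s : ℤ}

theorem thQ_latM (hp : p ≠ 0) (hd : d ≠ 0) (j : Fin 4 → ℤ) :
    thQ (latM p d) j = (latN p d j : ℂ) / ((4 * p * d : ℕ) : ℂ) := by
  have hp' : (p : ℂ) ≠ 0 := Nat.cast_ne_zero.mpr hp
  have hd' : (d : ℂ) ≠ 0 := Nat.cast_ne_zero.mpr hd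
  unfold thQ latN
  rw [Fin.sum_univ_four]
  simp only [latM_zero, latM_one, latM_two, latM_three]
  push_cast
  field_simp

theorem thB_latM (hp : p ≠ 0) (hd : d ≠ 0) (j k : Fin 4 → ℤ) :
    thB (latM p d) j k = (latB p d j k : ℂ) / ((2 * p * d : ℕ) : ℂ) := by
  have hp' : (p : ℂ) ≠ 0 := Nat.cast_ne_zero.mpr hp
  have hd' : (d : ℂ) ≠ 0 := Nat.cast_ne_zero.mpr hd
  unfold thB latB
  rw [Fin.sum_univ_four]
  simp only [latM_zero, latM_one, latM_two, latM_three]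
  push_cast
  field_simp

end

section

variable {p d : ℕ} [NeZero p] [NeZero d] {s : ℤ}

theorem zchi_zproj_eq_one_iff (j : Fin 4 → ℤ) :
    zchi (latM p d) (zproj (latM p d) j) = 1 ↔ ((4 * p * d : ℕ) : ℤ) ∣ latN p d j := by
  rw [zchi_zproj, thQ_latM (NeZero.ne p) (NeZero.ne d)]
  exact lat_cexp_eq_one_iff (by simp [NeZero.ne p, NeZero.ne d]) _

theorem zbeta_zproj_eq_one_iff (j k : Fin 4 → ℤ) :
    zbeta (latM p d) (zproj (latM p d) j) (zproj (latM p d) k) = 1 ↔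
      ((2 * p * d : ℕ) : ℤ) ∣ latB p d j k := by
  rw [zbeta_zproj, thB_latM (NeZero.ne p) (NeZero.ne d)]
  exact lat_cexp_eq_one_iff (by simp [NeZero.ne p, NeZero.ne d]) _

/-- **Isotropy** of `H`. -/
theorem zchi_eq_one_of_mem_latHset (hp : Odd p) (hd4 : d % 4 = 3) (hpd : Nat.Coprime p d)
    (hs : (d : ℤ) ∣ s ^ 2 + p) {h : ZG (latM p d)} (hh : h ∈ latHset p d s) :
    zchi (latM p d) h = 1 := by
  rw [mem_latHset] at hh
  rw [← zproj_zrep (latM p d) h, zchi_zproj_eq_one_iff]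
  have := latH_dvd_latN hp hd4 hpd hs hh
  push_cast
  exact this

theorem latHset_zero_mem : (0 : ZG (latM p d)) ∈ latHset p d s := by
  have : (0 : ZG (latM p d)) = zproj (latM p d) 0 := by
    ext i; simp [zproj]
  rw [this, zproj_mem_latHset]
  exact latH_zero

theorem latHset_add_mem {a b : ZG (latM p d)} (ha : a ∈ latHset p d s) (hb : b ∈ latHset p d s) :
    a + b ∈ latHset p d s := by
  rw [mem_latHset] at ha hb
  rw [← zproj_zrep (latM p d) a, ← zproj_zrep (latM p d) b, ← zproj_add, zproj_mem_latHset]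
  exact latH_add ha hb

theorem latHset_neg_mem {a : ZG (latM p d)} (ha : a ∈ latHset p d s) :
    -a ∈ latHset p d s := by
  rw [mem_latHset] at ha
  rw [← zproj_zrep (latM p d) a, ← zproj_neg, zproj_mem_latHset]
  exact latH_neg ha

/-- `ι` in terms of arbitrary integer representatives. -/
theorem latIota_intCast (x y : ℤ) :
    latIota p d ((x : ZMod p), (y : ZMod p)) = zproj (latM p d) (latNu d x y) := by
  unfold latIota
  rw [zproj_eq_iff]
  have hx : (((x : ZMod p).val : ℤ)) ≡ x [ZMOD (p : ℤ)] := by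
    rw [← ZMod.intCast_eq_intCast_iff]
    simp
  have hy : (((y : ZMod p).val : ℤ)) ≡ y [ZMOD (p : ℤ)] := by
    rw [← ZMod.intCast_eq_intCast_iff]
    simp
  intro i
  fin_cases i
  · exact Int.ModEq.refl _
  · exact Int.ModEq.refl _
  · show (2 * (d : ℤ) * ((x : ZMod p).val : ℤ)) ≡ 2 * d * x [ZMOD ((2 * (p * d) : ℕ) : ℤ)]
    have := hx.mul_left' (c := 2 * (d : ℤ))
    have e : (2 * (d : ℤ)) * (p : ℤ) = ((2 * (p * d) : ℕ) : ℤ) := by push_cast; ring
    rw [e] at this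
    exact this
  · show (2 * ((y : ZMod p).val : ℤ)) ≡ 2 * y [ZMOD ((2 * p : ℕ) : ℤ)]
    have := hy.mul_left' (c := (2 : ℤ))
    have e : (2 : ℤ) * (p : ℤ) = ((2 * p : ℕ) : ℤ) := by push_cast; ring
    rw [e] at this
    exact this

theorem latIota_eq (u : ZMod p × ZMod p) :
    latIota p d u = zproj (latM p d) (latNu d (u.1.val : ℤ) (u.2.val : ℤ)) := rfl

/-- `ι(𝔽_p²) ⊂ H^⊥`. -/
theorem zbeta_latIota_eq_one {h : ZG (latM p d)} (hh : h ∈ latHset p d s) (u : ZMod p × ZMod p) :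
    zbeta (latM p d) h (latIota p d u) = 1 := by
  rw [mem_latHset] at hh
  obtain ⟨-, ⟨c, hc⟩, ⟨e, he⟩, -, -⟩ := hh
  rw [← zproj_zrep (latM p d) h, latIota_eq, zbeta_zproj_eq_one_iff]
  refine ⟨c * u.1.val + e * u.2.val, ?_⟩
  unfold latB latNu
  simp only [Matrix.cons_val_zero, Matrix.cons_val_one, Matrix.cons_val]
  rw [hc, he]
  push_cast
  ring

/-- Bezout: an inverse of `c` modulo `p`. -/
theorem lat_exists_inv_mod {c q : ℤ} (h : IsCoprime c q) (t : ℤ) : ∃ x : ℤ, q ∣ t - c * x := by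
  obtain ⟨a, b, hab⟩ := h
  refine ⟨a * t, b * t, ?_⟩
  linear_combination (-t) * hab

/-- **`H^⊥ ⊂ H + ι(𝔽_p²)`.** -/
theorem latHset_perp (hp : Odd p) (hd4 : d % 4 = 3) (hpd : Nat.Coprime p d)
    (hs : (d : ℤ) ∣ s ^ 2 + p) (g : ZG (latM p d))
    (hg : ∀ h ∈ latHset p d s, zbeta (latM p d) h g = 1) :
    ∃ u : ZMod p × ZMod p, ∃ h ∈ latHset p d s, g = latIota p d u + h := by
  have hp0 : (p : ℤ) ≠ 0 := Nat.cast_ne_zero.mpr (NeZero.ne p)
  have hd0 : (d : ℤ) ≠ 0 := Nat.cast_ne_zero.mpr (NeZero.ne d)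
  have hdodd : Odd d := by rw [Nat.odd_iff]; omega
  have hpdZ : IsCoprime (p : ℤ) (d : ℤ) := Nat.isCoprime_iff_coprime.mpr hpd
  have h2p : IsCoprime (2 : ℤ) (p : ℤ) := by
    have : Nat.Coprime 2 p := by rw [Nat.coprime_two_left]; exact hp
    exact_mod_cast Nat.isCoprime_iff_coprime.mpr this
  have h2dp : IsCoprime (2 * (d : ℤ)) (p : ℤ) := IsCoprime.mul_left h2p hpdZ.symm
  set j := zrep (latM p d) g with hj
  have hgj : g = zproj (latM p d) j := (zproj_zrep (latM p d) g).symm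
  -- test vectors
  have test : ∀ t : Fin 4 → ℤ, latH p d s t → ((2 * p * d : ℕ) : ℤ) ∣ latB p d t j := by
    intro t ht
    have h1 := hg (zproj (latM p d) t) (zproj_mem_latHset.mpr ht)
    rw [hgj, zbeta_zproj_eq_one_iff] at h1
    exact h1
  obtain ⟨kd, hkd⟩ := hdodd
  obtain ⟨kp, hkp⟩ := hp
  have hkdZ : (d : ℤ) = 2 * kd + 1 := by exact_mod_cast hkd
  have hkpZ : (p : ℤ) = 2 * kp + 1 := by exact_mod_cast hkp
  have t1 : (2 : ℤ) ∣ j 0 + j 1 := by
    have := test ![d, 1, 0, 0] (by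
      refine ⟨⟨kd, ?_⟩, by simp, by simp, by simp, ⟨p, ?_⟩⟩
      · simp [hkdZ]
      · simp; ring)
    have e : latB p d ![d, 1, 0, 0] j = (p * d : ℤ) * (j 0 + j 1) := by
      unfold latB; simp; ring
    rw [e] at this
    have e2 : ((2 * p * d : ℕ) : ℤ) = (p * d : ℤ) * 2 := by push_cast; ring
    rw [e2] at this
    exact (mul_dvd_mul_iff_left (mul_ne_zero hp0 hd0)).mp this
  have t2 : (2 : ℤ) ∣ j 2 + j 3 := by
    have := test ![0, 0, p * d, p] (by
      refine ⟨by simp, by simp, by simp, ⟨p * kd, ?_⟩, ⟨-s * p, ?_⟩⟩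
      · simp [hkdZ]; ring
      · simp; ring)
    have e : latB p d ![0, 0, p * d, p] j = (p * d : ℤ) * (j 2 + j 3) := by
      unfold latB; simp; ring
    rw [e] at this
    have e2 : ((2 * p * d : ℕ) : ℤ) = (p * d : ℤ) * 2 := by push_cast; ring
    rw [e2] at this
    exact (mul_dvd_mul_iff_left (mul_ne_zero hp0 hd0)).mp this
  have t3 : (d : ℤ) ∣ s * j 0 + j 2 := by
    have := test ![2 * s, 0, 2 * p, 0] (by
      refine ⟨⟨s, ?_⟩, by simp, by simp, ⟨p, ?_⟩, ⟨0, ?_⟩⟩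
      · simp
      · simp
      · simp; ring)
    have e : latB p d ![2 * s, 0, 2 * p, 0] j = (2 * p : ℤ) * (s * j 0 + j 2) := by
      unfold latB; simp; ring
    rw [e] at this
    have e2 : ((2 * p * d : ℕ) : ℤ) = (2 * p : ℤ) * d := by push_cast; ring
    rw [e2] at this
    exact (mul_dvd_mul_iff_left (mul_ne_zero two_ne_zero hp0)).mp this
  -- the `p`-parts
  obtain ⟨x, hx⟩ := lat_exists_inv_mod h2dp (j 2)
  obtain ⟨y, hy⟩ := lat_exists_inv_mod h2p (j 3)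
  refine ⟨((x : ZMod p), (y : ZMod p)), zproj (latM p d) (j - latNu d x y), ?_, ?_⟩
  · rw [zproj_mem_latHset]
    obtain ⟨a1, ha1⟩ := t1
    obtain ⟨a2, ha2⟩ := t2
    obtain ⟨a3, ha3⟩ := t3
    obtain ⟨w, hw⟩ := hs
    refine ⟨⟨a1 - j 1, ?_⟩, ?_, ?_, ⟨a2 - j 3 - d * x + y, ?_⟩, ⟨w * j 0 - s * a3 + 2 * s * x, ?_⟩⟩
    · simp [latNu]; linear_combination ha1
    · simpa [latNu] using hx
    · simpa [latNu] using hy
    · simp [latNu]; linear_combination ha2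
    · simp [latNu]; linear_combination (j 0) * hw - s * ha3
  · rw [latIota_intCast, ← zproj_add, hgj]
    congr 1
    abel

/-- `ι` is injective modulo `H`. -/
theorem latIota_inj (hp : Odd p) (hpd : Nat.Coprime p d) (u v : ZMod p × ZMod p)
    (h : latIota p d u - latIota p d v ∈ latHset p d s) : u = v := by
  have hpdZ : IsCoprime (p : ℤ) (d : ℤ) := Nat.isCoprime_iff_coprime.mpr hpd
  have h2p : IsCoprime (2 : ℤ) (p : ℤ) := by
    have : Nat.Coprime 2 p := by rw [Nat.coprime_two_left]; exact hp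
    exact_mod_cast Nat.isCoprime_iff_coprime.mpr this
  have h2dp : IsCoprime (2 * (d : ℤ)) (p : ℤ) := IsCoprime.mul_left h2p hpdZ.symm
  rw [latIota_eq, latIota_eq, sub_eq_add_neg, ← zproj_neg, ← zproj_add, zproj_mem_latHset] at h
  obtain ⟨-, h2, h3, -, -⟩ := h
  have e2 : (latNu d (u.1.val : ℤ) (u.2.val : ℤ) + -latNu d (v.1.val : ℤ) (v.2.val : ℤ)) 2 =
      2 * d * ((u.1.val : ℤ) - v.1.val) := by
    simp [latNu]; ring
  have e3 : (latNu d (u.1.val : ℤ) (u.2.val : ℤ) + -latNu d (v.1.val : ℤ) (v.2.val : ℤ)) 3 =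
      2 * ((u.2.val : ℤ) - v.2.val) := by
    simp [latNu]; ring
  rw [e2] at h2
  rw [e3] at h3
  have hx := h2dp.symm.dvd_of_dvd_mul_left h2
  have hy := h2p.symm.dvd_of_dvd_mul_left h3
  have hx' : ((u.1.val : ℤ) : ZMod p) = ((v.1.val : ℤ) : ZMod p) :=
    (ZMod.intCast_eq_intCast_iff_dvd_sub _ _ p).mpr (by
      have := (dvd_neg).mpr hx
      simpa using this)
  have hy' : ((u.2.val : ℤ) : ZMod p) = ((v.2.val : ℤ) : ZMod p) :=
    (ZMod.intCast_eq_intCast_iff_dvd_sub _ _ p).mpr (by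
      have := (dvd_neg).mpr hy
      simpa using this)
  have e1 : ∀ z : ZMod p, ((z.val : ℤ) : ZMod p) = z := fun z => by
    rw [Int.cast_natCast, ZMod.natCast_zmod_val]
  rw [e1, e1] at hx' hy'
  exact Prod.ext hx' hy'

end

end Fermat.Agent.S16
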