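/-
S16 (A2), piece FF (helper17): the family `Θ_u = Σ_{h ∈ H} ϑ_{ι u + h}` (`u ∈ 𝔽_p²`) is a Weil family
for `d x² + y²`; hence `Θ_0` is invariant under `Γ₀(p)`.
-/
import Fermat.Agent.S16.ThetaLattice
import Fermat.Agent.S16.ThetaFFCard
import Fermat.Agent.S16.ThetaLatChar

set_option autoImplicit false

open Complex Real ModularGroup CongruenceSubgroup
open UpperHalfPlane hiding I
open scoped MatrixGroups Manifold ModularForm

namespace Fermat.Agent.S16

section

variable {p d : ℕ} [Fact p.Prime] [NeZero d] {s : ℤ}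

theorem card_ZG_latM : Fintype.card (ZG (latM p d)) = (4 * p * d) ^ 2 := by
  rw [Fintype.card_pi]
  have : ∀ i, Fintype.card (ZMod (2 * latM p d i)) = 2 * latM p d i := fun i => ZMod.card _
  simp_rw [this]
  rw [Fin.prod_univ_four]
  simp only [latM_zero, latM_one, latM_two, latM_three]
  ring

/-- `|H| = 4 d`. -/
theorem latHset_card (hp : Odd p) (hd4 : d % 4 = 3) (hpd : Nat.Coprime p d)
    (hs : (d : ℤ) ∣ s ^ 2 + p) : (latHset p d s).card = 4 * d := by
  have hiso : ∀ h ∈ latHset p d s, zchi (latM p d) h = 1 := fun h hh =>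
    zchi_eq_one_of_mem_latHset hp hd4 hpd hs hh
  have hadd : ∀ a ∈ latHset p d s, ∀ b ∈ latHset p d s, a + b ∈ latHset p d s :=
    fun a ha b hb => latHset_add_mem ha hb
  have hHH : ∀ a ∈ latHset p d s, ∀ b ∈ latHset p d s, zbeta (latM p d) a b = 1 :=
    fun a ha b hb => ff_beta_eq_one_of_isotropic (zchi (latM p d)) (zbeta (latM p d))
      (zchi_add (latM p d)) (latHset p d s) hadd hiso ha hb
  have key := ff_card_sq (zbeta (latM p d)) (zbeta_add_left (latM p d))
    (zbeta_zero_left (latM p d)) (zbeta_add_right (latM p d)) (zbeta_sum_eq_zero (latM p d))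
    (latHset p d s) latHset_zero_mem hadd (fun a ha => latHset_neg_mem ha) hHH
    (latIota p d) (fun u h hh => zbeta_latIota_eq_one hh u)
    (latHset_perp hp hd4 hpd hs) (latIota_inj hp hpd)
  rw [card_ZG_latM, Fintype.card_prod, ZMod.card] at key
  have hp0 : 0 < p := (Fact.out : p.Prime).pos
  have h1 : ((latHset p d s).card * p) ^ 2 = (4 * d * p) ^ 2 := by
    have e : ((latHset p d s).card * p) ^ 2 =
        (latHset p d s).card * (p * p * (latHset p d s).card) := by ring
    rw [e, key]; ring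
  have h2 := Nat.pow_left_injective (n := 2) (by norm_num) h1
  exact Nat.eq_of_mul_eq_mul_right hp0 h2

/-- **The Weil family.** -/
theorem latTheta_weilFamily (hp2 : p ≠ 2) (hd4 : d % 4 = 3) (hpd : Nat.Coprime p d)
    (hs : (d : ℤ) ∣ s ^ 2 + p) : WeilFamily p (d : ZMod p) (latTheta p d s) := by
  have hp : Odd p := (Fact.out : p.Prime).odd_of_ne_two hp2
  have hiso : ∀ h ∈ latHset p d s, zchi (latM p d) h = 1 := fun h hh =>
    zchi_eq_one_of_mem_latHset hp hd4 hpd hs hh
  have hadd : ∀ a ∈ latHset p d s, ∀ b ∈ latHset p d s, a + b ∈ latHset p d s :=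
    fun a ha b hb => latHset_add_mem ha hb
  have hHH : ∀ a ∈ latHset p d s, ∀ b ∈ latHset p d s, zbeta (latM p d) a b = 1 :=
    fun a ha b hb => ff_beta_eq_one_of_isotropic (zchi (latM p d)) (zbeta (latM p d))
      (zchi_add (latM p d)) (latHset p d s) hadd hiso ha hb
  have hν : ∀ u : ZMod p × ZMod p, ∀ h ∈ latHset p d s,
      zbeta (latM p d) (latIota p d u) h = 1 := fun u h hh => by
    rw [zbeta_comm]; exact zbeta_latIota_eq_one hh u
  constructor
  · intro u
    have := ff_slash_T (thetaZ (latM p d)) (zchi (latM p d)) (zbeta (latM p d))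
      (zchi_add (latM p d)) (thetaZ_slash_T (latM p d)) (latHset p d s) hiso (latIota p d u) (hν u)
    rw [zchi_latIota] at this
    exact this
  · intro u
    have := ff_slash_S (thetaZ (latM p d)) (zbeta (latM p d)) _
      (zbeta_add_left (latM p d)) (zbeta_add_right (latM p d))
      (thetaZ_slash_S (latM p d) (by simp)) (latHset p d s) hadd (fun a ha => latHset_neg_mem ha)
      hHH (latIota p d) (fun u h hh => zbeta_latIota_eq_one hh u)
      (latHset_perp hp hd4 hpd hs) (latIota_inj hp hpd) (latIota p d u) (hν u)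
    rw [latM_prod_sqrt, latHset_card hp hd4 hpd hs] at this
    simp_rw [zbeta_latIota] at this
    have hc : (-1 / (4 * (p : ℂ) * d)) * ((4 * d : ℕ) : ℂ) = -(p : ℂ)⁻¹ := by
      have hp' : (p : ℂ) ≠ 0 := Nat.cast_ne_zero.mpr (Fact.out : p.Prime).ne_zero
      have hd' : (d : ℂ) ≠ 0 := Nat.cast_ne_zero.mpr (NeZero.ne d)
      push_cast
      field_simp
    rw [hc] at this
    exact this

/-- **`Θ_0` is invariant under `Γ₀(p)`.** -/
theorem latTheta_zero_slash (hp2 : p ≠ 2) (hd4 : d % 4 = 3) (hpd : Nat.Coprime p d)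
    (hs : (d : ℤ) ∣ s ^ 2 + p) (hns : ¬ IsSquare (-(d : ZMod p)))
    {γ : SL(2, ℤ)} (hγ : γ ∈ Gamma0 p) :
    latTheta p d s 0 ∣[(2 : ℤ)] γ = latTheta p d s 0 :=
  (latTheta_weilFamily hp2 hd4 hpd hs).slash_Gamma0_of_nonsquare hp2 hns hγ

theorem latTheta_mdifferentiable (u : ZMod p × ZMod p) :
    MDifferentiable 𝓘(ℂ) 𝓘(ℂ) (latTheta p d s u) := by
  unfold latTheta
  exact MDifferentiable.sum fun h _ => thetaZ_mdifferentiable (latM p d) _

theorem latTheta_isBoundedAtImInfty (u : ZMod p × ZMod p) :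
    IsBoundedAtImInfty (latTheta p d s u) := by
  unfold latTheta
  induction (latHset p d s) using Finset.induction_on with
  | empty =>
    simp only [Finset.sum_empty]
    exact UpperHalfPlane.zero_form_isBoundedAtImInfty
  | insert a t ha ih =>
    rw [Finset.sum_insert ha]
    exact (thetaZ_isBoundedAtImInfty (latM p d) _).add ih

theorem latTheta_zero_apply (τ : ℍ) :
    latTheta p d s 0 τ = ∑ h ∈ latHset p d s, thProd (latM p d) (zrep (latM p d) h) (τ : ℂ) := by
  unfold latTheta
  rw [Finset.sum_apply]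
  refine Finset.sum_congr rfl fun h _ => ?_
  have h0 : latIota p d (0 : ZMod p × ZMod p) = 0 := by
    have := latIota_intCast (p := p) (d := d) 0 0
    simp only [Int.cast_zero] at this
    rw [show ((0 : ZMod p), (0 : ZMod p)) = (0 : ZMod p × ZMod p) from rfl] at this
    rw [this]
    have hz : latNu d 0 0 = 0 := by
      funext i
      fin_cases i <;> simp [latNu]
    rw [hz]
    ext i
    simp [zproj]
  rw [h0, zero_add]
  rfl

end

end Fermat.Agent.S16
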