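import Fermat.Agent.S16.Defs
import Fermat.Agent.S16.AuxPrime
import Fermat.Agent.S16.ThetaInv
import Fermat.Agent.S16.ThetaMF
import Fermat.Agent.S16.ThetaWeil
import Fermat.Agent.S16.ThetaCountLat

/-!
# S16 (A2): wiring of the theta route

* `Fermat.Agent.S16.stmtTheta_of_weilFamily` : a Weil family `Θ` on `𝔽_p²` for the form
  `d x² + y²` with `-d` a non-square, holomorphic and bounded at `i∞`, whose member `Θ 0` has an
  expansion `∑ a n qⁿ` with `a 0 = 1` and `a n ∈ 2ℤ`, gives `StmtTheta p`.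
* `Fermat.Agent.S16.stmtTheta_odd` : `StmtTheta p` for every odd prime `p`, from the theta series
  of the quaternary lattice `latH p d s` (`d` an auxiliary prime, `AuxPrime.lean`): Weil family
  (`ThetaWeil.lean`), counting (`ThetaCountLat.lean`), modularity (`ThetaMF.lean`).
* `Fermat.Agent.S16.stmtTheta` : `StmtTheta p` for every prime `p`, given the package `TCPackage p`
  (used for `p = 2` only, `ThetaSmall.lean`).
-/

set_option autoImplicit false

open UpperHalfPlane ModularGroup CongruenceSubgroup ModularForm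
open scoped MatrixGroups Manifold Real

namespace Fermat.Agent.S16

section Weil

variable {p : ℕ} [Fact p.Prime] {d : ZMod p} {Θ : ZMod p × ZMod p → ℍ → ℂ}

/-- The `S`-law of a Weil family as a linear combination. -/
theorem WeilFamily.exists_coeff_S (hΘ : WeilFamily p d Θ) (u : ZMod p × ZMod p) :
    ∃ c : ZMod p × ZMod p → ℂ, Θ u ∣[(2 : ℤ)] (S : SL(2, ℤ)) = ∑ v, c v • Θ v := by
  refine ⟨fun v => -(p : ℂ)⁻¹ * (ZMod.stdAddChar (weilB p d u v) : ℂ), ?_⟩
  rw [hΘ.slash_S u, Finset.smul_sum]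
  refine Finset.sum_congr rfl fun v _ => ?_
  rw [smul_smul]

/-- The `T`-law of a Weil family as a linear combination. -/
theorem WeilFamily.exists_coeff_T (hΘ : WeilFamily p d Θ) (u : ZMod p × ZMod p) :
    ∃ c : ZMod p × ZMod p → ℂ, Θ u ∣[(2 : ℤ)] (T : SL(2, ℤ)) = ∑ v, c v • Θ v := by
  classical
  refine ⟨fun v => if v = u then (ZMod.stdAddChar (weilQ p d u) : ℂ) else 0, ?_⟩
  rw [hΘ.slash_T u]
  simp [Finset.sum_ite_eq']

/-- **`StmtTheta` from a Weil family.** -/
theorem stmtTheta_of_weilFamily (hp2 : p ≠ 2) (hd : ¬ IsSquare (-d)) (hΘ : WeilFamily p d Θ)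
    (hol : MDiff (Θ 0)) (bdd : ∀ u, IsBoundedAtImInfty (Θ u)) (a : ℕ → ℂ)
    (hsum : ∀ τ : ℍ, HasSum (fun n : ℕ => a n * Complex.exp (2 * π * Complex.I * n * τ)) (Θ 0 τ))
    (ha0 : a 0 = 1) (ha : ∀ n : ℕ, 1 ≤ n → ∃ m : ℤ, a n = 2 * (m : ℂ)) : StmtTheta p := by
  have : NeZero p := ⟨(Fact.out : p.Prime).ne_zero⟩
  exact stmtTheta_of_family p Θ 0 hol bdd hΘ.exists_coeff_S hΘ.exists_coeff_T
    (fun γ hγ => hΘ.slash_Gamma0_of_nonsquare hp2 hd hγ) a hsum ha0 ha

end Weil

/-- `legendreSym p (-d) = -1` says that `-d` is a non-square mod `p`. -/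
theorem not_isSquare_neg_of_legendreSym (p : ℕ) [Fact p.Prime] (d : ℕ)
    (h : legendreSym p (-(d : ℤ)) = -1) : ¬ IsSquare (-(d : ZMod p)) := by
  have := (legendreSym.eq_neg_one_iff p (a := -(d : ℤ))).mp h
  simpa using this

/-- **`StmtTheta p` for odd primes `p`**: the theta series of the quaternary lattice. -/
theorem stmtTheta_odd (p : ℕ) [Fact p.Prime] (hp2 : p ≠ 2) : StmtTheta p := by
  obtain ⟨d, s, hd, hd4, hpd, -, -, hleg, hdvd⟩ := exists_auxPrime_int p hp2
  have hp : p.Prime := Fact.out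
  have : NeZero p := ⟨hp.ne_zero⟩
  have : NeZero d := ⟨hd.ne_zero⟩
  have hcop : Nat.Coprime p d := (Nat.coprime_primes hp hd).mpr hpd.ne
  obtain ⟨a, ha0, ha, hsum⟩ := latCount p d s hp hd hp2 hd4 hpd.ne hdvd
  refine stmtTheta_of_weilFamily hp2 (not_isSquare_neg_of_legendreSym p d hleg)
    (latTheta_weilFamily hp2 hd4 hcop hdvd) (latTheta_mdifferentiable 0)
    (fun u => latTheta_isBoundedAtImInfty u) a (fun τ => ?_) ha0 ha
  rw [latTheta_zero_apply]
  exact hsum τ

end Fermat.Agent.S16
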