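/-
S16, piece B-2 (helper32): the case `ℓ = 2`, `p ≡ 7 mod 8` of `NoG` (helper16's "HOLE 2" argument).

  `noG_two : p % 8 = 7 → TCPackage p → L1Package → StmtF p 2 → NoG p 2 3`.

Proof.  Let `G = (a, b) ∈ TwoCusp p 2`, `a ≡ 1 mod 8`.  Weight 2: `b = -p⁻¹ U_p a ≡ -1/p ≡ 1 mod 8`.
At each cusp put `Y = (G E₄ - E₆)/8`, `H = (G² - E₄)/16`, `Z = (G Y - H E₄)/4`.  Then
`E₄ Z = 27 Δ + Y²` (from `1728 Δ = E₄³ - E₆²`), so `Z` is `2`-integral (`E₄` is a unit of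
`ℤ_(2)[[q]]`) and `Z ≡ Δ + Y² mod 2`.  `J := 3 ∂Z = 3 θZ - 2 E₂ Z` has weight `10` and
`J ≡ θ Z ≡ θ Δ = E₂ Δ ≡ Δ mod 2` at `∞`, `≡ V_p Δ` at `0`: Lemma F with `κ = Δ`, `s = 1`, `w = 10`.
-/
import Fermat.Agent.S16.Integrality
import Fermat.Agent.S16.Sturm

set_option autoImplicit false

open PowerSeries

namespace Fermat.Agent.S16

noncomputable section

namespace Case2Alt

local instance fact2 : Fact (Nat.Prime 2) := ⟨Nat.prime_two⟩

/-! ### constants -/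

lemma C_two_pow (e : ℕ) : (PowerSeries.C (((2 : ℕ) : ℂ) ^ e) : PowerSeries ℂ) =
    PowerSeries.C ((2 : ℂ) ^ e) := by
  norm_num

/-- `2^e ∣ C (2^e · m) * a` for integral `a`. -/
lemma psDvd_C_int_mul (e : ℕ) (c : ℂ) (m : ℤ) (hc : c = (2 : ℂ) ^ e * m) {a : PowerSeries ℂ}
    (ha : a ∈ ZlPS 2) : PSDvd 2 e (PowerSeries.C c * a) := by
  have h1 : PowerSeries.C c * a =
      PowerSeries.C (((2 : ℕ) : ℂ) ^ e) * (PowerSeries.C (m : ℂ) * a) := by
    rw [← mul_assoc, ← map_mul, hc]; norm_num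
  rw [h1]
  exact psDvd_C_mul e ((ZlPS 2).mul_mem (C_mem_ZlPS (intCast_mem_Zl m)) ha)

/-- Divide by a power of `2`. -/
lemma mem_of_C_mul (e : ℕ) (c : ℂ) (hc : c = (2 : ℂ) ^ e) {a : PowerSeries ℂ}
    (h : PSDvd 2 e (PowerSeries.C c * a)) : a ∈ ZlPS 2 := by
  have h1 : PSDvd 2 (e + 0) (PowerSeries.C (((2 : ℕ) : ℂ) ^ e) * a) := by
    rw [C_two_pow, ← hc]; exact h
  exact psDvd_zero_iff.1 h1.of_C_mul

/-! ### the Eisenstein series modulo powers of `2` -/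

lemma e4_cong : PSCong 2 4 e4 1 := by
  intro n
  simp only [e4, PowerSeries.coeff_mk, PowerSeries.coeff_one]
  split_ifs with h
  · exact ⟨0, (Zl 2).zero_mem, by simp⟩
  · refine ⟨((15 * ArithmeticFunction.sigma 3 n : ℕ) : ℂ), natCast_mem_Zl _, ?_⟩
    push_cast; ring

lemma e6_cong : PSCong 2 3 e6 1 := by
  intro n
  simp only [e6, PowerSeries.coeff_mk, PowerSeries.coeff_one]
  split_ifs with h
  · exact ⟨0, (Zl 2).zero_mem, by simp⟩
  · refine ⟨((-63 * ArithmeticFunction.sigma 5 n : ℤ) : ℂ), intCast_mem_Zl _, ?_⟩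
    push_cast; ring

lemma e2_cong : PSCong 2 1 e2 1 := by
  intro n
  simp only [e2, PowerSeries.coeff_mk, PowerSeries.coeff_one]
  split_ifs with h
  · exact ⟨0, (Zl 2).zero_mem, by simp⟩
  · refine ⟨((-12 * ArithmeticFunction.sigma 1 n : ℤ) : ℂ), intCast_mem_Zl _, ?_⟩
    push_cast; ring

/-! ### linear combinations in `TwoCusp` -/

lemma tc_lin {p : ℕ} (hT : TCPackage p) {k : ℤ} {x y : PowerSeries ℂ × PowerSeries ℂ}
    (hx : x ∈ TwoCusp p k) (hy : y ∈ TwoCusp p k) (c d : ℂ) :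
    (PowerSeries.C c * x.1 + PowerSeries.C d * y.1,
      PowerSeries.C c * x.2 + PowerSeries.C d * y.2) ∈ TwoCusp p k :=
  hT.add (hT.smul c hx) (hT.smul d hy)

lemma lin_rel (c : ℂ) (hc : c ≠ 0) (u v : PowerSeries ℂ) :
    PowerSeries.C c * (PowerSeries.C (1 / c) * u + PowerSeries.C (-1 / c) * v) = u - v := by
  rw [mul_add, ← mul_assoc, ← mul_assoc, ← map_mul, ← map_mul, mul_one_div_cancel hc,
    mul_div_assoc', mul_neg, mul_one, neg_div, div_self hc]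
  simp [sub_eq_add_neg]

/-! ### the core computation at one cusp -/

/-- A unit `E = 1 + …` of `ℤ_(2)[[q]]` can be cancelled. -/
lemma mem_of_unit_mul {E Z : PowerSeries ℂ} (hE : E ∈ ZlPS 2) (hE0 : E.coeff 0 = 1)
    (h : E * Z ∈ ZlPS 2) : Z ∈ ZlPS 2 := by
  intro n
  refine Sturm.div_pred (ℓ := 2) (IsLInt 2) Sturm.isLInt_zero (fun _ _ => Sturm.isLInt_add)
    (fun _ => Sturm.isLInt_neg) (fun _ _ => Sturm.isLInt_mul) (PowerSeries.X * E) Z ?_ ?_ ?_ n ?_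
    n le_rfl
  · simp
  · rw [show (1 : ℕ) = 0 + 1 from rfl, PowerSeries.coeff_succ_X_mul, hE0]
  · exact fun m => (ZlPS 2).mul_mem X_mem_ZlPS hE m
  · intro m _
    rw [mul_assoc]
    exact (ZlPS 2).mul_mem X_mem_ZlPS h m

lemma core {A E4 E6 D Y H Z : PowerSeries ℂ}
    (hA : PSCong 2 3 A 1) (h4 : PSCong 2 4 E4 1) (h6 : PSCong 2 3 E6 1) (hD : D ∈ ZlPS 2)
    (hE0 : E4.coeff 0 = 1)
    (R1 : PowerSeries.C 8 * Y = A * E4 - E6) (R2 : PowerSeries.C 16 * H = A * A - E4)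
    (R3 : PowerSeries.C 4 * Z = A * Y - H * E4)
    (R4 : PowerSeries.C 1728 * D = E4 ^ 3 - E6 ^ 2) :
    Y ∈ ZlPS 2 ∧ Z ∈ ZlPS 2 ∧ PSCong 2 1 Z (D + Y * Y) := by
  have h1 : (1 : PowerSeries ℂ) ∈ ZlPS 2 := (ZlPS 2).one_mem
  have hAm : A ∈ ZlPS 2 := hA.mem_left h1
  have h4m : E4 ∈ ZlPS 2 := h4.mem_left h1
  -- `Y` is integral
  have hY : Y ∈ ZlPS 2 := by
    have h := (hA.mul (h4.mono (by norm_num : 3 ≤ 4)) h1 h4m).trans
      (by simpa using h6.symm : PSCong 2 3 (1 * 1) E6)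
    rw [psCong_iff, ← R1] at h
    exact mem_of_C_mul 3 8 (by norm_num) h
  -- `H` is integral
  have hH : H ∈ ZlPS 2 := by
    have hA' := psCong_iff.1 hA
    have h4' := psCong_iff.1 h4
    have e1 : PSDvd 2 4 ((A - 1) * (A - 1)) := (hA'.mul hA').mono (by norm_num)
    have e2 : PSDvd 2 4 (PowerSeries.C 2 * (A - 1)) := by
      obtain ⟨g, hg, hg'⟩ := hA'.exists_eq
      rw [hg', ← mul_assoc, ← map_mul]
      exact psDvd_C_int_mul 4 _ 1 (by norm_num) hg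
    have e3 : PSDvd 2 4 (A * A - E4) := by
      have := (e1.add e2).sub h4'
      have e : (A - 1) * (A - 1) + PowerSeries.C 2 * (A - 1) - (E4 - 1) = A * A - E4 := by
        have : (PowerSeries.C 2 : PowerSeries ℂ) = 2 := map_ofNat _ 2
        rw [this]; ring
      rwa [e] at this
    rw [← R2] at e3
    exact mem_of_C_mul 4 16 (by norm_num) e3
  -- the identity `E4 Z = 27 D + Y²`
  have key : E4 * Z = PowerSeries.C 27 * D + Y * Y := by
    have c8 : (PowerSeries.C 8 : PowerSeries ℂ) = 8 := map_ofNat _ 8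
    have c16 : (PowerSeries.C 16 : PowerSeries ℂ) = 16 := map_ofNat _ 16
    have c4 : (PowerSeries.C 4 : PowerSeries ℂ) = 4 := map_ofNat _ 4
    have c1728 : (PowerSeries.C 1728 : PowerSeries ℂ) = 1728 := map_ofNat _ 1728
    have c27 : (PowerSeries.C 27 : PowerSeries ℂ) = 27 := map_ofNat _ 27
    rw [c8] at R1; rw [c16] at R2; rw [c4] at R3; rw [c1728] at R4; rw [c27]
    have h64 : (64 : PowerSeries ℂ) * (E4 * Z) = 64 * (27 * D + Y * Y) := by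
      linear_combination 16 * E4 * R3 + (2 * A * E4 - (8 * Y + A * E4 - E6)) * R1
        - E4 ^ 2 * R2 - R4
    have h0 : (64 : PowerSeries ℂ) ≠ 0 := by
      intro h
      have := congrArg (PowerSeries.coeff (R := ℂ) 0) h
      rw [← map_ofNat (PowerSeries.C (R := ℂ)) 64] at this
      simp at this
    exact mul_left_cancel₀ h0 h64
  -- `Z` is integral
  have hZ : Z ∈ ZlPS 2 := by
    refine mem_of_unit_mul h4m hE0 ?_
    rw [key]
    exact (ZlPS 2).add_mem ((ZlPS 2).mul_mem (C_mem_ZlPS (by exact_mod_cast natCast_mem_Zl (ℓ := 2) 27))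
      hD) ((ZlPS 2).mul_mem hY hY)
  refine ⟨hY, hZ, ?_⟩
  rw [psCong_iff]
  have e : Z - (D + Y * Y) = PowerSeries.C 26 * D - (E4 - 1) * Z := by
    have : (PowerSeries.C 26 : PowerSeries ℂ) = PowerSeries.C 27 - 1 := by
      rw [← map_one (PowerSeries.C (R := ℂ)), ← map_sub]; norm_num
    rw [this]
    linear_combination key
  rw [e]
  exact (psDvd_C_int_mul 1 _ 13 (by norm_num) hD).sub
    (((psCong_iff.1 h4).mono (by norm_num)).mul_right hZ)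

/-- `θ Z ≡ θ D mod 2` if `Z ≡ D + Y² mod 2`. -/
lemma theta_core {Z D Y : PowerSeries ℂ} (hY : Y ∈ ZlPS 2) (h : PSCong 2 1 Z (D + Y * Y)) :
    PSCong 2 1 (theta Z) (theta D) := by
  refine h.theta.trans ?_
  rw [psCong_iff, theta_add, theta_mul, add_sub_cancel_left]
  have e : theta Y * Y + Y * theta Y = PowerSeries.C 2 * (Y * theta Y) := by
    have : (PowerSeries.C 2 : PowerSeries ℂ) = 2 := map_ofNat _ 2
    rw [this]; ring
  rw [e]
  exact psDvd_C_int_mul 1 _ 1 (by norm_num) ((ZlPS 2).mul_mem hY (theta_mem_ZlPS hY))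

end Case2Alt

open Case2Alt

/-- The case `ℓ = 2`, `p ≡ 7 mod 8`: no form of weight 2 on `Γ0(p)` is `≡ 1 mod 8`. -/
theorem noG_two_alt (p : ℕ) [Fact p.Prime] (hp : p % 8 = 7) (hT : TCPackage p) (hL : L1Package)
    (hF : StmtF p 2) : NoG p 2 3 := by
  rintro ⟨x, hx, -, hcong⟩
  have hp0 : p ≠ 0 := (Fact.out : p.Prime).ne_zero
  have hpC : (p : ℂ) ≠ 0 := Nat.cast_ne_zero.mpr hp0
  have hp2 : ¬ 2 ∣ p := by omega
  have h1 : (1 : PowerSeries ℂ) ∈ ZlPS 2 := (ZlPS 2).one_mem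
  have hpinv : ((p : ℂ))⁻¹ ∈ Zl 2 := inv_natCast_mem_Zl hp2
  have ha : x.1 ∈ ZlPS 2 := hcong.mem_left h1
  -- weight 2: the expansion at `0`
  have hb : x.2 = PowerSeries.C (-(p : ℂ)⁻¹) * Up p x.1 := by
    have h1 := hL.weight_two (hT.trace (hT.fricke hx))
    simp only at h1
    rw [Up_C_mul, ← mul_assoc, ← map_mul] at h1
    have h2 : (p : ℂ) * (-(p : ℂ)) ^ (-(2 : ℤ)) = (p : ℂ)⁻¹ := by
      rw [zpow_neg, zpow_ofNat]
      field_simp
    rw [h2] at h1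
    rw [eq_neg_of_add_eq_zero_left h1, map_neg, neg_mul]
  have hbcong : PSCong 2 3 x.2 1 := by
    rw [hb]
    have e1 : PSCong 2 3 (Up p x.1) 1 := by
      have := hcong.Up p
      have hU : Up p (1 : PowerSeries ℂ) = 1 := by
        ext n
        simp only [coeff_Up, PowerSeries.coeff_one, mul_eq_zero, hp0, false_or]
      rwa [hU] at this
    have e2 : PSCong 2 3 (PowerSeries.C (-(p : ℂ)⁻¹)) 1 := by
      rw [← map_one (PowerSeries.C (R := ℂ))]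
      refine psCong_C ⟨-((((p + 1) / 8 : ℕ) : ℂ)) * (p : ℂ)⁻¹,
        (Zl 2).mul_mem ((Zl 2).neg_mem (natCast_mem_Zl _)) hpinv, ?_⟩
      have h8 : ((p : ℂ) + 1) = 8 * (((p + 1) / 8 : ℕ) : ℂ) := by
        have : p + 1 = 8 * ((p + 1) / 8) := by omega
        exact_mod_cast this
      field_simp
      push_cast
      linear_combination -h8
    have := e2.mul e1 h1 (e1.mem_left h1)
    simpa using this
  -- the forms `E₄`, `E₆` on `Γ0(p)`
  have hE4 : (e4, Vp p e4) ∈ TwoCusp p 4 := hT.ofLevelOne hL.e4_mem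
  have hE6 : (e6, Vp p e6) ∈ TwoCusp p 6 := hT.ofLevelOne hL.e6_mem
  -- `Y`
  have hxE4 : (x.1 * e4, x.2 * Vp p e4) ∈ TwoCusp p 6 := hT.mul hx hE4
  have hY := tc_lin hT hxE4 hE6 (1 / 8) (-1 / 8)
  simp only at hY
  set Y1 : PowerSeries ℂ := PowerSeries.C (1 / 8) * (x.1 * e4) + PowerSeries.C (-1 / 8) * e6
    with hY1
  set Y2 : PowerSeries ℂ :=
    PowerSeries.C (1 / 8) * (x.2 * Vp p e4) + PowerSeries.C (-1 / 8) * Vp p e6 with hY2
  have R1 : PowerSeries.C 8 * Y1 = x.1 * e4 - e6 := lin_rel 8 (by norm_num) _ _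
  have R1' : PowerSeries.C 8 * Y2 = x.2 * Vp p e4 - Vp p e6 := lin_rel 8 (by norm_num) _ _
  -- `H`
  have hxx : (x.1 * x.1, x.2 * x.2) ∈ TwoCusp p 4 := hT.mul hx hx
  have hH := tc_lin hT hxx hE4 (1 / 16) (-1 / 16)
  simp only at hH
  set H1 : PowerSeries ℂ := PowerSeries.C (1 / 16) * (x.1 * x.1) + PowerSeries.C (-1 / 16) * e4
    with hH1
  set H2 : PowerSeries ℂ :=
    PowerSeries.C (1 / 16) * (x.2 * x.2) + PowerSeries.C (-1 / 16) * Vp p e4 with hH2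
  have R2 : PowerSeries.C 16 * H1 = x.1 * x.1 - e4 := lin_rel 16 (by norm_num) _ _
  have R2' : PowerSeries.C 16 * H2 = x.2 * x.2 - Vp p e4 := lin_rel 16 (by norm_num) _ _
  -- `Z`
  have hxY : (x.1 * Y1, x.2 * Y2) ∈ TwoCusp p 8 := hT.mul hx hY
  have hHE : (H1 * e4, H2 * Vp p e4) ∈ TwoCusp p 8 := hT.mul hH hE4
  have hZ := tc_lin hT hxY hHE (1 / 4) (-1 / 4)
  simp only at hZ
  set Z1 : PowerSeries ℂ := PowerSeries.C (1 / 4) * (x.1 * Y1) + PowerSeries.C (-1 / 4) * (H1 * e4)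
    with hZ1
  set Z2 : PowerSeries ℂ :=
    PowerSeries.C (1 / 4) * (x.2 * Y2) + PowerSeries.C (-1 / 4) * (H2 * Vp p e4) with hZ2
  have R3 : PowerSeries.C 4 * Z1 = x.1 * Y1 - H1 * e4 := lin_rel 4 (by norm_num) _ _
  have R3' : PowerSeries.C 4 * Z2 = x.2 * Y2 - H2 * Vp p e4 := lin_rel 4 (by norm_num) _ _
  -- `Δ`
  have R4 : PowerSeries.C 1728 * dl = e4 ^ 3 - e6 ^ 2 := by
    rw [dl, ← mul_assoc, ← map_mul]; norm_num
  have R4' : PowerSeries.C 1728 * Vp p dl = Vp p e4 ^ 3 - Vp p e6 ^ 2 := by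
    rw [← Vp_pow hp0, ← Vp_pow hp0, ← Vp_sub, ← R4, Vp_mul hp0, Vp_C hp0]
  have hdl : dl ∈ ZlPS 2 := dl_mem_ZlPS hL
  have he40 : e4.coeff 0 = 1 := Sturm.e4_coeff_zero
  obtain ⟨hY1m, hZ1m, hZ1c⟩ := core hcong e4_cong e6_cong hdl he40 R1 R2 R3 R4
  obtain ⟨hY2m, hZ2m, hZ2c⟩ := core hbcong (by simpa [Vp_one hp0] using e4_cong.Vp p)
    (by simpa [Vp_one hp0] using e6_cong.Vp p) (Vp_mem_ZlPS p hdl)
    (by rw [coeff_Vp, if_pos (dvd_zero p), Nat.zero_div, he40]) R1' R2' R3' R4'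
  -- `J = 3 ∂ Z`
  have hJ : _ ∈ TwoCusp p 10 := hT.smul 3 (hT.serre hZ)
  simp only at hJ
  have c3 : (PowerSeries.C 3 : PowerSeries ℂ) = 3 := map_ofNat _ 3
  have c2 : (PowerSeries.C 2 : PowerSeries ℂ) = 2 := map_ofNat _ 2
  have c812 : (PowerSeries.C (((8 : ℤ) : ℂ) / 12) : PowerSeries ℂ) * 3 = 2 := by
    rw [← c3, ← map_mul, ← c2]; norm_num
  have he2 : e2 ∈ ZlPS 2 := e2_mem_ZlPS
  have hthdl : PSCong 2 1 (e2 * dl) dl := by
    have := e2_cong.mul (PSCong.refl 1 dl) h1 hdl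
    simpa using this
  refine hF 10 _ hJ dl 1 le_rfl (by norm_num) hdl ?_ ?_ ?_ ?_
  · intro n hn
    obtain rfl : n = 0 := by omega
    rw [hL.dl_coeff_zero]; exact lDvd_zero
  · rw [hL.dl_coeff_one]
    exact isLUnit_iff.2 ⟨(Zl 2).one_mem, not_lDvd_one⟩
  · -- at `∞`
    show PSCong 2 1 (PowerSeries.C 3 * (theta Z1 - PowerSeries.C (((8 : ℤ) : ℂ) / 12) * (e2 * Z1))) dl
    have e : PowerSeries.C 3 * (theta Z1 - PowerSeries.C (((8 : ℤ) : ℂ) / 12) * (e2 * Z1)) =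
        theta Z1 + PowerSeries.C 2 * (theta Z1 - e2 * Z1) := by
      rw [c2, c3]
      linear_combination (-(e2 * Z1)) * c812
    rw [e]
    have s1 : PSCong 2 1 (theta Z1) dl := by
      have := theta_core hY1m hZ1c
      rw [hL.theta_dl] at this
      exact this.trans hthdl
    have s2 : PSCong 2 1 (PowerSeries.C 2 * (theta Z1 - e2 * Z1)) 0 := by
      rw [psCong_iff, sub_zero]
      exact psDvd_C_int_mul 1 _ 1 (by norm_num)
        ((ZlPS 2).sub_mem (theta_mem_ZlPS hZ1m) ((ZlPS 2).mul_mem he2 hZ1m))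
    simpa using s1.add s2
  · -- at `0`
    show PSCong 2 1 (PowerSeries.C 3 * (PowerSeries.C ((p : ℂ)⁻¹) * theta Z2 -
      PowerSeries.C (((8 : ℤ) : ℂ) / 12) * (Vp p e2 * Z2))) (Vp p dl)
    have e : PowerSeries.C 3 * (PowerSeries.C ((p : ℂ)⁻¹) * theta Z2 -
        PowerSeries.C (((8 : ℤ) : ℂ) / 12) * (Vp p e2 * Z2)) =
        PowerSeries.C ((p : ℂ)⁻¹) * theta Z2 +
          PowerSeries.C 2 * (PowerSeries.C ((p : ℂ)⁻¹) * theta Z2 - Vp p e2 * Z2) := by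
      rw [c2, c3]
      linear_combination (-(Vp p e2 * Z2)) * c812
    rw [e]
    have hCp : (PowerSeries.C ((p : ℂ)⁻¹) : PowerSeries ℂ) ∈ ZlPS 2 := C_mem_ZlPS hpinv
    have s1 : PSCong 2 1 (PowerSeries.C ((p : ℂ)⁻¹) * theta Z2) (Vp p dl) := by
      have t1 := (theta_core hY2m hZ2c).mul_left _ hCp
      have t2 : PowerSeries.C ((p : ℂ)⁻¹) * theta (Vp p dl) = Vp p (e2 * dl) := by
        rw [theta_Vp, hL.theta_dl, ← mul_assoc, ← map_mul, inv_mul_cancel₀ hpC, map_one, one_mul]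
      rw [t2] at t1
      exact t1.trans (hthdl.Vp p)
    have s2 : PSCong 2 1
        (PowerSeries.C 2 * (PowerSeries.C ((p : ℂ)⁻¹) * theta Z2 - Vp p e2 * Z2)) 0 := by
      rw [psCong_iff, sub_zero]
      exact psDvd_C_int_mul 1 _ 1 (by norm_num)
        ((ZlPS 2).sub_mem ((ZlPS 2).mul_mem hCp (theta_mem_ZlPS hZ2m))
          ((ZlPS 2).mul_mem (Vp_mem_ZlPS p he2) hZ2m))
    simpa using s1.add s2

end

end Fermat.Agent.S16
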