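import Mathlib
import Fermat.Prelude.Def_CuspForm_HeckeLocal
import Fermat.Prelude.Def_CuspForm_HeckeEvalForms
import Fermat.Prelude.Def_HeckeGalois_EichlerShimura
import Fermat.Prelude.Def_ModularCurve_ModularUnit
import Fermat.Agent.S49.QExp

/-!
# S16, piece (C), part 1: integral q-coefficients on the lattice and the Hecke polynomial ring

`L = intLattice p 2`, `T' = heckeLatticeAlgebra p ∅`, `phi : HeckeAlg →+* T'` (the map of the frozen
statement), `ev : HeckeAlg →+* ℤ` (evaluation at the Eisenstein system).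
-/

set_option autoImplicit false
set_option linter.unusedSectionVars false

noncomputable section

namespace Fermat.Agent.S16.Dual

open ModularCurve CuspForm ModularFormClass CongruenceSubgroup

variable (N : ℕ) [NeZero N]

/-- the integral `n`-th `q`-coefficient of an element of the lattice -/
def qInt (f : ↥(intLattice N 2)) (n : ℕ) : ℤ :=
  Classical.choose ((Fermat.Agent.S49.mem_intLattice_iff f.1).1 f.2 n)

theorem qInt_spec (f : ↥(intLattice N 2)) (n : ℕ) :
    ((qInt N f n : ℤ) : ℂ) = qCoeff ⇑(f : CuspForm (Gamma0 N) 2) n :=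
  (Classical.choose_spec ((Fermat.Agent.S49.mem_intLattice_iff f.1).1 f.2 n)).symm

theorem qInt_eq_iff (f : ↥(intLattice N 2)) (n : ℕ) (m : ℤ) :
    qInt N f n = m ↔ qCoeff ⇑(f : CuspForm (Gamma0 N) 2) n = (m : ℂ) := by
  rw [← qInt_spec]
  exact ⟨fun h => by rw [h], fun h => by exact_mod_cast h⟩

theorem qInt_add (f g : ↥(intLattice N 2)) (n : ℕ) :
    qInt N (f + g) n = qInt N f n + qInt N g n := by
  rw [qInt_eq_iff]
  push_cast
  rw [qInt_spec, qInt_spec]
  exact Fermat.Agent.S49.qCoeff_add _ _ n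

theorem qInt_zsmul (c : ℤ) (f : ↥(intLattice N 2)) (n : ℕ) :
    qInt N (c • f) n = c * qInt N f n := by
  rw [qInt_eq_iff]
  have h1 : ((c • f : ↥(intLattice N 2)) : CuspForm (Gamma0 N) 2) =
      (c : ℂ) • (f : CuspForm (Gamma0 N) 2) := by
    rw [Int.cast_smul_eq_zsmul]
    rfl
  have h2 := Fermat.Agent.S49.qCoeff_smul (c : ℂ) (f : CuspForm (Gamma0 N) 2) n
  rw [h1, h2, ← qInt_spec]
  push_cast
  rfl

theorem qInt_zero (n : ℕ) : qInt N (0 : ↥(intLattice N 2)) n = 0 := by
  have := qInt_zsmul N 0 (0 : ↥(intLattice N 2)) n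
  simpa using this

theorem qInt_zero_index (f : ↥(intLattice N 2)) : qInt N f 0 = 0 := by
  rw [qInt_eq_iff]
  simpa using Fermat.Agent.S49.qCoeff_zero_cusp (f : CuspForm (Gamma0 N) 2)

theorem ext_qInt {f g : ↥(intLattice N 2)} (h : ∀ n, qInt N f n = qInt N g n) : f = g := by
  apply Subtype.ext
  apply Fermat.Agent.S49.ext_of_qCoeff_eq
  intro n
  rw [← qInt_spec, ← qInt_spec, h n]

/-- `qInt` as a `ℤ`-linear map into sequences -/
def qIntLin : ↥(intLattice N 2) →ₗ[ℤ] (ℕ → ℤ) where
  toFun f := qInt N f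
  map_add' f g := funext fun n => qInt_add N f g n
  map_smul' c f := funext fun n => by simpa using qInt_zsmul N c f n

@[simp] theorem qIntLin_apply (f : ↥(intLattice N 2)) (n : ℕ) : qIntLin N f n = qInt N f n := rfl

theorem qIntLin_injective : Function.Injective (qIntLin N) := fun _ _ h =>
  ext_qInt N fun n => congrFun h n

/-- the ring homomorphism of the frozen statement -/
def phi : HeckeAlg →+* ↥(heckeLatticeAlgebra N ∅) :=
  (latticeRestrictHom N ∅).toRingHom.comp (heckeEvalForms N 2)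

/-- evaluation at the Eisenstein system -/
def ev : HeckeAlg →+* ℤ := (MvPolynomial.aeval (R := ℤ) (eisensteinSystem N)).toRingHom

theorem ev_C (a : ℤ) : ev N (MvPolynomial.C a) = a := by
  simp [ev]

theorem ev_X (ℓ : Nat.Primes) : ev N (MvPolynomial.X ℓ) = eisensteinSystem N ℓ := by
  simp [ev]

theorem ker_ev : RingHom.ker (ev N) = eisensteinIdeal N := rfl

theorem ev_surjective : Function.Surjective (ev N) := fun a => ⟨MvPolynomial.C a, ev_C N a⟩

theorem phi_apply_coe (t : HeckeAlg) (f : ↥(intLattice N 2)) :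
    (((phi N t : ↥(heckeLatticeAlgebra N ∅)) : Module.End ℤ ↥(intLattice N 2)) f :
      CuspForm (Gamma0 N) 2) =
      ((heckeEvalForms N 2 t : ↥(heckeAlgebra N 2 ∅)) :
        Module.End ℂ (CuspForm (Gamma0 N) 2)) (f : CuspForm (Gamma0 N) 2) := rfl

end Fermat.Agent.S16.Dual

end
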