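import Fermat.Agent.S16.DualBasic

/-!
# S16, piece (C), part 2: the formal Hecke action on integral `q`-coefficients
-/

set_option autoImplicit false
set_option linter.unusedSectionVars false

noncomputable section

namespace Fermat.Agent.S16.Dual

open ModularCurve CuspForm ModularFormClass CongruenceSubgroup

variable (N : ℕ) [NeZero N]

/-- the formal Hecke operator at `ℓ` on sequences (weight 2, level `N`) -/
def fT (ℓ : ℕ) (a : ℕ → ℤ) (n : ℕ) : ℤ :=
  a (n * ℓ) + if ℓ ∣ N then 0 else if ℓ ∣ n then (ℓ : ℤ) * a (n / ℓ) else 0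

theorem phi_X_apply (ℓ : Nat.Primes) (f : ↥(intLattice N 2)) (n : ℕ) :
    qInt N (((phi N (MvPolynomial.X ℓ) : ↥(heckeLatticeAlgebra N ∅)) :
      Module.End ℤ ↥(intLattice N 2)) f) n = fT N ℓ (qInt N f) n := by
  rw [qInt_eq_iff, phi_apply_coe]
  have hX : heckeEvalForms N 2 (MvPolynomial.X ℓ) = heckeFormsGen N 2 ℓ :=
    heckeEvalForms_heckeGen N 2 ℓ
  rw [hX]
  unfold fT
  by_cases h : (ℓ : ℕ) ∣ N
  · rw [heckeFormsGen_of_dvd h, heckeAlgebra.coe_U,
      Fermat.Agent.S49.qCoeff_heckeULin ℓ.2 h, if_pos h, add_zero, qInt_spec]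
  · rw [heckeFormsGen_of_not_dvd h, heckeAlgebra.coe_T,
      Fermat.Agent.S49.qCoeff_heckeTLin ℓ.2 h, if_neg h, ← qInt_spec, ← qInt_spec]
    by_cases h2 : (ℓ : ℕ) ∣ n
    · rw [if_pos h2, if_pos h2]
      push_cast
      norm_num
    · rw [if_neg h2, if_neg h2]
      push_cast
      ring

theorem phi_mul_apply (s t : HeckeAlg) (f : ↥(intLattice N 2)) :
    ((phi N (s * t) : ↥(heckeLatticeAlgebra N ∅)) : Module.End ℤ ↥(intLattice N 2)) f =
      ((phi N s : ↥(heckeLatticeAlgebra N ∅)) : Module.End ℤ ↥(intLattice N 2))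
        (((phi N t : ↥(heckeLatticeAlgebra N ∅)) : Module.End ℤ ↥(intLattice N 2)) f) := by
  rw [map_mul]
  rfl

theorem phi_add_apply (s t : HeckeAlg) (f : ↥(intLattice N 2)) :
    ((phi N (s + t) : ↥(heckeLatticeAlgebra N ∅)) : Module.End ℤ ↥(intLattice N 2)) f =
      ((phi N s : ↥(heckeLatticeAlgebra N ∅)) : Module.End ℤ ↥(intLattice N 2)) f +
        ((phi N t : ↥(heckeLatticeAlgebra N ∅)) : Module.End ℤ ↥(intLattice N 2)) f := by
  rw [map_add]
  rfl

theorem phi_sub_apply (s t : HeckeAlg) (f : ↥(intLattice N 2)) :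
    ((phi N (s - t) : ↥(heckeLatticeAlgebra N ∅)) : Module.End ℤ ↥(intLattice N 2)) f =
      ((phi N s : ↥(heckeLatticeAlgebra N ∅)) : Module.End ℤ ↥(intLattice N 2)) f -
        ((phi N t : ↥(heckeLatticeAlgebra N ∅)) : Module.End ℤ ↥(intLattice N 2)) f := by
  rw [map_sub]
  rfl

theorem phi_C_apply (c : ℤ) (f : ↥(intLattice N 2)) :
    ((phi N (MvPolynomial.C c) : ↥(heckeLatticeAlgebra N ∅)) :
      Module.End ℤ ↥(intLattice N 2)) f = c • f := by
  have h : phi N (MvPolynomial.C c) = (c : ↥(heckeLatticeAlgebra N ∅)) :=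
    eq_intCast ((phi N).comp MvPolynomial.C) c
  rw [h]
  simp

theorem phi_one_apply (f : ↥(intLattice N 2)) :
    ((phi N 1 : ↥(heckeLatticeAlgebra N ∅)) : Module.End ℤ ↥(intLattice N 2)) f = f := by
  rw [map_one]
  rfl

theorem heckeEvalForms_surjective : Function.Surjective (heckeEvalForms N 2) := by
  have key : ∀ y (hy : y ∈ heckeAlgebra N 2 ∅),
      ∃ s : HeckeAlg, heckeEvalForms N 2 s = (⟨y, hy⟩ : ↥(heckeAlgebra N 2 ∅)) := by
    intro y hy
    unfold heckeAlgebra at hy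
    induction hy using Algebra.adjoin_induction with
    | mem x hx =>
      rcases hx with ⟨ℓ, hℓ, hℓN, -, rfl⟩ | ⟨q, hqN, hq, -, rfl⟩
      · refine ⟨heckeGen (⟨ℓ, hℓ⟩ : Nat.Primes), ?_⟩
        rw [heckeEvalForms_heckeGen_of_not_dvd (N := N) (k := 2) (ℓ := (⟨ℓ, hℓ⟩ : Nat.Primes)) hℓN]
        rfl
      · refine ⟨heckeGen (⟨q, hq⟩ : Nat.Primes), ?_⟩
        rw [heckeEvalForms_heckeGen_of_dvd (N := N) (k := 2) (q := (⟨q, hq⟩ : Nat.Primes)) hqN]
        rfl
    | algebraMap r =>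
      refine ⟨MvPolynomial.C r, ?_⟩
      rw [heckeEvalForms_C]
      rfl
    | add x y hx hy ihx ihy =>
      obtain ⟨s, hs⟩ := ihx
      obtain ⟨t, ht⟩ := ihy
      refine ⟨s + t, ?_⟩
      rw [map_add, hs, ht]
      rfl
    | mul x y hx hy ihx ihy =>
      obtain ⟨s, hs⟩ := ihx
      obtain ⟨t, ht⟩ := ihy
      refine ⟨s * t, ?_⟩
      rw [map_mul, hs, ht]
      rfl
  rintro ⟨t, ht⟩
  exact key t ht

theorem phi_surjective : Function.Surjective (phi N) :=
  (latticeRestrictHom_surjective N ∅).comp (heckeEvalForms_surjective N)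

end Fermat.Agent.S16.Dual

end
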