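import Mathlib

/-!
# S16, piece (C), part 5: abstract linear algebra for the duality

A bilinear pairing of finite free `ℤ`-modules which is non-degenerate on both sides has
finite cokernel.
-/

set_option autoImplicit false

namespace Fermat.Agent.S16.Dual

open Module

theorem exists_smul_mem_range_of_injective_flip {A B : Type*} [AddCommGroup A] [AddCommGroup B]
    [Module.Finite ℤ A] [Module.Free ℤ A] [Module.Finite ℤ B] [Module.Free ℤ B]
    (Ψ : A →ₗ[ℤ] (B →ₗ[ℤ] ℤ)) (h1 : Function.Injective Ψ) (h2 : Function.Injective Ψ.flip)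
    (lam : B →ₗ[ℤ] ℤ) : ∃ a : ℤ, a ≠ 0 ∧ ∃ f : A, Ψ f = a • lam := by
  have hA : finrank ℤ A ≤ finrank ℤ B := by
    have := LinearMap.finrank_le_finrank_of_injective h1
    rwa [Module.finrank_linearMap_self] at this
  have hB : finrank ℤ B ≤ finrank ℤ A := by
    have := LinearMap.finrank_le_finrank_of_injective h2
    rwa [Module.finrank_linearMap_self] at this
  have hAB : finrank ℤ A = finrank ℤ B := le_antisymm hA hB
  have hq := (LinearMap.range Ψ).finrank_quotient_add_finrank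
  rw [LinearMap.finrank_range_of_inj h1, Module.finrank_linearMap_self, hAB] at hq
  have hq0 : finrank ℤ ((B →ₗ[ℤ] ℤ) ⧸ LinearMap.range Ψ) = 0 := by omega
  have htor : Module.IsTorsion ℤ ((B →ₗ[ℤ] ℤ) ⧸ LinearMap.range Ψ) :=
    Module.finrank_eq_zero_iff_isTorsion.mp hq0
  obtain ⟨a, ha⟩ := @htor (Submodule.Quotient.mk lam)
  refine ⟨(a : ℤ), nonZeroDivisors.coe_ne_zero a, ?_⟩
  have h3 : (Submodule.Quotient.mk ((a : ℤ) • lam) : (B →ₗ[ℤ] ℤ) ⧸ LinearMap.range Ψ) = 0 := by
    rw [Submodule.Quotient.mk_smul]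
    exact ha
  rw [Submodule.Quotient.mk_eq_zero] at h3
  obtain ⟨f, hf⟩ := h3
  exact ⟨f, hf⟩

end Fermat.Agent.S16.Dual
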