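import Fermat.Agent.S16.DualLower
import Fermat.Agent.S16.DualLin

/-!
# S16, piece (C), part 6: the pairing `(f, t) ↦ a_1(t f)` between the lattice and the Hecke
algebra is perfect.
-/

set_option autoImplicit false
set_option linter.unusedSectionVars false

noncomputable section

namespace Fermat.Agent.S16.Dual

open ModularCurve CuspForm ModularFormClass CongruenceSubgroup

variable (N : ℕ) [NeZero N]

/-- the pairing `(f, t) ↦ a_1(t f)` -/
def pairing : ↥(intLattice N 2) →ₗ[ℤ] (↥(heckeLatticeAlgebra N ∅) →ₗ[ℤ] ℤ) :=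
  LinearMap.mk₂ ℤ (fun f t => qInt N ((t : Module.End ℤ ↥(intLattice N 2)) f) 1)
    (fun f g t => by rw [map_add, qInt_add])
    (fun c f t => by rw [map_smul, qInt_zsmul]; rfl)
    (fun f s t => by
      have : (((s + t : ↥(heckeLatticeAlgebra N ∅)) : Module.End ℤ ↥(intLattice N 2)) f) =
          (s : Module.End ℤ ↥(intLattice N 2)) f + (t : Module.End ℤ ↥(intLattice N 2)) f := rfl
      rw [this, qInt_add])
    (fun c f t => by
      have : (((c • t : ↥(heckeLatticeAlgebra N ∅)) : Module.End ℤ ↥(intLattice N 2)) f) =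
          c • ((t : Module.End ℤ ↥(intLattice N 2)) f) := rfl
      rw [this, qInt_zsmul]; rfl)

theorem pairing_apply (f : ↥(intLattice N 2)) (t : ↥(heckeLatticeAlgebra N ∅)) :
    pairing N f t = qInt N ((t : Module.End ℤ ↥(intLattice N 2)) f) 1 := rfl

theorem pairing_phi (f : ↥(intLattice N 2)) (τ : HeckeAlg) :
    pairing N f (phi N τ) = qInt N (act N τ f) 1 := rfl

theorem qInt_eq_pairing (δ : ℕ → ℤ) (hδ : IsEisSeq N δ) (k : ℕ) (hk : 1 ≤ k) :
    ∃ τ : HeckeAlg, (∀ g : ↥(intLattice N 2), qInt N g k = pairing N g (phi N τ)) ∧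
      ev N τ = δ k := by
  obtain ⟨τ, h1, h2⟩ := exists_tau N δ hδ k hk
  exact ⟨τ, fun g => by rw [pairing_phi, h1], h2⟩

theorem pairing_injective (δ : ℕ → ℤ) (hδ : IsEisSeq N δ) : Function.Injective (pairing N) := by
  rw [injective_iff_map_eq_zero]
  intro f hf
  apply ext_qInt
  intro k
  rw [qInt_zero]
  rcases Nat.eq_zero_or_pos k with h | h
  · rw [h, qInt_zero_index]
  · obtain ⟨τ, h1, _⟩ := qInt_eq_pairing N δ hδ k h
    rw [h1 f, hf]
    rfl

theorem pairing_flip_injective (δ : ℕ → ℤ) (hδ : IsEisSeq N δ) :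
    Function.Injective (pairing N).flip := by
  rw [injective_iff_map_eq_zero]
  intro t ht
  apply Subtype.ext
  apply LinearMap.ext
  intro f
  have h0 : (((0 : ↥(heckeLatticeAlgebra N ∅)) : Module.End ℤ ↥(intLattice N 2)) f) = 0 := rfl
  rw [h0]
  apply pairing_injective N δ hδ
  rw [map_zero]
  apply LinearMap.ext
  intro s
  have h1 : pairing N ((t : Module.End ℤ ↥(intLattice N 2)) f) s =
      pairing N ((s : Module.End ℤ ↥(intLattice N 2)) f) t := by
    rw [pairing_apply, pairing_apply]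
    have h2 : (s : Module.End ℤ ↥(intLattice N 2)) ((t : Module.End ℤ ↥(intLattice N 2)) f) =
        ((s * t : ↥(heckeLatticeAlgebra N ∅)) : Module.End ℤ ↥(intLattice N 2)) f := rfl
    have h3 : (t : Module.End ℤ ↥(intLattice N 2)) ((s : Module.End ℤ ↥(intLattice N 2)) f) =
        ((t * s : ↥(heckeLatticeAlgebra N ∅)) : Module.End ℤ ↥(intLattice N 2)) f := rfl
    rw [h2, h3, mul_comm]
  have h4 : pairing N ((s : Module.End ℤ ↥(intLattice N 2)) f) t =
      (pairing N).flip t ((s : Module.End ℤ ↥(intLattice N 2)) f) := rfl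
  rw [h1, h4, ht]
  rfl

/-- saturation: a lattice element all of whose coefficients are divisible by `a` is `a` times
a lattice element -/
theorem exists_eq_zsmul (a : ℤ) (ha : a ≠ 0) (f : ↥(intLattice N 2))
    (h : ∀ k, a ∣ qInt N f k) : ∃ g : ↥(intLattice N 2), f = a • g := by
  have hg : ((a : ℂ)⁻¹ • (f : CuspForm (Gamma0 N) 2)) ∈ intLattice N 2 := by
    rw [Fermat.Agent.S49.mem_intLattice_iff]
    intro n
    obtain ⟨c, hc⟩ := h n
    refine ⟨c, ?_⟩
    rw [Fermat.Agent.S49.qCoeff_smul, ← qInt_spec, hc]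
    push_cast
    have : (a : ℂ) ≠ 0 := by exact_mod_cast ha
    field_simp
  refine ⟨⟨_, hg⟩, ?_⟩
  apply Subtype.ext
  have h1 : ((a • (⟨_, hg⟩ : ↥(intLattice N 2)) : ↥(intLattice N 2)) : CuspForm (Gamma0 N) 2) =
      (a : ℂ) • ((a : ℂ)⁻¹ • (f : CuspForm (Gamma0 N) 2)) := by
    rw [Int.cast_smul_eq_zsmul]
    rfl
  rw [h1, smul_smul, mul_inv_cancel₀ (by exact_mod_cast ha), one_smul]

/-- the pairing is perfect: every functional on the Hecke algebra is `t ↦ a_1(t f)` -/
theorem pairing_surjective (δ : ℕ → ℤ) (hδ : IsEisSeq N δ) :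
    Function.Surjective (pairing N) := by
  intro lam
  have _i1 := intLattice.moduleFinite N
  have _i2 := intLattice.moduleFree N
  obtain ⟨a, ha, f, hf⟩ := exists_smul_mem_range_of_injective_flip (pairing N)
    (pairing_injective N δ hδ) (pairing_flip_injective N δ hδ) lam
  have hdiv : ∀ k, a ∣ qInt N f k := by
    intro k
    rcases Nat.eq_zero_or_pos k with h | h
    · rw [h, qInt_zero_index]
      exact dvd_zero _
    · obtain ⟨τ, h1, _⟩ := qInt_eq_pairing N δ hδ k h
      rw [h1 f, hf]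
      exact ⟨lam (phi N τ), rfl⟩
  obtain ⟨g, hg⟩ := exists_eq_zsmul N a ha f hdiv
  refine ⟨g, ?_⟩
  apply LinearMap.ext
  intro t
  have h2 : a * pairing N g t = a * lam t := by
    have := congrArg (fun l : ↥(heckeLatticeAlgebra N ∅) →ₗ[ℤ] ℤ => l t) hf
    simp only [hg, map_smul, LinearMap.smul_apply, smul_eq_mul] at this
    exact this
  exact mul_left_cancel₀ ha h2

end Fermat.Agent.S16.Dual

end
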