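import Fermat.Agent.S16.Defs

/-!
# S16 piece B-red — reduction of (B) to prime powers

`stmtB_of_noG`: if for every prime `ℓ` there is no form of weight 2 on `Γ0(p)` with `q`-expansion
`≡ 1 mod ℓ^(expo p ℓ)` (constant term `1`), then a cusp form `f ≡ δ mod M` forces
`M ∣ eisensteinNumerator p`.
-/

set_option autoImplicit false

open CongruenceSubgroup UpperHalfPlane ModularForm ModularFormClass
open scoped MatrixGroups ModularForm

namespace Fermat.Agent.S16

noncomputable section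

/-- If `M ∤ n` (`n ≠ 0`), some prime `ℓ` has `ℓ ^ (v_ℓ(n) + 1) ∣ M`. -/
theorem red_exists_prime_pow_dvd {M n : ℕ} (hn : n ≠ 0) (h : ¬ M ∣ n) :
    ∃ ℓ : ℕ, ℓ.Prime ∧ ℓ ^ (padicValNat ℓ n + 1) ∣ M := by
  rcases eq_or_ne M 0 with rfl | hM
  · exact ⟨2, Nat.prime_two, dvd_zero _⟩
  · have h1 : ¬ M.factorization ≤ n.factorization := fun hle =>
      h ((Nat.factorization_le_iff_dvd hM hn).mp hle)
    rw [Finsupp.le_def, not_forall] at h1
    obtain ⟨ℓ, hℓ⟩ := h1
    rw [not_le] at hℓ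
    have hℓp : ℓ.Prime := by
      by_contra hnp
      rw [Nat.factorization_eq_zero_of_not_prime M hnp] at hℓ
      exact Nat.not_lt_zero _ hℓ
    refine ⟨ℓ, hℓp, ?_⟩
    have := Fact.mk hℓp
    rw [← Nat.factorization_def n hℓp]
    exact (pow_dvd_pow ℓ hℓ).trans (Nat.ordProj_dvd M ℓ)

/-- The arithmetic heart: `24 · ℓ^(v_ℓ(n)+1) / (p - 1) = ℓ^(expo p ℓ) · (ℓ-integral)`. -/
theorem red_arith (p ℓ : ℕ) (hp : 2 ≤ p) (hℓ : ℓ.Prime) :
    ∃ r : ℚ, ¬ ℓ ∣ r.den ∧
      (24 : ℚ) * (ℓ : ℚ) ^ (padicValNat ℓ (ModularCurve.eisensteinNumerator p) + 1) / ((p : ℚ) - 1)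
        = (ℓ : ℚ) ^ (expo p ℓ) * r := by
  have := Fact.mk hℓ
  set g := Nat.gcd (p - 1) 12 with hg
  set n := ModularCurve.eisensteinNumerator p with hn
  have hp1 : 0 < p - 1 := by omega
  have hgpos : 0 < g := Nat.gcd_pos_of_pos_left _ hp1
  have hgn : g * n = p - 1 := Nat.mul_div_cancel' (Nat.gcd_dvd_left _ _)
  have hg24 : g ∣ 24 := (Nat.gcd_dvd_right (p - 1) 12).trans (by norm_num)
  set h := 24 / g with hh
  have hgh : g * h = 24 := Nat.mul_div_cancel' hg24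
  have hnpos : 0 < n := by
    rcases Nat.eq_zero_or_pos n with h0 | h0
    · rw [h0, mul_zero] at hgn; omega
    · exact h0
  have hhpos : 0 < h := by
    rcases Nat.eq_zero_or_pos h with h0 | h0
    · rw [h0, mul_zero] at hgh; omega
    · exact h0
  set v := padicValNat ℓ n with hv
  set w := padicValNat ℓ h with hw
  have he : expo p ℓ = 1 + w := rfl
  -- decompositions
  have hn' : ℓ ^ v * (n / ℓ ^ v) = n := by
    rw [hv, ← Nat.factorization_def n hℓ]; exact Nat.ordProj_mul_ordCompl_eq_self n ℓ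
  have hnc : ¬ ℓ ∣ n / ℓ ^ v := by
    rw [hv, ← Nat.factorization_def n hℓ]; exact Nat.not_dvd_ordCompl hℓ hnpos.ne'
  have hh' : ℓ ^ w * (h / ℓ ^ w) = h := by
    rw [hw, ← Nat.factorization_def h hℓ]; exact Nat.ordProj_mul_ordCompl_eq_self h ℓ
  set n' := n / ℓ ^ v with hn'def
  set h' := h / ℓ ^ w with hh'def
  have hn'pos : 0 < n' := by
    rcases Nat.eq_zero_or_pos n' with h0 | h0
    · rw [h0, mul_zero] at hn'; omega
    · exact h0
  refine ⟨(h' : ℚ) / (n' : ℚ), ?_, ?_⟩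
  · intro hd
    have h1 : (((Rat.divInt (h' : ℤ) (n' : ℤ)).den : ℕ) : ℤ) ∣ (n' : ℤ) := Rat.den_dvd _ _
    have h2 : ((h' : ℚ) / (n' : ℚ)) = Rat.divInt (h' : ℤ) (n' : ℤ) := by
      rw [Rat.divInt_eq_div]; push_cast; rfl
    rw [h2] at hd
    have h3 : (ℓ : ℤ) ∣ (n' : ℤ) := (Int.natCast_dvd_natCast.mpr hd).trans h1
    exact hnc (Int.natCast_dvd_natCast.mp h3)
  · have hpq : ((p : ℚ) - 1) = (g : ℚ) * (n : ℚ) := by
      have : ((p - 1 : ℕ) : ℚ) = (p : ℚ) - 1 := by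
        rw [Nat.cast_sub (by omega)]; simp
      rw [← this, ← hgn]; push_cast; ring
    have h24 : (24 : ℚ) = (g : ℚ) * (h : ℚ) := by
      have : ((24 : ℕ) : ℚ) = 24 := by norm_num
      rw [← this, ← hgh]; push_cast; ring
    have hnq : (n : ℚ) = (ℓ : ℚ) ^ v * (n' : ℚ) := by
      rw [← hn']; push_cast; ring
    have hhq : (h : ℚ) = (ℓ : ℚ) ^ w * (h' : ℚ) := by
      rw [← hh']; push_cast; ring
    have hℓ0 : (ℓ : ℚ) ≠ 0 := by exact_mod_cast hℓ.ne_zero
    have hg0 : (g : ℚ) ≠ 0 := by exact_mod_cast hgpos.ne'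
    have hn'0 : (n' : ℚ) ≠ 0 := by exact_mod_cast hn'pos.ne'
    rw [hpq, h24, hnq, hhq, he]
    field_simp
    ring

/-- **B-red**: the reduction of (B) to the statements `NoG p ℓ (expo p ℓ)`. -/
theorem stmtB_of_noG (p : ℕ) [Fact p.Prime] (hT : TCPackage p) (hL : L1Package)
    (h : ∀ ℓ : ℕ, ℓ.Prime → NoG p ℓ (expo p ℓ)) : StmtB p := by
  have _ := hL
  have hp : 2 ≤ p := (Fact.out : p.Prime).two_le
  intro M hM
  obtain ⟨f, hf⟩ := hM
  by_contra hMn
  have hn0 : ModularCurve.eisensteinNumerator p ≠ 0 := by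
    intro h0
    have h1 : Nat.gcd (p - 1) 12 * ModularCurve.eisensteinNumerator p = p - 1 :=
      Nat.mul_div_cancel' (Nat.gcd_dvd_left _ _)
    rw [h0, mul_zero] at h1
    omega
  obtain ⟨ℓ, hℓ, hdvd⟩ := red_exists_prime_pow_dvd hn0 hMn
  obtain ⟨r, hr, hre⟩ := red_arith p ℓ hp hℓ
  obtain ⟨b₁, hb₁⟩ := hT.eis
  obtain ⟨b₂, hb₂⟩ := hT.ofCusp f
  have h1 := hT.smul (-1) hb₂
  have h2 := hT.add hb₁ h1
  set c : ℂ := ((p : ℂ) - 1) / 24 with hc
  have hc0 : c ≠ 0 := by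
    rw [hc]
    have : (p : ℂ) - 1 ≠ 0 := by
      intro h0
      have h1 : (p : ℂ) = 1 := by linear_combination h0
      have : p = 1 := by exact_mod_cast h1
      omega
    exact div_ne_zero this (by norm_num)
  have h3 := hT.smul c⁻¹ h2
  have hper : (1 : ℝ) ∈ (Gamma0 p : Subgroup (GL (Fin 2) ℝ)).strictPeriods := by
    simp [CongruenceSubgroup.strictPeriods_Gamma0]
  have hf0 : (qExpansion 1 f).coeff 0 = 0 := CuspFormClass.qExpansion_coeff_zero f one_pos hper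
  refine h ℓ hℓ ⟨_, h3, ?_, ?_⟩
  · simp only [Prod.fst_add, map_add, PowerSeries.coeff_C_mul, eisP, PowerSeries.coeff_mk,
      if_true, hf0, mul_zero, add_zero]
    rw [← hc]
    exact inv_mul_cancel₀ hc0
  · intro k
    rcases Nat.eq_zero_or_pos k with rfl | hk
    · refine ⟨0, ⟨0, by simp, by simpa using hℓ.ne_one⟩, ?_⟩
      simp only [Prod.fst_add, map_add, PowerSeries.coeff_C_mul, eisP, PowerSeries.coeff_mk,
        if_true, hf0, mul_zero, add_zero, PowerSeries.coeff_one]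
      rw [← hc, inv_mul_cancel₀ hc0]
      simp
    · obtain ⟨a, ha, hak⟩ := hf k
      obtain ⟨t, ht⟩ : ((ℓ ^ (padicValNat ℓ (ModularCurve.eisensteinNumerator p) + 1) : ℕ) : ℤ) ∣
          a - sigmaP p k := (Int.natCast_dvd_natCast.mpr hdvd).trans (hak hk)
      have ha' : (qExpansion 1 f).coeff k = (a : ℂ) := ha
      refine ⟨((-(t : ℚ) * r : ℚ) : ℂ), ⟨-(t : ℚ) * r, rfl, ?_⟩, ?_⟩
      · intro hd
        have h5 : (-(t : ℚ) * r).den ∣ (-(t : ℚ)).den * r.den := Rat.mul_den_dvd _ _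
        have h6 : (-(t : ℚ)).den = 1 := by
          have : (-(t : ℚ)) = ((-t : ℤ) : ℚ) := by push_cast; rfl
          rw [this, Rat.den_intCast]
        rw [h6, one_mul] at h5
        exact hr (hd.trans h5)
      · have hk0 : k ≠ 0 := hk.ne'
        simp only [Prod.fst_add, map_add, PowerSeries.coeff_C_mul, eisP, PowerSeries.coeff_mk,
          if_neg hk0, ha', PowerSeries.coeff_one]
        have hat : (a : ℂ) = (sigmaP p k : ℂ) +
            (ℓ : ℂ) ^ (padicValNat ℓ (ModularCurve.eisensteinNumerator p) + 1) * (t : ℂ) := by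
          have : a = sigmaP p k + ((ℓ ^ (padicValNat ℓ
              (ModularCurve.eisensteinNumerator p) + 1) : ℕ) : ℤ) * t := by linarith
          rw [this]; push_cast; ring
        have hreC : (24 : ℂ) * (ℓ : ℂ) ^ (padicValNat ℓ (ModularCurve.eisensteinNumerator p) + 1) /
            ((p : ℂ) - 1) = (ℓ : ℂ) ^ (expo p ℓ) * (r : ℂ) := by
          have := congrArg (fun x : ℚ => (x : ℂ)) hre
          simpa using this
        have hp1 : (p : ℂ) - 1 ≠ 0 := by
          intro h0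
          apply hc0
          rw [hc, h0, zero_div]
        rw [hat, hc]
        push_cast
        have e1 : (ℓ : ℂ) ^ expo p ℓ * (-(t : ℂ) * (r : ℂ)) =
            -(t : ℂ) * ((ℓ : ℂ) ^ expo p ℓ * (r : ℂ)) := by ring
        rw [e1, ← hreC]
        field_simp
        ring

end

end Fermat.Agent.S16
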