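import Mathlib

/-!
# S16 (A2): one-dimensional theta series with characteristic

`th m j τ = ∑_{k ∈ ℤ} e((2mk + j)² τ / (4m))`, i.e. the theta series of the coset
`j/(2m) + ℤ` for the quadratic form `m x²`.  We prove the `T`- and `S`-transformation laws
from Mathlib's `jacobiTheta₂_functional_equation`, holomorphy and boundedness.
-/

namespace Fermat.Agent.S16

open Complex Real

/-- The `k`-th term of the theta series `th m j`. -/
noncomputable def thTerm (m : ℕ) (j : ℤ) (τ : ℂ) (k : ℤ) : ℂ :=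
  cexp (2 * π * I * (((2 * m * k + j : ℤ) : ℂ)) ^ 2 / (4 * m) * τ)

/-- The theta series `∑_k e((2mk+j)² τ/(4m))`, defined through `jacobiTheta₂`. -/
noncomputable def th (m : ℕ) (j : ℤ) (τ : ℂ) : ℂ :=
  cexp (2 * π * I * (j : ℂ) ^ 2 / (4 * m) * τ) * jacobiTheta₂ (j * τ) (2 * m * τ)

lemma thTerm_eq_mul_term {m : ℕ} (hm : 0 < m) (j : ℤ) (τ : ℂ) (k : ℤ) :
    thTerm m j τ k =
      cexp (2 * π * I * (j : ℂ) ^ 2 / (4 * m) * τ) * jacobiTheta₂_term k (j * τ) (2 * m * τ) := by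
  have hm' : (m : ℂ) ≠ 0 := Nat.cast_ne_zero.mpr hm.ne'
  unfold thTerm jacobiTheta₂_term
  rw [← Complex.exp_add]
  congr 1
  push_cast
  field_simp
  ring

lemma th_im_pos {m : ℕ} (hm : 0 < m) {τ : ℂ} (hτ : 0 < τ.im) : 0 < (2 * (m : ℂ) * τ).im := by
  have : (2 * (m : ℂ) * τ).im = 2 * m * τ.im := by
    simp [Complex.mul_im]
  rw [this]
  have : (0 : ℝ) < m := Nat.cast_pos.mpr hm
  positivity

lemma th_im_add_one {τ : ℂ} (hτ : 0 < τ.im) : 0 < (τ + 1).im := by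
  simpa using hτ

theorem th_hasSum {m : ℕ} (hm : 0 < m) (j : ℤ) {τ : ℂ} (hτ : 0 < τ.im) :
    HasSum (thTerm m j τ) (th m j τ) := by
  have h := (hasSum_jacobiTheta₂_term (j * τ) (th_im_pos hm hτ)).mul_left
    (cexp (2 * π * I * (j : ℂ) ^ 2 / (4 * m) * τ))
  have e : thTerm m j τ = fun k => cexp (2 * π * I * (j : ℂ) ^ 2 / (4 * m) * τ) *
      jacobiTheta₂_term k (j * τ) (2 * m * τ) := funext (thTerm_eq_mul_term hm j τ)
  rw [e]
  exact h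

theorem th_eq_tsum {m : ℕ} (hm : 0 < m) (j : ℤ) {τ : ℂ} (hτ : 0 < τ.im) :
    th m j τ = ∑' k : ℤ, thTerm m j τ k :=
  (th_hasSum hm j hτ).tsum_eq.symm

/-! ### Periodicity in the characteristic -/

lemma thTerm_add_period (m : ℕ) (j : ℤ) (τ : ℂ) (k : ℤ) :
    thTerm m (j + 2 * m) τ k = thTerm m j τ (k + 1) := by
  unfold thTerm
  congr 3
  push_cast
  ring

theorem th_add_period {m : ℕ} (hm : 0 < m) (j : ℤ) {τ : ℂ} (hτ : 0 < τ.im) :
    th m (j + 2 * m) τ = th m j τ := by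
  have h1 := th_hasSum hm (j + 2 * m) hτ
  have h2 : HasSum (fun k => thTerm m j τ (k + 1)) (th m j τ) :=
    ((Equiv.addRight (1 : ℤ)).hasSum_iff).mpr (th_hasSum hm j hτ)
  have e : thTerm m (j + 2 * m) τ = fun k => thTerm m j τ (k + 1) :=
    funext (thTerm_add_period m j τ)
  rw [e] at h1
  exact h1.unique h2

lemma thTerm_neg (m : ℕ) (j : ℤ) (τ : ℂ) (k : ℤ) :
    thTerm m (-j) τ k = thTerm m j τ (-k) := by
  unfold thTerm
  congr 3
  push_cast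
  ring

theorem th_neg {m : ℕ} (hm : 0 < m) (j : ℤ) {τ : ℂ} (hτ : 0 < τ.im) :
    th m (-j) τ = th m j τ := by
  have h1 := th_hasSum hm (-j) hτ
  have h2 : HasSum (fun k => thTerm m j τ (-k)) (th m j τ) :=
    ((Equiv.neg ℤ).hasSum_iff).mpr (th_hasSum hm j hτ)
  have e : thTerm m (-j) τ = fun k => thTerm m j τ (-k) :=
    funext (thTerm_neg m j τ)
  rw [e] at h1
  exact h1.unique h2

theorem th_add_mul_period {m : ℕ} (hm : 0 < m) (j c : ℤ) {τ : ℂ} (hτ : 0 < τ.im) :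
    th m (j + c * (2 * m)) τ = th m j τ := by
  induction c using Int.induction_on with
  | zero => simp
  | succ i ih =>
    have : j + ((i : ℤ) + 1) * (2 * m) = (j + i * (2 * m)) + 2 * m := by ring
    rw [this, th_add_period hm _ hτ, ih]
  | pred i ih =>
    have : j + (-(i : ℤ)) * (2 * m) = (j + (-(i : ℤ) - 1) * (2 * m)) + 2 * m := by ring
    rw [this, th_add_period hm _ hτ] at ih
    exact ih

theorem th_congr_mod {m : ℕ} (hm : 0 < m) {j j' : ℤ} (h : j ≡ j' [ZMOD (2 * m : ℕ)])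
    {τ : ℂ} (hτ : 0 < τ.im) : th m j τ = th m j' τ := by
  obtain ⟨c, hc⟩ := (Int.modEq_iff_dvd.mp h)
  have : j' = j + c * (2 * m) := by
    push_cast at hc
    linarith [hc, mul_comm c (2 * (m : ℤ))]
  rw [this, th_add_mul_period hm j c hτ]

/-! ### The `T`-law -/

lemma thTerm_add_one {m : ℕ} (hm : 0 < m) (j : ℤ) (τ : ℂ) (k : ℤ) :
    thTerm m j (τ + 1) k = cexp (2 * π * I * (j : ℂ) ^ 2 / (4 * m)) * thTerm m j τ k := by
  have hm' : (m : ℂ) ≠ 0 := Nat.cast_ne_zero.mpr hm.ne'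
  unfold thTerm
  rw [← Complex.exp_add]
  have key : 2 * π * I * (((2 * m * k + j : ℤ) : ℂ)) ^ 2 / (4 * m) * (τ + 1) =
      (2 * π * I * (j : ℂ) ^ 2 / (4 * m) +
        2 * π * I * (((2 * m * k + j : ℤ) : ℂ)) ^ 2 / (4 * m) * τ) +
      ((m * k ^ 2 + k * j : ℤ) : ℂ) * (2 * π * I) := by
    push_cast
    field_simp
    ring
  rw [key, Complex.exp_add _ (_ * (2 * π * I)), Complex.exp_int_mul_two_pi_mul_I, mul_one]

/-- **(T)** `th m j (τ + 1) = e(j²/(4m)) · th m j τ`. -/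
theorem th_T {m : ℕ} (hm : 0 < m) (j : ℤ) {τ : ℂ} (hτ : 0 < τ.im) :
    th m j (τ + 1) = cexp (2 * π * I * (j : ℂ) ^ 2 / (4 * m)) * th m j τ := by
  have h1 := th_hasSum hm j (th_im_add_one hτ)
  have h2 := (th_hasSum hm j hτ).mul_left (cexp (2 * π * I * (j : ℂ) ^ 2 / (4 * m)))
  have e : thTerm m j (τ + 1) =
      fun k => cexp (2 * π * I * (j : ℂ) ^ 2 / (4 * m)) * thTerm m j τ k :=
    funext (thTerm_add_one hm j τ)
  rw [e] at h1
  exact h1.unique h2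

/-! ### The `S`-law -/

lemma th_im_div_pos {m : ℕ} (hm : 0 < m) {τ : ℂ} (hτ : 0 < τ.im) :
    0 < (τ / (2 * (m : ℂ))).im := by
  have : (τ / (2 * (m : ℂ))).im = τ.im / (2 * m) := by
    have : (2 * (m : ℂ)) = ((2 * m : ℝ) : ℂ) := by push_cast; ring
    rw [this, Complex.div_ofReal_im]
  rw [this]
  have : (0 : ℝ) < m := Nat.cast_pos.mpr hm
  positivity

lemma th_im_neg_inv_pos {τ : ℂ} (hτ : 0 < τ.im) : 0 < (-1 / τ).im := by
  rw [neg_div, neg_im, one_div, inv_im, neg_div, neg_neg]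
  have : τ ≠ 0 := by rintro rfl; simp at hτ
  exact div_pos hτ (normSq_pos.mpr this)

lemma th_S_aux {m : ℕ} (hm : 0 < m) (j : ℤ) {τ : ℂ} (hτ : 0 < τ.im) :
    th m j (-1 / τ) =
      (-I * (τ / (2 * m))) ^ (1 / 2 : ℂ) * jacobiTheta₂ (j / (2 * m)) (τ / (2 * m)) := by
  have hτ0 : τ ≠ 0 := by rintro rfl; simp at hτ
  have hm' : (m : ℂ) ≠ 0 := Nat.cast_ne_zero.mpr hm.ne'
  have hfe := jacobiTheta₂_functional_equation ((j : ℂ) / (2 * m)) (τ / (2 * m))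
  have h1 : ((j : ℂ) / (2 * m)) / (τ / (2 * m)) = j / τ := by field_simp
  have h2 : -1 / (τ / (2 * m)) = 2 * m * (-1 / τ) := by field_simp
  rw [h1, h2] at hfe
  have hbase : -I * (τ / (2 * m)) ≠ 0 := by
    simp [hτ0, hm', Complex.I_ne_zero]
  have hne : (-I * (τ / (2 * m))) ^ (1 / 2 : ℂ) ≠ 0 := by
    rw [Ne, Complex.cpow_eq_zero_iff]
    exact fun h => hbase h.1
  unfold th
  rw [hfe]
  have h3 : (j : ℂ) * (-1 / τ) = -(j / τ) := by field_simp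
  rw [h3, jacobiTheta₂_neg_left]
  have h4 : cexp (-π * I * ((j : ℂ) / (2 * m)) ^ 2 / (τ / (2 * m))) =
      cexp (2 * π * I * (j : ℂ) ^ 2 / (4 * m) * (-1 / τ)) := by
    congr 1
    field_simp
    ring
  rw [h4]
  field_simp

/-- Splitting the `jacobiTheta₂` sum according to residues mod `2m`. -/
lemma th_split_term {m : ℕ} (hm : 0 < m) (j : ℤ) (τ : ℂ) (k : ℤ) (j' : ℤ) :
    jacobiTheta₂_term (k * (2 * m : ℕ) + j') (j / (2 * m)) (τ / (2 * m)) =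
      cexp (2 * π * I * j * j' / (2 * m)) * thTerm m j' τ k := by
  have hm' : (m : ℂ) ≠ 0 := Nat.cast_ne_zero.mpr hm.ne'
  unfold thTerm jacobiTheta₂_term
  rw [← Complex.exp_add]
  have key : 2 * π * I * ((k * (2 * m : ℕ) + j' : ℤ) : ℂ) * (j / (2 * m)) +
      π * I * ((k * (2 * m : ℕ) + j' : ℤ) : ℂ) ^ 2 * (τ / (2 * m)) =
      (2 * π * I * j * j' / (2 * m) +
        2 * π * I * (((2 * m * k + j' : ℤ) : ℂ)) ^ 2 / (4 * m) * τ) +
      ((k * j : ℤ) : ℂ) * (2 * π * I) := by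
    push_cast
    field_simp
    ring
  rw [key, Complex.exp_add _ (_ * (2 * π * I)), Complex.exp_int_mul_two_pi_mul_I, mul_one]

theorem th_split {m : ℕ} (hm : 0 < m) (j : ℤ) {τ : ℂ} (hτ : 0 < τ.im) :
    jacobiTheta₂ (j / (2 * m)) (τ / (2 * m)) =
      ∑ j' ∈ Finset.range (2 * m), cexp (2 * π * I * j * (j' : ℤ) / (2 * m)) * th m j' τ := by
  have : NeZero (2 * m) := ⟨by omega⟩
  have hJ := hasSum_jacobiTheta₂_term ((j : ℂ) / (2 * m)) (th_im_div_pos hm hτ)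
  have hJ1 : HasSum (fun q : Fin (2 * m) × ℤ =>
      jacobiTheta₂_term (q.2 * (2 * m : ℕ) + ((q.1 : ℕ) : ℤ)) (j / (2 * m)) (τ / (2 * m)))
      (jacobiTheta₂ (j / (2 * m)) (τ / (2 * m))) := by
    have := (((Equiv.prodComm (Fin (2 * m)) ℤ).trans (Int.divModEquiv (2 * m)).symm).hasSum_iff).mpr hJ
    exact this
  have hJ2 := hJ1.prod_fiberwise (g := fun j' : Fin (2 * m) =>
      cexp (2 * π * I * j * (((j' : ℕ) : ℤ) : ℂ) / (2 * m)) * th m ((j' : ℕ) : ℤ) τ) (fun j' => by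
    have h := (th_hasSum hm ((j' : ℕ) : ℤ) hτ).mul_left
      (cexp (2 * π * I * j * (((j' : ℕ) : ℤ) : ℂ) / (2 * m)))
    have e : (fun k : ℤ => jacobiTheta₂_term (k * (2 * m : ℕ) + ((j' : ℕ) : ℤ))
        (j / (2 * m)) (τ / (2 * m))) = fun k =>
        cexp (2 * π * I * j * (((j' : ℕ) : ℤ) : ℂ) / (2 * m)) * thTerm m ((j' : ℕ) : ℤ) τ k :=
      funext fun k => th_split_term hm j τ k _
    simp only
    rw [e]
    exact h)
  have hJ3 := hJ2.unique (hasSum_fintype _)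
  rw [hJ3]
  exact Fin.sum_univ_eq_sum_range
    (fun j' : ℕ => cexp (2 * π * I * j * ((j' : ℤ) : ℂ) / (2 * m)) * th m (j' : ℤ) τ) (2 * m)

/-- **(S)**, first form. -/
theorem th_S' {m : ℕ} (hm : 0 < m) (j : ℤ) {τ : ℂ} (hτ : 0 < τ.im) :
    th m j (-1 / τ) = (-I * (τ / (2 * m))) ^ (1 / 2 : ℂ) *
      ∑ j' ∈ Finset.range (2 * m), cexp (2 * π * I * j * (j' : ℤ) / (2 * m)) * th m j' τ := by
  rw [th_S_aux hm j hτ, th_split hm j hτ]

lemma th_cpow_half_mul_ofReal {x : ℂ} (hx : x ≠ 0) {r : ℝ} (hr : 0 < r) :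
    (x * (r : ℂ)) ^ (1 / 2 : ℂ) = x ^ (1 / 2 : ℂ) * ((√r : ℝ) : ℂ) := by
  have hr' : (r : ℂ) ≠ 0 := ofReal_ne_zero.mpr hr.ne'
  rw [Complex.cpow_def_of_ne_zero (mul_ne_zero hx hr'), Complex.log_mul_ofReal r hr x hx,
    Complex.cpow_def_of_ne_zero hx, add_mul, Complex.exp_add, mul_comm]
  congr 1
  rw [Real.sqrt_eq_rpow, Real.rpow_def_of_pos hr, Complex.ofReal_exp]
  congr 1
  push_cast
  ring

lemma th_neg_I_mul_ne_zero {τ : ℂ} (hτ : 0 < τ.im) : -I * τ ≠ 0 := by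
  have hτ0 : τ ≠ 0 := by rintro rfl; simp at hτ
  simp [hτ0, Complex.I_ne_zero]

lemma th_S_factor {m : ℕ} (hm : 0 < m) {τ : ℂ} (hτ : 0 < τ.im) :
    (-I * (τ / (2 * m))) ^ (1 / 2 : ℂ) = (-I * τ) ^ (1 / 2 : ℂ) / ((√(2 * m : ℝ) : ℝ) : ℂ) := by
  have hmR : (0 : ℝ) < 2 * m := by
    have : (0 : ℝ) < m := Nat.cast_pos.mpr hm
    positivity
  have h1 : -I * (τ / (2 * m)) = (-I * τ) * (((2 * m : ℝ)⁻¹ : ℝ) : ℂ) := by
    push_cast
    field_simp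
  rw [h1, th_cpow_half_mul_ofReal (th_neg_I_mul_ne_zero hτ) (inv_pos.mpr hmR),
    Real.sqrt_inv, Complex.ofReal_inv]
  rfl

/-- **(S)** `th m j (-1/τ) = (-iτ)^{1/2} / √(2m) · ∑_{j' mod 2m} e(j j'/(2m)) th m j' τ`. -/
theorem th_S {m : ℕ} (hm : 0 < m) (j : ℤ) {τ : ℂ} (hτ : 0 < τ.im) :
    th m j (-1 / τ) = (-I * τ) ^ (1 / 2 : ℂ) / ((√(2 * m : ℝ) : ℝ) : ℂ) *
      ∑ j' ∈ Finset.range (2 * m), cexp (2 * π * I * j * (j' : ℤ) / (2 * m)) * th m j' τ := by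
  rw [th_S' hm j hτ, th_S_factor hm hτ]

/-! ### Holomorphy and boundedness -/

theorem th_differentiableAt {m : ℕ} (hm : 0 < m) (j : ℤ) {τ : ℂ} (hτ : 0 < τ.im) :
    DifferentiableAt ℂ (th m j) τ := by
  have h1 : DifferentiableAt ℂ (fun p : ℂ × ℂ => jacobiTheta₂ p.1 p.2) ((j : ℂ) * τ, 2 * m * τ) :=
    (hasFDerivAt_jacobiTheta₂ ((j : ℂ) * τ) (th_im_pos hm hτ)).differentiableAt
  have h2 : DifferentiableAt ℂ (fun t : ℂ => ((j : ℂ) * t, 2 * (m : ℂ) * t)) τ :=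
    (differentiableAt_id.const_mul _).prodMk (differentiableAt_id.const_mul _)
  have h3 : DifferentiableAt ℂ (fun t : ℂ => jacobiTheta₂ ((j : ℂ) * t) (2 * m * t)) τ :=
    DifferentiableAt.comp (g := fun p : ℂ × ℂ => jacobiTheta₂ p.1 p.2) τ h1 h2
  have h4 : DifferentiableAt ℂ (fun t : ℂ => cexp (2 * π * I * (j : ℂ) ^ 2 / (4 * m) * t)) τ :=
    (differentiableAt_id.const_mul _).cexp
  exact h4.mul h3

theorem th_differentiableOn {m : ℕ} (hm : 0 < m) (j : ℤ) :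
    DifferentiableOn ℂ (th m j) {z : ℂ | 0 < z.im} :=
  fun _ hτ => (th_differentiableAt hm j hτ).differentiableWithinAt

lemma norm_thTerm (m : ℕ) (j : ℤ) (τ : ℂ) (k : ℤ) :
    ‖thTerm m j τ k‖ = rexp (-(2 * π * ((2 * m * k + j : ℤ) : ℝ) ^ 2 / (4 * m)) * τ.im) := by
  unfold thTerm
  rw [Complex.norm_exp]
  congr 1
  have : 2 * (π : ℂ) * I * (((2 * m * k + j : ℤ) : ℂ)) ^ 2 / (4 * m) * τ =
      (((2 * π * ((2 * m * k + j : ℤ) : ℝ) ^ 2 / (4 * m) : ℝ) : ℂ) * I) * τ := by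
    push_cast
    ring
  rw [this, Complex.mul_re]
  simp only [Complex.mul_re, Complex.ofReal_re, Complex.I_re, Complex.ofReal_im, Complex.I_im,
    Complex.mul_im]
  ring

lemma norm_thTerm_le {m : ℕ} (j : ℤ) {τ : ℂ} (hτ : 1 ≤ τ.im) (k : ℤ) :
    ‖thTerm m j τ k‖ ≤ ‖thTerm m j I k‖ := by
  rw [norm_thTerm, norm_thTerm, Complex.I_im, mul_one]
  apply Real.exp_le_exp.mpr
  have hc : 0 ≤ 2 * π * ((2 * m * k + j : ℤ) : ℝ) ^ 2 / (4 * m) := by positivity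
  nlinarith

/-- `th m j` is bounded on `{im τ ≥ 1}`. -/
theorem th_bounded {m : ℕ} (hm : 0 < m) (j : ℤ) :
    ∃ C : ℝ, ∀ τ : ℂ, 1 ≤ τ.im → ‖th m j τ‖ ≤ C := by
  have hI : (0 : ℝ) < (I : ℂ).im := by simp
  have hs : Summable (fun k => ‖thTerm m j I k‖) := by
    have := (th_hasSum hm j hI).summable
    exact this.norm
  refine ⟨∑' k, ‖thTerm m j I k‖, fun τ hτ => ?_⟩
  have hτ0 : 0 < τ.im := lt_of_lt_of_le one_pos hτ
  rw [th_eq_tsum hm j hτ0]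
  have hs' : Summable (fun k => ‖thTerm m j τ k‖) :=
    Summable.of_nonneg_of_le (fun _ => norm_nonneg _) (fun k => norm_thTerm_le j hτ k) hs
  exact (norm_tsum_le_tsum_norm hs').trans (hs'.tsum_le_tsum (fun k => norm_thTerm_le j hτ k) hs)

end Fermat.Agent.S16
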