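import Fermat.Agent.S16.Theta1

/-!
# S16 (A2): products of one-dimensional theta series

`thProd m j τ = ∏ i, th (m i) (j i) τ` is the theta series with characteristic `j` of the diagonal
quadratic form `∑ m_i x_i²`.  We prove the `T`- and `S`-laws, and for four variables
the weight-2 slash-action forms, holomorphy and boundedness at `i∞`.
-/

namespace Fermat.Agent.S16

open Complex Real ModularGroup
open UpperHalfPlane hiding I
open scoped MatrixGroups Manifold ModularForm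

variable {ι : Type*} [Fintype ι]

/-- The product theta series on `ℂ`. -/
noncomputable def thProd (m : ι → ℕ) (j : ι → ℤ) (τ : ℂ) : ℂ := ∏ i, th (m i) (j i) τ

/-- The product theta series as a function on the upper half plane. -/
noncomputable def thetaH (m : ι → ℕ) (j : ι → ℤ) : ℍ → ℂ := fun τ => thProd m j (τ : ℂ)

/-- The quadratic exponent `Q̄(j) = ∑ j_i² / (4 m_i)`. -/
noncomputable def thQ (m : ι → ℕ) (j : ι → ℤ) : ℂ := ∑ i, (j i : ℂ) ^ 2 / (4 * m i)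

/-- The bilinear exponent `B̄(j, j') = ∑ j_i j'_i / (2 m_i)`. -/
noncomputable def thB (m : ι → ℕ) (j j' : ι → ℤ) : ℂ := ∑ i, (j i : ℂ) * (j' i : ℂ) / (2 * m i)

/-- The index set for the `S`-law: `j' i ∈ [0, 2 m_i)`. -/
def thBox [DecidableEq ι] (m : ι → ℕ) : Finset (ι → ℕ) := Fintype.piFinset fun i => Finset.range (2 * m i)

theorem thProd_congr_mod {m : ι → ℕ} (hm : ∀ i, 0 < m i) {j j' : ι → ℤ}
    (h : ∀ i, j i ≡ j' i [ZMOD (2 * m i : ℕ)]) {τ : ℂ} (hτ : 0 < τ.im) :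
    thProd m j τ = thProd m j' τ :=
  Finset.prod_congr rfl fun i _ => th_congr_mod (hm i) (h i) hτ

theorem thProd_neg {m : ι → ℕ} (hm : ∀ i, 0 < m i) (j : ι → ℤ) {τ : ℂ} (hτ : 0 < τ.im) :
    thProd m (-j) τ = thProd m j τ :=
  Finset.prod_congr rfl fun i _ => th_neg (hm i) (j i) hτ

/-- **(T)** for the product. -/
theorem thProd_T {m : ι → ℕ} (hm : ∀ i, 0 < m i) (j : ι → ℤ) {τ : ℂ} (hτ : 0 < τ.im) :
    thProd m j (τ + 1) = cexp (2 * π * I * thQ m j) * thProd m j τ := by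
  unfold thProd thQ
  rw [Finset.mul_sum, Complex.exp_sum, ← Finset.prod_mul_distrib]
  refine Finset.prod_congr rfl fun i _ => ?_
  rw [th_T (hm i) (j i) hτ]
  congr 2
  ring

/-- **(S)** for the product, general number of variables. -/
theorem thProd_S' [DecidableEq ι] {m : ι → ℕ} (hm : ∀ i, 0 < m i) (j : ι → ℤ) {τ : ℂ} (hτ : 0 < τ.im) :
    thProd m j (-1 / τ) = ((-I * τ) ^ (1 / 2 : ℂ)) ^ (Fintype.card ι) /
        (∏ i, ((√(2 * m i : ℝ) : ℝ) : ℂ)) *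
      ∑ j' ∈ thBox m, cexp (2 * π * I * thB m j (fun i => (j' i : ℤ))) *
        thProd m (fun i => (j' i : ℤ)) τ := by
  unfold thProd thB thBox
  have h1 : ∀ i, th (m i) (j i) (-1 / τ) = (-I * τ) ^ (1 / 2 : ℂ) / ((√(2 * m i : ℝ) : ℝ) : ℂ) *
      ∑ j' ∈ Finset.range (2 * m i),
        cexp (2 * π * I * (j i) * (j' : ℤ) / (2 * m i)) * th (m i) j' τ :=
    fun i => th_S (hm i) (j i) hτ
  rw [Finset.prod_congr rfl fun i _ => h1 i, Finset.prod_mul_distrib, Finset.prod_div_distrib,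
    Finset.prod_const, Finset.card_univ, Finset.prod_univ_sum]
  congr 1
  refine Finset.sum_congr rfl fun x _ => ?_
  rw [Finset.prod_mul_distrib, Finset.mul_sum, Complex.exp_sum]
  congr 1
  refine Finset.prod_congr rfl fun i _ => ?_
  congr 1
  push_cast
  ring

lemma th_cpow_half_pow_four (x : ℂ) : (x ^ (1 / 2 : ℂ)) ^ 4 = x ^ 2 := by
  have h : (x ^ (1 / 2 : ℂ)) ^ 2 = x := by
    have := Complex.cpow_nat_inv_pow x (n := 2) (by norm_num)
    simp only [one_div]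
    exact_mod_cast this
  calc (x ^ (1 / 2 : ℂ)) ^ 4 = ((x ^ (1 / 2 : ℂ)) ^ 2) ^ 2 := by ring
    _ = x ^ 2 := by rw [h]

/-- **(S)** for four variables: the automorphy factor is `-τ²`. -/
theorem thProd_S [DecidableEq ι] {m : ι → ℕ} (hι : Fintype.card ι = 4) (hm : ∀ i, 0 < m i) (j : ι → ℤ) {τ : ℂ}
    (hτ : 0 < τ.im) :
    thProd m j (-1 / τ) = -τ ^ 2 / (∏ i, ((√(2 * m i : ℝ) : ℝ) : ℂ)) *
      ∑ j' ∈ thBox m, cexp (2 * π * I * thB m j (fun i => (j' i : ℤ))) *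
        thProd m (fun i => (j' i : ℤ)) τ := by
  rw [thProd_S' hm j hτ, hι, th_cpow_half_pow_four]
  congr 2
  rw [mul_pow, neg_sq, Complex.I_sq]
  ring

/-! ### Slash-action forms (weight 2, four variables) -/

lemma thetaH_apply (m : ι → ℕ) (j : ι → ℤ) (τ : ℍ) : thetaH m j τ = thProd m j (τ : ℂ) := rfl

/-- `ϑ_j ∣[2] T = e(Q̄(j)) • ϑ_j`. -/
theorem thetaH_slash_T {m : ι → ℕ} (hm : ∀ i, 0 < m i) (j : ι → ℤ) (k : ℤ) :
    thetaH m j ∣[k] (T : SL(2, ℤ)) = cexp (2 * π * I * thQ m j) • thetaH m j := by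
  ext τ
  rw [ModularForm.SL_slash_apply, modular_T_smul]
  have hden : denom (T : SL(2, ℤ)) τ = 1 := by
    rw [ModularGroup.denom_apply]
    simp [ModularGroup.coe_T]
  rw [hden, one_zpow, mul_one, Pi.smul_apply, smul_eq_mul, thetaH_apply, thetaH_apply]
  have : (((1 : ℝ) +ᵥ τ : ℍ) : ℂ) = (τ : ℂ) + 1 := by
    rw [UpperHalfPlane.coe_vadd]
    push_cast
    ring
  rw [this, thProd_T hm j τ.im_pos]

/-- `ϑ_j ∣[2] S = -(∏ √(2 m_i))⁻¹ • ∑_{j'} e(B̄(j,j')) • ϑ_{j'}`. -/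
theorem thetaH_slash_S [DecidableEq ι] {m : ι → ℕ} (hι : Fintype.card ι = 4) (hm : ∀ i, 0 < m i) (j : ι → ℤ) :
    thetaH m j ∣[(2 : ℤ)] (S : SL(2, ℤ)) =
      (-1 / (∏ i, ((√(2 * m i : ℝ) : ℝ) : ℂ))) •
        ∑ j' ∈ thBox m, cexp (2 * π * I * thB m j (fun i => (j' i : ℤ))) •
          thetaH m (fun i => (j' i : ℤ)) := by
  ext τ
  rw [ModularForm.SL_slash_apply, modular_S_smul, ModularGroup.denom_S]
  have hτ0 : (τ : ℂ) ≠ 0 := τ.ne_zero
  rw [Pi.smul_apply, smul_eq_mul, Finset.sum_apply, thetaH_apply]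
  have h1 : ((UpperHalfPlane.mk (-(τ : ℂ))⁻¹ τ.im_inv_neg_coe_pos : ℍ) : ℂ) = -1 / (τ : ℂ) := by
    rw [UpperHalfPlane.coe_mk, inv_neg, neg_div, one_div]
  rw [h1, thProd_S hι hm j τ.im_pos]
  simp only [Pi.smul_apply, smul_eq_mul, thetaH_apply]
  have hz : (τ : ℂ) ^ (-(2 : ℤ)) = ((τ : ℂ) ^ 2)⁻¹ := by
    rw [zpow_neg]
    norm_cast
  rw [hz]
  field_simp

/-! ### Holomorphy and boundedness -/

theorem thProd_differentiableOn {m : ι → ℕ} (hm : ∀ i, 0 < m i) (j : ι → ℤ) :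
    DifferentiableOn ℂ (thProd m j) {z : ℂ | 0 < z.im} := by
  have : thProd m j = fun τ => ∏ i, th (m i) (j i) τ := rfl
  rw [this]
  exact DifferentiableOn.fun_finsetProd fun i _ => th_differentiableOn (hm i) (j i)

theorem thetaH_mdifferentiable {m : ι → ℕ} (hm : ∀ i, 0 < m i) (j : ι → ℤ) :
    MDifferentiable 𝓘(ℂ) 𝓘(ℂ) (thetaH m j) := by
  rw [UpperHalfPlane.mdifferentiable_iff]
  refine (thProd_differentiableOn hm j).congr fun z hz => ?_
  simp only [Function.comp_apply, thetaH_apply]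
  rw [UpperHalfPlane.ofComplex_apply_of_im_pos hz]

theorem thProd_bounded {m : ι → ℕ} (hm : ∀ i, 0 < m i) (j : ι → ℤ) :
    ∃ C : ℝ, ∀ τ : ℂ, 1 ≤ τ.im → ‖thProd m j τ‖ ≤ C := by
  choose C hC using fun i => th_bounded (hm i) (j i)
  refine ⟨∏ i, C i, fun τ hτ => ?_⟩
  unfold thProd
  rw [norm_prod]
  exact Finset.prod_le_prod (fun i _ => norm_nonneg _) fun i _ => hC i τ hτ

theorem thetaH_isBoundedAtImInfty {m : ι → ℕ} (hm : ∀ i, 0 < m i) (j : ι → ℤ) :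
    IsBoundedAtImInfty (thetaH m j) := by
  rw [UpperHalfPlane.isBoundedAtImInfty_iff]
  obtain ⟨C, hC⟩ := thProd_bounded hm j
  exact ⟨C, 1, fun z hz => hC (z : ℂ) hz⟩

end Fermat.Agent.S16
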