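import Fermat.Agent.S16.Theta4

/-!
# S16 (A2): the product theta series as a multi-index sum

`thProd m j τ = ∑_{k : ι → ℤ} e(τ · ∑_i (2 m_i k_i + j_i)² / (4 m_i))`.
-/

namespace Fermat.Agent.S16

open Complex Real

/-- A finite product of absolutely convergent series is the series over multi-indices
(version for `Fin n`). -/
theorem hasSum_prod_fin_aux {α : Type*} (n : ℕ) (f : Fin n → α → ℂ) (s : Fin n → ℂ)
    (hf : ∀ i, HasSum (f i) (s i)) (hn : ∀ i, Summable (fun a => ‖f i a‖)) :
    HasSum (fun k : Fin n → α => ∏ i, f i (k i)) (∏ i, s i) ∧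
      Summable (fun k : Fin n → α => ‖∏ i, f i (k i)‖) := by
  induction n with
  | zero =>
    refine ⟨?_, ?_⟩
    · have := hasSum_unique (fun k : Fin 0 → α => ∏ i, f i (k i))
      simp
    · exact (hasSum_unique (fun k : Fin 0 → α => ‖∏ i, f i (k i)‖)).summable
  | succ n ih =>
    obtain ⟨h1, h2⟩ := ih (fun i => f i.succ) (fun i => s i.succ) (fun i => hf i.succ)
      (fun i => hn i.succ)
    set g : (Fin n → α) → ℂ := fun k => ∏ i : Fin n, f i.succ (k i) with hg
    have h1' : HasSum g (∏ i : Fin n, s i.succ) := h1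
    have h2' : Summable (fun k => ‖g k‖) := h2
    have hsm : Summable (fun x : α × (Fin n → α) => f 0 x.1 * g x.2) :=
      summable_mul_of_summable_norm (f := f 0) (g := g) (hn 0) h2'
    have hprod : HasSum (fun x : α × (Fin n → α) => f 0 x.1 * g x.2)
        (s 0 * ∏ i : Fin n, s i.succ) := HasSum.mul (hf 0) h1' hsm
    have hnorm : Summable (fun x : α × (Fin n → α) => ‖f 0 x.1 * g x.2‖) :=
      Summable.mul_norm (f := f 0) (g := g) (hn 0) h2'
    refine ⟨?_, ?_⟩
    · rw [Fin.prod_univ_succ]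
      have := ((Fin.consEquiv (fun _ : Fin (n + 1) => α)).symm.hasSum_iff).mpr hprod
      have e : (fun k : Fin (n + 1) → α => ∏ i, f i (k i)) =
          (fun x : α × (Fin n → α) => f 0 x.1 * g x.2) ∘ (Fin.consEquiv (fun _ : Fin (n + 1) => α)).symm := by
        funext k
        rw [Fin.prod_univ_succ]
        rfl
      rw [e]
      exact this
    · have := ((Fin.consEquiv (fun _ : Fin (n + 1) => α)).symm.summable_iff).mpr hnorm
      have e : (fun k : Fin (n + 1) → α => ‖∏ i, f i (k i)‖) =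
          (fun x : α × (Fin n → α) => ‖f 0 x.1 * g x.2‖) ∘ (Fin.consEquiv (fun _ : Fin (n + 1) => α)).symm := by
        funext k
        rw [Fin.prod_univ_succ]
        rfl
      rw [e]
      exact this

/-- A finite product of absolutely convergent series is the series over multi-indices. -/
theorem hasSum_prod_fintype {ι α : Type*} [Fintype ι] (f : ι → α → ℂ) (s : ι → ℂ)
    (hf : ∀ i, HasSum (f i) (s i)) (hn : ∀ i, Summable (fun a => ‖f i a‖)) :
    HasSum (fun k : ι → α => ∏ i, f i (k i)) (∏ i, s i) := by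
  classical
  let e : ι ≃ Fin (Fintype.card ι) := Fintype.equivFin ι
  have h := (hasSum_prod_fin_aux (Fintype.card ι) (fun x => f (e.symm x)) (fun x => s (e.symm x))
    (fun x => hf _) (fun x => hn _)).1
  have hs : ∏ x, s (e.symm x) = ∏ i, s i := Equiv.prod_comp e.symm s
  rw [hs] at h
  let E : (ι → α) ≃ (Fin (Fintype.card ι) → α) := Equiv.arrowCongr e (Equiv.refl α)
  have h' := (E.hasSum_iff).mpr h
  have e2 : (fun k : ι → α => ∏ i, f i (k i)) =
      (fun k : Fin (Fintype.card ι) → α => ∏ x, f (e.symm x) (k x)) ∘ E := by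
    funext k
    simp only [Function.comp_apply]
    rw [← Equiv.prod_comp e.symm (fun i => f i (k i))]
    rfl
  rw [e2]
  exact h'

variable {ι : Type*} [Fintype ι]

/-- The exponent of the multi-index term. -/
noncomputable def thExp (m : ι → ℕ) (j k : ι → ℤ) : ℂ :=
  ∑ i, (((2 * m i * k i + j i : ℤ) : ℂ)) ^ 2 / (4 * m i)

lemma prod_thTerm (m : ι → ℕ) (j k : ι → ℤ) (τ : ℂ) :
    ∏ i, thTerm (m i) (j i) τ (k i) = cexp (2 * π * I * thExp m j k * τ) := by
  unfold thTerm thExp
  rw [Finset.mul_sum, Finset.sum_mul, Complex.exp_sum]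
  refine Finset.prod_congr rfl fun i _ => ?_
  congr 1
  ring

/-- `thProd m j τ = ∑_{k : ι → ℤ} e(τ · ∑_i (2 m_i k_i + j_i)²/(4 m_i))`. -/
theorem thProd_hasSum {m : ι → ℕ} (hm : ∀ i, 0 < m i) (j : ι → ℤ) {τ : ℂ} (hτ : 0 < τ.im) :
    HasSum (fun k : ι → ℤ => cexp (2 * π * I * thExp m j k * τ)) (thProd m j τ) := by
  have h := hasSum_prod_fintype (fun i => thTerm (m i) (j i) τ) (fun i => th (m i) (j i) τ)
    (fun i => th_hasSum (hm i) (j i) hτ) (fun i => (th_hasSum (hm i) (j i) hτ).summable.norm)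
  have e : (fun k : ι → ℤ => cexp (2 * π * I * thExp m j k * τ)) =
      fun k : ι → ℤ => ∏ i, thTerm (m i) (j i) τ (k i) :=
    funext fun k => (prod_thTerm m j k τ).symm
  rw [e]
  exact h

end Fermat.Agent.S16
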