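/-
S16 (A2): the theta input `StmtTheta p` for every odd prime `p` (wiring of AuxPrime, ThetaWeil,
ThetaCount, ThetaMF; helper17, backup of ThetaTop).
-/
import Fermat.Agent.S16.ThetaWeil
import Fermat.Agent.S16.ThetaCount
import Fermat.Agent.S16.ThetaMF
import Fermat.Agent.S16.AuxPrime
import Fermat.Agent.S16.Defs

set_option autoImplicit false

open Complex Real ModularGroup CongruenceSubgroup
open UpperHalfPlane hiding I
open scoped MatrixGroups Manifold ModularForm

namespace Fermat.Agent.S16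

theorem stmtTheta_of_ne_two (p : ℕ) [Fact p.Prime] (hp2 : p ≠ 2) : StmtTheta p := by
  have hpp : p.Prime := Fact.out
  obtain ⟨d, s, hd, hd4, hpd, hsd, hL, hns, hdvd⟩ := exists_auxPrime p hp2
  have : NeZero d := ⟨hd.ne_zero⟩
  have : NeZero p := ⟨hpp.ne_zero⟩
  have hs : (d : ℤ) ∣ (s : ℤ) ^ 2 + p := by exact_mod_cast hdvd
  have hne : p ≠ d := by omega
  have hcop : Nat.Coprime p d := (Nat.coprime_primes hpp hd).mpr hne
  obtain ⟨a, ha0, ha, hsum⟩ := thetaCount_package (latM p d) hpp hd hp2 hd4 hne hs rfl rfl rfl rfl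
    (latHset p d s) (fun g => mem_latHset)
  have hW := latTheta_weilFamily (p := p) (d := d) (s := (s : ℤ)) hp2 hd4 hcop hs
  refine stmtTheta_of_family p (latTheta p d s) 0 (latTheta_mdifferentiable 0)
    latTheta_isBoundedAtImInfty (fun u => ?_) (fun u => ?_)
    (fun γ hγ => latTheta_zero_slash hp2 hd4 hcop hs hns hγ) a (fun τ => ?_) ha0 ha
  · refine ⟨fun v => (-(p : ℂ)⁻¹) * (ZMod.stdAddChar (weilB p (d : ZMod p) u v) : ℂ), ?_⟩
    rw [hW.slash_S u, Finset.smul_sum]
    refine Finset.sum_congr rfl fun v _ => ?_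
    rw [smul_smul]
  · classical
    refine ⟨fun v => if v = u then (ZMod.stdAddChar (weilQ p (d : ZMod p) u) : ℂ) else 0, ?_⟩
    rw [hW.slash_T u]
    simp [Finset.sum_ite_eq']
  · rw [latTheta_zero_apply]
    exact hsum τ

end Fermat.Agent.S16
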