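/-
S16, piece A2 (1) (helper41): the two finite character sums used in the invariance of the theta
series under `Γ0(p)` (statements fixed by helper17):

* `gauss_quad_sum`: `∑_{x,y ∈ F_p} ψ(a(d x² + y²)) = -p` if `a ≠ 0` and `-d` is not a square;
* `sum_bilin_char`: `∑_{m ∈ F_p²} ψ(2(d m₁ r₁ + m₂ r₂)) = p²·[r = 0]`.
-/
import Mathlib.NumberTheory.GaussSum
import Mathlib.NumberTheory.LegendreSymbol.QuadraticChar.GaussSum
import Mathlib.Analysis.SpecialFunctions.Complex.CircleAddChar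

set_option autoImplicit false

open Finset

namespace Fermat.Agent.S16

/-- The complex-valued quadratic character of `ZMod p`. -/
noncomputable def gaussChi (p : ℕ) [Fact p.Prime] : MulChar (ZMod p) ℂ :=
  (quadraticChar (ZMod p)).ringHomComp (Int.castRingHom ℂ)

theorem gaussChi_apply (p : ℕ) [Fact p.Prime] (a : ZMod p) :
    gaussChi p a = ((quadraticChar (ZMod p) a : ℤ) : ℂ) := rfl

/-- `∑_x f(x²) = ∑_t (χ(t) + 1) f(t)`. -/
theorem gauss_sum_sq_eq (p : ℕ) [Fact p.Prime] (hp2 : p ≠ 2) (f : ZMod p → ℂ) :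
    ∑ x : ZMod p, f (x ^ 2) = ∑ t : ZMod p, (gaussChi p t + 1) * f t := by
  classical
  have hF : ringChar (ZMod p) ≠ 2 := by rw [ZMod.ringChar_zmod_n]; exact hp2
  rw [← Finset.sum_fiberwise (s := (Finset.univ : Finset (ZMod p))) (g := fun x => x ^ 2)
    (f := fun x => f (x ^ 2))]
  refine Finset.sum_congr rfl fun t _ => ?_
  have h1 : ∀ x ∈ (Finset.univ.filter fun x : ZMod p => x ^ 2 = t), f (x ^ 2) = f t := by
    intro x hx
    rw [(Finset.mem_filter.mp hx).2]
  rw [Finset.sum_congr rfl h1, Finset.sum_const, nsmul_eq_mul]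
  have h2 := quadraticChar_card_sqrts hF t
  have h3 : ((Finset.univ.filter fun x : ZMod p => x ^ 2 = t).card : ℤ) =
      quadraticChar (ZMod p) t + 1 := by
    rw [← h2]
    congr 2
    ext x
    simp
  have h4 : (((Finset.univ.filter fun x : ZMod p => x ^ 2 = t).card : ℤ) : ℂ) =
      ((quadraticChar (ZMod p) t + 1 : ℤ) : ℂ) := by rw [h3]
  rw [gaussChi_apply]
  push_cast at h4
  rw [h4]

/-- `∑_x ψ(c x²) = χ(c)·G` for `c ≠ 0`. -/
theorem gauss_sum_quad (p : ℕ) [Fact p.Prime] (hp2 : p ≠ 2) (c : ZMod p) (hc : c ≠ 0) :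
    ∑ x : ZMod p, (ZMod.stdAddChar (c * x ^ 2) : ℂ) =
      gaussChi p c * gaussSum (gaussChi p) (ZMod.stdAddChar (N := p)) := by
  classical
  have hprim := ZMod.isPrimitive_stdAddChar p
  rw [gauss_sum_sq_eq p hp2 (fun t => (ZMod.stdAddChar (c * t) : ℂ))]
  simp only [add_mul, one_mul, Finset.sum_add_distrib]
  have h0 : ∑ t : ZMod p, (ZMod.stdAddChar (c * t) : ℂ) = 0 := by
    have := AddChar.sum_mulShift (R := ZMod p) (R' := ℂ) c hprim
    rw [if_neg hc, Nat.cast_zero] at this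
    rw [← this]
    exact Finset.sum_congr rfl fun t _ => by rw [mul_comm]
  rw [h0, add_zero]
  have hq : (gaussChi p).IsQuadratic := (quadraticChar_isQuadratic (ZMod p)).comp _
  have hu : IsUnit c := isUnit_iff_ne_zero.mpr hc
  obtain ⟨u, rfl⟩ := hu
  have := gaussSum_mulShift_eq (gaussChi p) (ZMod.stdAddChar (N := p)) u
  rw [hq.inv] at this
  rw [← this]
  simp only [gaussSum, AddChar.mulShift_apply]

/-- `∑_{x,y} ψ(a(d x² + y²)) = -p` for `a ≠ 0`, `-d` a non-square. -/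
theorem gauss_quad_sum (p : ℕ) [Fact p.Prime] (hp2 : p ≠ 2) (d a : ZMod p) (ha : a ≠ 0)
    (hd : ¬ IsSquare (-d)) :
    ∑ x : ZMod p, ∑ y : ZMod p, (ZMod.stdAddChar (a * (d * x ^ 2 + y ^ 2)) : ℂ) = -(p : ℂ) := by
  have hF : ringChar (ZMod p) ≠ 2 := by rw [ZMod.ringChar_zmod_n]; exact hp2
  have hd0 : d ≠ 0 := by
    rintro rfl
    exact hd ⟨0, by simp⟩
  have hprim := ZMod.isPrimitive_stdAddChar p
  have hq : (gaussChi p).IsQuadratic := (quadraticChar_isQuadratic (ZMod p)).comp _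
  have hne : gaussChi p ≠ 1 :=
    (MulChar.ringHomComp_ne_one_iff (Int.cast_injective (α := ℂ))).mpr (quadraticChar_ne_one hF)
  have hsplit : ∀ x y : ZMod p, (ZMod.stdAddChar (a * (d * x ^ 2 + y ^ 2)) : ℂ) =
      ZMod.stdAddChar (a * d * x ^ 2) * ZMod.stdAddChar (a * y ^ 2) := by
    intro x y
    rw [← AddChar.map_add_eq_mul]
    congr 1
    ring
  simp_rw [hsplit]
  rw [← Finset.sum_mul_sum, gauss_sum_quad p hp2 (a * d) (mul_ne_zero ha hd0),
    gauss_sum_quad p hp2 a ha]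
  have hG := gaussSum_sq hne hq hprim
  rw [ZMod.card] at hG
  have hchi : gaussChi p (a * d) * gaussChi p a * gaussChi p (-1) = -1 := by
    rw [← map_mul, ← map_mul]
    have h1 : a * d * a * -1 = a ^ 2 * (-d) := by ring
    rw [h1, map_mul, gaussChi_apply, gaussChi_apply, quadraticChar_sq_one' ha,
      quadraticChar_neg_one_iff_not_isSquare.mpr hd]
    norm_num
  calc gaussChi p (a * d) * gaussSum (gaussChi p) ZMod.stdAddChar *
        (gaussChi p a * gaussSum (gaussChi p) ZMod.stdAddChar)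
      = gaussChi p (a * d) * gaussChi p a * gaussSum (gaussChi p) ZMod.stdAddChar ^ 2 := by ring
    _ = gaussChi p (a * d) * gaussChi p a * gaussChi p (-1) * (p : ℂ) := by rw [hG]; ring
    _ = -(p : ℂ) := by rw [hchi]; ring

/-- Non-degeneracy of the bilinear form `2(d m₁ r₁ + m₂ r₂)` on `F_p²`. -/
theorem sum_bilin_char (p : ℕ) [Fact p.Prime] (hp2 : p ≠ 2) (d : ZMod p) (hd : d ≠ 0)
    (r : ZMod p × ZMod p) :
    ∑ m : ZMod p × ZMod p, (ZMod.stdAddChar (2 * (d * m.1 * r.1 + m.2 * r.2)) : ℂ) =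
      if r = 0 then (p : ℂ) ^ 2 else 0 := by
  classical
  have hprim := ZMod.isPrimitive_stdAddChar p
  have h2 : (2 : ZMod p) ≠ 0 := by
    intro h
    have h' : ((2 : ℕ) : ZMod p) = 0 := by exact_mod_cast h
    rw [ZMod.natCast_eq_zero_iff] at h'
    have hpp : p.Prime := Fact.out
    exact hp2 ((Nat.prime_dvd_prime_iff_eq hpp Nat.prime_two).mp h')
  have hsplit : ∀ m : ZMod p × ZMod p,
      (ZMod.stdAddChar (2 * (d * m.1 * r.1 + m.2 * r.2)) : ℂ) =
        ZMod.stdAddChar (m.1 * (2 * d * r.1)) * ZMod.stdAddChar (m.2 * (2 * r.2)) := by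
    intro m
    rw [← AddChar.map_add_eq_mul]
    congr 1
    ring
  simp_rw [hsplit]
  rw [Fintype.sum_prod_type]
  simp_rw [← Finset.mul_sum]
  rw [← Finset.sum_mul, AddChar.sum_mulShift _ hprim, AddChar.sum_mulShift _ hprim, ZMod.card]
  by_cases hr : r = 0
  · subst hr
    simp [pow_two]
  · rw [if_neg hr]
    have : r.1 ≠ 0 ∨ r.2 ≠ 0 := by
      by_contra hcon
      rw [not_or, not_not, not_not] at hcon
      exact hr (Prod.ext hcon.1 hcon.2)
    rcases this with h | h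
    · rw [if_neg (mul_ne_zero (mul_ne_zero h2 hd) h), Nat.cast_zero, zero_mul]
    · rw [if_neg (mul_ne_zero h2 h), Nat.cast_zero, mul_zero]

end Fermat.Agent.S16
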